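import Mathlib

/-!
# Abstract Hecke operators on `Hom(Γ, A)` (transfer formula)

`j : Γ →* G` is an injective homomorphism, `α : ι → G` a finite family of representatives of
pairwise distinct cosets `j(Γ) α i` whose union is stable under right multiplication by `j(Γ)`.
-/

set_option autoImplicit false

namespace Fermat.Agent.S16.HH

/-- Coset data for a Hecke operator. -/
structure HeckeData {G Γ : Type*} [Group G] [Group Γ] (j : Γ →* G) (ι : Type*) where
  α : ι → G
  σ : Γ → ι → ι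
  g : Γ → ι → Γ
  hmul : ∀ γ i, α i * j γ = j (g γ i) * α (σ γ i)
  hdisj : ∀ (i i' : ι) (γ : Γ), α i = j γ * α i' → i = i'
  hinj : Function.Injective j

namespace HeckeData

variable {G Γ : Type*} [Group G] [Group Γ] {j : Γ →* G} {ι : Type*} (D : HeckeData j ι)

theorem uniq {γ γ' : Γ} {i i' : ι} (h : D.α i * j γ = j γ' * D.α i') :
    D.σ γ i = i' ∧ D.g γ i = γ' := by
  have h1 := D.hmul γ i
  rw [h] at h1
  have h2 : D.α (D.σ γ i) = j ((D.g γ i)⁻¹ * γ') * D.α i' := by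
    rw [map_mul, map_inv, mul_assoc, h1, inv_mul_cancel_left]
  have h3 := D.hdisj _ _ _ h2
  refine ⟨h3, ?_⟩
  rw [h3] at h1
  exact (D.hinj (mul_right_cancel h1)).symm

theorem σ_mul (γ δ : Γ) (i : ι) : D.σ (γ * δ) i = D.σ δ (D.σ γ i) :=
  (D.uniq (γ' := D.g γ i * D.g δ (D.σ γ i)) (by
    rw [map_mul, ← mul_assoc, D.hmul, mul_assoc, D.hmul, map_mul, mul_assoc])).1

theorem g_mul (γ δ : Γ) (i : ι) : D.g (γ * δ) i = D.g γ i * D.g δ (D.σ γ i) :=
  (D.uniq (i' := D.σ δ (D.σ γ i)) (by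
    rw [map_mul, ← mul_assoc, D.hmul, mul_assoc, D.hmul, map_mul, mul_assoc])).2

theorem σ_one (i : ι) : D.σ 1 i = i := (D.uniq (γ' := 1) (i' := i) (by simp)).1

theorem g_one (i : ι) : D.g 1 i = 1 := (D.uniq (γ' := 1) (i' := i) (by simp)).2

/-- The permutation of the cosets induced by `γ`. -/
def perm (γ : Γ) : Equiv.Perm ι where
  toFun := D.σ γ
  invFun := D.σ γ⁻¹
  left_inv i := by rw [← σ_mul, mul_inv_cancel, σ_one]
  right_inv i := by rw [← σ_mul, inv_mul_cancel, σ_one]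

@[simp] theorem perm_apply (γ : Γ) (i : ι) : D.perm γ i = D.σ γ i := rfl

variable [Fintype ι] {A : Type*} [AddCommGroup A]

theorem sum_σ (γ : Γ) (f : ι → A) : ∑ i, f (D.σ γ i) = ∑ i, f i :=
  Equiv.sum_comp (D.perm γ) f

/-- The Hecke operator on `Hom(Γ, A)`. -/
def op (φ : Additive Γ →+ A) : Additive Γ →+ A :=
  AddMonoidHom.mk' (fun γ => ∑ i, φ (Additive.ofMul (D.g (Additive.toMul γ) i))) (by
    intro γ δ
    simp only [toMul_add, g_mul, ofMul_mul, map_add, Finset.sum_add_distrib]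
    congr 1
    exact D.sum_σ (Additive.toMul γ) (fun i => φ (Additive.ofMul (D.g (Additive.toMul δ) i))))

theorem op_apply (φ : Additive Γ →+ A) (γ : Γ) :
    D.op φ (Additive.ofMul γ) = ∑ i, φ (Additive.ofMul (D.g γ i)) := rfl

theorem op_add (φ ψ : Additive Γ →+ A) : D.op (φ + ψ) = D.op φ + D.op ψ := by
  refine AddMonoidHom.ext fun γ => ?_
  simp [op, Finset.sum_add_distrib]

theorem op_zero : D.op (0 : Additive Γ →+ A) = 0 := by
  refine AddMonoidHom.ext fun γ => ?_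
  simp [op]

/-- The Hecke operator as an additive map. -/
def opHom : (Additive Γ →+ A) →+ (Additive Γ →+ A) :=
  AddMonoidHom.mk' D.op D.op_add

@[simp] theorem opHom_apply (φ : Additive Γ →+ A) : D.opHom φ = D.op φ := rfl

theorem op_smul {R : Type*} [Semiring R] [Module R A] (c : R) (φ : Additive Γ →+ A) :
    D.op (c • φ) = c • D.op φ := by
  refine AddMonoidHom.ext fun γ => ?_
  simp [op, Finset.smul_sum]

/-- The Hecke operator as a linear map. -/
def opLin (R : Type*) [Semiring R] [Module R A] : (Additive Γ →+ A) →ₗ[R] (Additive Γ →+ A) where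
  toFun := D.op
  map_add' := D.op_add
  map_smul' := D.op_smul

@[simp] theorem opLin_apply (R : Type*) [Semiring R] [Module R A] (φ : Additive Γ →+ A) :
    D.opLin R φ = D.op φ := rfl

/-- Naturality in the coefficient group. -/
theorem comp_op {B : Type*} [AddCommGroup B] (u : A →+ B) (φ : Additive Γ →+ A) :
    u.comp (D.op φ) = D.op (u.comp φ) := by
  refine AddMonoidHom.ext fun γ => ?_
  simp [op]

/-- Telescoping: if `F` is a "primitive" of `φ`, then `∑ i, F (α i • z)` is a primitive of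
`op φ`. -/
theorem op_of_primitive {Z : Type*} [MulAction G Z] (φ : Additive Γ →+ A) (F : Z → A)
    (hF : ∀ (γ : Γ) (z : Z), F (j γ • z) - F z = φ (Additive.ofMul γ)) (γ : Γ) (z : Z) :
    (∑ i, F (D.α i • j γ • z)) - ∑ i, F (D.α i • z) = D.op φ (Additive.ofMul γ) := by
  have h1 : ∀ i, F (D.α i • j γ • z) =
      φ (Additive.ofMul (D.g γ i)) + F (D.α (D.σ γ i) • z) := by
    intro i
    rw [← mul_smul, D.hmul, mul_smul, ← hF (D.g γ i)]
    abel
  rw [Finset.sum_congr rfl fun i _ => h1 i, Finset.sum_add_distrib, op_apply,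
    D.sum_σ γ (fun i => F (D.α i • z))]
  abel

/-- Eigenvector criterion. -/
theorem op_eq_card_nsmul (φ : Additive Γ →+ A) (δ : ι → A)
    (h : ∀ γ i, δ i + φ (Additive.ofMul γ) = φ (Additive.ofMul (D.g γ i)) + δ (D.σ γ i)) :
    D.op φ = Fintype.card ι • φ := by
  refine AddMonoidHom.ext fun γ' => ?_
  obtain ⟨γ, rfl⟩ : ∃ γ, Additive.ofMul γ = γ' := ⟨_, rfl⟩
  have h1 : ∑ i, (δ i + φ (Additive.ofMul γ)) = ∑ i, (φ (Additive.ofMul (D.g γ i))
      + δ (D.σ γ i)) := Finset.sum_congr rfl fun i _ => h γ i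
  rw [Finset.sum_add_distrib, Finset.sum_add_distrib, D.sum_σ γ δ, Finset.sum_const,
    Finset.card_univ] at h1
  rw [op_apply, AddMonoidHom.nsmul_apply]
  have h2 := add_left_cancel (h1.trans (add_comm _ _))
  exact h2.symm

/-- Compatibility with an automorphism which permutes the cosets. -/
theorem op_comp_of_twist (θG : G →* G) (θΓ : Γ →* Γ) (hθ : ∀ γ, j (θΓ γ) = θG (j γ))
    (ν : Equiv.Perm ι) (t : ι → Γ) (ht : ∀ i, θG (D.α i) = j (t i) * D.α (ν i))
    (φ : Additive Γ →+ A) :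
    D.op (φ.comp (MonoidHom.toAdditive θΓ)) = (D.op φ).comp (MonoidHom.toAdditive θΓ) := by
  refine AddMonoidHom.ext fun γ' => ?_
  obtain ⟨γ, rfl⟩ : ∃ γ, Additive.ofMul γ = γ' := ⟨_, rfl⟩
  have key : ∀ i, D.g (θΓ γ) (ν i) = (t i)⁻¹ * θΓ (D.g γ i) * t (D.σ γ i) := by
    intro i
    refine (D.uniq (i' := ν (D.σ γ i)) ?_).2
    have h1 := congrArg θG (D.hmul γ i)
    rw [map_mul, map_mul, ht, ht, ← hθ, ← hθ] at h1
    rw [map_mul, map_mul, map_inv, mul_assoc, mul_assoc, ← h1, mul_assoc, inv_mul_cancel_left]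
  show ∑ i, φ (Additive.ofMul (θΓ (D.g γ i))) = ∑ i, φ (Additive.ofMul (D.g (θΓ γ) i))
  rw [← Equiv.sum_comp ν (fun i => φ (Additive.ofMul (D.g (θΓ γ) i)))]
  simp only [key, ofMul_mul, ofMul_inv, map_add, map_neg, Finset.sum_add_distrib,
    Finset.sum_neg_distrib]
  rw [D.sum_σ γ (fun i => φ (Additive.ofMul (t i)))]
  abel

end HeckeData

end Fermat.Agent.S16.HH
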