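import Mathlib
import Fermat.Agent.S16.HeckeHomAbstract
import Fermat.Prelude.Sol.S_ModularForm_heckeT_slash_eq_self_of_mem_Gamma0

/-!
# Concrete coset data for `T_ℓ` and `U_q` on `Γ₀(N)`
-/

set_option autoImplicit false

open Matrix.SpecialLinearGroup CongruenceSubgroup ModularForm
open scoped MatrixGroups OnePoint
open P2MW.S_ModularForm_heckeT_slash_eq_self_of_mem_Gamma0.ModularForm.HeckeSlashInvariance

namespace Fermat.Agent.S16.HH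

/-- The embedding of `Γ₀(N)` in `GL₂(ℝ)`. -/
noncomputable def jG (N : ℕ) : ↥(Gamma0 N) →* GL (Fin 2) ℝ := (mapGL ℝ).comp (Gamma0 N).subtype

theorem jG_apply (N : ℕ) (γ : ↥(Gamma0 N)) : jG N γ = mapGL ℝ (γ : SL(2, ℤ)) := rfl

theorem jG_injective (N : ℕ) : Function.Injective (jG N) :=
  mapGL_injective.comp Subtype.val_injective

theorem mapGL_entry (γ : SL(2, ℤ)) (r s : Fin 2) :
    (mapGL ℝ γ : GL (Fin 2) ℝ) r s = ((γ r s : ℤ) : ℝ) := by simp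

/-- entries of a product `γ * upper triangular`. -/
theorem heckeMatrix_eq_mul_heckeMatrix {ℓ : ℕ} (hℓ : ℓ ≠ 0) {a b : ℕ} {γ : SL(2, ℤ)}
    (h : heckeMatrix ℓ a = mapGL ℝ γ * heckeMatrix ℓ b) : (ℓ : ℤ) ∣ (a : ℤ) - b := by
  have h00 := congrArg (fun M : GL (Fin 2) ℝ => (M : Matrix (Fin 2) (Fin 2) ℝ) 0 0) h
  have h01 := congrArg (fun M : GL (Fin 2) ℝ => (M : Matrix (Fin 2) (Fin 2) ℝ) 0 1) h
  simp only [Matrix.GeneralLinearGroup.coe_mul, val_heckeMatrix hℓ, Matrix.mul_apply,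
    Fin.sum_univ_two, mapGL_entry] at h00 h01
  simp at h00 h01
  have h00' : (1 : ℤ) = γ 0 0 := by exact_mod_cast h00
  have h01' : (a : ℤ) = γ 0 0 * b + γ 0 1 * ℓ := by exact_mod_cast h01
  exact ⟨γ 0 1, by rw [h01', ← h00']; ring⟩

theorem heckeDiagMatrix_ne_mul_heckeMatrix {ℓ : ℕ} (hℓ : 2 ≤ ℓ) {b : ℕ} {γ : SL(2, ℤ)}
    (h : heckeDiagMatrix ℓ = mapGL ℝ γ * heckeMatrix ℓ b) : False := by
  have hℓ0 : ℓ ≠ 0 := by omega
  have h10 := congrArg (fun M : GL (Fin 2) ℝ => (M : Matrix (Fin 2) (Fin 2) ℝ) 1 0) h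
  have h11 := congrArg (fun M : GL (Fin 2) ℝ => (M : Matrix (Fin 2) (Fin 2) ℝ) 1 1) h
  simp only [Matrix.GeneralLinearGroup.coe_mul, val_heckeMatrix hℓ0, val_heckeDiagMatrix hℓ0,
    Matrix.mul_apply, Fin.sum_univ_two, mapGL_entry] at h10 h11
  simp at h10 h11
  have h10' : (0 : ℤ) = γ 1 0 := by exact_mod_cast h10
  have h11' : (1 : ℤ) = γ 1 0 * b + γ 1 1 * ℓ := by exact_mod_cast h11
  rw [← h10'] at h11'
  have : (ℓ : ℤ) ∣ 1 := ⟨γ 1 1, by linear_combination h11'⟩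
  have := Int.le_of_dvd one_pos this
  omega

theorem heckeMatrix_ne_mul_heckeDiagMatrix {ℓ : ℕ} (hℓ : 2 ≤ ℓ) {a : ℕ} {γ : SL(2, ℤ)}
    (h : heckeMatrix ℓ a = mapGL ℝ γ * heckeDiagMatrix ℓ) : False := by
  have hℓ0 : ℓ ≠ 0 := by omega
  have h00 := congrArg (fun M : GL (Fin 2) ℝ => (M : Matrix (Fin 2) (Fin 2) ℝ) 0 0) h
  simp only [Matrix.GeneralLinearGroup.coe_mul, val_heckeMatrix hℓ0, val_heckeDiagMatrix hℓ0,
    Matrix.mul_apply, Fin.sum_univ_two, mapGL_entry] at h00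
  simp at h00
  have h00' : (1 : ℤ) = γ 0 0 * ℓ := by exact_mod_cast h00
  have : (ℓ : ℤ) ∣ 1 := ⟨γ 0 0, by linear_combination h00'⟩
  have := Int.le_of_dvd one_pos this
  omega

theorem zmod_eq_of_dvd_val_sub {ℓ : ℕ} [NeZero ℓ] {a b : ZMod ℓ}
    (h : (ℓ : ℤ) ∣ (a.val : ℤ) - b.val) : a = b := by
  have := (ZMod.intCast_zmod_eq_zero_iff_dvd _ _).mpr h
  push_cast at this
  rw [ZMod.natCast_zmod_val, ZMod.natCast_zmod_val] at this
  exact sub_eq_zero.mp this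

theorem mem_Gamma0_of_dvd {N : ℕ} {γ : SL(2, ℤ)} (h : (N : ℤ) ∣ γ 1 0) : γ ∈ Gamma0 N :=
  Gamma0_mem.mpr ((ZMod.intCast_zmod_eq_zero_iff_dvd _ _).mpr h)

theorem dvd_of_mem_Gamma0 {N : ℕ} {γ : SL(2, ℤ)} (h : γ ∈ Gamma0 N) : (N : ℤ) ∣ γ 1 0 :=
  (ZMod.intCast_zmod_eq_zero_iff_dvd _ _).mp (Gamma0_mem.mp h)

/-- Coset data of `T_ℓ`. -/
noncomputable def dataT (N : ℕ) {ℓ : ℕ} (hℓ : ℓ.Prime) (hℓN : ¬ ℓ ∣ N) :
    HeckeData (jG N) (OnePoint (ZMod ℓ)) :=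
  haveI : Fact ℓ.Prime := ⟨hℓ⟩
  { α := heckeRep ℓ
    σ := fun γ x => redMatrix ℓ (γ : SL(2, ℤ)) • x
    g := fun γ x => ⟨(heckeRep_mul hℓN (γ : SL(2, ℤ)) (dvd_of_mem_Gamma0 γ.2) x).choose,
      mem_Gamma0_of_dvd (heckeRep_mul hℓN (γ : SL(2, ℤ)) (dvd_of_mem_Gamma0 γ.2) x).choose_spec.1⟩
    hmul := fun γ x => (heckeRep_mul hℓN (γ : SL(2, ℤ)) (dvd_of_mem_Gamma0 γ.2) x).choose_spec.2
    hdisj := by
      have : NeZero ℓ := ⟨hℓ.ne_zero⟩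
      intro x y γ h
      rw [jG_apply] at h
      induction x using OnePoint.rec with
      | infty =>
        induction y using OnePoint.rec with
        | infty => rfl
        | coe b => exact (heckeDiagMatrix_ne_mul_heckeMatrix hℓ.two_le h).elim
      | coe a =>
        induction y using OnePoint.rec with
        | infty => exact (heckeMatrix_ne_mul_heckeDiagMatrix hℓ.two_le h).elim
        | coe b =>
          rw [zmod_eq_of_dvd_val_sub (heckeMatrix_eq_mul_heckeMatrix hℓ.ne_zero h)]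
    hinj := jG_injective N }

/-- Coset data of `U_q`. -/
noncomputable def dataU (N : ℕ) {q : ℕ} [NeZero q] (hqN : q ∣ N) :
    HeckeData (jG N) (ZMod q) :=
  have hc : ∀ γ : ↥(Gamma0 N), (q : ℤ) ∣ (γ : SL(2, ℤ)) 1 0 := fun γ =>
    (Int.natCast_dvd_natCast.mpr hqN).trans (dvd_of_mem_Gamma0 γ.2)
  { α := fun x => heckeMatrix q x.val
    σ := fun γ x => affinePerm (γ : SL(2, ℤ)) ((ZMod.intCast_zmod_eq_zero_iff_dvd _ _).mpr (hc γ)) x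
    g := fun γ x => ⟨(heckeMatrix_mul_of_dvd (γ : SL(2, ℤ)) (hc γ) x).choose, mem_Gamma0_of_dvd (by
      rw [(heckeMatrix_mul_of_dvd (γ : SL(2, ℤ)) (hc γ) x).choose_spec.1]
      exact Dvd.dvd.mul_left (dvd_of_mem_Gamma0 γ.2) _)⟩
    hmul := fun γ x => (heckeMatrix_mul_of_dvd (γ : SL(2, ℤ)) (hc γ) x).choose_spec.2
    hdisj := by
      intro x y γ h
      rw [jG_apply] at h
      exact zmod_eq_of_dvd_val_sub (heckeMatrix_eq_mul_heckeMatrix (NeZero.ne q) h)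
    hinj := jG_injective N }

theorem dataT_α (N : ℕ) {ℓ : ℕ} (hℓ : ℓ.Prime) (hℓN : ¬ ℓ ∣ N) (x : OnePoint (ZMod ℓ)) :
    (dataT N hℓ hℓN).α x = heckeRep ℓ x := rfl

theorem dataU_α (N : ℕ) {q : ℕ} [NeZero q] (hqN : q ∣ N) (x : ZMod q) :
    (dataU N hqN).α x = heckeMatrix q x.val := rfl

end Fermat.Agent.S16.HH
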