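import Mathlib
import Fermat.Agent.S16.HeckeHomData
import Fermat.Agent.S21.Prim
import Fermat.Agent.S21.Chain
import Fermat.Agent.S21.EquivPrim
import Fermat.Agent.S21.PeriodLinear
import Fermat.Prelude.Def_CuspForm_HeckeAlgebra

/-!
# The period map is Hecke equivariant
-/

set_option autoImplicit false

open Matrix.SpecialLinearGroup CongruenceSubgroup ModularForm UpperHalfPlane
open ModularCurve ModularCurve.Period
open scoped MatrixGroups OnePoint ModularForm
open P2MW.S_ModularForm_heckeT_slash_eq_self_of_mem_Gamma0.ModularForm.HeckeSlashInvariance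

namespace Fermat.Agent.S16.HH

/-- Chain rule for the Moebius action of `GL₂(ℝ)⁺`. -/
theorem hasDerivAt_comp_smul_GL (F f : ℍ → ℂ)
    (hF : ∀ τ : ℍ, HasDerivAt (F ∘ ofComplex) (f τ) ↑τ) (g : GL (Fin 2) ℝ)
    (hpos : 0 < g.val.det) (τ : ℍ) :
    HasDerivAt ((fun w : ℍ => F (g • w)) ∘ ofComplex) ((f ∣[(2 : ℤ)] g) τ) ↑τ := by
  have h_smul : HasDerivAt (fun w ↦ ↑(g • ofComplex w) : ℂ → ℂ)
      ((g.val.det : ℂ) / denom g τ ^ 2) ↑τ := (hasStrictDerivAt_smul hpos τ).hasDerivAt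
  have h_F : HasDerivAt (F ∘ ofComplex) (f (g • τ)) ↑(g • ofComplex (τ : ℂ)) := by
    rw [ofComplex_apply]
    exact hF (g • τ)
  have hcomp := h_F.comp (τ : ℂ) h_smul
  have heq : ((fun w : ℍ => F (g • w)) ∘ ofComplex) =
      ((F ∘ ofComplex) ∘ fun w ↦ ↑(g • ofComplex w) : ℂ → ℂ) := by
    funext w
    simp only [Function.comp_apply, ofComplex_apply]
  rw [heq]
  have hval : (f ∣[(2 : ℤ)] g) τ = f (g • τ) * ((g.val.det : ℂ) / denom g τ ^ 2) := by
    have hpos' : 0 < (g.det : ℝ) := by rwa [Matrix.GeneralLinearGroup.val_det_apply]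
    rw [ModularForm.slash_apply, UpperHalfPlane.σ, if_pos hpos',
      Matrix.GeneralLinearGroup.val_det_apply, abs_of_pos hpos]
    simp only [ContinuousAlgEquiv.refl_apply]
    rw [zpow_neg, show (2 : ℤ) - 1 = 1 by norm_num, zpow_one, div_eq_mul_inv, mul_assoc]
    rfl
  rw [hval]
  exact hcomp

theorem exists_equivariantPrimitive (N : ℕ) [NeZero N] (f : CuspForm (Gamma0 N) 2) :
    ∃ F : ℍ → ℂ, HasEquivariantPrimitive N f F :=
  Fermat.Agent.S21.exists_hasEquivariantPrimitive Fermat.Agent.S21.exists_primitive_of_periodic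
    Fermat.Agent.S21.const_of_hasDerivAt_zero Fermat.Agent.S21.hasDerivAt_comp_smul N f

/-- The period map is computed by any primitive. -/
theorem periodMap_eq_of_prim (N : ℕ) [NeZero N] (f : CuspForm (Gamma0 N) 2) (G : ℍ → ℂ)
    (hG : ∀ τ : ℍ, HasDerivAt (G ∘ ofComplex) (f τ) ↑τ) (γ : Gamma0 N) (z : ℍ) :
    periodMap N f (Additive.ofMul γ) = G ((γ : SL(2, ℤ)) • z) - G z := by
  obtain ⟨F, hF⟩ := exists_equivariantPrimitive N f
  rw [Fermat.Agent.S21.periodMap_apply Fermat.Agent.S21.const_of_hasDerivAt_zero N f F hF γ z]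
  have hconst := Fermat.Agent.S21.const_of_hasDerivAt_zero (fun w => F w - G w) (fun τ => by
    have h := (hF.1 τ).sub (hG τ)
    rw [sub_self] at h
    exact h)
  have h1 := hconst ((γ : SL(2, ℤ)) • z) z
  linear_combination h1

/-- General equivariance statement. -/
theorem periodMap_op {N : ℕ} [NeZero N] {ι : Type*} [Fintype ι] (D : HeckeData (jG N) ι)
    (hpos : ∀ i, 0 < (D.α i).val.det) (f f' : CuspForm (Gamma0 N) 2)
    (hf' : ∀ τ : ℍ, f' τ = ∑ i, (⇑f ∣[(2 : ℤ)] D.α i) τ) :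
    periodMap N f' = D.op (periodMap N f) := by
  obtain ⟨F, hF⟩ := exists_equivariantPrimitive N f
  refine AddMonoidHom.ext fun γ' => ?_
  obtain ⟨γ, rfl⟩ : ∃ γ, Additive.ofMul γ = γ' := ⟨_, rfl⟩
  have hG : ∀ τ : ℍ, HasDerivAt ((fun w : ℍ => ∑ i, F (D.α i • w)) ∘ ofComplex) (f' τ) ↑τ := by
    intro τ
    rw [hf']
    have := HasDerivAt.fun_sum (u := Finset.univ) fun i _ =>
      hasDerivAt_comp_smul_GL F f hF.1 (D.α i) (hpos i) τ
    exact this
  rw [periodMap_eq_of_prim N f' _ hG γ UpperHalfPlane.I]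
  exact D.op_of_primitive (periodMap N f) F (fun γ z =>
    (Fermat.Agent.S21.periodMap_apply Fermat.Agent.S21.const_of_hasDerivAt_zero N f F hF γ z).symm)
    γ UpperHalfPlane.I

theorem heckeRep_det_pos (ℓ : ℕ) (x : OnePoint (ZMod ℓ)) : 0 < (heckeRep ℓ x).val.det := by
  rw [← Matrix.GeneralLinearGroup.val_det_apply]
  induction x using OnePoint.rec with
  | infty => exact ModularForm.det_heckeDiagMatrix_pos ℓ
  | coe j => exact ModularForm.det_heckeMatrix_pos ℓ _

theorem periodMap_heckeTLin {N : ℕ} [NeZero N] {ℓ : ℕ} [NeZero ℓ] (hℓ : ℓ.Prime) (hℓN : ¬ ℓ ∣ N)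
    (f : CuspForm (Gamma0 N) 2) :
    periodMap N (CuspForm.heckeTLin 2 hℓ hℓN f) = (dataT N hℓ hℓN).op (periodMap N f) := by
  refine periodMap_op _ (fun i => heckeRep_det_pos ℓ i) f _ fun τ => ?_
  show ModularForm.heckeT 2 ℓ f τ = _
  rw [heckeT_eq_sum_onePoint, Finset.sum_apply]
  rfl

theorem periodMap_heckeULin {N : ℕ} [NeZero N] {q : ℕ} [NeZero q] (hqN : q ∣ N)
    (f : CuspForm (Gamma0 N) 2) :
    periodMap N (CuspForm.heckeULin 2 hqN f) = (dataU N hqN).op (periodMap N f) := by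
  refine periodMap_op _ (fun i => ?_) f _ fun τ => ?_
  · rw [← Matrix.GeneralLinearGroup.val_det_apply]
    exact ModularForm.det_heckeMatrix_pos q _
  · show ModularForm.heckeU 2 q f τ = _
    rw [heckeU_eq_sum_zmod, Finset.sum_apply]
    rfl

end Fermat.Agent.S16.HH
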