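import Mathlib
import Fermat.Agent.S16.HeckeHomData
import Fermat.Prelude.Def_ModularCurve_PeriodHomPair

/-!
# Hecke operators on `Hom(Γ₀(N), A)` commute with the involution `charInvolution`
-/

set_option autoImplicit false

open Matrix.SpecialLinearGroup CongruenceSubgroup ModularForm
open ModularCurve ModularCurve.Period
open scoped MatrixGroups OnePoint
open P2MW.S_ModularForm_heckeT_slash_eq_self_of_mem_Gamma0.ModularForm.HeckeSlashInvariance

namespace Fermat.Agent.S16.HH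

/-- The matrix `diag(1, -1)`. -/
noncomputable def matJ : GL (Fin 2) ℝ := upperTriangularGL 1 0 (-1) (by norm_num)

theorem val_matJ : (matJ : Matrix (Fin 2) (Fin 2) ℝ) = !![1, 0; 0, -1] := rfl

theorem matJ_mul_self : matJ * matJ = 1 := by
  apply Units.ext
  rw [Matrix.GeneralLinearGroup.coe_mul, val_matJ]
  ext i j
  fin_cases i <;> fin_cases j <;> simp

theorem matJ_inv : matJ⁻¹ = matJ := inv_eq_of_mul_eq_one_left matJ_mul_self

/-- Conjugation by `diag(1,-1)`. -/
noncomputable def conjJ : GL (Fin 2) ℝ →* GL (Fin 2) ℝ := (MulAut.conj matJ).toMonoidHom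

theorem conjJ_apply (g : GL (Fin 2) ℝ) : conjJ g = matJ * g * matJ := by
  show matJ * g * matJ⁻¹ = _
  rw [matJ_inv]

theorem val_conjJ (g : GL (Fin 2) ℝ) :
    (conjJ g : Matrix (Fin 2) (Fin 2) ℝ) = !![g 0 0, -g 0 1; -g 1 0, g 1 1] := by
  rw [conjJ_apply, Matrix.GeneralLinearGroup.coe_mul, Matrix.GeneralLinearGroup.coe_mul, val_matJ]
  ext i j
  fin_cases i <;> fin_cases j <;> simp only [Matrix.mul_apply, Fin.sum_univ_two] <;> simp

theorem jG_jConj (N : ℕ) (γ : ↥(Gamma0 N)) : jG N (jConjGamma0 N γ) = conjJ (jG N γ) := by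
  apply Units.ext
  rw [val_conjJ]
  ext i j
  fin_cases i <;> fin_cases j <;> simp [jG_apply, jConjMat]

/-- The translation `z ↦ z + m` as an element of `Γ₀(N)`. -/
def transl (N : ℕ) (m : ℤ) : ↥(Gamma0 N) :=
  ⟨ModularGroup.T ^ m, by simp [Gamma0_mem, ModularGroup.coe_T_zpow]⟩

theorem val_jG_transl (N : ℕ) (m : ℤ) :
    (jG N (transl N m) : Matrix (Fin 2) (Fin 2) ℝ) = !![1, (m : ℝ); 0, 1] := by
  ext i j
  rw [jG_apply, mapGL_entry]
  show (((ModularGroup.T ^ m : SL(2, ℤ)) i j : ℤ) : ℝ) = _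
  rw [ModularGroup.coe_T_zpow]
  fin_cases i <;> fin_cases j <;> simp

theorem exists_neg_val {ℓ : ℕ} [NeZero ℓ] (a : ZMod ℓ) :
    ∃ m : ℤ, -(a.val : ℤ) = (-a).val + m * ℓ := by
  have : (ℓ : ℤ) ∣ -(a.val : ℤ) - (-a).val := by
    rw [← ZMod.intCast_zmod_eq_zero_iff_dvd]
    push_cast
    rw [ZMod.natCast_zmod_val, ZMod.natCast_zmod_val]
    ring
  obtain ⟨m, hm⟩ := this
  exact ⟨m, by linear_combination hm⟩

theorem conjJ_heckeMatrix (N : ℕ) {ℓ : ℕ} [NeZero ℓ] (a : ZMod ℓ) {m : ℤ}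
    (hm : -(a.val : ℤ) = (-a).val + m * ℓ) :
    conjJ (heckeMatrix ℓ a.val) = jG N (transl N m) * heckeMatrix ℓ (-a).val := by
  have hm' : -(a.val : ℝ) = (-a).val + m * ℓ := by exact_mod_cast hm
  apply Units.ext
  rw [val_conjJ, Matrix.GeneralLinearGroup.coe_mul, val_jG_transl, val_heckeMatrix (NeZero.ne ℓ),
    val_heckeMatrix (NeZero.ne ℓ)]
  ext i j
  fin_cases i <;> fin_cases j <;> simp only [Matrix.mul_apply, Fin.sum_univ_two] <;> simp
  simpa using hm'

theorem conjJ_heckeDiagMatrix {ℓ : ℕ} [NeZero ℓ] : conjJ (heckeDiagMatrix ℓ) = heckeDiagMatrix ℓ := by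
  apply Units.ext
  rw [val_conjJ, val_heckeDiagMatrix (NeZero.ne ℓ)]
  ext i j
  fin_cases i <;> fin_cases j <;> simp

variable {A : Type*} [AddCommGroup A]

theorem dataU_op_charInvolution (N : ℕ) {q : ℕ} [NeZero q] (hqN : q ∣ N) (R : Type*) [Semiring R]
    [Module R A] (φ : Additive (Gamma0 N) →+ A) :
    (dataU N hqN).op (charInvolution N R A φ) = charInvolution N R A ((dataU N hqN).op φ) := by
  choose m hm using fun a : ZMod q => exists_neg_val a
  exact (dataU N hqN).op_comp_of_twist conjJ (jConjGamma0 N) (jG_jConj N) (Equiv.neg (ZMod q))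
    (fun a => transl N (m a)) (fun a => conjJ_heckeMatrix N a (hm a)) φ

/-- The permutation `x ↦ -x` of the projective line. -/
def negOnePoint (ℓ : ℕ) : Equiv.Perm (OnePoint (ZMod ℓ)) where
  toFun x := x.elim ∞ (fun a => ((-a : ZMod ℓ) : OnePoint (ZMod ℓ)))
  invFun x := x.elim ∞ (fun a => ((-a : ZMod ℓ) : OnePoint (ZMod ℓ)))
  left_inv x := by
    induction x using OnePoint.rec with
    | infty => rfl
    | coe a => simp
  right_inv x := by
    induction x using OnePoint.rec with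
    | infty => rfl
    | coe a => simp

theorem dataT_op_charInvolution (N : ℕ) {ℓ : ℕ} [NeZero ℓ] (hℓ : ℓ.Prime) (hℓN : ¬ ℓ ∣ N)
    (R : Type*) [Semiring R] [Module R A] (φ : Additive (Gamma0 N) →+ A) :
    (dataT N hℓ hℓN).op (charInvolution N R A φ) =
      charInvolution N R A ((dataT N hℓ hℓN).op φ) := by
  choose m hm using fun a : ZMod ℓ => exists_neg_val a
  refine (dataT N hℓ hℓN).op_comp_of_twist conjJ (jConjGamma0 N) (jG_jConj N) (negOnePoint ℓ)
    (fun x => x.elim 1 (fun a => transl N (m a))) (fun x => ?_) φ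
  induction x using OnePoint.rec with
  | infty =>
    show conjJ (heckeDiagMatrix ℓ) = jG N 1 * heckeDiagMatrix ℓ
    rw [conjJ_heckeDiagMatrix, map_one, one_mul]
  | coe a => exact conjJ_heckeMatrix N a (hm a)

end Fermat.Agent.S16.HH
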