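import Mathlib
import Fermat.Agent.S16.HeckeHomData

/-!
# The Shimura classes `γ ↦ π (d mod N)` are Eisenstein eigenvectors
-/

set_option autoImplicit false

open Matrix.SpecialLinearGroup CongruenceSubgroup ModularForm
open scoped MatrixGroups OnePoint
open P2MW.S_ModularForm_heckeT_slash_eq_self_of_mem_Gamma0.ModularForm.HeckeSlashInvariance

namespace Fermat.Agent.S16.HH

variable {A : Type*} [AddCommGroup A]

/-- The class `γ ↦ π (d mod N)`. -/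
noncomputable def shimuraHom (N : ℕ) (π : Additive (ZMod N)ˣ →+ A) : Additive (Gamma0 N) →+ A :=
  π.comp (MonoidHom.toAdditive (Gamma0Map N).toHomUnits)

theorem shimuraHom_apply (N : ℕ) (π : Additive (ZMod N)ˣ →+ A) (γ : Gamma0 N) :
    shimuraHom N π (Additive.ofMul γ) = π (Additive.ofMul ((Gamma0Map N).toHomUnits γ)) := rfl

theorem coe_toHomUnits_Gamma0Map (N : ℕ) (γ : Gamma0 N) :
    (((Gamma0Map N).toHomUnits γ : (ZMod N)ˣ) : ZMod N) = (((γ : SL(2, ℤ)) 1 1 : ℤ) : ZMod N) := rfl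

/-- lower right entries are multiplicative modulo `N`. -/
theorem entry_one_one_of_mul {N : ℕ} {α α' : GL (Fin 2) ℝ} {d b' d' : ℤ} (h10 : α 1 0 = 0)
    (h11 : α 1 1 = (d : ℝ)) (h01' : α' 0 1 = (b' : ℝ)) (h11' : α' 1 1 = (d' : ℝ))
    {γ g : SL(2, ℤ)} (hg : g ∈ Gamma0 N) (h : α * mapGL ℝ γ = mapGL ℝ g * α') :
    (d : ZMod N) * ((γ 1 1 : ℤ) : ZMod N) = ((g 1 1 : ℤ) : ZMod N) * (d' : ZMod N) := by
  have h1 := congrArg (fun M : GL (Fin 2) ℝ => (M : Matrix (Fin 2) (Fin 2) ℝ) 1 1) h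
  simp only [Matrix.GeneralLinearGroup.coe_mul, Matrix.mul_apply, Fin.sum_univ_two, mapGL_entry,
    h10, h11, h01', h11'] at h1
  have h2 : d * γ 1 1 = g 1 0 * b' + g 1 1 * d' := by
    have : (0 : ℝ) * ((γ 0 1 : ℤ) : ℝ) + (d : ℝ) * ((γ 1 1 : ℤ) : ℝ)
      = ((g 1 0 : ℤ) : ℝ) * b' + ((g 1 1 : ℤ) : ℝ) * d' := h1
    rw [zero_mul, zero_add] at this
    exact_mod_cast this
  have h3 := congrArg (Int.cast : ℤ → ZMod N) h2
  push_cast at h3
  rw [Gamma0_mem.mp hg, zero_mul, zero_add] at h3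
  exact h3

theorem heckeRep_one_zero {ℓ : ℕ} [NeZero ℓ] (x : OnePoint (ZMod ℓ)) : heckeRep ℓ x 1 0 = 0 := by
  induction x using OnePoint.rec with
  | infty => rw [heckeRep_infty, val_heckeDiagMatrix (NeZero.ne ℓ)]; simp
  | coe j => rw [heckeRep_coe, val_heckeMatrix (NeZero.ne ℓ)]; simp

theorem heckeRep_one_one {ℓ : ℕ} [NeZero ℓ] (x : OnePoint (ZMod ℓ)) :
    heckeRep ℓ x 1 1 = ((x.elim 1 (fun _ => (ℓ : ℤ)) : ℤ) : ℝ) := by
  induction x using OnePoint.rec with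
  | infty => rw [heckeRep_infty, val_heckeDiagMatrix (NeZero.ne ℓ)]; simp
  | coe j => rw [heckeRep_coe, val_heckeMatrix (NeZero.ne ℓ)]; simp

theorem heckeRep_zero_one {ℓ : ℕ} [NeZero ℓ] (x : OnePoint (ZMod ℓ)) :
    heckeRep ℓ x 0 1 = ((x.elim 0 (fun j => (j.val : ℤ)) : ℤ) : ℝ) := by
  induction x using OnePoint.rec with
  | infty => rw [heckeRep_infty, val_heckeDiagMatrix (NeZero.ne ℓ)]; simp
  | coe j => rw [heckeRep_coe, val_heckeMatrix (NeZero.ne ℓ)]; simp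

theorem dataT_op_shimuraHom (N : ℕ) {ℓ : ℕ} [NeZero ℓ] (hℓ : ℓ.Prime) (hℓN : ¬ ℓ ∣ N)
    (π : Additive (ZMod N)ˣ →+ A) :
    (dataT N hℓ hℓN).op (shimuraHom N π) = (ℓ + 1) • shimuraHom N π := by
  have hcop : Nat.Coprime ℓ N := (Nat.Prime.coprime_iff_not_dvd hℓ).mpr hℓN
  let u : OnePoint (ZMod ℓ) → (ZMod N)ˣ := fun x => x.elim 1 (fun _ => ZMod.unitOfCoprime ℓ hcop)
  have hu : ∀ x, ((u x : (ZMod N)ˣ) : ZMod N) = ((x.elim 1 (fun _ => (ℓ : ℤ)) : ℤ) : ZMod N) := by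
    intro x
    induction x using OnePoint.rec with
    | infty => simp [u]
    | coe j => simp [u]
  have hcard : Fintype.card (OnePoint (ZMod ℓ)) = ℓ + 1 := by
    rw [show Fintype.card (OnePoint (ZMod ℓ)) = Fintype.card (Option (ZMod ℓ)) from rfl,
      Fintype.card_option, ZMod.card]
  rw [← hcard]
  refine (dataT N hℓ hℓN).op_eq_card_nsmul _ (fun x => π (Additive.ofMul (u x))) fun γ x => ?_
  rw [shimuraHom_apply, shimuraHom_apply, ← map_add π, ← map_add π, ← ofMul_mul, ← ofMul_mul]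
  congr 2
  apply Units.ext
  rw [Units.val_mul, Units.val_mul, hu, hu, coe_toHomUnits_Gamma0Map, coe_toHomUnits_Gamma0Map]
  exact entry_one_one_of_mul (heckeRep_one_zero x) (heckeRep_one_one x) (heckeRep_zero_one _)
    (heckeRep_one_one _) ((dataT N hℓ hℓN).g γ x).2 ((dataT N hℓ hℓN).hmul γ x)

theorem dataU_op_shimuraHom (N : ℕ) {q : ℕ} [NeZero q] (hqN : q ∣ N)
    (π : Additive (ZMod N)ˣ →+ A) :
    (dataU N hqN).op (shimuraHom N π) = q • shimuraHom N π := by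
  have hcard : Fintype.card (ZMod q) = q := ZMod.card q
  conv_rhs => rw [← hcard]
  refine (dataU N hqN).op_eq_card_nsmul _ (fun _ => 0) fun γ x => ?_
  rw [zero_add, add_zero, shimuraHom_apply, shimuraHom_apply]
  congr 2
  apply Units.ext
  rw [coe_toHomUnits_Gamma0Map, coe_toHomUnits_Gamma0Map]
  set g := (dataU N hqN).g γ x with hg
  have h := (dataU N hqN).hmul γ x
  rw [dataU_α, dataU_α, jG_apply, jG_apply] at h
  have h1 := congrArg (fun M : GL (Fin 2) ℝ => (M : Matrix (Fin 2) (Fin 2) ℝ) 0 0) h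
  simp only [Matrix.GeneralLinearGroup.coe_mul, Matrix.mul_apply, Fin.sum_univ_two, mapGL_entry,
    val_heckeMatrix (NeZero.ne q)] at h1
  simp only [Matrix.of_apply, Matrix.cons_val', Matrix.cons_val_zero, Matrix.cons_val_one,
    Matrix.cons_val_fin_one] at h1
  have h2 : (γ : SL(2, ℤ)) 0 0 + x.val * (γ : SL(2, ℤ)) 1 0 = (g : SL(2, ℤ)) 0 0 := by
    have : (1 : ℝ) * (((γ : SL(2, ℤ)) 0 0 : ℤ) : ℝ) + (x.val : ℝ) * (((γ : SL(2, ℤ)) 1 0 : ℤ) : ℝ)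
      = (((g : SL(2, ℤ)) 0 0 : ℤ) : ℝ) * 1 + (((g : SL(2, ℤ)) 0 1 : ℤ) : ℝ) * 0 := h1
    rw [one_mul, mul_one, mul_zero, add_zero] at this
    exact_mod_cast this
  have h3 := congrArg (Int.cast : ℤ → ZMod N) h2
  push_cast at h3
  rw [Gamma0_mem.mp γ.2, mul_zero, add_zero] at h3
  have e1 := unit_of_apply_one_zero_eq_zero (p := N) (γ : SL(2, ℤ)) (Gamma0_mem.mp γ.2)
  have e2 := unit_of_apply_one_zero_eq_zero (p := N) (g : SL(2, ℤ)) (Gamma0_mem.mp g.2)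
  rw [← h3] at e2
  calc (((γ : SL(2, ℤ)) 1 1 : ℤ) : ZMod N)
      = (((γ : SL(2, ℤ)) 1 1 : ℤ) : ZMod N) * ((((γ : SL(2, ℤ)) 0 0 : ℤ) : ZMod N)
          * (((g : SL(2, ℤ)) 1 1 : ℤ) : ZMod N)) := by rw [e2, mul_one]
    _ = ((((γ : SL(2, ℤ)) 0 0 : ℤ) : ZMod N) * (((γ : SL(2, ℤ)) 1 1 : ℤ) : ZMod N))
          * (((g : SL(2, ℤ)) 1 1 : ℤ) : ZMod N) := by ring
    _ = (((g : SL(2, ℤ)) 1 1 : ℤ) : ZMod N) := by rw [e1, one_mul]

end Fermat.Agent.S16.HH
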