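import Mathlib
import Fermat.Agent.S16.HeckeHomPeriod
import Fermat.Agent.S16.HeckeHomInvol
import Fermat.Agent.S16.HeckeHomShimura
import Fermat.Agent.S21
import Fermat.Prelude.Def_CuspForm_HeckeEvalForms
import Fermat.Prelude.Def_ModularCurve_ModularUnit

/-!
# Part (A) of S16: `n ∣ ε(P)` for every Hecke polynomial `P` killing `S₂(Γ₀(p))`,
given an integral parabolic lift of the Shimura class.
-/

set_option autoImplicit false

open Matrix.SpecialLinearGroup CongruenceSubgroup ModularForm UpperHalfPlane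
open ModularCurve ModularCurve.Period CuspForm
open scoped MatrixGroups OnePoint ModularForm

namespace Fermat.Agent.S16.HH

instance neZero_primes (ℓ : Nat.Primes) : NeZero (ℓ : ℕ) := ⟨ℓ.2.ne_zero⟩

/-- The Hecke operator `T_ℓ` (or `U_ℓ` if `ℓ ∣ N`) on `Hom(Γ₀(N), A)`. -/
noncomputable def tau (N : ℕ) (ℓ : Nat.Primes) (A : Type*) [AddCommGroup A] :
    (Additive (Gamma0 N) →+ A) →+ (Additive (Gamma0 N) →+ A) :=
  if h : (ℓ : ℕ) ∣ N then (dataU N h).opHom else (dataT N ℓ.2 h).opHom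

section tau

variable (N : ℕ) (ℓ : Nat.Primes) {A B : Type*} [AddCommGroup A] [AddCommGroup B]

theorem comp_tau (u : A →+ B) (φ : Additive (Gamma0 N) →+ A) :
    u.comp (tau N ℓ A φ) = tau N ℓ B (u.comp φ) := by
  unfold tau
  split_ifs with h
  · exact (dataU N h).comp_op u φ
  · exact (dataT N ℓ.2 h).comp_op u φ

theorem tau_charInvolution (R : Type*) [Semiring R] [Module R A] (φ : Additive (Gamma0 N) →+ A) :
    tau N ℓ A (charInvolution N R A φ) = charInvolution N R A (tau N ℓ A φ) := by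
  unfold tau
  split_ifs with h
  · exact dataU_op_charInvolution N h R φ
  · exact dataT_op_charInvolution N ℓ.2 h R φ

theorem tau_shimuraHom (π : Additive (ZMod N)ˣ →+ A) :
    tau N ℓ A (shimuraHom N π) = (if (ℓ : ℕ) ∣ N then (ℓ : ℕ) else (ℓ : ℕ) + 1) • shimuraHom N π := by
  unfold tau
  split_ifs with h
  · exact dataU_op_shimuraHom N h π
  · exact dataT_op_shimuraHom N ℓ.2 h π

theorem tau_periodMap [NeZero N] (f : CuspForm (Gamma0 N) 2) :
    tau N ℓ ℂ (periodMap N f) = periodMap N ((heckeFormsGen N 2 ℓ).1 f) := by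
  unfold tau heckeFormsGen
  split_ifs with h
  · exact (periodMap_heckeULin h f).symm
  · exact (periodMap_heckeTLin ℓ.2 h f).symm

theorem periodHomPair_apply [NeZero N] (f g : CuspForm (Gamma0 N) 2) :
    periodHomPair N (f, g) = (periodMap N f + charInvolution N ℂ ℂ (periodMap N f)) +
      (periodMap N g - charInvolution N ℂ ℂ (periodMap N g)) := by
  obtain ⟨pml, hpml, h⟩ := periodHomPair_def N
    (Fermat.Agent.S21.existsPeriodMapLinear Fermat.Agent.S21.const_of_hasDerivAt_zero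
      (Fermat.Agent.S21.exists_hasEquivariantPrimitive Fermat.Agent.S21.exists_primitive_of_periodic
        Fermat.Agent.S21.const_of_hasDerivAt_zero Fermat.Agent.S21.hasDerivAt_comp_smul) N)
  rw [h]
  simp [hpml]

theorem tau_periodHomPair [NeZero N] (f g : CuspForm (Gamma0 N) 2) :
    tau N ℓ ℂ (periodHomPair N (f, g)) =
      periodHomPair N ((heckeFormsGen N 2 ℓ).1 f, (heckeFormsGen N 2 ℓ).1 g) := by
  rw [periodHomPair_apply, periodHomPair_apply, map_add, map_add, map_sub, tau_charInvolution,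
    tau_charInvolution, tau_periodMap, tau_periodMap]

end tau

/-- Auxiliary predicate for the induction on Hecke polynomials. -/
def Good (N : ℕ) [NeZero N] {C : Type*} [AddCommGroup C] (r : ℤ →+ C)
    (χ : Additive (Gamma0 N) →+ C) (ε : Nat.Primes → ℤ) (Q : HeckeAlg) : Prop :=
  ∃ θ : (Additive (Gamma0 N) →+ ℤ) →+ (Additive (Gamma0 N) →+ ℤ),
    (∀ φ f g, (Int.castAddHom ℂ).comp φ = periodHomPair N (f, g) →
      (Int.castAddHom ℂ).comp (θ φ) =
        periodHomPair N ((heckeEvalForms N 2 Q).1 f, (heckeEvalForms N 2 Q).1 g)) ∧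
    (∀ φ (c : ℤ), r.comp φ = c • χ → r.comp (θ φ) = (c * MvPolynomial.aeval ε Q) • χ)

theorem good_all (N : ℕ) [NeZero N] {C : Type*} [AddCommGroup C] (r : ℤ →+ C)
    (χ : Additive (Gamma0 N) →+ C) (ε : Nat.Primes → ℤ)
    (hχ : ∀ ℓ, tau N ℓ C χ = ε ℓ • χ) (Q : HeckeAlg) : Good N r χ ε Q := by
  induction Q using MvPolynomial.induction_on with
  | C a =>
    refine ⟨a • AddMonoidHom.id _, fun φ f g h => ?_, fun φ c h => ?_⟩
    · have h1 : (Int.castAddHom ℂ).comp ((a • AddMonoidHom.id _ :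
          (Additive (Gamma0 N) →+ ℤ) →+ (Additive (Gamma0 N) →+ ℤ)) φ)
          = a • (Int.castAddHom ℂ).comp φ := by
        refine AddMonoidHom.ext fun γ => ?_
        simp
      rw [h1, h, heckeEvalForms_C, ← map_zsmul]
      congr 1
    · have h1 : r.comp ((a • AddMonoidHom.id _ :
          (Additive (Gamma0 N) →+ ℤ) →+ (Additive (Gamma0 N) →+ ℤ)) φ) = a • r.comp φ := by
        refine AddMonoidHom.ext fun γ => ?_
        show r (a • φ γ) = a • r (φ γ)
        rw [map_zsmul]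
      rw [h1, h, MvPolynomial.aeval_C, smul_smul, mul_comm]
      rfl
  | add P Q hP hQ =>
    obtain ⟨θ₁, h1, h1'⟩ := hP
    obtain ⟨θ₂, h2, h2'⟩ := hQ
    refine ⟨θ₁ + θ₂, fun φ f g h => ?_, fun φ c h => ?_⟩
    · have e : (Int.castAddHom ℂ).comp ((θ₁ + θ₂) φ) =
          (Int.castAddHom ℂ).comp (θ₁ φ) + (Int.castAddHom ℂ).comp (θ₂ φ) := by
        refine AddMonoidHom.ext fun γ => ?_
        simp
      rw [e, h1 φ f g h, h2 φ f g h, ← map_add, map_add (heckeEvalForms N 2)]
      rfl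
    · have e : r.comp ((θ₁ + θ₂) φ) = r.comp (θ₁ φ) + r.comp (θ₂ φ) := by
        refine AddMonoidHom.ext fun γ => ?_
        simp
      rw [e, h1' φ c h, h2' φ c h, ← add_smul, map_add, mul_add]
  | mul_X Q ℓ hQ =>
    obtain ⟨θ, h1, h1'⟩ := hQ
    refine ⟨θ.comp (tau N ℓ ℤ), fun φ f g h => ?_, fun φ c h => ?_⟩
    · have e := h1 (tau N ℓ ℤ φ) ((heckeFormsGen N 2 ℓ).1 f) ((heckeFormsGen N 2 ℓ).1 g) (by
        rw [comp_tau, h, tau_periodHomPair])
      rw [AddMonoidHom.comp_apply, e, map_mul (heckeEvalForms N 2)]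
      have : heckeEvalForms N 2 (MvPolynomial.X ℓ) = heckeFormsGen N 2 ℓ :=
        heckeEvalForms_heckeGen N 2 ℓ
      rw [this]
      rfl
    · have e := h1' (tau N ℓ ℤ φ) (c * ε ℓ) (by
        rw [comp_tau, h, map_zsmul, hχ, smul_smul])
      rw [AddMonoidHom.comp_apply, e, map_mul, MvPolynomial.aeval_X]
      congr 1
      ring

end Fermat.Agent.S16.HH
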