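import Mathlib
import Fermat.Agent.S20.Basic
import Fermat.Agent.QInt.Theta

set_option autoImplicit false

open UpperHalfPlane ModularForm CongruenceSubgroup Matrix.SpecialLinearGroup EisensteinSeries
open scoped MatrixGroups ModularForm Manifold

namespace Fermat.Agent.S16

noncomputable section

open Fermat.Agent.QInt.Theta (mkSL SL_det_eq exists_decomp)

/-- The weight two Eisenstein series `N E_2(N z) - E_2(z)` of level `Γ₀(N)`. -/
def eisP (N : ℕ) : ℍ → ℂ := E2 ∣[(2:ℤ)] heckeDiagMatrix N - E2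

lemma eisP_apply {N : ℕ} (hN : N ≠ 0) (τ : ℍ) :
    eisP N τ = (N:ℂ) * E2 (heckeDiagMatrix N • τ) - E2 τ := by
  simp [eisP, slash_heckeDiagMatrix_apply 2 hN E2 τ]

lemma eisP_mdiff (N : ℕ) : MDiff (eisP N) :=
  (E2_mdifferentiable.slash 2 _).sub E2_mdifferentiable

/-- conjugating an element of `Γ₀(N)` by `diag(N,1)`, with explicit lower row. -/
lemma eisP_exists_conj {N : ℕ} (hN : N ≠ 0) (γ : SL(2,ℤ)) (hγ : γ ∈ Gamma0 N) :
    ∃ γ' : SL(2,ℤ), heckeDiagMatrix N * mapGL ℝ γ = mapGL ℝ γ' * heckeDiagMatrix N ∧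
      γ 1 0 = N * γ' 1 0 ∧ γ 1 1 = γ' 1 1 := by
  rw [Gamma0_mem] at hγ
  obtain ⟨c', hc'⟩ : (N : ℤ) ∣ γ 1 0 := (ZMod.intCast_zmod_eq_zero_iff_dvd _ _).mp hγ
  have hdet := SL_det_eq γ
  refine ⟨mkSL (γ 0 0) (N * γ 0 1) c' (γ 1 1) ?_, ?_, hc', rfl⟩
  · rw [hc'] at hdet
    linarith
  · ext i j
    have h10 : ((γ 1 0 : ℤ) : ℝ) = N * c' := by rw [hc']; push_cast; ring
    fin_cases i <;> fin_cases j <;>
      simp [val_heckeDiagMatrix hN, Matrix.mul_apply, Fin.sum_univ_two, h10, mul_comm]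

lemma eisP_D2_slash_diag {N : ℕ} (hN : N ≠ 0) (γ γ' : SL(2,ℤ)) (h10 : γ 1 0 = N * γ' 1 0)
    (h11 : γ 1 1 = γ' 1 1) : D2 γ' ∣[(2:ℤ)] heckeDiagMatrix N = D2 γ := by
  funext τ
  rw [slash_heckeDiagMatrix_apply 2 hN]
  simp only [D2, denom, coe_heckeDiagMatrix_smul hN]
  simp [h10, h11]
  ring

lemma eisP_smul_slash_GL (c : ℂ) (f : ℍ → ℂ) (N : ℕ) :
    (c • f) ∣[(2:ℤ)] heckeDiagMatrix N = c • (f ∣[(2:ℤ)] heckeDiagMatrix N) := by
  rw [ModularForm.smul_slash, σ_heckeDiagMatrix]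
  rfl

lemma eisP_sub_slash {G : Type*} [Monoid G] [SlashAction ℤ G (ℍ → ℂ)] (k : ℤ) (g : G)
    (a b : ℍ → ℂ) : (a - b) ∣[k] g = a ∣[k] g - b ∣[k] g := by
  rw [sub_eq_add_neg, SlashAction.add_slash, SlashAction.neg_slash, ← sub_eq_add_neg]

lemma eisP_SL_slash (k : ℤ) (f : ℍ → ℂ) (γ : SL(2,ℤ)) : f ∣[k] γ = f ∣[k] (mapGL ℝ γ) := rfl

lemma eisP_slash_of_mem {N : ℕ} (hN : N ≠ 0) (γ : SL(2,ℤ)) (hγ : γ ∈ Gamma0 N) :
    eisP N ∣[(2:ℤ)] γ = eisP N := by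
  obtain ⟨γ', h, h10, h11⟩ := eisP_exists_conj hN γ hγ
  have h1 : (E2 ∣[(2:ℤ)] heckeDiagMatrix N) ∣[(2:ℤ)] γ =
      E2 ∣[(2:ℤ)] heckeDiagMatrix N - (1 / (2 * riemannZeta 2)) • D2 γ := by
    rw [eisP_SL_slash, ← SlashAction.slash_mul, h, SlashAction.slash_mul,
      ← eisP_SL_slash, E2_slash_action, eisP_sub_slash, eisP_smul_slash_GL,
      eisP_D2_slash_diag hN γ γ' h10 h11]
  rw [eisP, eisP_sub_slash, h1, E2_slash_action]
  abel

lemma eisP_isBoundedAtImInfty_D2 (γ : SL(2,ℤ)) : IsBoundedAtImInfty (D2 γ) := by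
  rw [UpperHalfPlane.isBoundedAtImInfty_iff]
  refine ⟨2 * Real.pi, 1, fun z hz => ?_⟩
  by_cases hc : γ 1 0 = 0
  · simp [D2, hc, Real.pi_pos.le]
  have hc' : (0:ℝ) < |((γ 1 0 : ℤ) : ℝ)| := abs_pos.mpr (by exact_mod_cast hc)
  have hden : |((γ 1 0 : ℤ) : ℝ)| ≤ ‖denom γ z‖ := by
    have h1 : (denom γ z).im = ((γ 1 0 : ℤ) : ℝ) * z.im := by
      simp [denom]
    calc |((γ 1 0 : ℤ) : ℝ)| ≤ |((γ 1 0 : ℤ) : ℝ)| * z.im := le_mul_of_one_le_right hc'.le hz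
      _ = |(denom γ z).im| := by rw [h1, abs_mul, abs_of_pos z.im_pos]
      _ ≤ ‖denom γ z‖ := Complex.abs_im_le_norm _
  have hpos : 0 < ‖denom γ z‖ := lt_of_lt_of_le hc' hden
  simp only [D2, norm_div, norm_mul, Complex.norm_I, mul_one]
  rw [div_le_iff₀ hpos]
  have h2 : ‖(2:ℂ)‖ = 2 := by simp
  have h3 : ‖(Real.pi : ℂ)‖ = Real.pi := by simp [abs_of_pos Real.pi_pos]
  have h4 : ‖((γ 1 0 : ℤ) : ℂ)‖ = |((γ 1 0 : ℤ) : ℝ)| := by simp
  rw [h2, h3, h4]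
  exact mul_le_mul_of_nonneg_left hden (by positivity)

lemma eisP_isBoundedAtImInfty_E2_slash (γ : SL(2,ℤ)) : IsBoundedAtImInfty (E2 ∣[(2:ℤ)] γ) := by
  rw [E2_slash_action]
  exact isBoundedAtImInfty_E2.sub ((eisP_isBoundedAtImInfty_D2 γ).const_smul_left _)

lemma eisP_bdd {N : ℕ} (hN : N ≠ 0) (γ : SL(2,ℤ)) : IsBoundedAtImInfty (eisP N ∣[(2:ℤ)] γ) := by
  obtain ⟨γ', g, e, β, hge, -, -, h⟩ := exists_decomp hN γ
  rw [eisP, eisP_sub_slash]
  refine Asymptotics.IsBigO.sub ?_ (eisP_isBoundedAtImInfty_E2_slash γ)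
  rw [eisP_SL_slash, ← SlashAction.slash_mul, h, SlashAction.slash_mul, ← eisP_SL_slash]
  exact (eisP_isBoundedAtImInfty_E2_slash γ').slash 2 (by simp)

/-- `N E_2(N z) - E_2(z)` is a modular form of weight two on `Γ₀(N)`. -/
theorem eisP_isMF {N : ℕ} (hN : N ≠ 0) : S20.IsMF (Gamma0 N) 2 (eisP N) :=
  ⟨eisP_mdiff N, fun γ hγ => eisP_slash_of_mem hN γ hγ, eisP_bdd hN⟩

/-- The bundled form. -/
def eisPForm (N : ℕ) [NeZero N] : ModularForm ((Gamma0 N).map (mapGL ℝ)) 2 :=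
  (eisP_isMF (NeZero.ne N)).toModularForm

@[simp] lemma coe_eisPForm (N : ℕ) [NeZero N] : ⇑(eisPForm N) = eisP N := rfl

/-- coefficients of `E_2`. -/
def eisP_e2Coeff (m : ℕ) : ℂ := if m = 0 then 1 else -24 * (ArithmeticFunction.sigma 1 m : ℂ)

lemma eisP_hasSum_E2 (τ : ℍ) :
    HasSum (fun m : ℕ ↦ eisP_e2Coeff m • Function.Periodic.qParam 1 τ ^ m) (E2 τ) := by
  simpa only [Function.Periodic.qParam, Complex.ofReal_one, div_one, eisP_e2Coeff]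
    using hasSum_qExpansion_E2 (z := τ)

lemma eisP_qParam_diag_smul {N : ℕ} (hN : N ≠ 0) (τ : ℍ) :
    Function.Periodic.qParam 1 ((heckeDiagMatrix N • τ : ℍ) : ℂ) =
      Function.Periodic.qParam 1 (τ : ℂ) ^ N := by
  rw [coe_heckeDiagMatrix_smul hN, Function.Periodic.qParam, Function.Periodic.qParam,
    ← Complex.exp_nat_mul]
  congr 1
  ring

lemma eisP_hasSum_E2_diag {N : ℕ} (hN : N ≠ 0) (τ : ℍ) :
    HasSum (fun m : ℕ ↦ (if N ∣ m then eisP_e2Coeff (m / N) else 0) • Function.Periodic.qParam 1 τ ^ m)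
      (E2 (heckeDiagMatrix N • τ)) := by
  have h := eisP_hasSum_E2 (heckeDiagMatrix N • τ)
  rw [eisP_qParam_diag_smul hN] at h
  have hinj : Function.Injective (fun m : ℕ => N * m) :=
    fun a b hab => Nat.eq_of_mul_eq_mul_left (Nat.pos_of_ne_zero hN) hab
  rw [← hinj.hasSum_iff]
  · convert h using 2 with m
    simp [Function.comp, Nat.mul_div_cancel_left _ (Nat.pos_of_ne_zero hN), pow_mul]
  · intro m hm
    have : ¬ N ∣ m := fun ⟨k, hk⟩ => hm ⟨k, hk.symm⟩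
    simp [this]

/-- `∑_{d ∣ m, N ∤ d} d = σ(m) - N σ(m/N)`. -/
lemma eisP_sum_divisors_not_dvd {N : ℕ} (hN : N ≠ 0) (m : ℕ) :
    (∑ d ∈ m.divisors.filter (fun d => ¬ N ∣ d), (d : ℤ)) =
      (ArithmeticFunction.sigma 1 m : ℤ) -
        (if N ∣ m then (N : ℤ) * (ArithmeticFunction.sigma 1 (m / N) : ℤ) else 0) := by
  have h1 : (ArithmeticFunction.sigma 1 m : ℤ) = ∑ d ∈ m.divisors, (d : ℤ) := by
    rw [ArithmeticFunction.sigma_one_apply]; push_cast; rfl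
  have h2 := Finset.sum_filter_add_sum_filter_not m.divisors (fun d => N ∣ d) (fun d => (d : ℤ))
  have h3 : (∑ d ∈ m.divisors.filter (fun d => N ∣ d), (d : ℤ)) =
      (if N ∣ m then (N : ℤ) * (ArithmeticFunction.sigma 1 (m / N) : ℤ) else 0) := by
    split_ifs with hNm
    · obtain ⟨k, rfl⟩ := hNm
      rw [Nat.mul_div_cancel_left _ (Nat.pos_of_ne_zero hN), ArithmeticFunction.sigma_one_apply]
      push_cast
      rw [Finset.mul_sum]
      symm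
      refine Finset.sum_bij (fun d _ => N * d) ?_ ?_ ?_ ?_
      · intro d hd
        rw [Nat.mem_divisors] at hd
        simp only [Finset.mem_filter, Nat.mem_divisors]
        exact ⟨⟨Nat.mul_dvd_mul_left N hd.1, Nat.mul_ne_zero hN hd.2⟩, Dvd.intro _ rfl⟩
      · intro a _ b _ hab
        exact Nat.eq_of_mul_eq_mul_left (Nat.pos_of_ne_zero hN) hab
      · intro d hd
        simp only [Finset.mem_filter, Nat.mem_divisors] at hd
        obtain ⟨⟨h1, h2⟩, ⟨e, rfl⟩⟩ := hd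
        refine ⟨e, ?_, rfl⟩
        rw [Nat.mem_divisors]
        exact ⟨(Nat.mul_dvd_mul_iff_left (Nat.pos_of_ne_zero hN)).mp h1,
          fun h0 => h2 (by simp [h0])⟩
      · intro d _
        push_cast
        ring
    · apply Finset.sum_eq_zero
      intro d hd
      simp only [Finset.mem_filter, Nat.mem_divisors] at hd
      exact absurd (hd.2.trans hd.1.1) hNm
  rw [h1, ← h2, h3]
  ring

lemma hasSum_eisP {N : ℕ} (hN : N ≠ 0) (τ : ℍ) :
    HasSum (fun m : ℕ ↦ ((N : ℂ) * (if N ∣ m then eisP_e2Coeff (m / N) else 0) - eisP_e2Coeff m) •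
      Function.Periodic.qParam 1 τ ^ m) (eisP N τ) := by
  rw [eisP_apply hN]
  have := ((eisP_hasSum_E2_diag hN τ).mul_left (N : ℂ)).sub (eisP_hasSum_E2 τ)
  have hfun : (fun m : ℕ ↦ ((N : ℂ) * (if N ∣ m then eisP_e2Coeff (m / N) else 0) - eisP_e2Coeff m) •
      Function.Periodic.qParam 1 τ ^ m) = (fun b : ℕ =>
      (N : ℂ) * (if N ∣ b then eisP_e2Coeff (b / N) else 0) • Function.Periodic.qParam 1 (τ : ℂ) ^ b -
        eisP_e2Coeff b • Function.Periodic.qParam 1 (τ : ℂ) ^ b) := by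
    funext m
    rw [smul_eq_mul, smul_eq_mul, smul_eq_mul]
    ring
  rw [hfun]
  exact this

/-- The `q`-expansion of `N E_2(N z) - E_2(z)`:
`(N - 1) + 24 ∑_{m ≥ 1} (∑_{d ∣ m, N ∤ d} d) q^m`. -/
theorem eisP_qExpansion_coeff {N : ℕ} (hN : N ≠ 0) (m : ℕ) :
    (qExpansion 1 (eisP N)).coeff m =
      if m = 0 then (N : ℂ) - 1
      else 24 * ((∑ d ∈ m.divisors.filter (fun d => ¬ N ∣ d), (d : ℤ) : ℤ) : ℂ) := by
  have : NeZero N := ⟨hN⟩
  have h := ModularFormClass.qExpansion_coeff_unique (f := eisPForm N) one_pos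
    (one_mem_strictPeriods_Gamma0 N) (fun τ => hasSum_eisP hN τ) m
  rw [coe_eisPForm] at h
  rw [← h]
  by_cases hm : m = 0
  · subst hm
    simp [eisP_e2Coeff]
  · rw [if_neg hm, eisP_sum_divisors_not_dvd hN]
    by_cases hNm : N ∣ m
    · have hq : m / N ≠ 0 := by
        obtain ⟨k, rfl⟩ := hNm
        rw [Nat.mul_div_cancel_left _ (Nat.pos_of_ne_zero hN)]
        exact fun h0 => hm (by simp [h0])
      simp only [hNm, if_true, eisP_e2Coeff, hm, hq, if_false]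
      push_cast
      ring
    · simp only [hNm, if_false, eisP_e2Coeff, hm]
      push_cast
      ring

end

end Fermat.Agent.S16
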