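import Mathlib
import Fermat.Agent.S20.Basic

/-!
# S16, part (B): definitions

`(B)`: if `f ∈ S₂(Γ₀(p))` has `a_k(f) ≡ σ'(k) mod m` for all `k ≥ 1`, then `m ∣ n = num((p-1)/12)`.

Design: a form `H ∈ M_k(Γ₀(p))` is recorded by the PAIR of its expansions at the two cusps
`(h_∞, h_0) = (expansion of H in q = e(τ), expansion of H ∣[k] S in x = e(τ/p))`.
All the arithmetic is then formal manipulation of pairs of power series over `ℂ`,
with integrality measured by the subring `OO ℓ ⊆ ℂ` of `ℓ`-integral algebraic numbers.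
-/

set_option autoImplicit false

namespace Fermat.Agent.S16

open UpperHalfPlane ModularForm CongruenceSubgroup Matrix.SpecialLinearGroup
open Fermat.Agent.S20 (IsMF IsCF)
open scoped MatrixGroups ModularForm Manifold

noncomputable section

/-! ## analytic predicates -/

/-- `f τ = ∑ a_m e(m τ / h)` for every `τ` (same shape as Mathlib's `hasSum_qExpansion`). -/
def HasQE (h : ℝ) (f : ℍ → ℂ) (a : PowerSeries ℂ) : Prop :=
  ∀ τ : ℍ, HasSum (fun m : ℕ => PowerSeries.coeff m a • Function.Periodic.qParam h τ ^ m) (f τ)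

/-- `H ∈ M_k(Γ₀(p))` with expansion `a` at `∞` (in `q`) and `b` at `0` (`H ∣[k] S`, in `q^{1/p}`). -/
structure HasPair (p : ℕ) (k : ℤ) (H : ℍ → ℂ) (a b : PowerSeries ℂ) : Prop where
  mf : IsMF (Gamma0 p) k H
  inf : HasQE 1 H a
  zero : HasQE p (H ∣[k] ModularGroup.S) b

/-- `(a, b)` is the pair of expansions of some form in `M_k(Γ₀(p))`. -/
def PairMF (p : ℕ) (k : ℤ) (a b : PowerSeries ℂ) : Prop := ∃ H, HasPair p k H a b

/-- `a` is the `q`-expansion of a level one form of weight `k`. -/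
def L1 (k : ℤ) (a : PowerSeries ℂ) : Prop := ∃ F, IsMF ⊤ k F ∧ HasQE 1 F a

/-! ## formal operators on power series -/

section Formal

variable {R : Type*} [CommRing R]

/-- `U_p : ∑ a_n X^n ↦ ∑ a_{pn} X^n`. -/
def Uop (p : ℕ) (a : PowerSeries R) : PowerSeries R :=
  PowerSeries.mk fun n => PowerSeries.coeff (p * n) a

/-- `V_p : ∑ a_n X^n ↦ ∑ a_n X^{pn}`. -/
def Vop (p : ℕ) (a : PowerSeries R) : PowerSeries R :=
  PowerSeries.mk fun n => if p ∣ n then PowerSeries.coeff (n / p) a else 0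

/-- `θ = X d/dX`. -/
def theta (a : PowerSeries R) : PowerSeries R :=
  PowerSeries.mk fun n => (n : R) * PowerSeries.coeff n a

@[simp] theorem coeff_Uop (p n : ℕ) (a : PowerSeries R) :
    PowerSeries.coeff n (Uop p a) = PowerSeries.coeff (p * n) a := by
  simp [Uop]

theorem coeff_Vop (p n : ℕ) (a : PowerSeries R) :
    PowerSeries.coeff n (Vop p a) = if p ∣ n then PowerSeries.coeff (n / p) a else 0 := by
  simp [Vop]

@[simp] theorem coeff_theta (n : ℕ) (a : PowerSeries R) :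
    PowerSeries.coeff n (theta a) = (n : R) * PowerSeries.coeff n a := by
  simp [theta]

theorem Vop_eq_expand {p : ℕ} (hp : p ≠ 0) (a : PowerSeries R) :
    Vop p a = PowerSeries.expand p hp a := by
  ext n
  rw [coeff_Vop, PowerSeries.coeff_expand]

end Formal

/-! ## the formal Eisenstein series -/

/-- `∑_{n ≥ 1} σ_k(n) X^n`. -/
def sig (k : ℕ) : PowerSeries ℂ := PowerSeries.mk fun n => ((ArithmeticFunction.sigma k n : ℕ) : ℂ)

def E2f : PowerSeries ℂ := 1 - (24 : ℂ) • sig 1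
def E4f : PowerSeries ℂ := 1 + (240 : ℂ) • sig 3
def E6f : PowerSeries ℂ := 1 - (504 : ℂ) • sig 5
/-- the formal `Δ = (E₄³ - E₆²)/1728`. -/
def Deltaf : PowerSeries ℂ := (1728 : ℂ)⁻¹ • (E4f ^ 3 - E6f ^ 2)

/-- `σ'(n) = ∑_{d ∣ n, p ∤ d} d`. -/
def sigP (p n : ℕ) : ℕ := ∑ d ∈ n.divisors with ¬ p ∣ d, d

/-- the `q`-expansion `(p-1)/24 + ∑ σ'(n) q^n` of the Eisenstein series of weight 2 on `Γ₀(p)`. -/
def EisP (p : ℕ) : PowerSeries ℂ :=
  PowerSeries.C (((p : ℂ) - 1) / 24) + PowerSeries.mk fun n => ((sigP p n : ℕ) : ℂ)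

/-! ## `ℓ`-integrality -/

/-- The ring of `ℓ`-integral algebraic numbers: `z` such that `d z` is an algebraic integer for
some `d` prime to `ℓ`. -/
def OO (ℓ : ℕ) : Subring ℂ where
  carrier := {z | ∃ d : ℕ, Nat.Coprime d ℓ ∧ IsIntegral ℤ ((d : ℂ) * z)}
  mul_mem' := by
    rintro x y ⟨d, hd, hx⟩ ⟨e, he, hy⟩
    refine ⟨d * e, Nat.Coprime.mul_left hd he, ?_⟩
    have := hx.mul hy
    have e1 : (((d * e : ℕ) : ℂ)) * (x * y) = (d : ℂ) * x * ((e : ℂ) * y) := by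
      push_cast; ring
    rw [e1]; exact this
  one_mem' := ⟨1, Nat.coprime_one_left ℓ, by simpa using isIntegral_one⟩
  add_mem' := by
    rintro x y ⟨d, hd, hx⟩ ⟨e, he, hy⟩
    refine ⟨d * e, Nat.Coprime.mul_left hd he, ?_⟩
    have h1 : IsIntegral ℤ ((e : ℂ) * ((d : ℂ) * x)) := (isIntegral_natCast (a := e)).mul hx
    have h2 : IsIntegral ℤ ((d : ℂ) * ((e : ℂ) * y)) := (isIntegral_natCast (a := d)).mul hy
    have e1 : (((d * e : ℕ) : ℂ)) * (x + y) = (e : ℂ) * ((d : ℂ) * x) + (d : ℂ) * ((e : ℂ) * y) := by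
      push_cast; ring
    rw [e1]; exact h1.add h2
  zero_mem' := ⟨1, Nat.coprime_one_left ℓ, by simpa using isIntegral_zero⟩
  neg_mem' := by
    rintro x ⟨d, hd, hx⟩
    refine ⟨d, hd, ?_⟩
    convert hx.neg using 1
    ring

/-- `z ∈ M · OO ℓ`. -/
def DivO (ℓ M : ℕ) (z : ℂ) : Prop := ∃ c ∈ OO ℓ, z = (M : ℂ) * c

/-- power series with `ℓ`-integral coefficients. -/
def IsIntS (ℓ : ℕ) (a : PowerSeries ℂ) : Prop := ∀ n, PowerSeries.coeff n a ∈ OO ℓ

/-- `a ≡ b mod M` coefficientwise in `OO ℓ`. -/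
def CongS (ℓ M : ℕ) (a b : PowerSeries ℂ) : Prop :=
  ∀ n, DivO ℓ M (PowerSeries.coeff n a - PowerSeries.coeff n b)

/-- `a` is `ℓ`-integral, `a ≡ 0 mod (ℓ, X^e)`, and the coefficient of `X^e` is congruent mod `ℓ`
to a rational integer prime to `ℓ`. -/
def OrdUnit (ℓ : ℕ) (a : PowerSeries ℂ) (e : ℕ) : Prop :=
  IsIntS ℓ a ∧ (∀ n < e, DivO ℓ ℓ (PowerSeries.coeff n a)) ∧
    ∃ u : ℤ, IsCoprime u (ℓ : ℤ) ∧ DivO ℓ ℓ (PowerSeries.coeff e a - (u : ℂ))

/-- There is `G ∈ M₂(Γ₀(p))` with `G ≡ 1 mod ℓ^t` (`q`-expansion at `∞`, `ℓ`-integral). -/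
def Bad (p ℓ t : ℕ) : Prop :=
  ∃ g b : PowerSeries ℂ, IsIntS ℓ g ∧ PairMF p 2 (1 + ((ℓ : ℂ) ^ t) • g) b

end

end Fermat.Agent.S16
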