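import Fermat.Agent.S16.BInterface

/-!
# S16, part (B), package B11 (DELTAINT)

`σ₅ ≡ σ₃ mod 24`, integrality of the formal `Δ`, and the formal identities for `U_p`, `V_p`, `θ`.
-/

set_option autoImplicit false

namespace Fermat.Agent.S16

open PowerSeries

noncomputable section

/-! ## formal identities for `U_p`, `V_p`, `θ` -/

section Formal

variable {R : Type*} [CommRing R]

theorem Uop_add (p : ℕ) (a b : PowerSeries R) : Uop p (a + b) = Uop p a + Uop p b := by
  ext n; simp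

theorem Uop_sub (p : ℕ) (a b : PowerSeries R) : Uop p (a - b) = Uop p a - Uop p b := by
  ext n; simp

theorem Uop_neg (p : ℕ) (a : PowerSeries R) : Uop p (-a) = -Uop p a := by
  ext n; simp

theorem Uop_zero (p : ℕ) : Uop p (0 : PowerSeries R) = 0 := by
  ext n; simp

theorem Uop_smul (p : ℕ) (c : R) (a : PowerSeries R) : Uop p (c • a) = c • Uop p a := by
  ext n; simp

theorem Uop_C {p : ℕ} (hp : 0 < p) (c : R) : Uop p (C c : PowerSeries R) = C c := by
  ext n
  rw [coeff_Uop, coeff_C, coeff_C]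
  have : p * n = 0 ↔ n = 0 := by
    rw [Nat.mul_eq_zero]; constructor
    · rintro (h | h)
      · omega
      · exact h
    · exact Or.inr
  simp only [this]

theorem Uop_one {p : ℕ} (hp : 0 < p) : Uop p (1 : PowerSeries R) = 1 := by
  have := Uop_C (R := R) hp 1
  simpa using this

theorem Uop_Vop_mul {p : ℕ} (hp : 0 < p) (a b : PowerSeries R) :
    Uop p (Vop p a * b) = a * Uop p b := by
  ext n
  rw [coeff_Uop, coeff_mul, coeff_mul]
  symm
  apply Finset.sum_of_injOn (fun x : ℕ × ℕ => (p * x.1, p * x.2))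
  · intro x _ y _ hxy
    simp only [Prod.mk.injEq] at hxy
    exact Prod.ext (Nat.eq_of_mul_eq_mul_left hp hxy.1) (Nat.eq_of_mul_eq_mul_left hp hxy.2)
  · intro x hx
    rw [Finset.mem_coe, Finset.HasAntidiagonal.mem_antidiagonal] at hx ⊢
    simp only
    rw [← hx]; ring
  · rintro ⟨i, j⟩ hij hnot
    rw [Finset.HasAntidiagonal.mem_antidiagonal] at hij
    simp only at hij
    rw [coeff_Vop]
    split_ifs with hd
    · exfalso
      apply hnot
      obtain ⟨i', rfl⟩ := hd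
      have hj : j = p * (n - i') := by
        rw [Nat.mul_sub]; omega
      have hle : i' ≤ n := by
        by_contra hlt
        have : p * n < p * i' := Nat.mul_lt_mul_of_pos_left (by omega) hp
        omega
      refine ⟨(i', n - i'), ?_, ?_⟩
      · rw [Finset.mem_coe, Finset.HasAntidiagonal.mem_antidiagonal]
        simp only
        omega
      · simp only [hj]
    · rw [zero_mul]
  · rintro ⟨i, j⟩ _
    simp only [coeff_Uop, coeff_Vop, dvd_mul_right, if_true, Nat.mul_div_cancel_left _ hp]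

theorem Uop_mul_Vop {p : ℕ} (hp : 0 < p) (a b : PowerSeries R) :
    Uop p (b * Vop p a) = Uop p b * a := by
  rw [mul_comm, Uop_Vop_mul hp, mul_comm]

theorem Uop_Vop {p : ℕ} (hp : 0 < p) (a : PowerSeries R) : Uop p (Vop p a) = a := by
  ext n
  simp only [coeff_Uop, coeff_Vop, dvd_mul_right, if_true, Nat.mul_div_cancel_left _ hp]

theorem Vop_injective {p : ℕ} (hp : 0 < p) : Function.Injective (Vop p : PowerSeries R → _) :=
  Function.LeftInverse.injective (Uop_Vop hp)

theorem Vop_add (p : ℕ) (a b : PowerSeries R) : Vop p (a + b) = Vop p a + Vop p b := by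
  ext n
  simp only [coeff_Vop, map_add]
  split_ifs <;> simp

theorem Vop_sub (p : ℕ) (a b : PowerSeries R) : Vop p (a - b) = Vop p a - Vop p b := by
  ext n
  simp only [coeff_Vop, map_sub]
  split_ifs <;> simp

theorem Vop_neg (p : ℕ) (a : PowerSeries R) : Vop p (-a) = -Vop p a := by
  ext n
  simp only [coeff_Vop, map_neg]
  split_ifs <;> simp

theorem Vop_zero (p : ℕ) : Vop p (0 : PowerSeries R) = 0 := by
  ext n
  simp [coeff_Vop]

theorem Vop_smul (p : ℕ) (c : R) (a : PowerSeries R) : Vop p (c • a) = c • Vop p a := by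
  ext n
  simp only [coeff_Vop, coeff_smul]
  split_ifs <;> simp

theorem Vop_mul {p : ℕ} (hp : 0 < p) (a b : PowerSeries R) :
    Vop p (a * b) = Vop p a * Vop p b := by
  simp only [Vop_eq_expand hp.ne', map_mul]

theorem Vop_pow {p : ℕ} (hp : 0 < p) (a : PowerSeries R) (n : ℕ) :
    Vop p (a ^ n) = Vop p a ^ n := by
  simp only [Vop_eq_expand hp.ne', map_pow]

theorem Vop_one {p : ℕ} (hp : 0 < p) : Vop p (1 : PowerSeries R) = 1 := by
  simp only [Vop_eq_expand hp.ne', map_one]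

theorem Vop_C {p : ℕ} (hp : 0 < p) (c : R) : Vop p (C c : PowerSeries R) = C c := by
  rw [Vop_eq_expand hp.ne', expand_C]

theorem Vop_prod {p : ℕ} (hp : 0 < p) {ι : Type*} (s : Finset ι) (a : ι → PowerSeries R) :
    Vop p (∏ i ∈ s, a i) = ∏ i ∈ s, Vop p (a i) := by
  simp only [Vop_eq_expand hp.ne', map_prod]

theorem coeff_zero_Vop (p : ℕ) (a : PowerSeries R) : coeff 0 (Vop p a) = coeff 0 a := by
  simp [coeff_Vop]

theorem coeff_one_Vop {p : ℕ} (hp : 1 < p) (a : PowerSeries R) : coeff 1 (Vop p a) = 0 := by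
  rw [coeff_Vop, if_neg]
  rw [Nat.dvd_one]; omega

theorem coeff_p_Vop {p : ℕ} (hp : 0 < p) (a : PowerSeries R) :
    coeff p (Vop p a) = coeff 1 a := by
  rw [coeff_Vop, if_pos dvd_rfl, Nat.div_self hp]

theorem coeff_mul_Vop {p : ℕ} (hp : 0 < p) (n : ℕ) (a : PowerSeries R) :
    coeff (p * n) (Vop p a) = coeff n a := by
  rw [coeff_Vop, if_pos (dvd_mul_right p n), Nat.mul_div_cancel_left _ hp]

theorem coeff_Vop_of_not_dvd {p n : ℕ} (h : ¬ p ∣ n) (a : PowerSeries R) :
    coeff n (Vop p a) = 0 := by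
  rw [coeff_Vop, if_neg h]

theorem theta_add (a b : PowerSeries R) : theta (a + b) = theta a + theta b := by
  ext n; simp [mul_add]

theorem theta_sub (a b : PowerSeries R) : theta (a - b) = theta a - theta b := by
  ext n; simp [mul_sub]

theorem theta_neg (a : PowerSeries R) : theta (-a) = -theta a := by
  ext n; simp

theorem theta_zero : theta (0 : PowerSeries R) = 0 := by
  ext n; simp

theorem theta_smul (c : R) (a : PowerSeries R) : theta (c • a) = c • theta a := by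
  ext n; simp [mul_left_comm]

theorem theta_C (c : R) : theta (C c : PowerSeries R) = 0 := by
  ext n
  rw [coeff_theta, coeff_C]
  split_ifs with h
  · subst h; simp
  · simp

theorem theta_one : theta (1 : PowerSeries R) = 0 := by
  have := theta_C (R := R) 1
  simpa using this

theorem theta_mul (a b : PowerSeries R) : theta (a * b) = theta a * b + a * theta b := by
  ext n
  rw [coeff_theta, map_add, coeff_mul, coeff_mul, coeff_mul, Finset.mul_sum,
    ← Finset.sum_add_distrib]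
  apply Finset.sum_congr rfl
  rintro ⟨i, j⟩ hij
  rw [Finset.HasAntidiagonal.mem_antidiagonal] at hij
  simp only at hij
  simp only [coeff_theta]
  rw [← hij]
  push_cast
  ring

theorem theta_pow (a : PowerSeries R) (n : ℕ) :
    theta (a ^ (n + 1)) = ((n + 1 : ℕ) : R) • (a ^ n * theta a) := by
  induction n with
  | zero => simp
  | succ n ih =>
    rw [pow_succ, theta_mul, ih]
    simp only [smul_eq_C_mul]
    push_cast
    simp only [map_add, map_one]
    ring

theorem theta_Vop (p : ℕ) (a : PowerSeries R) : theta (Vop p a) = (p : R) • Vop p (theta a) := by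
  ext n
  simp only [coeff_theta, coeff_Vop, coeff_smul, smul_eq_mul]
  split_ifs with h
  · obtain ⟨m, rfl⟩ := h
    rcases Nat.eq_zero_or_pos p with rfl | hp
    · simp
    · rw [Nat.mul_div_cancel_left _ hp]
      push_cast; ring
  · simp

theorem Uop_theta (p : ℕ) (a : PowerSeries R) : Uop p (theta a) = (p : R) • theta (Uop p a) := by
  ext n
  simp only [coeff_theta, coeff_Uop, coeff_smul, smul_eq_mul]
  push_cast; ring

end Formal

/-! ## congruences between divisor sums -/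

namespace DELTAINT

theorem dvd_pow5_sub_pow3 (d : ℤ) : (24 : ℤ) ∣ d ^ 5 - d ^ 3 := by
  have h : ∀ x : ZMod 24, x ^ 5 - x ^ 3 = 0 := by decide
  have h' : ((d ^ 5 - d ^ 3 : ℤ) : ZMod 24) = 0 := by
    push_cast; exact h _
  exact_mod_cast (ZMod.intCast_zmod_eq_zero_iff_dvd _ 24).1 h'

theorem dvd_pow3_sub (d : ℤ) : (6 : ℤ) ∣ d ^ 3 - d := by
  have h : ∀ x : ZMod 6, x ^ 3 - x = 0 := by decide
  have h' : ((d ^ 3 - d : ℤ) : ZMod 6) = 0 := by
    push_cast; exact h _
  exact_mod_cast (ZMod.intCast_zmod_eq_zero_iff_dvd _ 6).1 h'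

/-- `(σ₅(n) - σ₃(n)) / 24`. -/
def wfun (n : ℕ) : ℤ := ∑ d ∈ n.divisors, ((d : ℤ) ^ 5 - (d : ℤ) ^ 3) / 24

/-- `(σ₃(n) - σ₁(n)) / 6`. -/
def wfun' (n : ℕ) : ℤ := ∑ d ∈ n.divisors, ((d : ℤ) ^ 3 - (d : ℤ)) / 6

theorem sigma5_eq (n : ℕ) :
    ((ArithmeticFunction.sigma 5 n : ℕ) : ℤ) = (ArithmeticFunction.sigma 3 n : ℕ) + 24 * wfun n := by
  rw [ArithmeticFunction.sigma_apply, ArithmeticFunction.sigma_apply, wfun, Finset.mul_sum]
  push_cast
  rw [← Finset.sum_add_distrib]
  apply Finset.sum_congr rfl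
  intro d _
  rw [Int.mul_ediv_cancel' (dvd_pow5_sub_pow3 d)]
  ring

theorem sigma3_eq (n : ℕ) :
    ((ArithmeticFunction.sigma 3 n : ℕ) : ℤ) = (ArithmeticFunction.sigma 1 n : ℕ) + 6 * wfun' n := by
  rw [ArithmeticFunction.sigma_apply, ArithmeticFunction.sigma_apply, wfun', Finset.mul_sum]
  push_cast
  rw [← Finset.sum_add_distrib]
  apply Finset.sum_congr rfl
  intro d _
  rw [Int.mul_ediv_cancel' (dvd_pow3_sub d)]
  ring

/-- the integral version of `sig k`. -/
def sigZ (k : ℕ) : PowerSeries ℤ := PowerSeries.mk fun n => ((ArithmeticFunction.sigma k n : ℕ) : ℤ)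

def wZ : PowerSeries ℤ := PowerSeries.mk wfun

def wZ' : PowerSeries ℤ := PowerSeries.mk wfun'

theorem sig_eq_map (k : ℕ) : sig k = PowerSeries.map (Int.castRingHom ℂ) (sigZ k) := by
  ext n
  simp [sig, sigZ]

theorem sigZ5_eq : sigZ 5 = sigZ 3 + 24 * wZ := by
  ext n
  have h24 : (24 : PowerSeries ℤ) = C 24 := (map_ofNat _ 24).symm
  rw [map_add, h24, coeff_C_mul]
  simp only [sigZ, wZ, coeff_mk]
  exact sigma5_eq n

theorem sigZ3_eq : sigZ 3 = sigZ 1 + 6 * wZ' := by
  ext n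
  have h6 : (6 : PowerSeries ℤ) = C 6 := (map_ofNat _ 6).symm
  rw [map_add, h6, coeff_C_mul]
  simp only [sigZ, wZ', coeff_mk]
  exact sigma3_eq n

theorem coeff_zero_sigZ (k : ℕ) : coeff 0 (sigZ k) = 0 := by simp [sigZ]

theorem coeff_one_sigZ (k : ℕ) : coeff 1 (sigZ k) = 1 := by simp [sigZ]

theorem coeff_zero_wZ : coeff 0 wZ = 0 := by simp [wZ, wfun]

theorem coeff_one_wZ : coeff 1 wZ = 0 := by simp [wZ, wfun]

/-- the integral `Δ`. -/
def DeltaZ : PowerSeries ℤ :=
  sigZ 3 + 14 * wZ + 100 * sigZ 3 ^ 2 + 8000 * sigZ 3 ^ 3 - 147 * (sigZ 3 + 24 * wZ) ^ 2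

end DELTAINT

open DELTAINT

/-- (1) `σ₅ = σ₃ + 24 w` with `w` integral. -/
theorem exists_w : ∃ w : PowerSeries ℂ, (∀ n, ∃ c : ℤ, coeff n w = c) ∧ sig 5 = sig 3 + 24 * w := by
  refine ⟨PowerSeries.map (Int.castRingHom ℂ) wZ, fun n => ⟨coeff n wZ, by simp⟩, ?_⟩
  rw [sig_eq_map, sig_eq_map, sigZ5_eq]
  simp only [map_add, map_mul, map_ofNat]

/-- (4) `σ₃ = σ₁ + 6 w'` with `w'` integral. -/
theorem exists_w'_six :
    ∃ w : PowerSeries ℂ, (∀ n, ∃ c : ℤ, coeff n w = c) ∧ sig 3 = sig 1 + 6 * w := by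
  refine ⟨PowerSeries.map (Int.castRingHom ℂ) wZ', fun n => ⟨coeff n wZ', by simp⟩, ?_⟩
  rw [sig_eq_map, sig_eq_map, sigZ3_eq]
  simp only [map_add, map_mul, map_ofNat]

/-- (4) `σ₃ = σ₁ + 3 w'` with `w'` integral. -/
theorem exists_w' :
    ∃ w : PowerSeries ℂ, (∀ n, ∃ c : ℤ, coeff n w = c) ∧ sig 3 = sig 1 + 3 * w := by
  refine ⟨PowerSeries.map (Int.castRingHom ℂ) (2 * wZ'), fun n => ⟨coeff n (2 * wZ'), by
    rw [coeff_map, eq_intCast]⟩, ?_⟩
  rw [sig_eq_map, sig_eq_map, sigZ3_eq]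
  simp only [map_add, map_mul, map_ofNat]
  ring

/-- (2) the formal `Δ` without denominators. -/
theorem Deltaf_eq (w : PowerSeries ℂ) (h : sig 5 = sig 3 + 24 * w) :
    Deltaf = sig 3 + 14 * w + 100 * sig 3 ^ 2 + 8000 * sig 3 ^ 3 - 147 * (sig 3 + 24 * w) ^ 2 := by
  have hC : ∀ c : ℂ, ∀ a : PowerSeries ℂ, c • a = C c * a := fun c a => smul_eq_C_mul a c
  have e1 : (C (1728 : ℂ)⁻¹ : PowerSeries ℂ) * 1728 = 1 := by
    have : (1728 : PowerSeries ℂ) = C 1728 := (map_ofNat _ 1728).symm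
    rw [this, ← map_mul]
    norm_num
  have e240 : (C (240 : ℂ) : PowerSeries ℂ) = 240 := map_ofNat _ 240
  have e504 : (C (504 : ℂ) : PowerSeries ℂ) = 504 := map_ofNat _ 504
  rw [Deltaf, E4f, E6f, h, hC, hC, hC, e240, e504]
  have key : ((1 : PowerSeries ℂ) + 240 * sig 3) ^ 3 - (1 - 504 * (sig 3 + 24 * w)) ^ 2
      = 1728 * (sig 3 + 14 * w + 100 * sig 3 ^ 2 + 8000 * sig 3 ^ 3
          - 147 * (sig 3 + 24 * w) ^ 2) := by ring
  rw [key, ← mul_assoc, e1, one_mul]

theorem Deltaf_eq_map : Deltaf = PowerSeries.map (Int.castRingHom ℂ) DeltaZ := by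
  have h : sig 5 = sig 3 + 24 * PowerSeries.map (Int.castRingHom ℂ) wZ := by
    rw [sig_eq_map, sig_eq_map, sigZ5_eq]
    simp only [map_add, map_mul, map_ofNat]
  rw [Deltaf_eq _ h, DeltaZ, sig_eq_map]
  simp only [map_add, map_sub, map_mul, map_pow, map_ofNat]

theorem coeff_zero_DeltaZ : coeff 0 DeltaZ = 0 := by
  simp only [DeltaZ, coeff_zero_eq_constantCoeff, map_add, map_sub, map_mul, map_pow]
  simp only [← coeff_zero_eq_constantCoeff, coeff_zero_sigZ, coeff_zero_wZ]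
  simp

theorem coeff_one_DeltaZ : coeff 1 DeltaZ = 1 := by
  have hsq : ∀ a : PowerSeries ℤ, coeff 0 a = 0 → coeff 1 (a ^ 2) = 0 := by
    intro a ha
    rw [sq, coeff_mul, Finset.Nat.antidiagonal_succ]
    simp [ha]
  have hcu : ∀ a : PowerSeries ℤ, coeff 0 a = 0 → coeff 1 (a ^ 3) = 0 := by
    intro a ha
    have ha' : constantCoeff a = 0 := by rw [← coeff_zero_eq_constantCoeff]; exact ha
    rw [pow_succ, coeff_mul, Finset.Nat.antidiagonal_succ]
    simp [ha, ha', hsq a ha]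
  have hn : ∀ (c : ℤ) (a : PowerSeries ℤ), coeff 1 (C c * a) = c * coeff 1 a :=
    fun c a => coeff_C_mul 1 a c
  have h14 : (14 : PowerSeries ℤ) = C 14 := (map_ofNat _ 14).symm
  have h100 : (100 : PowerSeries ℤ) = C 100 := (map_ofNat _ 100).symm
  have h8000 : (8000 : PowerSeries ℤ) = C 8000 := (map_ofNat _ 8000).symm
  have h147 : (147 : PowerSeries ℤ) = C 147 := (map_ofNat _ 147).symm
  have h24 : (24 : PowerSeries ℤ) = C 24 := (map_ofNat _ 24).symm
  have h0 : coeff 0 (sigZ 3 + C 24 * wZ) = 0 := by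
    rw [map_add, coeff_C_mul, coeff_zero_sigZ, coeff_zero_wZ]; simp
  rw [DeltaZ, h14, h100, h8000, h147, h24, map_sub, map_add, map_add, map_add, hn, hn, hn, hn,
    hsq _ (coeff_zero_sigZ 3), hcu _ (coeff_zero_sigZ 3), hsq _ h0, coeff_one_sigZ, coeff_one_wZ]
  simp

/-- (3) `Δ` has integer coefficients, `Δ = q + ...`. -/
theorem Deltaf_int : Stmt_Deltaf_int := by
  refine ⟨fun n => coeff n DeltaZ, coeff_zero_DeltaZ, coeff_one_DeltaZ, ?_⟩
  rw [Deltaf_eq_map]
  ext n
  simp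

end

end Fermat.Agent.S16
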