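import Fermat.Agent.S16.BInterface

/-!
# S16 (B), work package B01 `QE1`: API for `HasQE`
-/

set_option autoImplicit false

namespace Fermat.Agent.S16

open UpperHalfPlane ModularForm CongruenceSubgroup Matrix.SpecialLinearGroup
open scoped MatrixGroups ModularForm Manifold Real

noncomputable section

namespace QE1

theorem cuspFunction_zero_eq (h : ℝ) : cuspFunction h (0 : ℍ → ℂ) = 0 := by
  simpa [cuspFunction, Function.Periodic.cuspFunction]
    using! (tendsto_const_nhds.mono_left nhdsWithin_le_nhds).limUnder_eq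

theorem coeff_unique_fun {h : ℝ} (f : ℍ → ℂ) {c : ℕ → ℂ} (hh : 0 < h)
    (han : AnalyticAt ℂ (cuspFunction h f) 0)
    (hf : ∀ τ : ℍ, HasSum (fun m => c m • Function.Periodic.qParam h τ ^ m) (f τ)) (m : ℕ) :
    c m = (qExpansion h f).coeff m :=
  letI : FunLike (ℍ → ℂ) ℍ ℂ := ⟨fun f => f, fun _ _ h => h⟩
  UpperHalfPlane.qExpansion_coeff_unique f hh han hf m

theorem eq_zero_of_hasQE_zero {h : ℝ} (hh : 0 < h) {c : PowerSeries ℂ}
    (hc : HasQE h (0 : ℍ → ℂ) c) : c = 0 := by
  have han : AnalyticAt ℂ (cuspFunction h (0 : ℍ → ℂ)) 0 := by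
    rw [cuspFunction_zero_eq]
    exact analyticAt_const
  have h1 : ∀ m, PowerSeries.coeff m c = (qExpansion h (0 : ℍ → ℂ)).coeff m := by
    intro m
    exact coeff_unique_fun (0 : ℍ → ℂ) (c := fun m : ℕ => PowerSeries.coeff m c) hh han hc m
  refine PowerSeries.ext ?_
  intro m
  rw [h1, qExpansion_zero]

end QE1

theorem HasQE.add {h : ℝ} {f g : ℍ → ℂ} {a b : PowerSeries ℂ} (hf : HasQE h f a)
    (hg : HasQE h g b) : HasQE h (f + g) (a + b) := by
  intro τ
  have := (hf τ).add (hg τ)
  simpa [add_smul, add_mul] using this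

theorem HasQE.smul {h : ℝ} {f : ℍ → ℂ} {a : PowerSeries ℂ} (c : ℂ) (hf : HasQE h f a) :
    HasQE h (c • f) (c • a) := by
  intro τ
  have := (hf τ).mul_left c
  simpa [mul_assoc] using this

theorem HasQE.neg {h : ℝ} {f : ℍ → ℂ} {a : PowerSeries ℂ} (hf : HasQE h f a) :
    HasQE h (-f) (-a) := by
  intro τ
  have := (hf τ).neg
  simpa using this

theorem HasQE.sub {h : ℝ} {f g : ℍ → ℂ} {a b : PowerSeries ℂ} (hf : HasQE h f a)
    (hg : HasQE h g b) : HasQE h (f - g) (a - b) := by
  intro τ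
  have := (hf τ).sub (hg τ)
  simpa [sub_smul, sub_mul] using this

theorem HasQE.const (h : ℝ) (c : ℂ) : HasQE h (fun _ => c) (PowerSeries.C c) := by
  intro τ
  have := hasSum_single (f := fun m : ℕ => PowerSeries.coeff m (PowerSeries.C c) •
    Function.Periodic.qParam h τ ^ m) 0 (by
      intro m hm
      simp [PowerSeries.coeff_C, hm])
  simpa using this

theorem HasQE.zero (h : ℝ) : HasQE h 0 0 := by
  intro τ
  simp [hasSum_zero]

theorem HasQE.one (h : ℝ) : HasQE h 1 1 := by
  have := HasQE.const h 1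
  rw [map_one] at this
  exact this

theorem HasQE.mul {h : ℝ} {f g : ℍ → ℂ} {a b : PowerSeries ℂ} (hf : HasQE h f a)
    (hg : HasQE h g b) : HasQE h (f * g) (a * b) := by
  intro τ
  have h1 := (hf τ)
  have h2 := (hg τ)
  have s1 : Summable fun m : ℕ => ‖PowerSeries.coeff m a • Function.Periodic.qParam h τ ^ m‖ :=
    summable_norm_iff.mpr h1.summable
  have s2 : Summable fun m : ℕ => ‖PowerSeries.coeff m b • Function.Periodic.qParam h τ ^ m‖ :=
    summable_norm_iff.mpr h2.summable
  have key := tsum_mul_tsum_eq_tsum_sum_antidiagonal_of_summable_norm s1 s2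
  have sm := (summable_norm_sum_mul_antidiagonal_of_summable_norm s1 s2).of_norm
  have e : (fun m : ℕ => PowerSeries.coeff m (a * b) • Function.Periodic.qParam h τ ^ m) =
      fun n : ℕ => ∑ kl ∈ Finset.HasAntidiagonal.antidiagonal n,
        (PowerSeries.coeff kl.1 a • Function.Periodic.qParam h τ ^ kl.1) *
          (PowerSeries.coeff kl.2 b • Function.Periodic.qParam h τ ^ kl.2) := by
    funext n
    rw [PowerSeries.coeff_mul, Finset.sum_smul]
    refine Finset.sum_congr rfl ?_
    intro kl hkl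
    have : kl.1 + kl.2 = n := Finset.HasAntidiagonal.mem_antidiagonal.mp hkl
    rw [← this, pow_add]
    simp only [smul_eq_mul]
    ring
  rw [e]
  have := sm.hasSum
  rw [← key, h1.tsum_eq, h2.tsum_eq] at this
  exact this

theorem HasQE.prod {h : ℝ} {ι : Type*} (s : Finset ι) {f : ι → ℍ → ℂ} {a : ι → PowerSeries ℂ}
    (H : ∀ i ∈ s, HasQE h (f i) (a i)) : HasQE h (∏ i ∈ s, f i) (∏ i ∈ s, a i) := by
  classical
  induction s using Finset.induction_on with
  | empty => simpa using HasQE.one h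
  | insert i s hi ih =>
    rw [Finset.prod_insert hi, Finset.prod_insert hi]
    exact (H i (Finset.mem_insert_self i s)).mul
      (ih fun j hj => H j (Finset.mem_insert_of_mem hj))

theorem HasQE.sum {h : ℝ} {ι : Type*} (s : Finset ι) {f : ι → ℍ → ℂ} {a : ι → PowerSeries ℂ}
    (H : ∀ i ∈ s, HasQE h (f i) (a i)) : HasQE h (∑ i ∈ s, f i) (∑ i ∈ s, a i) := by
  classical
  induction s using Finset.induction_on with
  | empty => simpa using HasQE.zero h
  | insert i s hi ih =>
    rw [Finset.sum_insert hi, Finset.sum_insert hi]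
    exact (H i (Finset.mem_insert_self i s)).add
      (ih fun j hj => H j (Finset.mem_insert_of_mem hj))

theorem HasQE.pow {h : ℝ} {f : ℍ → ℂ} {a : PowerSeries ℂ} (hf : HasQE h f a) (n : ℕ) :
    HasQE h (f ^ n) (a ^ n) := by
  induction n with
  | zero => simpa using HasQE.one h
  | succ n ih =>
    rw [pow_succ, pow_succ]
    exact ih.mul hf

theorem HasQE.unique {h : ℝ} (hh : 0 < h) {f : ℍ → ℂ} {a b : PowerSeries ℂ} (ha : HasQE h f a)
    (hb : HasQE h f b) : a = b := by
  have := ha.sub hb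
  rw [sub_self] at this
  exact sub_eq_zero.mp (QE1.eq_zero_of_hasQE_zero hh this)

/-- two functions with the same expansion are equal. -/
theorem HasQE.fun_unique {h : ℝ} {f g : ℍ → ℂ} {a : PowerSeries ℂ} (hf : HasQE h f a)
    (hg : HasQE h g a) : f = g := by
  funext τ
  exact (hf τ).unique (hg τ)

theorem HasQE.congr_fun {h : ℝ} {f g : ℍ → ℂ} {a : PowerSeries ℂ} (hf : HasQE h f a)
    (hfg : ∀ τ, f τ = g τ) : HasQE h g a := by
  have : f = g := funext hfg
  rwa [← this]

theorem hasQE_unique : Stmt_hasQE_unique := fun _ _ _ _ hh ha hb => ha.unique hh hb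

theorem hasQE_const : Stmt_hasQE_const := fun h c => HasQE.const h c

theorem hasQE_add : Stmt_hasQE_add := fun _ _ _ _ _ hf hg => hf.add hg

theorem hasQE_smul : Stmt_hasQE_smul := fun _ c _ _ hf => hf.smul c

theorem hasQE_mul : Stmt_hasQE_mul := fun _ _ _ _ _ hf hg => hf.mul hg

theorem hasQE_prod : Stmt_hasQE_prod := fun _ _ s _ _ H => HasQE.prod s H

theorem hasQE_of_periodic : Stmt_hasQE_of_periodic := fun _ _ hh hper hhol hbdd τ =>
  hasSum_qExpansion hh hper hhol hbdd τ

end

end Fermat.Agent.S16
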