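import Fermat.Agent.S16.BInterface

/-!
# S16 (B), package B02 = QE2 : `HasQE` under `V_p`, shift, scaling, derivative; `E₂`.
-/

set_option autoImplicit false

namespace Fermat.Agent.S16

open UpperHalfPlane ModularForm CongruenceSubgroup Matrix.SpecialLinearGroup
open Fermat.Agent.S20 (IsMF IsCF)
open scoped MatrixGroups ModularForm Manifold Real

noncomputable section

namespace QE2

open Function.Periodic

theorem qParam_pow (p : ℕ) (hp : 0 < p) (z : ℂ) : qParam (p : ℝ) z ^ p = qParam 1 z := by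
  have hp' : (p : ℂ) ≠ 0 := by exact_mod_cast hp.ne'
  simp only [qParam]
  rw [← Complex.exp_nat_mul]
  congr 1
  push_cast
  field_simp

theorem hasDerivAt_qParam (h : ℝ) (z : ℂ) :
    HasDerivAt (qParam h) (2 * π * Complex.I / h * qParam h z) z := by
  have h1 : HasDerivAt (fun w : ℂ => 2 * π * Complex.I * w / h) (2 * π * Complex.I / h) z := by
    have := ((hasDerivAt_id z).const_mul (2 * π * Complex.I)).div_const (h : ℂ)
    simpa using this
  have h2 := h1.cexp
  have h3 : Complex.exp (2 * π * Complex.I * z / h) * (2 * π * Complex.I / h) =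
      2 * π * Complex.I / h * qParam h z := by
    rw [mul_comm]; rfl
  rw [h3] at h2
  exact h2

end QE2

open QE2 Function.Periodic in
theorem hasQE_Vop : Stmt_hasQE_Vop := by
  intro p f a hp h τ
  have hinj : Function.Injective (fun m : ℕ => p * m) := fun m n hmn =>
    Nat.eq_of_mul_eq_mul_left hp hmn
  rw [← hinj.hasSum_iff]
  · convert h τ using 1
    funext m
    simp only [Function.comp_apply]
    rw [coeff_Vop, if_pos (dvd_mul_right p m), Nat.mul_div_cancel_left m hp, pow_mul,
      qParam_pow p hp]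
  · intro n hn
    rw [coeff_Vop, if_neg, zero_smul]
    rintro ⟨m, rfl⟩
    exact hn ⟨m, rfl⟩

open QE2 Function.Periodic in
theorem hasQE_shift : Stmt_hasQE_shift := by
  intro p j f b hp h τ
  have hp' : (p : ℂ) ≠ 0 := by exact_mod_cast hp.ne'
  convert h ((j : ℝ) +ᵥ τ) using 1
  funext m
  rw [PowerSeries.coeff_rescale]
  have h1 : qParam (p : ℝ) (((j : ℝ) +ᵥ τ : ℍ) : ℂ) =
      Complex.exp (2 * π * Complex.I / p) ^ j * qParam (p : ℝ) τ := by
    simp only [qParam]
    rw [← Complex.exp_nat_mul, ← Complex.exp_add]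
    congr 1
    rw [UpperHalfPlane.coe_vadd]
    push_cast
    field_simp
  rw [h1, mul_pow, smul_eq_mul, smul_eq_mul]
  ring

open QE2 Function.Periodic in
theorem hasQE_scale : Stmt_hasQE_scale := by
  intro p f g b hp h hg τ
  have hp' : (p : ℂ) ≠ 0 := by exact_mod_cast hp.ne'
  have him : 0 < ((p : ℂ) * (τ : ℂ)).im := by
    have : ((p : ℂ) * (τ : ℂ)).im = p * τ.im := by simp
    rw [this]
    exact mul_pos (by exact_mod_cast hp) τ.im_pos
  set τ' : ℍ := ⟨(p : ℂ) * τ, him⟩ with hτ'
  rw [hg τ τ' rfl]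
  convert h τ' using 1
  funext m
  have h1 : qParam (p : ℝ) (τ' : ℂ) = qParam 1 (τ : ℂ) := by
    simp only [qParam, hτ']
    congr 1
    push_cast
    field_simp
  rw [h1]

open QE2 Function.Periodic in
theorem hasQE_deriv : Stmt_hasQE_deriv := by
  intro h f a hh hf τ
  have hh' : (h : ℂ) ≠ 0 := by exact_mod_cast hh.ne'
  set c : ℝ := τ.im / 2 with hc
  have hc0 : 0 < c := half_pos τ.im_pos
  have hcim : 0 < ((c : ℂ) * Complex.I).im := by simpa using hc0
  set τc : ℍ := ⟨(c : ℂ) * Complex.I, hcim⟩ with hτc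
  set U : Set ℂ := {z | c < z.im} with hUdef
  have hU : IsOpen U := isOpen_lt continuous_const Complex.continuous_im
  have hz : (τ : ℂ) ∈ U := by
    change c < τ.im
    exact half_lt_self τ.im_pos
  set F : ℕ → ℂ → ℂ := fun m z => PowerSeries.coeff m a • qParam h z ^ m with hF
  set u : ℕ → ℝ := fun m => ‖PowerSeries.coeff m a • qParam h (τc : ℂ) ^ m‖ with hu
  have hus : Summable u := (hf τc).summable.norm
  have hFd : ∀ m, DifferentiableOn ℂ (F m) U := fun m =>
    (((differentiable_qParam (h := h)).fun_pow m).fun_const_smul _).differentiableOn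
  have hle : ∀ (m : ℕ) (w : ℂ), w ∈ U → ‖F m w‖ ≤ u m := by
    intro m w hw
    simp only [hF, hu, norm_smul, norm_pow]
    gcongr
    rw [norm_qParam, norm_qParam]
    apply Real.exp_le_exp.mpr
    have h1 : ((τc : ℍ) : ℂ).im = c := by simp [hτc]
    rw [h1]
    have hw' : c < w.im := hw
    apply div_le_div_of_nonneg_right _ hh.le
    nlinarith [Real.pi_pos]
  have key := Complex.hasSum_deriv_of_summable_norm hus hFd hU hle hz
  have e1 : deriv (fun w : ℂ => ∑' m : ℕ, F m w) (τ : ℂ) = deriv (f ∘ ofComplex) (τ : ℂ) := by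
    apply Filter.EventuallyEq.deriv_eq
    filter_upwards [hU.mem_nhds hz] with w hw
    have hw0 : 0 < w.im := hc0.trans hw
    have h2 := (hf ⟨w, hw0⟩).tsum_eq
    simp only [Function.comp_apply, ofComplex_apply_of_im_pos hw0]
    exact h2
  have e2 : ∀ m : ℕ, deriv (F m) (τ : ℂ) =
      (2 * π * Complex.I) * (PowerSeries.coeff m ((h : ℂ)⁻¹ • theta a) • qParam h (τ : ℂ) ^ m) := by
    intro m
    have h3 := ((hasDerivAt_qParam h (τ : ℂ)).pow m).const_smul (PowerSeries.coeff m a)
    rw [show deriv (F m) (τ : ℂ) = _ from h3.deriv]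
    simp only [PowerSeries.coeff_smul, coeff_theta, smul_eq_mul]
    rcases Nat.eq_zero_or_pos m with rfl | hm
    · simp
    · obtain ⟨n, rfl⟩ := Nat.exists_eq_succ_of_ne_zero hm.ne'
      simp only [Nat.succ_eq_add_one, Nat.add_sub_cancel, pow_succ]
      field_simp
  rw [e1] at key
  have hpi : (2 * π * Complex.I : ℂ) ≠ 0 := by simp [Real.pi_ne_zero]
  have key2 := key.mul_left (2 * π * Complex.I : ℂ)⁻¹
  simp only [e2] at key2
  simp only [Derivative.normalizedDerivOfComplex]
  have e3 : (fun i : ℕ => (2 * π * Complex.I : ℂ)⁻¹ * (2 * π * Complex.I *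
      PowerSeries.coeff i ((h : ℂ)⁻¹ • theta a) • qParam h (τ : ℂ) ^ i)) =
      fun m : ℕ => PowerSeries.coeff m ((h : ℂ)⁻¹ • theta a) • qParam h (τ : ℂ) ^ m := by
    funext m
    rw [← mul_assoc, inv_mul_cancel₀ hpi, one_mul]
  rw [e3] at key2
  exact key2

theorem hasQE_E2 : Stmt_hasQE_E2 := by
  intro τ
  have h := EisensteinSeries.hasSum_qExpansion_E2 (z := τ)
  convert h using 1
  funext m
  have h1 : Function.Periodic.qParam 1 (τ : ℂ) = Complex.exp (2 * π * Complex.I * τ) := by
    simp [Function.Periodic.qParam]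
  rw [h1]
  congr 1
  simp only [E2f, sig, map_sub, PowerSeries.coeff_one, PowerSeries.coeff_smul, PowerSeries.coeff_mk,
    smul_eq_mul]
  split_ifs with h0
  · subst h0
    simp
  · ring

end

end Fermat.Agent.S16
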