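import Fermat.Agent.S16.BDefs
import Fermat.Prelude.Def_FLTPrelim_Modularity
import Fermat.Prelude.Def_ModularCurve_ModularUnit

/-!
# S16, part (B): interface (work packages)

Each `Stmt_X : Prop` is (part of) a work package: prove `theorem X : Stmt_X` in the file named in
the task (table `tasks`, team `S16`), possibly with other `Stmt_Y` as explicit hypotheses
`(hY : Stmt_Y)`.  Mathematics: report #482 / #502.

Layers:
* (QE)  API for `HasQE`                                   -- analytic, elementary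
* (AN)  closure properties of `PairMF`, `L1`              -- analytic / group theoretic
* (FO)  `OO ℓ`, integrality and congruences of series     -- algebra
* (FM)  formal consequences: F1, STURM, VAL, D, P, V5, V3, V2, ARITH, B_main
-/

set_option autoImplicit false

namespace Fermat.Agent.S16

open UpperHalfPlane ModularForm CongruenceSubgroup Matrix.SpecialLinearGroup
open Fermat.Agent.S20 (IsMF IsCF)
open scoped MatrixGroups ModularForm Manifold Real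

noncomputable section

/-! ## (QE) API for `HasQE` -/

def Stmt_hasQE_unique : Prop :=
  ∀ (h : ℝ) (f : ℍ → ℂ) (a b : PowerSeries ℂ), 0 < h → HasQE h f a → HasQE h f b → a = b

def Stmt_hasQE_const : Prop := ∀ (h : ℝ) (c : ℂ), HasQE h (fun _ => c) (PowerSeries.C c)

def Stmt_hasQE_add : Prop :=
  ∀ (h : ℝ) (f g : ℍ → ℂ) (a b : PowerSeries ℂ), HasQE h f a → HasQE h g b → HasQE h (f + g) (a + b)

def Stmt_hasQE_smul : Prop :=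
  ∀ (h : ℝ) (c : ℂ) (f : ℍ → ℂ) (a : PowerSeries ℂ), HasQE h f a → HasQE h (c • f) (c • a)

def Stmt_hasQE_mul : Prop :=
  ∀ (h : ℝ) (f g : ℍ → ℂ) (a b : PowerSeries ℂ), HasQE h f a → HasQE h g b → HasQE h (f * g) (a * b)

def Stmt_hasQE_prod : Prop :=
  ∀ (h : ℝ) (ι : Type) (s : Finset ι) (f : ι → ℍ → ℂ) (a : ι → PowerSeries ℂ),
    (∀ i ∈ s, HasQE h (f i) (a i)) → HasQE h (∏ i ∈ s, f i) (∏ i ∈ s, a i)

/-- (this is Mathlib's `UpperHalfPlane.hasSum_qExpansion`) -/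
def Stmt_hasQE_of_periodic : Prop :=
  ∀ (h : ℝ) (f : ℍ → ℂ), 0 < h → Function.Periodic (f ∘ ofComplex) (h : ℂ) → MDiff f →
    IsBoundedAtImInfty f → HasQE h f (qExpansion h f)

/-- an expansion in `q` is an expansion in `x = q^{1/p}`. -/
def Stmt_hasQE_Vop : Prop :=
  ∀ (p : ℕ) (f : ℍ → ℂ) (a : PowerSeries ℂ), 0 < p → HasQE 1 f a → HasQE p f (Vop p a)

/-- `τ ↦ f (τ + j)` has expansion `b(ζ^j x)`, `ζ = e(1/p)`. -/
def Stmt_hasQE_shift : Prop :=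
  ∀ (p : ℕ) (j : ℕ) (f : ℍ → ℂ) (b : PowerSeries ℂ), 0 < p → HasQE p f b →
    HasQE p (fun τ => f ((j : ℝ) +ᵥ τ))
      (PowerSeries.rescale (Complex.exp (2 * π * Complex.I / p) ^ j) b)

/-- if `g (τ) = f (p τ)` then the `x`-expansion of `f` is the `q`-expansion of `g`. -/
def Stmt_hasQE_scale : Prop :=
  ∀ (p : ℕ) (f g : ℍ → ℂ) (b : PowerSeries ℂ), 0 < p → HasQE p f b →
    (∀ τ τ' : ℍ, (τ' : ℂ) = p * τ → g τ = f τ') → HasQE 1 g b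

def Stmt_hasQE_deriv : Prop :=
  ∀ (h : ℝ) (f : ℍ → ℂ) (a : PowerSeries ℂ), 0 < h → HasQE h f a →
    HasQE h (Derivative.normalizedDerivOfComplex f) ((h : ℂ)⁻¹ • theta a)

def Stmt_hasQE_E2 : Prop := HasQE 1 EisensteinSeries.E2 E2f

/-! ## (AN) closure properties of `PairMF` and `L1` -/

/-- coset representatives of `Γ₀(p) \ SL(2,ℤ)`: `1` and `S T^j`, `0 ≤ j < p`. -/
def Stmt_coset : Prop :=
  ∀ p : ℕ, p.Prime → ∀ γ : SL(2, ℤ), γ ∈ Gamma0 p ∨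
    ∃ j : ℕ, j < p ∧ ∃ γ₀ ∈ Gamma0 p, γ = γ₀ * (ModularGroup.S * ModularGroup.T ^ j)

/-- The `p + 1` conjugates of `H`. -/
def conjFam (p : ℕ) (k : ℤ) (H : ℍ → ℂ) : Option (Fin p) → ℍ → ℂ
  | none => H
  | some j => H ∣[k] (ModularGroup.S * ModularGroup.T ^ (j : ℕ))

/-- `SL(2,ℤ)` permutes the conjugates. -/
def Stmt_perm : Prop :=
  ∀ p : ℕ, p.Prime → ∀ (k : ℤ) (H : ℍ → ℂ), (∀ γ ∈ Gamma0 p, H ∣[k] γ = H) →
    ∀ γ : SL(2, ℤ), ∃ σ : Equiv.Perm (Option (Fin p)),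
      ∀ i, conjFam p k H i ∣[k] γ = conjFam p k H (σ i)

/-- every form has a pair of expansions. -/
def Stmt_exists_pair : Prop :=
  ∀ p : ℕ, p.Prime → ∀ (k : ℤ) (H : ℍ → ℂ), IsMF (Gamma0 p) k H →
    ∃ b, HasPair p k H (qExpansion 1 H) b

def Stmt_pair_add : Prop :=
  ∀ (p : ℕ) (k : ℤ) (a b a' b' : PowerSeries ℂ), PairMF p k a b → PairMF p k a' b' →
    PairMF p k (a + a') (b + b')

def Stmt_pair_smul : Prop :=
  ∀ (p : ℕ) (k : ℤ) (c : ℂ) (a b : PowerSeries ℂ), PairMF p k a b → PairMF p k (c • a) (c • b)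

def Stmt_pair_mul : Prop :=
  ∀ (p : ℕ) (k k' : ℤ) (a b a' b' : PowerSeries ℂ), PairMF p k a b → PairMF p k' a' b' →
    PairMF p (k + k') (a * a') (b * b')

def Stmt_L1_add : Prop :=
  ∀ (k : ℤ) (a a' : PowerSeries ℂ), L1 k a → L1 k a' → L1 k (a + a')

def Stmt_L1_smul : Prop := ∀ (k : ℤ) (c : ℂ) (a : PowerSeries ℂ), L1 k a → L1 k (c • a)

def Stmt_L1_mul : Prop :=
  ∀ (k k' : ℤ) (a a' : PowerSeries ℂ), L1 k a → L1 k' a' → L1 (k + k') (a * a')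

def Stmt_L1_one : Prop := L1 0 1

/-- a level one form `F` has pair `(F(q), F(x^p))`. -/
def Stmt_pair_of_L1 : Prop :=
  ∀ p : ℕ, p.Prime → ∀ (k : ℤ) (a : PowerSeries ℂ), L1 k a → PairMF p k a (Vop p a)

/-- (W) Fricke: `H^W(τ) = (H ∣[k] S)(p τ)` has pair `(h_0, (-p)^{-k} h_∞)`. -/
def Stmt_W : Prop :=
  ∀ p : ℕ, p.Prime → ∀ (k : ℤ) (a b : PowerSeries ℂ), PairMF p k a b →
    PairMF p k b (((-(p : ℂ)) ^ (-k)) • a)

/-- (TR) trace to level one: `H + ∑_j H ∣ S T^j` has `q`-expansion `h_∞ + p U_p h_0`. -/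
def Stmt_TR : Prop :=
  ∀ p : ℕ, p.Prime → ∀ (k : ℤ) (a b : PowerSeries ℂ), PairMF p k a b →
    L1 k (a + (p : ℂ) • Uop p b)

/-- (NM) norm to level one: `H · ∏_j H ∣ S T^j`. -/
def Stmt_NM : Prop :=
  ∀ p : ℕ, p.Prime → ∀ (k : ℤ) (a b : PowerSeries ℂ), PairMF p k a b →
    ∃ c, L1 (k * (p + 1)) c ∧
      Vop p c = Vop p a *
        ∏ j ∈ Finset.range p, PowerSeries.rescale (Complex.exp (2 * π * Complex.I / p) ^ j) b

/-- (SD) Serre derivative. -/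
def Stmt_SD : Prop :=
  ∀ p : ℕ, p.Prime → ∀ (k : ℤ) (a b : PowerSeries ℂ), PairMF p k a b →
    PairMF p (k + 2) (theta a - ((k : ℂ) / 12) • (E2f * a))
      ((p : ℂ)⁻¹ • theta b - ((k : ℂ) / 12) • (Vop p E2f * b))

/-- (EIS) `(p-1)/24 + ∑ σ'(n) q^n ∈ M₂(Γ₀(p))`  (it is `(p E₂(pτ) - E₂(τ))/24`). -/
def Stmt_EIS : Prop := ∀ p : ℕ, p.Prime → ∃ b, PairMF p 2 (EisP p) b

/-- (CUSP) link with Mathlib's cusp forms. -/
def Stmt_pair_of_cuspForm : Prop :=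
  ∀ p : ℕ, p.Prime → ∀ f : CuspForm (Gamma0 p) 2, ∃ b, PairMF p 2 (qExpansion 1 f) b

/-! ### level one -/

def Stmt_L1_E4 : Prop := L1 4 E4f
def Stmt_L1_E6 : Prop := L1 6 E6f
def Stmt_L1_neg : Prop := ∀ (k : ℤ) (a : PowerSeries ℂ), k < 0 → L1 k a → a = 0
def Stmt_L1_zero : Prop := ∀ a : PowerSeries ℂ, L1 0 a → a = PowerSeries.C (PowerSeries.coeff 0 a)
def Stmt_L1_two : Prop := ∀ a : PowerSeries ℂ, L1 2 a → a = 0

/-- a level one form with `a_0 = 0` is divisible by `Δ`. -/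
def Stmt_L1_div : Prop :=
  ∀ (k : ℤ) (a : PowerSeries ℂ), L1 k a → PowerSeries.coeff 0 a = 0 →
    ∃ b, L1 (k - 12) b ∧ a = Deltaf * b

/-! ## (FO) the ring `OO ℓ`, integrality, congruences -/

def Stmt_OO_int : Prop := ∀ (ℓ : ℕ) (n : ℤ), (n : ℂ) ∈ OO ℓ

/-- `1/d ∈ OO ℓ` for `d` prime to `ℓ`. -/
def Stmt_OO_inv : Prop := ∀ (ℓ d : ℕ), Nat.Coprime d ℓ → ((d : ℂ))⁻¹ ∈ OO ℓ

/-- roots of unity are in `OO ℓ`. -/
def Stmt_OO_root : Prop := ∀ (ℓ n : ℕ) (ζ : ℂ), 0 < n → ζ ^ n = 1 → ζ ∈ OO ℓ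

/-- KEY: `OO ℓ ∩ ℤ`-divisibility is ordinary divisibility. -/
def Stmt_divO_int : Prop :=
  ∀ (ℓ t : ℕ) (n : ℤ), ℓ.Prime → DivO ℓ (ℓ ^ t) (n : ℂ) → ((ℓ : ℤ) ^ t) ∣ n

/-- `Δ` has integer coefficients, `Δ = q + ...`. -/
def Stmt_Deltaf_int : Prop :=
  ∃ τ : ℕ → ℤ, τ 0 = 0 ∧ τ 1 = 1 ∧ Deltaf = PowerSeries.mk fun n => (τ n : ℂ)

/-! ## (FM) formal consequences -/

/-- (F1) the expansion at `0` of a weight two form is determined by the one at `∞`. -/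
def Stmt_F1 : Prop :=
  ∀ p : ℕ, p.Prime → ∀ a b : PowerSeries ℂ, PairMF p 2 a b → b = (-(p : ℂ)⁻¹) • Uop p a

/-- (STURM) Sturm bound in level one over `OO ℓ`. -/
def Stmt_STURM : Prop :=
  ∀ ℓ : ℕ, ℓ.Prime → ∀ (k : ℤ) (c : PowerSeries ℂ), Even k → L1 k c → IsIntS ℓ c →
    (∀ n : ℕ, 12 * (n : ℤ) ≤ k → DivO ℓ ℓ (PowerSeries.coeff n c)) →
    ∀ n, DivO ℓ ℓ (PowerSeries.coeff n c)

/-- (VAL) the valence inequality mod `ℓ`. -/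
def Stmt_VAL : Prop :=
  ∀ p ℓ : ℕ, p.Prime → p ≠ 2 → ℓ.Prime → ∀ (k : ℤ) (a b : PowerSeries ℂ) (ea eb : ℕ),
    PairMF p k a b → OrdUnit ℓ a ea → OrdUnit ℓ b eb →
    12 * ((ea : ℤ) + eb) ≤ k * (p + 1)

/-- (D) -/
def Stmt_D : Prop :=
  ∀ p ℓ t : ℕ, p.Prime → ℓ.Prime → ℓ ≠ p → Bad p ℓ t → ℓ ^ t ∣ p + 1

/-- (P) -/
def Stmt_P : Prop := ∀ p : ℕ, p.Prime → 7 ≤ p → ¬ Bad p p 1

/-- (V5) -/
def Stmt_V5 : Prop :=
  ∀ p ℓ : ℕ, p.Prime → 5 ≤ p → ℓ.Prime → 5 ≤ ℓ → ℓ ∣ p + 1 → ¬ Bad p ℓ 1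

/-- (V3) -/
def Stmt_V3 : Prop := ∀ p : ℕ, p.Prime → 5 ≤ p → 3 ∣ p + 1 → ¬ Bad p 3 2

/-- (V2) -/
def Stmt_V2 : Prop := ∀ p : ℕ, p.Prime → 5 ≤ p → 8 ∣ p + 1 → ¬ Bad p 2 3

/-- (B), formal version. -/
def Stmt_B_main : Prop :=
  ∀ p : ℕ, p.Prime → 7 ≤ p → ∀ (m : ℕ) (a b : PowerSeries ℂ), PairMF p 2 a b →
    PowerSeries.coeff 0 a = 0 →
    (∀ k : ℕ, 1 ≤ k → ∃ c : ℤ, PowerSeries.coeff k a = (sigP p k : ℂ) + (m : ℂ) * c) →
    m ∣ (p - 1) / Nat.gcd (p - 1) 12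

/-- (B), final version: what part (R) needs. -/
def Stmt_B_final : Prop :=
  ∀ p : ℕ, p.Prime → 7 ≤ p → ∀ (m : ℕ) (f : CuspForm (Gamma0 p) 2),
    (∀ k : ℕ, 1 ≤ k → ∃ c : ℤ, ModularFormClass.qCoeff f k = (sigP p k : ℂ) + (m : ℂ) * c) →
    m ∣ ModularCurve.eisensteinNumerator p

end

end Fermat.Agent.S16
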