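/-
TEAM S16 part (B), package B07 (SD): the Serre derivative on pairs of expansions.
-/
import Fermat.Agent.S16.BInterface
import Fermat.Agent.S20.Serre

set_option autoImplicit false

namespace Fermat.Agent.S16

open UpperHalfPlane ModularForm CongruenceSubgroup Matrix.SpecialLinearGroup
open Fermat.Agent.S20 (IsMF IsCF)
open scoped MatrixGroups ModularForm Manifold Real

namespace SDP

/-- expansion of the Serre derivative, any width. -/
theorem hasQE_serre (hadd : Stmt_hasQE_add) (hsmul : Stmt_hasQE_smul) (hmul : Stmt_hasQE_mul)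
    (hD : Stmt_hasQE_deriv) {h : ℝ} (hh : 0 < h) (k : ℂ) {F : ℍ → ℂ} {a e : PowerSeries ℂ}
    (hF : HasQE h F a) (hE : HasQE h EisensteinSeries.E2 e) :
    HasQE h (Derivative.serreDerivative k F) ((h : ℂ)⁻¹ • theta a - (k / 12) • (e * a)) := by
  have h1 := hD h F a hh hF
  have h2 := hsmul h (-(k / 12)) _ _ (hmul h _ _ _ _ hE hF)
  have h3 := hadd h _ _ _ _ h1 h2
  have e1 : Derivative.serreDerivative k F =
      Derivative.normalizedDerivOfComplex F + (-(k / 12)) • (EisensteinSeries.E2 * F) := by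
    funext z
    simp only [Derivative.serreDerivative_apply, Pi.add_apply, Pi.smul_apply, Pi.mul_apply,
      smul_eq_mul]
    ring
  have e2 : (h : ℂ)⁻¹ • theta a - (k / 12) • (e * a) =
      (h : ℂ)⁻¹ • theta a + (-(k / 12)) • (e * a) := by
    rw [_root_.neg_smul, sub_eq_add_neg]
  rw [e1, e2]
  exact h3

end SDP

theorem SD (hadd : Stmt_hasQE_add) (hsmul : Stmt_hasQE_smul) (hmul : Stmt_hasQE_mul)
    (hV : Stmt_hasQE_Vop) (hD : Stmt_hasQE_deriv) (hE2 : Stmt_hasQE_E2) : Stmt_SD := by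
  rintro p hp k a b ⟨H, hH⟩
  refine ⟨Derivative.serreDerivative (k : ℂ) H, Fermat.Agent.S20.serre _ k H hH.mf, ?_, ?_⟩
  · have := SDP.hasQE_serre hadd hsmul hmul hD one_pos (k : ℂ) hH.inf hE2
    simpa using this
  · rw [Derivative.serreDerivative_slash_equivariant hH.mf.holo]
    have hp0 : (0 : ℝ) < (p : ℝ) := by exact_mod_cast hp.pos
    have := SDP.hasQE_serre hadd hsmul hmul hD hp0 (k : ℂ) hH.zero (hV p _ _ hp.pos hE2)
    simpa using this

end Fermat.Agent.S16
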