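import Fermat.Agent.S16.Cosets
import Fermat.Agent.S16.BInterface

/-! S16 (B03) COSET: `Stmt_coset`, `Stmt_perm` (hypothesis-free), from `Cosets.lean`. -/

set_option autoImplicit false

open UpperHalfPlane ModularForm Matrix.SpecialLinearGroup CongruenceSubgroup
open scoped MatrixGroups Manifold ModularForm

namespace Fermat.Agent.S16

open Fermat.Agent.S20

noncomputable section

theorem coset : Stmt_coset := by
  intro p hp γ
  have : Fact p.Prime := ⟨hp⟩
  obtain ⟨i, hi⟩ := Cosets.toCoset_surjective p (γ⁻¹ : SL(2, ℤ))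
  rcases i with _ | j
  · left
    simp only [Cosets.toCoset] at hi
    rw [QuotientGroup.eq] at hi
    have h2 := inv_mem hi
    simpa using h2
  · right
    simp only [Cosets.toCoset] at hi
    rw [QuotientGroup.eq] at hi
    refine ⟨j, j.2, _, inv_mem hi, ?_⟩
    simp only [Cosets.rep, inv_inv, mul_inv_rev, zpow_natCast]
    group

namespace COSET

theorem conjFam_eq_tr (p : ℕ) [Fact p.Prime] (k : ℤ) (H : ℍ → ℂ)
    (hH : ∀ γ ∈ Gamma0 p, H ∣[k] γ = H) (i : Option (Fin p)) :
    conjFam p k H i = tr k H (Cosets.cosetEquiv p i) := by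
  rcases i with _ | j
  · exact (tr_one hH).symm
  · show H ∣[k] (ModularGroup.S * ModularGroup.T ^ (j : ℕ)) = tr k H (Cosets.toCoset p (some j))
    simp only [Cosets.toCoset]
    rw [tr_mk hH, Cosets.rep, inv_inv, zpow_natCast]

end COSET

theorem perm : Stmt_perm := by
  intro p hp k H hH γ
  have : Fact p.Prime := ⟨hp⟩
  refine ⟨((Cosets.cosetEquiv p).trans (MulAction.toPerm γ⁻¹)).trans (Cosets.cosetEquiv p).symm,
    fun i => ?_⟩
  rw [COSET.conjFam_eq_tr p k H hH, COSET.conjFam_eq_tr p k H hH, tr_slash hH]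
  simp

end

end Fermat.Agent.S16
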