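import Fermat.Agent.S16.BInterface

/-!
# S16, part (B), package B12: `Stmt_F1`, `Stmt_D`, `Stmt_P`

Formal consequences of the trace to level one.
-/

set_option autoImplicit false

namespace Fermat.Agent.S16

open PowerSeries

namespace FDP

/-! ## formal lemmas on `Uop`, `Vop` -/

section Formal

variable {R : Type*} [CommRing R]

theorem Uop_add (p : ℕ) (a b : PowerSeries R) : Uop p (a + b) = Uop p a + Uop p b := by
  ext n; simp

theorem Uop_smul (p : ℕ) (c : R) (a : PowerSeries R) : Uop p (c • a) = c • Uop p a := by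
  ext n; simp

theorem Uop_one {p : ℕ} (hp : p ≠ 0) : Uop p (1 : PowerSeries R) = 1 := by
  ext n
  simp [coeff_one, hp]

theorem coeff_zero_Vop (p : ℕ) (a : PowerSeries R) : coeff 0 (Vop p a) = coeff 0 a := by
  rw [coeff_Vop]; simp

theorem coeff_one_Vop {p : ℕ} (hp : 1 < p) (a : PowerSeries R) : coeff 1 (Vop p a) = 0 := by
  rw [coeff_Vop, if_neg]
  intro h
  exact absurd (Nat.le_of_dvd one_pos h) (not_le.mpr hp)

theorem coeff_self_Vop {p : ℕ} (hp : 0 < p) (a : PowerSeries R) :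
    coeff p (Vop p a) = coeff 1 a := by
  rw [coeff_Vop, if_pos dvd_rfl, Nat.div_self hp]

theorem coeff_one_mul (a b : PowerSeries R) :
    coeff 1 (a * b) = coeff 0 a * coeff 1 b + coeff 1 a * coeff 0 b := by
  rw [coeff_mul, Finset.Nat.sum_antidiagonal_eq_sum_range_succ_mk]
  simp [Finset.sum_range_succ]

theorem coeff_zero_mul' (a b : PowerSeries R) :
    coeff 0 (a * b) = coeff 0 a * coeff 0 b := by
  simp [coeff_mul]

/-- the coefficient of `X^p` in `a * V_p d`. -/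
theorem coeff_self_mul_Vop {p : ℕ} (hp : 1 < p) (a d : PowerSeries R) :
    coeff p (a * Vop p d) = coeff p a * coeff 0 d + coeff 0 a * coeff 1 d := by
  obtain ⟨r, rfl⟩ : ∃ r, p = r + 1 := ⟨p - 1, by omega⟩
  rw [mul_comm a, coeff_mul, Finset.Nat.sum_antidiagonal_eq_sum_range_succ_mk]
  rw [Finset.sum_range_succ, Finset.sum_range_succ']
  have h0 : ∑ k ∈ Finset.range r,
      coeff (k + 1, r + 1 - (k + 1)).1 (Vop (r + 1) d) * coeff (k + 1, r + 1 - (k + 1)).2 a = 0 := by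
    apply Finset.sum_eq_zero
    intro k hk
    simp only
    rw [coeff_Vop, if_neg, zero_mul]
    intro h
    have := Nat.le_of_dvd (Nat.succ_pos k) h
    have := Finset.mem_range.mp hk
    omega
  rw [h0]
  simp only [Nat.sub_zero, Nat.sub_self, zero_add]
  rw [coeff_zero_Vop, coeff_self_Vop (Nat.succ_pos r)]
  ring

end Formal

/-! ## integrality -/

section Integrality

variable {ℓ M : ℕ}

theorem divO_add {x y : ℂ} (hx : DivO ℓ M x) (hy : DivO ℓ M y) : DivO ℓ M (x + y) := by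
  obtain ⟨c, hc, rfl⟩ := hx
  obtain ⟨d, hd, rfl⟩ := hy
  exact ⟨c + d, (OO ℓ).add_mem hc hd, by ring⟩

theorem divO_neg {x : ℂ} (hx : DivO ℓ M x) : DivO ℓ M (-x) := by
  obtain ⟨c, hc, rfl⟩ := hx
  exact ⟨-c, (OO ℓ).neg_mem hc, by ring⟩

theorem divO_sub {x y : ℂ} (hx : DivO ℓ M x) (hy : DivO ℓ M y) : DivO ℓ M (x - y) := by
  rw [sub_eq_add_neg]; exact divO_add hx (divO_neg hy)

theorem divO_mul_left {c x : ℂ} (hc : c ∈ OO ℓ) (hx : DivO ℓ M x) : DivO ℓ M (c * x) := by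
  obtain ⟨d, hd, rfl⟩ := hx
  exact ⟨c * d, (OO ℓ).mul_mem hc hd, by ring⟩

theorem divO_self_mul {c : ℂ} (hc : c ∈ OO ℓ) : DivO ℓ M ((M : ℂ) * c) := ⟨c, hc, rfl⟩

theorem isIntS_mul {a b : PowerSeries ℂ} (ha : IsIntS ℓ a) (hb : IsIntS ℓ b) :
    IsIntS ℓ (a * b) := by
  intro n
  rw [coeff_mul]
  exact (OO ℓ).sum_mem fun x _ => (OO ℓ).mul_mem (ha _) (hb _)

theorem isIntS_Uop {p : ℕ} {a : PowerSeries ℂ} (ha : IsIntS ℓ a) : IsIntS ℓ (Uop p a) := by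
  intro n
  rw [coeff_Uop]
  exact ha _

theorem isIntS_mk_int (τ : ℕ → ℤ) : IsIntS ℓ (PowerSeries.mk fun n => (τ n : ℂ)) := by
  intro n
  rw [coeff_mk]
  exact intCast_mem (OO ℓ) (τ n)

end Integrality

theorem neg_zpow_neg_two (x : ℂ) : (-x) ^ (-(2 : ℤ)) = (x ^ 2)⁻¹ := by
  rw [zpow_neg]
  have : (-x) ^ (2 : ℤ) = x ^ 2 := by
    rw [show (2 : ℤ) = ((2 : ℕ) : ℤ) from rfl, zpow_natCast, neg_pow_two]
  rw [this]

theorem neg_zpow_neg_twelve (x : ℂ) : (-x) ^ (-(12 : ℤ)) = (x ^ 12)⁻¹ := by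
  rw [zpow_neg]
  have : (-x) ^ (12 : ℤ) = x ^ 12 := by
    rw [show (12 : ℤ) = ((12 : ℕ) : ℤ) from rfl, zpow_natCast, Even.neg_pow (by decide)]
  rw [this]

end FDP

/-- (F1) -/
theorem F1 (hW : Stmt_W) (hTR : Stmt_TR) (h2 : Stmt_L1_two) : Stmt_F1 := by
  intro p hp a b hab
  have hp0 : (p : ℂ) ≠ 0 := Nat.cast_ne_zero.mpr hp.ne_zero
  have h1 := hTR p hp 2 _ _ (hW p hp 2 a b hab)
  have h3 := h2 _ h1
  rw [FDP.neg_zpow_neg_two, FDP.Uop_smul, smul_smul] at h3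
  have h4 : b = -(((p : ℂ) * ((p : ℂ) ^ 2)⁻¹) • Uop p a) := eq_neg_of_add_eq_zero_left h3
  rw [h4, ← neg_smul]
  congr 1
  field_simp

namespace FDP

/-- `Δ` is a level one form of weight 12. -/
theorem L1_Deltaf (hE4 : Stmt_L1_E4) (hE6 : Stmt_L1_E6) (hadd : Stmt_L1_add)
    (hsmul : Stmt_L1_smul) (hmul : Stmt_L1_mul) : L1 12 Deltaf := by
  have h1 : L1 12 (E4f ^ 3) := by
    have := hmul (4 + 4) 4 _ _ (hmul 4 4 _ _ hE4 hE4) hE4
    have e : E4f * E4f * E4f = E4f ^ 3 := by ring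
    rw [e] at this
    exact this
  have h2 : L1 12 (E6f ^ 2) := by
    have := hmul 6 6 _ _ hE6 hE6
    have e : E6f * E6f = E6f ^ 2 := by ring
    rw [e] at this
    exact this
  have h3 := hsmul 12 (1728 : ℂ)⁻¹ _ (hadd 12 _ _ h1 (hsmul 12 (-1) _ h2))
  have e : E4f ^ 3 + (-1 : ℂ) • E6f ^ 2 = E4f ^ 3 - E6f ^ 2 := by
    rw [neg_smul, one_smul, sub_eq_add_neg]
  rw [e] at h3
  exact h3

/-- `U_p Δ = τ(p) Δ - p^11 V_p Δ`. -/
theorem Uop_Deltaf (hΔ : L1 12 Deltaf) (hW : Stmt_W) (hTR : Stmt_TR) (hpL1 : Stmt_pair_of_L1)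
    (hdiv : Stmt_L1_div) (hzero : Stmt_L1_zero)
    {τ : ℕ → ℤ} (hτ0 : τ 0 = 0) (hτ1 : τ 1 = 1)
    (hτ : Deltaf = PowerSeries.mk fun n => (τ n : ℂ)) {p : ℕ} (hp : p.Prime) :
    Uop p Deltaf = (τ p : ℂ) • Deltaf - ((p : ℂ) ^ 11) • Vop p Deltaf := by
  have hp0 : (p : ℂ) ≠ 0 := Nat.cast_ne_zero.mpr hp.ne_zero
  have hc : ∀ n, coeff n Deltaf = (τ n : ℂ) := fun n => by rw [hτ, coeff_mk]
  have h1 := hpL1 p hp 12 _ hΔ
  have h2 := hW p hp 12 _ _ h1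
  have h3 := hTR p hp 12 _ _ h2
  rw [neg_zpow_neg_twelve, Uop_smul, smul_smul] at h3
  have h0 : coeff 0 (Vop p Deltaf + ((p : ℂ) * ((p : ℂ) ^ 12)⁻¹) • Uop p Deltaf) = 0 := by
    rw [map_add, coeff_smul, coeff_zero_Vop, coeff_Uop, mul_zero, hc, hτ0]
    simp
  obtain ⟨b', hb', hEq⟩ := hdiv 12 _ h3 h0
  have hb0 : L1 0 b' := by simpa using hb'
  have hbC := hzero b' hb0
  set c := coeff 0 b' with hcdef
  have hn : ∀ n, coeff n (Vop p Deltaf) + ((p : ℂ) * ((p : ℂ) ^ 12)⁻¹) * coeff n (Uop p Deltaf)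
      = coeff n Deltaf * c := by
    intro n
    have := congrArg (coeff n) hEq
    rw [hbC, map_add, coeff_smul, smul_eq_mul, mul_comm Deltaf, coeff_C_mul, mul_comm c] at this
    exact this
  have hc1 : c = ((p : ℂ) * ((p : ℂ) ^ 12)⁻¹) * (τ p : ℂ) := by
    have := hn 1
    rw [coeff_one_Vop hp.one_lt, coeff_Uop, mul_one, hc, hc, hτ1] at this
    simpa using this.symm
  ext n
  have := hn n
  rw [hc1] at this
  rw [map_sub, coeff_smul, coeff_smul, smul_eq_mul, smul_eq_mul]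
  field_simp at this
  linear_combination this

/-- `p^12 G V_pΔ = U_p ((U_p G) Δ)` for `G` of weight two. -/
theorem key_identity (hΔ : L1 12 Deltaf) (hW : Stmt_W) (hTR : Stmt_TR) (hpL1 : Stmt_pair_of_L1)
    (hdiv : Stmt_L1_div) (h2 : Stmt_L1_two) (hpmul : Stmt_pair_mul)
    (hΔ0 : coeff 0 Deltaf = 0) {p : ℕ} (hp : p.Prime) {a b : PowerSeries ℂ}
    (hab : PairMF p 2 a b) :
    ((p : ℂ) ^ 12) • (a * Vop p Deltaf) = Uop p (Uop p a * Deltaf) := by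
  have hp0 : (p : ℂ) ≠ 0 := Nat.cast_ne_zero.mpr hp.ne_zero
  have hb : b = (-(p : ℂ)⁻¹) • Uop p a := F1 hW hTR h2 p hp a b hab
  have h1 := hW p hp 12 _ _ (hpL1 p hp 12 _ hΔ)
  have h3 := hTR p hp (2 + 12) _ _ (hpmul p 2 12 _ _ _ _ hab h1)
  rw [neg_zpow_neg_twelve] at h3
  have h0 : coeff 0 (a * Vop p Deltaf + (p : ℂ) • Uop p (b * ((p : ℂ) ^ 12)⁻¹ • Deltaf)) = 0 := by
    rw [map_add, coeff_smul, coeff_Uop, mul_zero, coeff_zero_mul', coeff_zero_mul',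
      coeff_zero_Vop, coeff_smul, hΔ0]
    simp
  obtain ⟨b', hb', hEq⟩ := hdiv _ _ h3 h0
  have hb2 : L1 2 b' := by
    have e : (2 + 12 - 12 : ℤ) = 2 := by norm_num
    rw [e] at hb'
    exact hb'
  rw [h2 b' hb2, mul_zero, hb] at hEq
  have e1 : (-(p : ℂ)⁻¹) • Uop p a * ((p : ℂ) ^ 12)⁻¹ • Deltaf
      = (-(p : ℂ)⁻¹ * ((p : ℂ) ^ 12)⁻¹) • (Uop p a * Deltaf) := by
    rw [smul_mul_smul_comm]
  rw [e1, Uop_smul, smul_smul] at hEq
  ext n
  have := congrArg (coeff n) hEq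
  rw [map_add, coeff_smul, smul_eq_mul, map_zero] at this
  rw [coeff_smul, smul_eq_mul]
  field_simp at this
  linear_combination this

end FDP

/-- (D) -/
theorem D (hW : Stmt_W) (hTR : Stmt_TR) (h2 : Stmt_L1_two) (hdiv : Stmt_L1_div)
    (hzero : Stmt_L1_zero) (hE4 : Stmt_L1_E4) (hE6 : Stmt_L1_E6) (hadd : Stmt_L1_add)
    (hsmul : Stmt_L1_smul) (hmul : Stmt_L1_mul) (hpmul : Stmt_pair_mul)
    (hpL1 : Stmt_pair_of_L1) (hΔint : Stmt_Deltaf_int) (hdivO : Stmt_divO_int) : Stmt_D := by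
  intro p ℓ t hp hℓ hℓp hbad
  obtain ⟨g, b, hg, hab⟩ := hbad
  obtain ⟨τ, hτ0, hτ1, hτ⟩ := hΔint
  have hc : ∀ n, coeff n Deltaf = (τ n : ℂ) := fun n => by rw [hτ, coeff_mk]
  have hΔ := FDP.L1_Deltaf hE4 hE6 hadd hsmul hmul
  have hΔ0 : coeff 0 Deltaf = 0 := by rw [hc, hτ0]; simp
  have hΔI : IsIntS ℓ Deltaf := by rw [hτ]; exact FDP.isIntS_mk_int τ
  have hU := FDP.Uop_Deltaf hΔ hW hTR hpL1 hdiv hzero hτ0 hτ1 hτ hp
  have hkey := FDP.key_identity hΔ hW hTR hpL1 hdiv h2 hpmul hΔ0 hp hab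
  -- expand the right hand side
  set w : PowerSeries ℂ := Uop p (Uop p g * Deltaf) with hw
  have hwI : IsIntS ℓ w := FDP.isIntS_Uop (FDP.isIntS_mul (FDP.isIntS_Uop hg) hΔI)
  have hR : Uop p (Uop p (1 + ((ℓ : ℂ) ^ t) • g) * Deltaf)
      = Uop p Deltaf + ((ℓ : ℂ) ^ t) • w := by
    rw [FDP.Uop_add, FDP.Uop_one hp.ne_zero, FDP.Uop_smul, add_mul, one_mul, smul_mul_assoc,
      FDP.Uop_add, FDP.Uop_smul]
  rw [hR] at hkey
  have ha0 : coeff 0 (1 + ((ℓ : ℂ) ^ t) • g) = 1 + (ℓ : ℂ) ^ t * coeff 0 g := by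
    rw [map_add, coeff_smul, smul_eq_mul, coeff_zero_one]
  generalize (1 + ((ℓ : ℂ) ^ t) • g) = a at hkey ha0
  have hM : (((ℓ ^ t : ℕ)) : ℂ) = (ℓ : ℂ) ^ t := by push_cast; rfl
  -- coefficient of `q`
  have h1 : ((ℓ : ℤ) ^ t) ∣ τ p := by
    apply hdivO ℓ t _ hℓ
    have := congrArg (coeff 1) hkey
    rw [coeff_smul, FDP.coeff_one_mul, FDP.coeff_one_Vop hp.one_lt, FDP.coeff_zero_Vop, hΔ0,
      map_add, coeff_Uop, mul_one, hc, coeff_smul, smul_eq_mul, smul_eq_mul] at this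
    refine ⟨-coeff 1 w, (OO ℓ).neg_mem (hwI 1), ?_⟩
    rw [hM]
    linear_combination -this
  -- coefficient of `q^p`
  have h3 : ((ℓ : ℤ) ^ t) ∣ (p : ℤ) ^ 12 + (p : ℤ) ^ 11 - τ p ^ 2 := by
    apply hdivO ℓ t _ hℓ
    have := congrArg (coeff p) hkey
    rw [coeff_smul, FDP.coeff_self_mul_Vop hp.one_lt, hΔ0, hc, hτ1, map_add, hU, map_sub,
      coeff_smul, coeff_smul, FDP.coeff_self_Vop hp.pos, hc, hc, hτ1, coeff_smul, ha0] at this
    simp only [smul_eq_mul] at this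
    refine ⟨coeff p w - (p : ℂ) ^ 12 * coeff 0 g,
      (OO ℓ).sub_mem (hwI p) ((OO ℓ).mul_mem ((OO ℓ).pow_mem (natCast_mem _ p) 12) (hg 0)), ?_⟩
    rw [hM]
    push_cast
    push_cast at this
    linear_combination this
  -- arithmetic
  have h4 : ((ℓ : ℤ) ^ t) ∣ (p : ℤ) ^ 11 * ((p : ℤ) + 1) := by
    have h5 : ((ℓ : ℤ) ^ t) ∣ τ p ^ 2 := Dvd.dvd.pow h1 two_ne_zero
    have := dvd_add h3 h5
    have e : (p : ℤ) ^ 12 + (p : ℤ) ^ 11 - τ p ^ 2 + τ p ^ 2 = (p : ℤ) ^ 11 * ((p : ℤ) + 1) := by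
      ring
    rwa [e] at this
  have hcop : IsCoprime ((ℓ : ℤ) ^ t) ((p : ℤ) ^ 11) := by
    apply IsCoprime.pow
    rw [Nat.isCoprime_iff_coprime]
    exact (Nat.coprime_primes hℓ hp).mpr hℓp
  have h6 : ((ℓ : ℤ) ^ t) ∣ ((p : ℤ) + 1) := hcop.dvd_of_dvd_mul_left h4
  exact_mod_cast h6

namespace FDP

theorem coeff_zero_E4f : coeff 0 E4f = 1 := by
  simp [E4f, sig]

theorem coeff_one_E4f : coeff 1 E4f = 240 := by
  simp [E4f, sig, coeff_one]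

/-- a level one form of weight 4 is a multiple of `E₄`. -/
theorem L1_four (hE4 : Stmt_L1_E4) (hadd : Stmt_L1_add) (hsmul : Stmt_L1_smul)
    (hdiv : Stmt_L1_div) (hneg : Stmt_L1_neg) {c : PowerSeries ℂ} (hc : L1 4 c) :
    c = (coeff 0 c) • E4f := by
  have h1 := hadd 4 _ _ hc (hsmul 4 (-(coeff 0 c)) _ hE4)
  have h0 : coeff 0 (c + (-(coeff 0 c)) • E4f) = 0 := by
    rw [map_add, coeff_smul, coeff_zero_E4f]
    simp
  obtain ⟨b', hb', hEq⟩ := hdiv 4 _ h1 h0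
  rw [hneg _ b' (by norm_num) hb', mul_zero, neg_smul] at hEq
  exact eq_of_sub_eq_zero (by rw [sub_eq_add_neg]; exact hEq)

end FDP

/-- (P) -/
theorem P (hW : Stmt_W) (hTR : Stmt_TR) (h2 : Stmt_L1_two) (hdiv : Stmt_L1_div)
    (hneg : Stmt_L1_neg) (hE4 : Stmt_L1_E4) (hadd : Stmt_L1_add)
    (hsmul : Stmt_L1_smul) (hpmul : Stmt_pair_mul) (hdivO : Stmt_divO_int) : Stmt_P := by
  intro p hp h7 hbad
  obtain ⟨g, b, hg, hab⟩ := hbad
  have hp0 : (p : ℂ) ≠ 0 := Nat.cast_ne_zero.mpr hp.ne_zero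
  rw [pow_one] at hab
  have hb : b = (-(p : ℂ)⁻¹) • Uop p (1 + (p : ℂ) • g) := F1 hW hTR h2 p hp _ b hab
  have h3 := hTR p hp (2 + 2) _ _ (hpmul p 2 2 _ _ _ _ hab hab)
  have e4 : (2 + 2 : ℤ) = 4 := by norm_num
  rw [e4] at h3
  have h4 := FDP.L1_four hE4 hadd hsmul hdiv hneg h3
  have hUa : Uop p (1 + (p : ℂ) • g) = 1 + (p : ℂ) • Uop p g := by
    rw [FDP.Uop_add, FDP.Uop_one hp.ne_zero, FDP.Uop_smul]
  set u := Uop p g with hu
  have huI : IsIntS p u := FDP.isIntS_Uop hg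
  have hbb : b * b = (((p : ℂ) ^ 2)⁻¹) • (1 + (p : ℂ) • ((2 : ℂ) • u + (p : ℂ) • (u * u))) := by
    rw [hb, hUa, smul_mul_smul_comm]
    congr 1
    · field_simp
    · simp only [smul_eq_C_mul, map_ofNat]
      ring
  have haa : (1 + (p : ℂ) • g) * (1 + (p : ℂ) • g)
      = 1 + (p : ℂ) • ((2 : ℂ) • g + (p : ℂ) • (g * g)) := by
    simp only [smul_eq_C_mul, map_ofNat]
    ring
  rw [hbb, haa] at h4
  set v := (2 : ℂ) • u + (p : ℂ) • (u * u) with hv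
  set y := (2 : ℂ) • g + (p : ℂ) • (g * g) with hy
  have hint : ∀ {x : PowerSeries ℂ}, IsIntS p x → IsIntS p ((2 : ℂ) • x + (p : ℂ) • (x * x)) := by
    intro x hx n
    rw [map_add, coeff_smul, coeff_smul, smul_eq_mul, smul_eq_mul]
    exact (OO p).add_mem ((OO p).mul_mem (by exact_mod_cast natCast_mem (OO p) 2) (hx n))
      ((OO p).mul_mem (natCast_mem _ p) (FDP.isIntS_mul hx hx n))
  have hvI : IsIntS p v := hint huI
  have hyI : IsIntS p y := hint hg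
  have hp1 : (p : ℕ) ≠ 0 := hp.ne_zero
  have h5 := congrArg (coeff 1) h4
  simp only [map_add, coeff_smul, smul_eq_mul, coeff_Uop, mul_one, mul_zero,
    FDP.coeff_one_E4f, coeff_one, one_ne_zero, if_false, hp1, if_true] at h5
  have h6 : ((p : ℤ) ^ 1) ∣ 240 * ((p : ℤ) + 1) := by
    apply hdivO p 1 _ hp
    refine ⟨(p : ℂ) * coeff 1 y + coeff p v - 240 * ((p : ℂ) * coeff 0 y + coeff 0 v), ?_, ?_⟩
    · have h240 : (240 : ℂ) ∈ OO p := by exact_mod_cast natCast_mem (OO p) 240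
      exact (OO p).sub_mem ((OO p).add_mem ((OO p).mul_mem (natCast_mem _ p) (hyI 1)) (hvI p))
        ((OO p).mul_mem h240 ((OO p).add_mem ((OO p).mul_mem (natCast_mem _ p) (hyI 0)) (hvI 0)))
    · push_cast
      field_simp at h5
      linear_combination (-1 : ℂ) * h5
  rw [pow_one] at h6
  have h7' : (p : ℤ) ∣ 240 := by
    have : (p : ℤ) ∣ 240 * ((p : ℤ) + 1) - 240 * (p : ℤ) := dvd_sub h6 (Dvd.intro_left _ rfl)
    have e : 240 * ((p : ℤ) + 1) - 240 * (p : ℤ) = 240 := by ring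
    rwa [e] at this
  have h8 : p ∣ 240 := by exact_mod_cast h7'
  have e240 : 240 = 2 ^ 4 * (3 * 5) := by norm_num
  rw [e240] at h8
  rcases (Nat.Prime.dvd_mul hp).1 h8 with h | h
  · have := Nat.le_of_dvd (by norm_num) (hp.dvd_of_dvd_pow h)
    omega
  · rcases (Nat.Prime.dvd_mul hp).1 h with h | h
    · have := Nat.le_of_dvd (by norm_num) h
      omega
    · have := Nat.le_of_dvd (by norm_num) h
      omega

end Fermat.Agent.S16
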