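import Fermat.Agent.S16.BInterface

/-!
# S16 (B), package B05: the Fricke involution on pairs

`H^W(τ) = (H ∣[k] S)(p τ)` is again a form on `Γ₀(p)`, with pair `(h_0, (-p)^{-k} h_∞)`.
-/

set_option autoImplicit false

namespace Fermat.Agent.S16

open UpperHalfPlane ModularForm CongruenceSubgroup Matrix.SpecialLinearGroup
open Fermat.Agent.S20 (IsMF IsCF)
open scoped MatrixGroups ModularForm Manifold Real

noncomputable section

namespace FrickeW

/-- `τ ↦ c τ` on the upper half plane (`c > 0`). -/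
def scal (c : ℝ) (hc : 0 < c) (τ : ℍ) : ℍ :=
  ⟨(c : ℂ) * τ, by
    have := τ.im_pos
    simp only [Complex.mul_im, Complex.ofReal_re, Complex.ofReal_im, zero_mul, add_zero, coe_im]
    positivity⟩

@[simp] theorem coe_scal (c : ℝ) (hc : 0 < c) (τ : ℍ) : ((scal c hc τ : ℍ) : ℂ) = (c : ℂ) * τ := rfl

theorem im_scal (c : ℝ) (hc : 0 < c) (τ : ℍ) : (scal c hc τ).im = c * τ.im := by
  show ((c : ℂ) * τ).im = _
  simp

theorem tendsto_scal (c : ℝ) (hc : 0 < c) :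
    Filter.Tendsto (scal c hc) atImInfty atImInfty := by
  rw [atImInfty, Filter.tendsto_comap_iff]
  have : (im ∘ scal c hc) = fun τ : ℍ => c * τ.im := by
    funext z; exact im_scal c hc z
  rw [this]
  exact Filter.Tendsto.const_mul_atTop hc Filter.tendsto_comap

theorem mdiff_comp_scal (c : ℝ) (hc : 0 < c) {f : ℍ → ℂ} (hf : MDiff f) :
    MDiff (fun τ => f (scal c hc τ)) := by
  rw [UpperHalfPlane.mdifferentiable_iff]
  have h2 := UpperHalfPlane.mdifferentiable_iff.1 hf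
  have h3 : DifferentiableOn ℂ (fun w : ℂ => (f ∘ ofComplex) ((c : ℂ) * w)) {z | 0 < z.im} := by
    refine h2.comp (by fun_prop) ?_
    intro w hw
    have hw' : 0 < w.im := hw
    show 0 < ((c : ℂ) * w).im
    simp only [Complex.mul_im, Complex.ofReal_re, Complex.ofReal_im, zero_mul, add_zero]
    positivity
  refine h3.congr fun w hw => ?_
  have hw0 : 0 < w.im := hw
  have hw' : 0 < ((c : ℂ) * w).im := by
    simp only [Complex.mul_im, Complex.ofReal_re, Complex.ofReal_im, zero_mul, add_zero]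
    positivity
  simp only [Function.comp_apply, ofComplex_apply_of_im_pos hw0, ofComplex_apply_of_im_pos hw']
  congr 1

theorem bdd_comp_scal (c : ℝ) (hc : 0 < c) {f : ℍ → ℂ} (hf : IsBoundedAtImInfty f) :
    IsBoundedAtImInfty (fun τ => f (scal c hc τ)) :=
  hf.comp_tendsto (tendsto_scal c hc)

theorem bdd_slash_T_pow (k : ℤ) {f : ℍ → ℂ} (hf : IsBoundedAtImInfty f) (j : ℕ) :
    IsBoundedAtImInfty (f ∣[k] (ModularGroup.T ^ j)) := by
  have h1 : Filter.Tendsto (fun z : ℍ => (ModularGroup.T ^ j) • z) atImInfty atImInfty := by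
    rw [atImInfty, Filter.tendsto_comap_iff]
    have : (im ∘ fun z : ℍ => (ModularGroup.T ^ j) • z) = im := by
      funext z
      have := ModularGroup.im_T_zpow_smul z j
      simpa using this
    rw [this]
    exact Filter.tendsto_comap
  have h2 : f ∣[k] (ModularGroup.T ^ j) = fun z : ℍ => f ((ModularGroup.T ^ j) • z) := by
    funext z
    rw [SL_slash_apply, ModularGroup.denom_apply]
    have := ModularGroup.coe_T_zpow (j : ℤ)
    rw [zpow_natCast] at this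
    simp [this]
  rw [h2]
  exact hf.comp_tendsto h1

/-- The conjugate `diag(p,1) γ diag(p,1)⁻¹` of `γ = (a, b; p c', d)`. -/
def conjD (p : ℕ) (γ : SL(2, ℤ)) (c' : ℤ) (hc : γ 1 0 = p * c') : SL(2, ℤ) :=
  ⟨!![γ 0 0, p * γ 0 1; c', γ 1 1], by
    have := Matrix.SpecialLinearGroup.det_coe γ
    rw [Matrix.det_fin_two, hc] at this
    rw [Matrix.det_fin_two_of]
    linarith⟩

/-- The conjugate `W γ W⁻¹` of `γ = (a, b; p c', d)`. -/
def conjW (p : ℕ) (γ : SL(2, ℤ)) (c' : ℤ) (hc : γ 1 0 = p * c') : SL(2, ℤ) :=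
  ⟨!![γ 1 1, -c'; -(p * γ 0 1), γ 0 0], by
    have := Matrix.SpecialLinearGroup.det_coe γ
    rw [Matrix.det_fin_two, hc] at this
    rw [Matrix.det_fin_two_of]
    linarith⟩

theorem conjW_mem (p : ℕ) (γ : SL(2, ℤ)) (c' : ℤ) (hc : γ 1 0 = p * c') :
    conjW p γ c' hc ∈ Gamma0 p := by
  rw [Gamma0_mem]
  simp [conjW]

theorem S_mul_conjD (p : ℕ) (γ : SL(2, ℤ)) (c' : ℤ) (hc : γ 1 0 = p * c') :
    ModularGroup.S * conjD p γ c' hc = conjW p γ c' hc * ModularGroup.S := by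
  apply Subtype.ext
  rw [Matrix.SpecialLinearGroup.coe_mul, Matrix.SpecialLinearGroup.coe_mul]
  ext i j
  fin_cases i <;> fin_cases j <;>
    simp [conjD, conjW, ModularGroup.S, Matrix.mul_apply, Fin.sum_univ_two]

theorem slash_S_conjD {p : ℕ} {k : ℤ} {H : ℍ → ℂ} (hH : ∀ γ ∈ Gamma0 p, H ∣[k] γ = H)
    (γ : SL(2, ℤ)) (c' : ℤ) (hc : γ 1 0 = p * c') :
    (H ∣[k] ModularGroup.S) ∣[k] conjD p γ c' hc = H ∣[k] ModularGroup.S := by
  rw [← SlashAction.slash_mul, S_mul_conjD, SlashAction.slash_mul, hH _ (conjW_mem p γ c' hc)]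

theorem denom_conjD {p : ℕ} (hp : (0 : ℝ) < p) (γ : SL(2, ℤ)) (c' : ℤ) (hc : γ 1 0 = p * c')
    (τ : ℍ) : denom (conjD p γ c' hc) (scal p hp τ) = denom γ τ := by
  rw [ModularGroup.denom_apply, ModularGroup.denom_apply, hc]
  simp [conjD]
  ring

theorem conjD_smul {p : ℕ} (hp : (0 : ℝ) < p) (γ : SL(2, ℤ)) (c' : ℤ) (hc : γ 1 0 = p * c')
    (τ : ℍ) : conjD p γ c' hc • scal p hp τ = scal p hp (γ • τ) := by
  apply UpperHalfPlane.ext
  have h1 := denom_ne_zero γ τ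
  rw [ModularGroup.denom_apply, hc] at h1
  rw [coe_scal, UpperHalfPlane.coe_specialLinearGroup_apply,
    UpperHalfPlane.coe_specialLinearGroup_apply]
  simp only [conjD, hc, coe_scal]
  simp
  push_cast at h1
  have h2 : (c' : ℂ) * ((p : ℂ) * τ) + (γ 1 1 : ℂ) ≠ 0 := by
    intro h
    apply h1
    rw [← h]
    ring
  field_simp

/-- The Fricke transform. -/
def HW (p : ℕ) (hp : (0 : ℝ) < p) (k : ℤ) (H : ℍ → ℂ) : ℍ → ℂ :=
  fun τ => (H ∣[k] ModularGroup.S) (scal p hp τ)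

theorem HW_slash {p : ℕ} (hp : (0 : ℝ) < p) {k : ℤ} {H : ℍ → ℂ}
    (hH : ∀ γ ∈ Gamma0 p, H ∣[k] γ = H) (γ : SL(2, ℤ)) (hγ : γ ∈ Gamma0 p) :
    HW p hp k H ∣[k] γ = HW p hp k H := by
  rw [Gamma0_mem, ZMod.intCast_zmod_eq_zero_iff_dvd] at hγ
  obtain ⟨c', hc⟩ := hγ
  funext τ
  rw [SL_slash_apply]
  unfold HW
  rw [← conjD_smul hp γ c' hc, ← denom_conjD hp γ c' hc, ← SL_slash_apply,
    slash_S_conjD hH]

theorem qParam_scal {p : ℕ} (hp : (0 : ℝ) < p) (τ : ℍ) :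
    Function.Periodic.qParam p (scal p hp τ) = Function.Periodic.qParam 1 τ := by
  have hp' : (p : ℂ) ≠ 0 := by exact_mod_cast hp.ne'
  simp only [Function.Periodic.qParam, coe_scal]
  congr 1
  push_cast
  field_simp

theorem qParam_scal_inv {p : ℕ} (hp : (0 : ℝ) < p) (τ : ℍ) :
    Function.Periodic.qParam 1 (scal (p : ℝ)⁻¹ (inv_pos.2 hp) τ) =
      Function.Periodic.qParam p τ := by
  have hp' : (p : ℂ) ≠ 0 := by exact_mod_cast hp.ne'
  simp only [Function.Periodic.qParam, coe_scal]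
  congr 1
  push_cast
  field_simp

theorem hasQE_HW {p : ℕ} (hp : (0 : ℝ) < p) {k : ℤ} {H : ℍ → ℂ} {b : PowerSeries ℂ}
    (hb : HasQE p (H ∣[k] ModularGroup.S) b) : HasQE 1 (HW p hp k H) b := by
  intro τ
  have := hb (scal p hp τ)
  rw [qParam_scal hp] at this
  exact this

/-- `H^W ∣ S (τ) = (-p)^{-k} H(τ/p)`. -/
theorem HW_slash_S {p : ℕ} (hp : (0 : ℝ) < p) (k : ℤ) (H : ℍ → ℂ) :
    HW p hp k H ∣[k] ModularGroup.S =
      fun τ => (-(p : ℂ)) ^ (-k) * H (scal (p : ℝ)⁻¹ (inv_pos.2 hp) τ) := by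
  have hp' : (p : ℂ) ≠ 0 := by exact_mod_cast hp.ne'
  funext τ
  have hτ : (τ : ℂ) ≠ 0 := ne_zero τ
  rw [SL_slash_apply, ModularGroup.denom_S]
  unfold HW
  rw [SL_slash_apply, ModularGroup.denom_S]
  have h1 : ModularGroup.S • scal p hp (ModularGroup.S • τ) = scal (p : ℝ)⁻¹ (inv_pos.2 hp) τ := by
    apply UpperHalfPlane.ext
    rw [modular_S_smul, modular_S_smul]
    simp only [coe_scal]
    push_cast
    field_simp
  have h2 : ((scal p hp (ModularGroup.S • τ) : ℍ) : ℂ) = -(p : ℂ) / τ := by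
    rw [modular_S_smul]
    simp only [coe_scal]
    push_cast
    field_simp
  rw [h1, h2, mul_assoc, ← mul_zpow, div_mul_cancel₀ _ hτ, mul_comm]

theorem hasQE_HW_slash_S {p : ℕ} (hp : (0 : ℝ) < p) {k : ℤ} {H : ℍ → ℂ} {a : PowerSeries ℂ}
    (ha : HasQE 1 H a) :
    HasQE p (HW p hp k H ∣[k] ModularGroup.S) (((-(p : ℂ)) ^ (-k)) • a) := by
  intro τ
  rw [HW_slash_S]
  have := (ha (scal (p : ℝ)⁻¹ (inv_pos.2 hp) τ)).mul_left ((-(p : ℂ)) ^ (-k))
  rw [qParam_scal_inv hp] at this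
  have hfun : (fun m : ℕ => PowerSeries.coeff m (((-(p : ℂ)) ^ (-k)) • a) •
      Function.Periodic.qParam p τ ^ m) = fun i : ℕ => (-(p : ℂ)) ^ (-k) *
      (PowerSeries.coeff i a • Function.Periodic.qParam p τ ^ i) := by
    funext m
    simp only [map_smul, smul_eq_mul]
    ring
  rw [hfun]
  exact this

theorem isMF_HW (hcos : Stmt_coset) {p : ℕ} (hpp : p.Prime) (hp : (0 : ℝ) < p) {k : ℤ}
    {H : ℍ → ℂ} (hH : IsMF (Gamma0 p) k H) : IsMF (Gamma0 p) k (HW p hp k H) := by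
  have hb0 : IsBoundedAtImInfty (HW p hp k H) := bdd_comp_scal p hp (hH.bdd ModularGroup.S)
  have hbS : IsBoundedAtImInfty (HW p hp k H ∣[k] ModularGroup.S) := by
    rw [HW_slash_S]
    have h1 : IsBoundedAtImInfty H := by simpa using hH.bdd 1
    exact (bdd_comp_scal (p : ℝ)⁻¹ (inv_pos.2 hp) h1).const_mul_left _
  refine ⟨mdiff_comp_scal p hp (hH.holo.slash k _), HW_slash hp hH.inv, fun γ => ?_⟩
  rcases hcos p hpp γ with hγ | ⟨j, -, γ₀, hγ₀, rfl⟩
  · rw [HW_slash hp hH.inv γ hγ]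
    exact hb0
  · rw [SlashAction.slash_mul, HW_slash hp hH.inv γ₀ hγ₀, SlashAction.slash_mul]
    exact bdd_slash_T_pow k hbS j

end FrickeW

/-- (W) Fricke: `H^W(τ) = (H ∣[k] S)(p τ)` has pair `(h_0, (-p)^{-k} h_∞)`. -/
theorem W (hcos : Stmt_coset) : Stmt_W := by
  rintro p hpp k a b ⟨H, hH⟩
  have hp : (0 : ℝ) < p := by exact_mod_cast hpp.pos
  exact ⟨FrickeW.HW p hp k H, FrickeW.isMF_HW hcos hpp hp hH.mf, FrickeW.hasQE_HW hp hH.zero,
    FrickeW.hasQE_HW_slash_S hp hH.inf⟩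


end

end Fermat.Agent.S16
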