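import Fermat.Agent.S16.BInterface
import Fermat.Agent.S20.LevelOne

/-!
# S16 (B), package B09 (L1FACTS): level one forms

`Stmt_L1_E4`, `Stmt_L1_E6`, `Stmt_L1_neg`, `Stmt_L1_zero`, `Stmt_L1_two`, `Stmt_L1_div`
(no hypotheses: everything is read off Mathlib's level one theory).
-/

set_option autoImplicit false

namespace Fermat.Agent.S16

open UpperHalfPlane ModularForm CongruenceSubgroup Matrix.SpecialLinearGroup EisensteinSeries
open Fermat.Agent.S20 (IsMF IsCF)
open scoped MatrixGroups ModularForm Manifold Real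

noncomputable section

namespace L1F

variable {k : ℤ}

/-- a level one form has its Mathlib `q`-expansion as `HasQE`-expansion. -/
theorem hasQE_levelOne (F : ModularForm 𝒮ℒ k) : HasQE 1 F (qExpansion 1 F) := by
  intro τ
  simpa [smul_eq_mul] using
    ModularForm.hasSum_qExpansion (f := F) one_pos one_mem_strictPeriods_SL τ

/-- uniqueness of the expansion of a level one form. -/
theorem eq_qExpansion (F : ModularForm 𝒮ℒ k) {a : PowerSeries ℂ} (h : HasQE 1 F a) :
    a = qExpansion 1 F := by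
  ext m
  exact ModularFormClass.qExpansion_coeff_unique (f := F) one_pos one_mem_strictPeriods_SL
    (c := fun m => PowerSeries.coeff m a) h m

theorem eq_qExpansion' {F : ℍ → ℂ} (hF : IsMF ⊤ k F) {a : PowerSeries ℂ} (h : HasQE 1 F a) :
    a = qExpansion 1 F :=
  eq_qExpansion hF.toLevelOne h

theorem L1_of_form (F : ModularForm 𝒮ℒ k) : L1 k (qExpansion 1 F) :=
  ⟨F, Fermat.Agent.S20.isMF_top_coe F, hasQE_levelOne F⟩

theorem coeff_sig (j n : ℕ) :
    PowerSeries.coeff n (sig j) = ((ArithmeticFunction.sigma j n : ℕ) : ℂ) := by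
  simp [sig]

theorem qExpansion_E4 : qExpansion 1 E₄ = E4f := by
  ext n
  rw [E_qExpansion_coeff _ ⟨2, rfl⟩, E4f, map_add, PowerSeries.coeff_smul, coeff_sig,
    PowerSeries.coeff_one]
  split_ifs with h
  · subst h; simp
  · norm_num [show bernoulli 4 = -1 / 30 by decide +kernel]

theorem qExpansion_E6 : qExpansion 1 E₆ = E6f := by
  ext n
  rw [E_qExpansion_coeff _ ⟨3, rfl⟩, E6f, map_sub, PowerSeries.coeff_smul, coeff_sig,
    PowerSeries.coeff_one]
  split_ifs with h
  · subst h; simp
  · norm_num [show bernoulli 6 = 1 / 42 by decide +kernel]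

/-- `E₄³ - E₆²` as a level one form of weight 12. -/
def cubeSubSq : ModularForm 𝒮ℒ 12 :=
  ModularForm.mcast (by decide) (E₄.pow 3) - ModularForm.mcast (by decide) (E₆.pow 2)

theorem cubeSubSq_apply (z : ℍ) : cubeSubSq z = E₄ z ^ 3 - E₆ z ^ 2 := by
  simp only [cubeSubSq, coe_mcast, ModularForm.coe_pow, sub_apply, Pi.pow_apply]

theorem qExpansion_cubeSubSq : qExpansion 1 cubeSubSq = E4f ^ 3 - E6f ^ 2 := by
  simp only [cubeSubSq, FunLike.coe_sub, coe_mcast,
    ModularForm.qExpansion_sub one_pos one_mem_strictPeriods_SL,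
    ModularForm.qExpansion_pow one_pos one_mem_strictPeriods_SL, qExpansion_E4, qExpansion_E6]

theorem qExpansion_discriminant : qExpansion 1 ModularForm.discriminant = Deltaf := by
  have h1 : (ModularForm.discriminant : ℍ → ℂ) = ⇑((1728 : ℂ)⁻¹ • cubeSubSq) := by
    funext z
    rw [discriminant_eq_E₄_cube_sub_E₆_sq z]
    simp only [smul_apply, cubeSubSq_apply, smul_eq_mul]
    ring
  rw [h1, FunLike.coe_smul,
    ModularForm.qExpansion_smul one_pos one_mem_strictPeriods_SL, qExpansion_cubeSubSq, Deltaf]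

end L1F

open L1F

theorem L1_E4 : Stmt_L1_E4 := by
  have := L1_of_form E₄
  rwa [L1F.qExpansion_E4] at this

theorem L1_E6 : Stmt_L1_E6 := by
  have := L1_of_form E₆
  rwa [L1F.qExpansion_E6] at this

theorem L1_neg : Stmt_L1_neg := by
  rintro k a hk ⟨F, hF, ha⟩
  rw [eq_qExpansion' hF ha, hF.eq_zero_of_neg hk]
  exact qExpansion_zero 1

theorem L1_zero : Stmt_L1_zero := by
  rintro a ⟨F, hF, ha⟩
  obtain ⟨c, rfl⟩ := hF.eq_const_of_weight_zero
  have hc : HasQE 1 (fun _ => c) (PowerSeries.C c) := by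
    intro τ
    convert hasSum_single (f := fun m : ℕ =>
      PowerSeries.coeff m (PowerSeries.C c) • Function.Periodic.qParam 1 τ ^ m) 0 ?_ using 1
    · simp
    · intro m hm
      simp [PowerSeries.coeff_C, hm]
  have h1 : a = PowerSeries.C c := by
    rw [eq_qExpansion' hF ha, eq_qExpansion' hF hc]
  rw [h1]
  simp

theorem L1_two : Stmt_L1_two := by
  rintro a ⟨F, hF, ha⟩
  rw [eq_qExpansion' hF ha, Fermat.Agent.S20.levelOne_weight_two F hF]
  exact qExpansion_zero 1

theorem L1_div : Stmt_L1_div := by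
  rintro k a ⟨F, hF, ha⟩ h0
  have haF : a = qExpansion 1 hF.toLevelOne := eq_qExpansion hF.toLevelOne ha
  have h0' : (qExpansion 1 hF.toLevelOne).coeff 0 = 0 := by rw [← haF]; exact h0
  refine ⟨qExpansion 1 (CuspForm.discriminantEquiv (toCuspForm hF.toLevelOne h0')),
    L1_of_form _, ?_⟩
  rw [haF, ModularForm.qExpansion_eq_qExpansion_discriminant_mul hF.toLevelOne h0',
    L1F.qExpansion_discriminant]

end

end Fermat.Agent.S16
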