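import Fermat.Agent.S16.BInterface

/-!
# S16 (B), package B10 (FO): basic facts on the ring `OO ℓ`
-/

set_option autoImplicit false

namespace Fermat.Agent.S16

theorem OO_int : Stmt_OO_int := fun ℓ n => intCast_mem (OO ℓ) n

theorem OO_inv : Stmt_OO_inv := by
  intro ℓ d hd
  rcases Nat.eq_zero_or_pos d with rfl | hpos
  · simp
  · refine ⟨d, hd, ?_⟩
    rw [mul_inv_cancel₀ (Nat.cast_ne_zero.2 hpos.ne')]
    exact isIntegral_one

theorem OO_root : Stmt_OO_root := by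
  intro ℓ n ζ hn hζ
  refine ⟨1, Nat.coprime_one_left ℓ, ?_⟩
  rw [Nat.cast_one, one_mul]
  exact IsIntegral.of_pow hn (by rw [hζ]; exact isIntegral_one)

theorem divO_int : Stmt_divO_int := by
  rintro ℓ t n hℓ ⟨c, ⟨d, hd, hint⟩, hc⟩
  have hℓ0 : ((ℓ ^ t : ℕ) : ℂ) ≠ 0 := Nat.cast_ne_zero.2 (pow_ne_zero t hℓ.ne_zero)
  -- `d * c` is a rational number
  have hr : (d : ℂ) * c = (((d : ℚ) * (n : ℚ) / ((ℓ ^ t : ℕ) : ℚ) : ℚ) : ℂ) := by
    push_cast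
    push_cast at hc hℓ0
    rw [hc]
    field_simp
  rw [hr] at hint
  have hint' : IsIntegral ℤ ((d : ℚ) * (n : ℚ) / ((ℓ ^ t : ℕ) : ℚ) : ℚ) :=
    (isIntegral_algebraMap_iff (algebraMap ℚ ℂ).injective).1 hint
  obtain ⟨e, he⟩ := IsIntegrallyClosed.isIntegral_iff.1 hint'
  have hℓ0' : ((ℓ ^ t : ℕ) : ℚ) ≠ 0 := Nat.cast_ne_zero.2 (pow_ne_zero t hℓ.ne_zero)
  have h1 : (e : ℚ) * ((ℓ ^ t : ℕ) : ℚ) = (d : ℚ) * (n : ℚ) := by
    have : (algebraMap ℤ ℚ e : ℚ) = (e : ℚ) := rfl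
    rw [← this, he]
    field_simp
  have h2 : e * ((ℓ : ℤ) ^ t) = (d : ℤ) * n := by
    have : ((e * ((ℓ : ℤ) ^ t) : ℤ) : ℚ) = (((d : ℤ) * n : ℤ) : ℚ) := by
      push_cast
      push_cast at h1
      exact h1
    exact_mod_cast this
  have hcop : IsCoprime ((ℓ : ℤ) ^ t) (d : ℤ) := by
    apply IsCoprime.pow_left
    exact (Nat.isCoprime_iff_coprime.2 hd).symm
  exact hcop.dvd_of_dvd_mul_left ⟨e, by rw [← h2]; ring⟩

end Fermat.Agent.S16
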