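import Fermat.Agent.S16.PairTrace
import Fermat.Agent.S16.BInterface

/-! S16 (B04) PAIRRING: `exists_pair`, ring structure of `PairMF` and `L1`, level one forms as pairs,
cusp forms.  Everything is hypothesis-free (through `Pair.Nice` and Mathlib's `qExpansion` API). -/

set_option autoImplicit false

open UpperHalfPlane ModularForm Matrix.SpecialLinearGroup CongruenceSubgroup Function
open scoped MatrixGroups Manifold ModularForm Real

namespace Fermat.Agent.S16

open Fermat.Agent.S20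

noncomputable section

namespace PairRing

open Pair

variable {h : ℝ} {f g : ℍ → ℂ} {k : ℤ} {H : ℍ → ℂ}

theorem hasQE_of_nice (hf : Nice h f) (hh : 0 < h) : HasQE h f (qExpansion h f) :=
  fun τ => hf.hasSum hh τ

theorem eq_qExpansion (hf : Nice h f) (hh : 0 < h) {a : PowerSeries ℂ} (ha : HasQE h f a) :
    a = qExpansion h f := by
  ext m
  exact qExpansion_coeff_unique (ContinuousMap.mk f hf.holo.continuous)
    (c := fun m => PowerSeries.coeff m a) hh (hf.analyticAt hh) ha m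

theorem nice_smul (hf : Nice h f) (c : ℂ) : Nice h (c • f) :=
  ⟨hf.holo.const_smul c, hf.bdd.const_smul_left c, fun z => by simp [hf.per]⟩

theorem hasQE_add {a b : PowerSeries ℂ}
    (ha : HasQE h f a) (hb : HasQE h g b) : HasQE h (f + g) (a + b) := by
  intro τ
  have := (ha τ).add (hb τ)
  simpa [add_smul, add_mul] using this

theorem hasQE_mul {a b : PowerSeries ℂ}
    (ha : HasQE h f a) (hb : HasQE h g b) : HasQE h (f * g) (a * b) := by
  intro τ
  have h1 := ha τ
  have h2 := hb τ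
  have s1 := h1.summable.norm
  have s2 := h2.summable.norm
  have h3 := tsum_mul_tsum_eq_tsum_sum_antidiagonal_of_summable_norm s1 s2
  have h4 := (summable_norm_sum_mul_antidiagonal_of_summable_norm s1 s2).of_norm
  rw [h1.tsum_eq, h2.tsum_eq] at h3
  have h5 := h4.hasSum
  rw [← h3] at h5
  have h6 : (fun n : ℕ => PowerSeries.coeff n (a * b) • Periodic.qParam h τ ^ n)
      = fun n => ∑ kl ∈ Finset.HasAntidiagonal.antidiagonal n,
        (PowerSeries.coeff kl.1) a • Periodic.qParam h ↑τ ^ kl.1 *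
          (PowerSeries.coeff kl.2) b • Periodic.qParam h ↑τ ^ kl.2 := by
    funext n
    rw [PowerSeries.coeff_mul, smul_eq_mul, Finset.sum_mul]
    refine Finset.sum_congr rfl fun x hx => ?_
    rw [← Finset.HasAntidiagonal.mem_antidiagonal.1 hx, pow_add]
    simp only [smul_eq_mul]
    ring
  rw [h6]
  exact h5

theorem hasQE_smul (c : ℂ) {a : PowerSeries ℂ} (ha : HasQE h f a) : HasQE h (c • f) (c • a) := by
  intro τ
  have := (ha τ).mul_left c
  simpa [smul_eq_mul, mul_assoc] using this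

theorem eq_inf {p : ℕ} {a b : PowerSeries ℂ} (hP : HasPair p k H a b) :
    a = qExpansion 1 H :=
  eq_qExpansion (nice_self hP.mf) one_pos hP.inf

theorem eq_zero {p : ℕ} (hp : 0 < p) {a b : PowerSeries ℂ} (hP : HasPair p k H a b) :
    b = qExpansion p (atZero k H) :=
  eq_qExpansion (nice_atZero hP.mf) (by exact_mod_cast hp) hP.zero

theorem hasPair_of_isMF {p : ℕ} (hp : 0 < p) (hH : IsMF (Gamma0 p) k H) :
    HasPair p k H (qExpansion 1 H) (qExpansion p (atZero k H)) :=
  ⟨hH, hasQE_of_nice (nice_self hH) one_pos, hasQE_of_nice (nice_atZero hH) (by exact_mod_cast hp)⟩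

theorem L1_of_isMF {F : ℍ → ℂ} (hF : IsMF ⊤ k F) : L1 k (qExpansion 1 F) :=
  ⟨F, hF, hasQE_of_nice (nice_of_top hF) one_pos⟩

end PairRing

open Pair PairRing

theorem exists_pair : Stmt_exists_pair :=
  fun _ hp _ _ hH => ⟨_, hasPair_of_isMF hp.pos hH⟩

theorem pair_smul : Stmt_pair_smul := by
  rintro p k c a b ⟨H, hP⟩
  refine ⟨c • H, hP.mf.smul c, hasQE_smul c hP.inf, ?_⟩
  rw [SL_smul_slash]
  exact hasQE_smul c hP.zero

theorem pair_add : Stmt_pair_add := by
  rintro p k a b a' b' ⟨H, hP⟩ ⟨H', hP'⟩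
  refine ⟨H + H', hP.mf.add hP'.mf, hasQE_add hP.inf hP'.inf, ?_⟩
  rw [SlashAction.add_slash]
  exact hasQE_add hP.zero hP'.zero

theorem pair_mul : Stmt_pair_mul := by
  rintro p k k' a b a' b' ⟨H, hP⟩ ⟨H', hP'⟩
  refine ⟨H * H', hP.mf.mul hP'.mf, hasQE_mul hP.inf hP'.inf, ?_⟩
  rw [mul_slash_SL2]
  exact hasQE_mul hP.zero hP'.zero

theorem L1_add : Stmt_L1_add := by
  rintro k a a' ⟨F, hF, ha⟩ ⟨F', hF', ha'⟩
  exact ⟨F + F', hF.add hF', hasQE_add ha ha'⟩

theorem L1_smul : Stmt_L1_smul := by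
  rintro k c a ⟨F, hF, ha⟩
  exact ⟨c • F, hF.smul c, hasQE_smul c ha⟩

theorem L1_mul : Stmt_L1_mul := by
  rintro k k' a a' ⟨F, hF, ha⟩ ⟨F', hF', ha'⟩
  exact ⟨F * F', hF.mul hF', hasQE_mul ha ha'⟩

theorem L1_one : Stmt_L1_one := by
  refine ⟨1, IsMF.one, fun τ => ?_⟩
  have := hasSum_single (f := fun m : ℕ => PowerSeries.coeff m (1 : PowerSeries ℂ) •
    Function.Periodic.qParam 1 τ ^ m) 0 (fun m hm => by simp [PowerSeries.coeff_one, hm])
  simpa using this

theorem pair_of_L1 : Stmt_pair_of_L1 := by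
  rintro p hp k a ⟨F, hF, ha⟩
  have h1 : a = qExpansion 1 F := eq_qExpansion (nice_of_top hF) one_pos ha
  have hp0 : (0 : ℝ) < p := by exact_mod_cast hp.pos
  refine ⟨F, hF.of_top, ha, ?_⟩
  rw [hF.slash_top, Vop_eq_expand hp.ne_zero, h1, ← qExpansion_nat (nice_of_top hF)]
  have h2 : Nice p F := by simpa using (nice_of_top hF).nat_mul p
  exact hasQE_of_nice h2 hp0

theorem pair_of_cuspForm : Stmt_pair_of_cuspForm := by
  intro p hp f
  have : NeZero p := ⟨hp.ne_zero⟩
  exact ⟨_, f, hasPair_of_isMF hp.pos (isCF_coe f).isMF⟩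

/-! ### corollaries -/

theorem PairMF.neg {p : ℕ} {k : ℤ} {a b : PowerSeries ℂ} (h : PairMF p k a b) :
    PairMF p k (-a) (-b) := by
  simpa using pair_smul p k (-1) a b h

theorem PairMF.sub {p : ℕ} {k : ℤ} {a b a' b' : PowerSeries ℂ} (h : PairMF p k a b)
    (h' : PairMF p k a' b') : PairMF p k (a - a') (b - b') := by
  simpa [sub_eq_add_neg] using pair_add p k _ _ _ _ h h'.neg

theorem PairMF.congr_weight {p : ℕ} {k k' : ℤ} {a b : PowerSeries ℂ} (h : PairMF p k a b)
    (hk : k = k') : PairMF p k' a b := hk ▸ h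

theorem PairMF.one (p : ℕ) : PairMF p 0 1 1 := by
  have key : ∀ h : ℝ, HasQE h (1 : ℍ → ℂ) 1 := by
    intro h τ
    have := hasSum_single (f := fun m : ℕ => PowerSeries.coeff m (1 : PowerSeries ℂ) •
      Function.Periodic.qParam h τ ^ m) 0 (fun m hm => by simp [PowerSeries.coeff_one, hm])
    simpa using this
  refine ⟨1, IsMF.one, key 1, ?_⟩
  rw [is_invariant_one]
  exact key p

theorem PairMF.pow {p : ℕ} {k : ℤ} {a b : PowerSeries ℂ} (h : PairMF p k a b) (n : ℕ) :
    PairMF p (n * k) (a ^ n) (b ^ n) := by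
  induction n with
  | zero => simpa using PairMF.one p
  | succ n ih =>
    rw [pow_succ, pow_succ]
    exact (pair_mul p _ _ _ _ _ _ ih h).congr_weight (by push_cast; ring)

theorem L1.neg {k : ℤ} {a : PowerSeries ℂ} (h : L1 k a) : L1 k (-a) := by
  simpa using L1_smul k (-1) a h

theorem L1.sub {k : ℤ} {a a' : PowerSeries ℂ} (h : L1 k a) (h' : L1 k a') : L1 k (a - a') := by
  simpa [sub_eq_add_neg] using L1_add k _ _ h h'.neg

theorem L1.congr_weight {k k' : ℤ} {a : PowerSeries ℂ} (h : L1 k a) (hk : k = k') : L1 k' a :=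
  hk ▸ h

theorem L1.pow {k : ℤ} {a : PowerSeries ℂ} (h : L1 k a) (n : ℕ) : L1 (n * k) (a ^ n) := by
  induction n with
  | zero => simpa [Stmt_L1_one] using L1_one
  | succ n ih =>
    rw [pow_succ]
    exact (L1_mul _ _ _ _ ih h).congr_weight (by push_cast; ring)

end

end Fermat.Agent.S16
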