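import Fermat.Agent.S16.Interface
import Fermat.Agent.S20
import Fermat.Agent.QInt.Main

/-!
# S16 (B): the primes `p = 2, 3, 5` (no cusp forms of weight two)
-/

set_option autoImplicit false

namespace Fermat.Agent.S16

open CongruenceSubgroup

namespace SmallP

theorem nuTwo_two : ModularCurve.nuTwo 2 = 1 := by
  rw [ModularCurve.nuTwo, Nat.card_eq_fintype_card]; decide

theorem nuTwo_three : ModularCurve.nuTwo 3 = 0 := by
  rw [ModularCurve.nuTwo, Nat.card_eq_fintype_card]; decide

theorem nuTwo_five : ModularCurve.nuTwo 5 = 2 := by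
  rw [ModularCurve.nuTwo, Nat.card_eq_fintype_card]; decide

theorem nuThree_two : ModularCurve.nuThree 2 = 0 := by
  rw [ModularCurve.nuThree, Nat.card_eq_fintype_card]; decide

theorem nuThree_three : ModularCurve.nuThree 3 = 1 := by
  rw [ModularCurve.nuThree, Nat.card_eq_fintype_card]; decide

theorem nuThree_five : ModularCurve.nuThree 5 = 0 := by
  rw [ModularCurve.nuThree, Nat.card_eq_fintype_card]; decide

theorem psi_prime {p : ℕ} (hp : p.Prime) : ModularCurve.dedekindPsi p = p + 1 := by
  rw [ModularCurve.dedekindPsi, hp.divisors, Finset.filter_true_of_mem, Finset.sum_pair hp.one_lt.ne]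
  · rw [Nat.div_one, Nat.div_self hp.pos]
  · intro d hd
    simp only [Finset.mem_insert, Finset.mem_singleton] at hd
    rcases hd with rfl | rfl
    · exact squarefree_one
    · exact hp.squarefree

theorem cuspCount_prime {p : ℕ} (hp : p.Prime) : ModularCurve.cuspCount p = 2 := by
  rw [ModularCurve.cuspCount, hp.divisors, Finset.sum_pair hp.one_lt.ne]
  simp [Nat.div_self hp.pos]

theorem genus_two : ModularCurve.genusFormula 2 = 0 := by
  rw [ModularCurve.genusFormula, psi_prime Nat.prime_two, cuspCount_prime Nat.prime_two, nuTwo_two,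
    nuThree_two]
  norm_num

theorem genus_three : ModularCurve.genusFormula 3 = 0 := by
  rw [ModularCurve.genusFormula, psi_prime Nat.prime_three, cuspCount_prime Nat.prime_three,
    nuTwo_three, nuThree_three]
  norm_num

theorem genus_five : ModularCurve.genusFormula 5 = 0 := by
  rw [ModularCurve.genusFormula, psi_prime Nat.prime_five, cuspCount_prime Nat.prime_five,
    nuTwo_five, nuThree_five]
  norm_num

theorem eq_zero_of_genus (N : ℕ) [NeZero N] (h : ModularCurve.genusFormula N = 0)
    (f : CuspForm (Gamma0 N) 2) : f = 0 := by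
  have h1 := Fermat.Agent.S20.result N
  rw [h] at h1
  have h2 : Module.finrank ℂ (CuspForm (Gamma0 N) 2) = 0 := by exact_mod_cast h1
  have := Fermat.Agent.QInt.finiteDimensional_cuspForm N 2
  exact (finrank_zero_iff_forall_zero.mp h2) f

end SmallP

/-- `Stmt_B p` when `S₂(Γ₀(p)) = 0`. -/
theorem B_of_genus_zero (p : ℕ) [Fact p.Prime] (h : ModularCurve.genusFormula p = 0) :
    Stmt_B p := by
  intro M f a ha hcong
  have : NeZero p := ⟨(Fact.out : p.Prime).ne_zero⟩
  have hf := SmallP.eq_zero_of_genus p h f
  have h1 : a 1 = 0 := by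
    have := ha 1
    rw [hf] at this
    have h0 : ModularFormClass.qCoeff (⇑(0 : CuspForm (Gamma0 p) 2)) 1 = 0 := by
      rw [ModularFormClass.qCoeff, FunLike.coe_zero, UpperHalfPlane.qExpansion_zero]
      simp
    rw [h0] at this
    exact_mod_cast this.symm
  have h2 := hcong 1 le_rfl
  have h3 : sigmaP p 1 = 1 := by
    have hp1 : ¬ p ∣ 1 := (Fact.out : p.Prime).one_lt.ne' ∘ Nat.dvd_one.mp
    simp [sigmaP, Finset.filter_singleton, hp1]
  rw [h1, h3] at h2
  have h4 : (M : ℤ) ∣ 1 := by simpa using h2
  have h5 : M ∣ 1 := by exact_mod_cast h4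
  rw [Nat.dvd_one.mp h5]
  exact one_dvd _

theorem B_small (p : ℕ) [Fact p.Prime] (h7 : p < 7) : Stmt_B p := by
  have hp : p.Prime := Fact.out
  apply B_of_genus_zero
  interval_cases p
  · exact absurd hp (by norm_num)
  · exact absurd hp (by norm_num)
  · exact SmallP.genus_two
  · exact SmallP.genus_three
  · exact absurd hp (by norm_num)
  · exact SmallP.genus_five
  · exact absurd hp (by norm_num)

end Fermat.Agent.S16
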