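/-
S16 (helper65): level one Sturm bound modulo an arbitrary additive subgroup of `ℂ`.
All `q`-coefficients of a level one form of weight `k` are `ℤ`-linear combinations of the first
`⌊k/12⌋ + 1` ones.
-/
import Fermat.Agent.QInt.QMap
import Fermat.Agent.QInt.LevelOne
import Fermat.Agent.Common.QExpDelta

set_option autoImplicit false

namespace Fermat.Agent.S16

open UpperHalfPlane ModularForm EisensteinSeries CongruenceSubgroup Matrix.SpecialLinearGroup
open Fermat.Agent.QInt Fermat.Agent.QInt.LevelOne Fermat.Agent.Common ModularCurve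
open scoped MatrixGroups ModularForm Manifold

local notation "ι" => PowerSeries.map (Int.castRingHom ℂ)

/-- product of an integral series with a series whose first coefficients lie in `J` -/
lemma SL_coeff_mul_mem (J : AddSubgroup ℂ) (P : PowerSeries ℤ) (Q : PowerSeries ℂ) (n : ℕ)
    (hQ : ∀ j ≤ n, Q.coeff j ∈ J) : (ι P * Q).coeff n ∈ J := by
  rw [PowerSeries.coeff_mul]
  refine AddSubgroup.sum_mem _ fun x hx => ?_
  have hx2 : x.2 ≤ n := by
    have := Finset.HasAntidiagonal.mem_antidiagonal.mp hx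
    omega
  rw [PowerSeries.coeff_map]
  have : (Int.castRingHom ℂ) (P.coeff x.1) * Q.coeff x.2 = (P.coeff x.1) • Q.coeff x.2 := by
    simp
  rw [this]
  exact J.zsmul_mem (hQ _ hx2) _

lemma SL_isIntPS_exists (P : PowerSeries ℂ) (h : IsIntPS P) : ∃ P' : PowerSeries ℤ, P = ι P' := by
  choose c hc using h
  exact ⟨PowerSeries.mk c, by ext n; simp [hc n]⟩

/-- For even `k ≥ 0`, `k ≠ 2`, there is a level one form with integral expansion `1 + O(q)`. -/
lemma SL_exists_G (k : ℤ) (hk0 : 0 ≤ k) (hk2 : Even k) (hk : k ≠ 2) :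
    ∃ (G : ℍ → ℂ) (P : PowerSeries ℤ), IsMF ⊤ k G ∧ qExpansion 1 G = ι P ∧ P.coeff 0 = 1 := by
  obtain ⟨a, b, hab⟩ : ∃ a b : ℕ, 4 * (a : ℤ) + 6 * (b : ℤ) = k := by
    obtain ⟨m, hm⟩ := hk2
    have hm0 : 0 ≤ m := by omega
    have hm1 : m ≠ 1 := by omega
    lift m to ℕ using hm0
    rcases Nat.even_or_odd' m with ⟨c, hc | hc⟩
    · exact ⟨c, 0, by subst hc; push_cast at hm ⊢; omega⟩
    · have hc1 : 1 ≤ c := by
        rcases Nat.eq_zero_or_pos c with h | h
        · subst h; simp at hc; subst hc; simp at hm1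
        · exact h
      refine ⟨c - 1, 1, ?_⟩
      subst hc
      push_cast [Nat.cast_sub hc1] at hm ⊢
      omega
  have h4 : IsMF ⊤ 4 (E₄ : ℍ → ℂ) := IsMF.of_levelOne E₄
  have h6 : IsMF ⊤ 6 (E₆ : ℍ → ℂ) := IsMF.of_levelOne E₆
  have hG : IsMF ⊤ k ((E₄ : ℍ → ℂ) ^ a * (E₆ : ℍ → ℂ) ^ b) :=
    ((h4.pow a).mul (h6.pow b)).congr_weight (by omega)
  have hq : qExpansion 1 ((E₄ : ℍ → ℂ) ^ a * (E₆ : ℍ → ℂ) ^ b)
      = qExpansion 1 E₄ ^ a * qExpansion 1 E₆ ^ b := by
    have e1 : ∀ (g : ℍ → ℂ) (hg : IsQ g) (n : ℕ), qExpansion 1 (g ^ n) = qExpansion 1 g ^ n := by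
      intro g hg n
      have := map_pow qMap (⟨g, hg⟩ : QH) n
      simpa using this
    rw [qExpansion_mul (h4.pow a).isQ_top.analyticAt (h6.pow b).isQ_top.analyticAt,
      e1 _ h4.isQ_top, e1 _ h6.isQ_top]
  obtain ⟨P, hP⟩ := SL_isIntPS_exists _ ((isIntPS_E₄.pow a).mul (isIntPS_E₆.pow b))
  refine ⟨_, P, hG, hq.trans hP, ?_⟩
  have h0 : (qExpansion 1 E₄ ^ a * qExpansion 1 E₆ ^ b).coeff 0 = 1 := by
    have e4 : PowerSeries.constantCoeff (qExpansion 1 E₄) = 1 := by
      rw [← PowerSeries.coeff_zero_eq_constantCoeff_apply]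
      exact E_qExpansion_coeff_zero _ ⟨2, rfl⟩
    have e6 : PowerSeries.constantCoeff (qExpansion 1 E₆) = 1 := by
      rw [← PowerSeries.coeff_zero_eq_constantCoeff_apply]
      exact E_qExpansion_coeff_zero _ ⟨3, rfl⟩
    rw [PowerSeries.coeff_zero_eq_constantCoeff_apply, map_mul, map_pow, map_pow, e4, e6]
    simp
  rw [hP, PowerSeries.coeff_map] at h0
  have h1 : ((P.coeff 0 : ℤ) : ℂ) = ((1 : ℤ) : ℂ) := by simpa using h0
  exact_mod_cast h1

/-- Main induction. -/
theorem SL_sturm_aux (J : AddSubgroup ℂ) : ∀ (N : ℕ) (k : ℤ), k < N → ∀ g : ℍ → ℂ, IsMF ⊤ k g →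
    (∀ n : ℕ, 12 * (n : ℤ) ≤ k → (qExpansion 1 g).coeff n ∈ J) →
    ∀ n, (qExpansion 1 g).coeff n ∈ J := by
  intro N
  induction N with
  | zero =>
    intro k hk g hg _ n
    have h0 : hg.toLevelOne = 0 :=
      rank_zero_iff_forall_zero.mp (levelOne_neg_weight_rank_zero (by exact_mod_cast hk)) _
    have h1 : g = 0 := by
      have := congrArg (fun f : ModularForm 𝒮ℒ k => (f : ℍ → ℂ)) h0
      simpa using this
    rw [h1, qExpansion_zero]
    simp
  | succ N ih =>
    intro k hk g hg h0 n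
    have hzero : g = 0 → (qExpansion 1 g).coeff n ∈ J := by
      intro h1
      rw [h1, qExpansion_zero]
      simp
    have hz' : hg.toLevelOne = 0 → g = 0 := by
      intro h1
      have := congrArg (fun f : ModularForm 𝒮ℒ k => (f : ℍ → ℂ)) h1
      simpa using this
    rcases lt_or_ge k 0 with hneg | hk0
    · exact hzero (hz' (rank_zero_iff_forall_zero.mp (levelOne_neg_weight_rank_zero hneg) _))
    rcases Int.even_or_odd k with hev | hodd
    swap
    · exact hzero (hz' (ModularForm.levelOne_odd_weight_eq_zero hodd _))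
    by_cases hk2 : k = 2
    · subst hk2
      exact hzero (hz' (rank_zero_iff_forall_zero.mp levelOne_weight_two_rank_zero _))
    obtain ⟨G, P, hG, hGq, hP0⟩ := SL_exists_G k hk0 hev hk2
    set a0 : ℂ := (qExpansion 1 g).coeff 0 with ha0
    have ha0J : a0 ∈ J := h0 0 (by simpa using hk0)
    have hg' : IsMF ⊤ k (g - a0 • G) := hg.sub (hG.smul a0)
    have hq' : qExpansion 1 (g - a0 • G) = qExpansion 1 g - a0 • ι P := by
      rw [qExpansion_sub hg.isQ_top.analyticAt (hG.smul a0).isQ_top.analyticAt,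
        qExpansion_smul hG.isQ_top.analyticAt, hGq]
    -- coefficients of `a0 • ι P` are in `J`
    have hPJ : ∀ m, (a0 • ι P).coeff m ∈ J := by
      intro m
      rw [PowerSeries.coeff_smul, PowerSeries.coeff_map]
      have : a0 • (Int.castRingHom ℂ) (P.coeff m) = (P.coeff m) • a0 := by
        simp [mul_comm]
      rw [this]
      exact J.zsmul_mem ha0J _
    have hcusp : (qExpansion 1 hg'.toLevelOne).coeff 0 = 0 := by
      rw [IsMF.coe_toLevelOne, hq', map_sub, PowerSeries.coeff_smul, PowerSeries.coeff_map, hP0]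
      simp [ha0]
    have hfac := qExpansion_eq_qExpansion_discriminant_mul hg'.toLevelOne hcusp
    set h := CuspForm.discriminantEquiv (toCuspForm hg'.toLevelOne hcusp) with hh
    rw [IsMF.coe_toLevelOne, qExpansion_discriminant, map_mul, PowerSeries.map_X, mul_assoc]
      at hfac
    -- `hfac : qExpansion 1 (g - a0 • G) = X * (ι U * qExpansion 1 h)`
    have hshift : ∀ m, (qExpansion 1 (g - a0 • G)).coeff (m + 1)
        = (ι dedekindEtaUnit * qExpansion 1 h).coeff m := by
      intro m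
      rw [hfac, PowerSeries.coeff_succ_X_mul]
    have hinv : qExpansion 1 h = ι dedekindEtaUnitInv * (ι dedekindEtaUnit * qExpansion 1 h) := by
      rw [← mul_assoc, ← map_mul, mul_comm dedekindEtaUnitInv, dedekindEtaUnit_mul_inv, map_one,
        one_mul]
    have hhJ : ∀ m, (qExpansion 1 h).coeff m ∈ J := by
      refine ih (k - 12) (by push_cast at hk; omega) h (IsMF.of_levelOne h) ?_
      intro m hm
      rw [hinv]
      refine SL_coeff_mul_mem J _ _ m fun j hj => ?_
      rw [← hshift, hq', map_sub]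
      refine J.sub_mem (h0 _ ?_) (hPJ _)
      push_cast
      have : (j : ℤ) ≤ m := by exact_mod_cast hj
      omega
    have hg'J : ∀ m, (qExpansion 1 (g - a0 • G)).coeff m ∈ J := by
      intro m
      rcases m with _ | m
      · have := hcusp
        rw [IsMF.coe_toLevelOne] at this
        rw [this]
        exact J.zero_mem
      · rw [hshift]
        exact SL_coeff_mul_mem J _ _ m fun j _ => hhJ j
    have := J.add_mem (hg'J n) (hPJ n)
    rw [hq', ← map_add, sub_add_cancel] at this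
    exact this

/-- **Level one Sturm bound modulo an additive subgroup** (function version). -/
theorem sturm_levelOne_isMF (J : AddSubgroup ℂ) {k : ℤ} {g : ℍ → ℂ} (hg : IsMF ⊤ k g)
    (h0 : ∀ n : ℕ, 12 * (n : ℤ) ≤ k → (qExpansion 1 g).coeff n ∈ J) :
    ∀ n, (qExpansion 1 g).coeff n ∈ J :=
  SL_sturm_aux J (k.toNat + 1) k (by push_cast; have := Int.self_le_toNat k; omega) g hg h0

/-- **Level one Sturm bound modulo an additive subgroup.** -/
theorem sturm_levelOne_addSubgroup (J : AddSubgroup ℂ) {k : ℤ} (F : ModularForm 𝒮ℒ k)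
    (h0 : ∀ n : ℕ, 12 * (n : ℤ) ≤ k → (qExpansion 1 F).coeff n ∈ J) :
    ∀ n, (qExpansion 1 F).coeff n ∈ J :=
  sturm_levelOne_isMF J (IsMF.of_levelOne F) h0

end Fermat.Agent.S16
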