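import Fermat.Agent.S16.BInterface
import Fermat.Agent.S16.SturmLevelOne

/-!
# S16 (B), package B13 : `Stmt_STURM` (glue to the level one Sturm bound)
-/

set_option autoImplicit false

namespace Fermat.Agent.S16

open UpperHalfPlane ModularForm CongruenceSubgroup Matrix.SpecialLinearGroup
open scoped MatrixGroups ModularForm Manifold

namespace SturmGlue

/-- `M · OO ℓ` as an additive subgroup of `ℂ`. -/
def divOSubgroup (ℓ M : ℕ) : AddSubgroup ℂ where
  carrier := {z | DivO ℓ M z}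
  zero_mem' := ⟨0, (OO ℓ).zero_mem, by simp⟩
  add_mem' := by
    rintro x y ⟨c, hc, rfl⟩ ⟨d, hd, rfl⟩
    exact ⟨c + d, (OO ℓ).add_mem hc hd, by ring⟩
  neg_mem' := by
    rintro x ⟨c, hc, rfl⟩
    exact ⟨-c, (OO ℓ).neg_mem hc, by ring⟩

theorem mem_divOSubgroup (ℓ M : ℕ) (z : ℂ) : z ∈ divOSubgroup ℓ M ↔ DivO ℓ M z := Iff.rfl

/-- the `q`-expansion of a level one form (given as a function) -/
theorem hasQE_levelOne {k : ℤ} {F : ℍ → ℂ} (hF : Fermat.Agent.S20.IsMF ⊤ k F) :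
    HasQE 1 F (qExpansion 1 F) := by
  have hF' : Fermat.Agent.QInt.IsMF ⊤ k F := ⟨hF.inv, hF.holo, hF.bdd⟩
  intro τ
  have h := ModularForm.hasSum_qExpansion (f := hF'.toLevelOne) (h := 1) one_pos
    one_mem_strictPeriods_SL τ
  simpa [smul_eq_mul] using h

end SturmGlue

theorem STURM (hU : Stmt_hasQE_unique) : Stmt_STURM := by
  intro ℓ _ k c _ hL _ h0 n
  obtain ⟨F, hF, hc⟩ := hL
  have hq : qExpansion 1 F = c := hU 1 F _ _ one_pos (SturmGlue.hasQE_levelOne hF) hc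
  have hF' : Fermat.Agent.QInt.IsMF ⊤ k F := ⟨hF.inv, hF.holo, hF.bdd⟩
  have := sturm_levelOne_isMF (SturmGlue.divOSubgroup ℓ ℓ) hF'
    (fun n hn => by rw [hq]; exact h0 n hn) n
  rw [hq] at this
  exact this

end Fermat.Agent.S16
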