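import Fermat.Agent.S16.PairBasic

/-! S16 (B): trace (TR) and norm (NM) from `Γ₀(p)` to level one, in terms of the pair of expansions
`(qExpansion 1 H, qExpansion p (H ∣ S))`. -/

set_option autoImplicit false

open UpperHalfPlane ModularForm Matrix.SpecialLinearGroup CongruenceSubgroup Function
open scoped MatrixGroups Manifold ModularForm Real

namespace Fermat.Agent.S16

open Fermat.Agent.S20

noncomputable section

namespace Pair

variable {k : ℤ} {H : ℍ → ℂ}

/-- slashing by `T ^ j` is translation by `j`. -/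
theorem slash_T_zpow (f : ℍ → ℂ) (j : ℤ) : f ∣[k] (ModularGroup.T ^ j) = shift j f := by
  funext z
  rw [SL_slash_apply, modular_T_zpow_smul]
  have h1 : denom (ModularGroup.T ^ j : SL(2, ℤ)) z = 1 := by
    rw [ModularGroup.denom_apply, ModularGroup.coe_T_zpow]
    simp
  rw [h1, one_zpow, mul_one]
  rfl

/-- The expansion "at the cusp `0`": `H ∣ S`. -/
def atZero (k : ℤ) (H : ℍ → ℂ) : ℍ → ℂ := H ∣[k] ModularGroup.S

theorem T_mem_Gamma0 (N : ℕ) : ModularGroup.T ∈ Gamma0 N := by
  rw [Gamma0_mem]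
  simp [ModularGroup.T]

theorem nice_self {N : ℕ} (hH : IsMF (Gamma0 N) k H) : Nice 1 H := by
  refine ⟨hH.holo, hH.bdd_self, fun z => ?_⟩
  have h1 := hH.inv _ (T_mem_Gamma0 N)
  have h2 := slash_T_zpow (k := k) H 1
  rw [zpow_one, h1] at h2
  have := congrFun h2 z
  rw [this]
  simp [shift]

theorem S_T_S_mem_Gamma0 (N : ℕ) :
    ModularGroup.S * ModularGroup.T ^ (N : ℤ) * ModularGroup.S⁻¹ ∈ Gamma0 N := by
  rw [Gamma0_mem]
  rw [Matrix.SpecialLinearGroup.coe_mul, Matrix.SpecialLinearGroup.coe_mul,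
    ModularGroup.coe_T_zpow, Matrix.SpecialLinearGroup.coe_inv, Matrix.adjugate_fin_two]
  simp [ModularGroup.S, Matrix.mul_apply, Fin.sum_univ_two]

theorem nice_atZero {N : ℕ} (hH : IsMF (Gamma0 N) k H) : Nice N (atZero k H) := by
  refine ⟨hH.holo_slash _, hH.bdd _, fun z => ?_⟩
  have h1 := hH.inv _ (S_T_S_mem_Gamma0 N)
  have h2 : atZero k H ∣[k] (ModularGroup.T ^ (N : ℤ)) = atZero k H := by
    unfold atZero
    conv_rhs => rw [← h1]
    rw [← SlashAction.slash_mul, ← SlashAction.slash_mul]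
    congr 1
    group
  rw [slash_T_zpow] at h2
  have := congrFun h2 z
  simpa [shift] using this

variable (p : ℕ) [hp : Fact p.Prime]

/-- The trace of `H` from `Γ₀(p)` to level one. -/
def trace (k : ℤ) (H : ℍ → ℂ) : ℍ → ℂ := H + ∑ j ∈ Finset.range p, shift (j : ℕ) (atZero k H)

/-- The norm of `H` from `Γ₀(p)` to level one. -/
def norm (k : ℤ) (H : ℍ → ℂ) : ℍ → ℂ := H * ∏ j ∈ Finset.range p, shift (j : ℕ) (atZero k H)

omit hp in
theorem tr_rep (hH : IsMF (Gamma0 p) k H) (j : ℕ) :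
    tr k H ((Cosets.rep (j : ℕ)) : SL(2, ℤ) ⧸ Gamma0 p) = shift (j : ℕ) (atZero k H) := by
  rw [tr_mk hH.inv, Cosets.rep, inv_inv, SlashAction.slash_mul, slash_T_zpow]
  simp [atZero]

variable {p}

theorem isMF_trace (hH : IsMF (Gamma0 p) k H) : IsMF ⊤ k (trace p k H) := by
  have : Fintype (SL(2, ℤ) ⧸ Gamma0 p) := Fintype.ofEquiv _ (Cosets.cosetEquiv p)
  have h1 := Fermat.Agent.S16.isMF_trace hH
  rw [Cosets.sum_cosets, tr_one hH.inv, Finset.sum_congr rfl fun j _ => tr_rep p hH j] at h1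
  exact h1

theorem isMF_norm (hH : IsMF (Gamma0 p) k H) : IsMF ⊤ (k * (p + 1)) (norm p k H) := by
  have : Fintype (SL(2, ℤ) ⧸ Gamma0 p) := Fintype.ofEquiv _ (Cosets.cosetEquiv p)
  have h1 := Fermat.Agent.S16.isMF_norm hH
  rw [Cosets.prod_cosets, tr_one hH.inv, Finset.prod_congr rfl fun j _ => tr_rep p hH j,
    Cosets.card_cosets] at h1
  exact_mod_cast h1

/-- The primitive `p`-th root of unity `exp (2πi/p)`. -/
def zetaP (p : ℕ) : ℂ := Complex.exp (2 * π * Complex.I / p)

theorem zetaP_pow_self {p : ℕ} (hp0 : p ≠ 0) : zetaP p ^ p = 1 := by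
  rw [zetaP, ← Complex.exp_nat_mul]
  have : (p : ℂ) ≠ 0 := by exact_mod_cast hp0
  rw [mul_div_cancel₀ _ this]
  exact Complex.exp_two_pi_mul_I

theorem exp_eq_zetaP_pow (p j : ℕ) :
    Complex.exp (2 * π * Complex.I * ((j : ℕ) : ℝ) / ((p : ℕ) : ℝ)) = zetaP p ^ j := by
  rw [zetaP, ← Complex.exp_nat_mul]
  congr 1
  push_cast
  ring

theorem nice_of_top {F : ℍ → ℂ} (hF : IsMF ⊤ k F) : Nice 1 F :=
  nice_self (N := 1) hF.of_top

omit hp in
theorem nice_self' (hH : IsMF (Gamma0 p) k H) : Nice p H := by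
  simpa using (nice_self hH).nat_mul p

theorem qExpansion_shift_atZero (hH : IsMF (Gamma0 p) k H) (j : ℕ) :
    qExpansion p (shift (j : ℕ) (atZero k H))
      = PowerSeries.rescale (zetaP p ^ j) (qExpansion p (atZero k H)) := by
  have hp0 : (0 : ℝ) < p := by exact_mod_cast hp.out.pos
  rw [qExpansion_shift (nice_atZero hH) hp0, exp_eq_zetaP_pow]

/-- (TR), power series form. -/
theorem expand_qExpansion_trace (hH : IsMF (Gamma0 p) k H) :
    PowerSeries.expand p hp.out.ne_zero (qExpansion 1 (trace p k H))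
      = PowerSeries.expand p hp.out.ne_zero (qExpansion 1 H)
        + ∑ j ∈ Finset.range p, PowerSeries.rescale (zetaP p ^ j) (qExpansion p (atZero k H)) := by
  have hp0 : (0 : ℝ) < p := by exact_mod_cast hp.out.pos
  have h0 : ∀ j ∈ Finset.range p, Nice p (shift ((j : ℕ) : ℝ) (atZero k H)) :=
    fun j _ => (nice_atZero hH).shift j
  rw [← qExpansion_nat (nice_of_top (isMF_trace hH)), ← qExpansion_nat (nice_self hH), trace,
    qExpansion_add ((nice_self' hH).analyticAt hp0) ((Nice.sum _ _ h0).analyticAt hp0),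
    qExpansion_sum _ _ hp0 h0,
    Finset.sum_congr rfl fun j _ => qExpansion_shift_atZero hH j]

/-- (TR): the `q`-expansion of the trace. -/
theorem coeff_qExpansion_trace (hH : IsMF (Gamma0 p) k H) (n : ℕ) :
    (qExpansion 1 (trace p k H)).coeff n
      = (qExpansion 1 H).coeff n + p * (qExpansion p (atZero k H)).coeff (p * n) := by
  have h1 := congrArg (PowerSeries.coeff (p * n)) (expand_qExpansion_trace hH)
  rw [map_add, PowerSeries.coeff_expand_mul, PowerSeries.coeff_expand_mul, map_sum] at h1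
  rw [h1]
  congr 1
  have h2 : ∀ j ∈ Finset.range p, (PowerSeries.coeff (p * n))
      (PowerSeries.rescale (zetaP p ^ j) (qExpansion p (atZero k H)))
      = (qExpansion p (atZero k H)).coeff (p * n) := by
    intro j _
    rw [PowerSeries.coeff_rescale, ← pow_mul, mul_comm j, mul_assoc, pow_mul,
      zetaP_pow_self hp.out.ne_zero, one_pow, one_mul]
  rw [Finset.sum_congr rfl h2]
  simp

/-- (NM): the `q`-expansion of the norm. -/
theorem expand_qExpansion_norm (hH : IsMF (Gamma0 p) k H) :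
    PowerSeries.expand p hp.out.ne_zero (qExpansion 1 (norm p k H))
      = PowerSeries.expand p hp.out.ne_zero (qExpansion 1 H)
        * ∏ j ∈ Finset.range p, PowerSeries.rescale (zetaP p ^ j) (qExpansion p (atZero k H)) := by
  have hp0 : (0 : ℝ) < p := by exact_mod_cast hp.out.pos
  have h0 : ∀ j ∈ Finset.range p, Nice p (shift ((j : ℕ) : ℝ) (atZero k H)) :=
    fun j _ => (nice_atZero hH).shift j
  rw [← qExpansion_nat (nice_of_top (isMF_norm hH)), ← qExpansion_nat (nice_self hH), norm,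
    qExpansion_mul ((nice_self' hH).analyticAt hp0) ((Nice.prod _ _ h0).analyticAt hp0),
    UpperHalfPlane.qExpansion_prod _ fun j hj => (h0 j hj).analyticAt hp0,
    Finset.prod_congr rfl fun j _ => qExpansion_shift_atZero hH j]

end Pair

end

end Fermat.Agent.S16
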