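/-
TEAM S16 part (B), package B06 (TRNM): trace and norm to level one, in the interface form
`Stmt_TR`, `Stmt_NM`.  The analytic work is in `PairTrace.lean` (helper20); here we only translate
between `HasQE` and `qExpansion` (through the uniqueness statement `Stmt_hasQE_unique`).
-/
import Fermat.Agent.S16.BInterface
import Fermat.Agent.S16.PairTrace

set_option autoImplicit false

namespace Fermat.Agent.S16

open UpperHalfPlane ModularForm CongruenceSubgroup Matrix.SpecialLinearGroup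
open Fermat.Agent.S20 (IsMF IsCF)
open scoped MatrixGroups ModularForm Manifold Real

namespace TRNM

theorem hasQE_of_nice {h : ℝ} {f : ℍ → ℂ} (hf : Pair.Nice h f) (hh : 0 < h) :
    HasQE h f (qExpansion h f) := fun τ => hf.hasSum hh τ

theorem inf_eq (hU : Stmt_hasQE_unique) {p : ℕ} {k : ℤ} {H : ℍ → ℂ} {a b : PowerSeries ℂ}
    (h : HasPair p k H a b) : qExpansion 1 H = a :=
  hU 1 H _ _ one_pos (hasQE_of_nice (Pair.nice_self h.mf) one_pos) h.inf

theorem zero_eq (hU : Stmt_hasQE_unique) {p : ℕ} (hp : 0 < p) {k : ℤ} {H : ℍ → ℂ}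
    {a b : PowerSeries ℂ} (h : HasPair p k H a b) : qExpansion p (Pair.atZero k H) = b :=
  hU p _ _ _ (by exact_mod_cast hp)
    (hasQE_of_nice (Pair.nice_atZero h.mf) (by exact_mod_cast hp)) h.zero

end TRNM

theorem TR (hU : Stmt_hasQE_unique) : Stmt_TR := by
  rintro p hp k a b ⟨H, hH⟩
  have : Fact p.Prime := ⟨hp⟩
  refine ⟨Pair.trace p k H, Pair.isMF_trace hH.mf, ?_⟩
  have h1 := TRNM.hasQE_of_nice (Pair.nice_of_top (Pair.isMF_trace hH.mf)) one_pos
  have h2 : qExpansion 1 (Pair.trace p k H) = a + (p : ℂ) • Uop p b := by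
    ext n
    rw [Pair.coeff_qExpansion_trace hH.mf, TRNM.inf_eq hU hH, TRNM.zero_eq hU hp.pos hH]
    simp
  rwa [h2] at h1

theorem NM (hU : Stmt_hasQE_unique) : Stmt_NM := by
  rintro p hp k a b ⟨H, hH⟩
  have : Fact p.Prime := ⟨hp⟩
  refine ⟨qExpansion 1 (Pair.norm p k H), ⟨Pair.norm p k H, Pair.isMF_norm hH.mf,
    TRNM.hasQE_of_nice (Pair.nice_of_top (Pair.isMF_norm hH.mf)) one_pos⟩, ?_⟩
  have h := Pair.expand_qExpansion_norm hH.mf
  rw [TRNM.inf_eq hU hH, TRNM.zero_eq hU hp.pos hH] at h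
  rw [Vop_eq_expand hp.ne_zero, Vop_eq_expand hp.ne_zero, h]
  rfl

end Fermat.Agent.S16
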