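import Fermat.Agent.S16.K0

/-!
# S16 (B), package V3: there is no `G ∈ M₂(Γ₀(p))`, `G ≡ 1 mod 9`, when `3 ∣ p + 1`.
-/

set_option autoImplicit false

namespace Fermat.Agent.S16

open PowerSeries

namespace V3

noncomputable section

theorem congS_of_eq_add_smul {ℓ M : ℕ} {a b c : PowerSeries ℂ} (hc : IsIntS ℓ c)
    (h : a = b + (M : ℂ) • c) : CongS ℓ M a b := by
  refine CongS.of_eq_add hc ?_
  rw [h, smul_eq_C_mul]
  simp

/-- the reduction of `Ψ` at `∞`. -/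
def Ta (t : ℕ) : PowerSeries ℂ :=
  (-(t : ℂ)) • (1 : PowerSeries ℂ) - (8 : ℂ) • sig 1 - (80 * (1 + 3 * (t : ℂ))) • sig 3

/-- the reduction of `Ψ` at `0` is `V_p Tb`. -/
def Tb : PowerSeries ℂ := -(8 : ℂ) • sig 1 - (80 : ℂ) • sig 3

def fa (t n : ℕ) : ℤ :=
  (if n = 0 then -(t : ℤ) else 0) - 8 * (ArithmeticFunction.sigma 1 n : ℤ)
    - 80 * (1 + 3 * (t : ℤ)) * (ArithmeticFunction.sigma 3 n : ℤ)

def fb (n : ℕ) : ℤ :=
  -8 * (ArithmeticFunction.sigma 1 n : ℤ) - 80 * (ArithmeticFunction.sigma 3 n : ℤ)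

theorem coeff_Ta (t n : ℕ) : coeff n (Ta t) = (fa t n : ℂ) := by
  simp only [Ta, sig, fa, map_sub, coeff_smul, coeff_mk, coeff_one, smul_eq_mul]
  split_ifs <;> push_cast <;> ring

theorem coeff_Tb (n : ℕ) : coeff n Tb = (fb n : ℂ) := by
  simp only [Tb, sig, fb, map_sub, coeff_smul, coeff_mk, smul_eq_mul]
  push_cast
  ring

theorem isIntS_Ta (t : ℕ) : IsIntS 3 (Ta t) := IsIntS.of_int fun n => ⟨fa t n, coeff_Ta t n⟩

theorem isIntS_Tb : IsIntS 3 Tb := IsIntS.of_int fun n => ⟨fb n, coeff_Tb n⟩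

theorem exists_ordUnit_Ta (t : ℕ) : ∃ e : ℕ, OrdUnit 3 (Ta t) e := by
  by_cases h : 3 ∣ t
  · refine ⟨1, OrdUnit.of_int (fa t) (coeff_Ta t) ?_ ?_⟩
    · intro n hn
      interval_cases n
      simp only [fa, if_true, ArithmeticFunction.map_zero, Nat.cast_zero, mul_zero, sub_zero]
      exact (Int.natCast_dvd_natCast.mpr h).neg_right
    · refine ⟨-1, -29 - 80 * (t : ℤ), ?_⟩
      simp [fa]
      ring
  · refine ⟨0, OrdUnit.of_int (fa t) (coeff_Ta t) (fun n hn => absurd hn (Nat.not_lt_zero n)) ?_⟩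
    have h1 : Nat.Coprime 3 t := (Nat.Prime.coprime_iff_not_dvd Nat.prime_three).2 h
    have h2 : IsCoprime ((3 : ℕ) : ℤ) (t : ℤ) := Nat.isCoprime_iff_coprime.mpr h1
    simp only [fa, if_true, ArithmeticFunction.map_zero, Nat.cast_zero, mul_zero, sub_zero]
    exact h2.symm.neg_left

theorem ordUnit_Tb : OrdUnit 3 Tb 1 := by
  refine OrdUnit.of_int fb coeff_Tb ?_ ?_
  · intro n hn
    interval_cases n
    simp [fb]
  · refine ⟨-1, -29, ?_⟩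
    simp [fb]

end

end V3

open V3 in
theorem V3 (hF1 : Stmt_F1) (hSD : Stmt_SD) (hVAL : Stmt_VAL) (hadd : Stmt_pair_add)
    (hsmul : Stmt_pair_smul) (hmul : Stmt_pair_mul) (hL1 : Stmt_pair_of_L1) (hE4 : Stmt_L1_E4)
    (hinv : Stmt_OO_inv) : Stmt_V3 := by
  rintro p hp hp5 ⟨t, ht⟩ ⟨g, b, hg, hpair⟩
  have hp0 : (p : ℂ) ≠ 0 := Nat.cast_ne_zero.mpr hp.ne_zero
  have hcop : Nat.Coprime p 3 :=
    (Nat.coprime_primes hp Nat.prime_three).2 (by omega)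
  have hpinv : (p : ℂ)⁻¹ ∈ OO 3 := hinv 3 p hcop
  have hK := K0.pair_K hF1 hSD hsmul hp (((3 : ℕ) : ℂ) ^ 2) g b hpair
  have hE := hL1 p hp 4 E4f hE4
  have hΨ := hsmul p _ (1 / 3) _ _
    (hadd p _ _ _ _ _ (hmul p 4 4 _ _ _ _ hK hE)
      (hsmul p _ (-(1 + 3 * (t : ℂ))) _ _ (hmul p 4 4 _ _ _ _ hE hE)))
  have hw : (4 : ℤ) + 4 = 8 := by norm_num
  rw [hw] at hΨ
  -- `u = -1/p = 1 + 3 t + 9 w`
  set w : ℂ := -(t : ℂ) ^ 2 * (p : ℂ)⁻¹ with hwdef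
  have hu : -(p : ℂ)⁻¹ = 1 + 3 * (t : ℂ) + 9 * w := by
    have ht' : (p : ℂ) + 1 = 3 * t := by exact_mod_cast ht
    have hpe : (p : ℂ) = 3 * t - 1 := by linear_combination ht'
    rw [hwdef]
    field_simp
    rw [hpe]
    ring
  have hwO : w ∈ OO 3 :=
    (OO 3).mul_mem ((OO 3).neg_mem ((OO 3).pow_mem (natCast_mem _ t) 2)) hpinv
  have huO : -(p : ℂ)⁻¹ ∈ OO 3 := (OO 3).neg_mem hpinv
  have hca := K0.isIntS_ca hg
  have hcb := K0.isIntS_cb hpinv hg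
  -- at `∞`
  set Z : PowerSeries ℂ := Ta t + (3 : ℂ) • K0.ca g with hZ
  have hZint : IsIntS 3 Z := (isIntS_Ta t).add (hca.smul (ofNat_mem (OO 3) 3))
  have c1 : CongS 3 3 ((1 / 3 : ℂ) • ((E2f + ((3 : ℕ) : ℂ) ^ 2 • K0.ca g) * E4f
      + (-(1 + 3 * (t : ℂ))) • (E4f * E4f))) (Ta t) := by
    refine congS_of_eq_add_smul (c := K0.ca g + (80 : ℂ) • (Z * sig 3)) ?_ ?_
    · exact hca.add ((hZint.mul (isIntS_sig 3)).smul (ofNat_mem (OO 3) 80))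
    · have hY : E2f + ((3 : ℕ) : ℂ) ^ 2 • K0.ca g + (-(1 + 3 * (t : ℂ))) • E4f = (3 : ℂ) • Z := by
        rw [hZ, Ta, E2f, E4f]
        push_cast
        module
      have h1 : (E2f + ((3 : ℕ) : ℂ) ^ 2 • K0.ca g) * E4f + (-(1 + 3 * (t : ℂ))) • (E4f * E4f)
          = (3 : ℂ) • (Z * E4f) := by
        rw [← smul_mul_assoc, ← add_mul, hY, smul_mul_assoc]
      have h2 : Z * E4f = Z + (240 : ℂ) • (Z * sig 3) := by
        rw [E4f, mul_add, mul_one, mul_smul_comm]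
      rw [h1, h2]
      nth_rewrite 1 [hZ]
      push_cast
      module
  -- at `0`
  set Zb : PowerSeries ℂ := (1 + 3 * (t : ℂ)) • Vop p Tb
    + (3 : ℂ) • (w • Vop p E2f + (-(p : ℂ)⁻¹) • K0.cb p g) with hZb
  have htO : (1 + 3 * (t : ℂ)) ∈ OO 3 :=
    (OO 3).add_mem (OO 3).one_mem ((OO 3).mul_mem (ofNat_mem (OO 3) 3) (natCast_mem _ t))
  have hWb : IsIntS 3 (w • Vop p E2f + (-(p : ℂ)⁻¹) • K0.cb p g) :=
    ((isIntS_E2f.Vop p).smul hwO).add (hcb.smul huO)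
  have hZbint : IsIntS 3 Zb :=
    ((isIntS_Tb.Vop p).smul htO).add (hWb.smul (ofNat_mem (OO 3) 3))
  have hVE2 : Vop p E2f = 1 - (24 : ℂ) • Vop p (sig 1) := by
    rw [E2f, K0.Vop_sub, K0.Vop_smul, K0.Vop_one hp.pos]
  have hVE4 : Vop p E4f = 1 + (240 : ℂ) • Vop p (sig 3) := by
    rw [E4f, K0.Vop_add, K0.Vop_smul, K0.Vop_one hp.pos]
  have hVTb : Vop p Tb = -(8 : ℂ) • Vop p (sig 1) - (80 : ℂ) • Vop p (sig 3) := by
    rw [Tb, K0.Vop_sub, K0.Vop_smul, K0.Vop_smul]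
  have c2 : CongS 3 3 ((1 / 3 : ℂ) • (((-(p : ℂ)⁻¹) • (Vop p E2f + ((3 : ℕ) : ℂ) ^ 2 • K0.cb p g))
      * Vop p E4f + (-(1 + 3 * (t : ℂ))) • (Vop p E4f * Vop p E4f))) (Vop p Tb) := by
    refine congS_of_eq_add_smul (c := (t : ℂ) • Vop p Tb
      + (w • Vop p E2f + (-(p : ℂ)⁻¹) • K0.cb p g) + (80 : ℂ) • (Zb * Vop p (sig 3))) ?_ ?_
    · exact (((isIntS_Tb.Vop p).smul (natCast_mem _ t)).add hWb).add
        ((hZbint.mul ((isIntS_sig 3).Vop p)).smul (ofNat_mem (OO 3) 80))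
    · have hY : (-(p : ℂ)⁻¹) • (Vop p E2f + ((3 : ℕ) : ℂ) ^ 2 • K0.cb p g)
          + (-(1 + 3 * (t : ℂ))) • Vop p E4f = (3 : ℂ) • Zb := by
        have e1 : (-(p : ℂ)⁻¹) • (Vop p E2f + ((3 : ℕ) : ℂ) ^ 2 • K0.cb p g)
            = (1 + 3 * (t : ℂ) + 9 * w) • Vop p E2f + (9 : ℂ) • ((-(p : ℂ)⁻¹) • K0.cb p g) := by
          rw [smul_add, ← hu]
          push_cast
          module
        rw [e1, hZb, hVTb, hVE4, hVE2]
        module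
      have h1 : ((-(p : ℂ)⁻¹) • (Vop p E2f + ((3 : ℕ) : ℂ) ^ 2 • K0.cb p g)) * Vop p E4f
          + (-(1 + 3 * (t : ℂ))) • (Vop p E4f * Vop p E4f) = (3 : ℂ) • (Zb * Vop p E4f) := by
        rw [← smul_mul_assoc (-(1 + 3 * (t : ℂ))), ← add_mul, hY, smul_mul_assoc]
      have h2 : Zb * Vop p E4f = Zb + (240 : ℂ) • (Zb * Vop p (sig 3)) := by
        rw [hVE4, mul_add, mul_one, mul_smul_comm]
      rw [h1, h2]
      nth_rewrite 1 [hZb]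
      push_cast
      module
  obtain ⟨e, hT⟩ := exists_ordUnit_Ta t
  have h := hVAL p 3 hp (by omega) Nat.prime_three 8 _ _ e (p * 1) hΨ (hT.of_congS c1)
    ((ordUnit_Tb.Vop hp.pos).of_congS c2)
  push_cast at h
  have he' : (0 : ℤ) ≤ e := Int.natCast_nonneg e
  have hp' : (5 : ℤ) ≤ p := by exact_mod_cast hp5
  nlinarith

end Fermat.Agent.S16
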