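import Fermat.Agent.S16.K0

/-!
# S16 (B), package V5: there is no `G ∈ M₂(Γ₀(p))`, `G ≡ 1 mod ℓ`, for a prime `5 ≤ ℓ ∣ p + 1`.
-/

set_option autoImplicit false

namespace Fermat.Agent.S16

open PowerSeries

namespace V5

noncomputable section

theorem congS_of_eq_add_smul {ℓ M : ℕ} {a b c : PowerSeries ℂ} (hc : IsIntS ℓ c)
    (h : a = b + (M : ℂ) • c) : CongS ℓ M a b := by
  refine CongS.of_eq_add hc ?_
  rw [h, smul_eq_C_mul]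
  simp

/-- `T = E₂ - E₄`. -/
def T : PowerSeries ℂ := E2f - E4f

/-- integer coefficients of `T`. -/
def fT (n : ℕ) : ℤ := -24 * (ArithmeticFunction.sigma 1 n : ℤ) - 240 * (ArithmeticFunction.sigma 3 n : ℤ)

theorem coeff_T (n : ℕ) : coeff n T = (fT n : ℂ) := by
  simp only [T, E2f, E4f, sig, fT, map_sub, map_add, coeff_smul, coeff_mk, smul_eq_mul]
  push_cast
  ring

theorem fT_zero : fT 0 = 0 := by simp [fT]

theorem fT_one : fT 1 = -264 := by simp [fT]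

theorem fT_two : fT 2 = -2232 := by
  have h1 : ArithmeticFunction.sigma 1 2 = 3 := by decide
  have h3 : ArithmeticFunction.sigma 3 2 = 9 := by decide
  simp [fT, h1, h3]

theorem not_dvd_264 {ℓ : ℕ} (hℓ : ℓ.Prime) (h5 : 5 ≤ ℓ) (h11 : ℓ ≠ 11) : ¬ ℓ ∣ 264 := by
  intro h
  have e : (264 : ℕ) = 2 ^ 3 * 3 * 11 := by norm_num
  rw [e] at h
  rcases (Nat.Prime.dvd_mul hℓ).1 h with h | h
  · rcases (Nat.Prime.dvd_mul hℓ).1 h with h | h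
    · have := Nat.le_of_dvd (by norm_num) (hℓ.dvd_of_dvd_pow h)
      omega
    · have := Nat.le_of_dvd (by norm_num) h
      omega
  · exact h11 ((Nat.prime_dvd_prime_iff_eq hℓ (by norm_num)).1 h)

theorem exists_ordUnit_T {ℓ : ℕ} (hℓ : ℓ.Prime) (h5 : 5 ≤ ℓ) : ∃ e : ℕ, 1 ≤ e ∧ OrdUnit ℓ T e := by
  by_cases h11 : ℓ = 11
  · subst h11
    refine ⟨2, by norm_num, OrdUnit.of_int fT coeff_T ?_ ?_⟩
    · intro n hn
      interval_cases n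
      · rw [fT_zero]; exact dvd_zero _
      · rw [fT_one]; norm_num
    · rw [fT_two]
      rw [Int.isCoprime_iff_gcd_eq_one]
      decide
  · refine ⟨1, le_refl 1, OrdUnit.of_int fT coeff_T ?_ ?_⟩
    · intro n hn
      interval_cases n
      rw [fT_zero]; exact dvd_zero _
    · rw [fT_one, Int.isCoprime_iff_gcd_eq_one, Int.gcd_comm]
      have := (Nat.Prime.coprime_iff_not_dvd hℓ).2 (not_dvd_264 hℓ h5 h11)
      simpa [Int.gcd, Nat.Coprime] using this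

end

end V5

open V5 in
theorem V5 (hF1 : Stmt_F1) (hSD : Stmt_SD) (hVAL : Stmt_VAL) (hadd : Stmt_pair_add)
    (hsmul : Stmt_pair_smul) (hL1 : Stmt_pair_of_L1) (hE4 : Stmt_L1_E4) (hinv : Stmt_OO_inv) :
    Stmt_V5 := by
  rintro p ℓ hp hp5 hℓ hℓ5 ⟨k, hk⟩ ⟨g, b, hg, hpair⟩
  have hp0 : (p : ℂ) ≠ 0 := Nat.cast_ne_zero.mpr hp.ne_zero
  have hne : ℓ ≠ p := by
    rintro rfl
    have h1 : ℓ ∣ ℓ + 1 := ⟨k, hk⟩
    have h2 : ℓ ∣ 1 := (Nat.dvd_add_right (dvd_refl ℓ)).1 h1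
    have := Nat.le_of_dvd one_pos h2
    omega
  have hcop : Nat.Coprime p ℓ := (Nat.coprime_primes hp hℓ).2 (Ne.symm hne)
  have hpinv : (p : ℂ)⁻¹ ∈ OO ℓ := hinv ℓ p hcop
  have hK := K0.pair_K hF1 hSD hsmul hp ((ℓ : ℂ) ^ 1) g b hpair
  have hE := hL1 p hp 4 E4f hE4
  have hD := hadd p 4 _ _ _ _ hK (hsmul p 4 (-1) _ _ hE)
  -- `u = -1/p = 1 + ℓ u'`
  have hu : -(p : ℂ)⁻¹ = 1 + (ℓ : ℂ) * (-(k : ℂ) * (p : ℂ)⁻¹) := by
    have hk' : (p : ℂ) + 1 = (ℓ : ℂ) * k := by exact_mod_cast hk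
    field_simp
    linear_combination -hk'
  have hu' : (-(k : ℂ) * (p : ℂ)⁻¹) ∈ OO ℓ :=
    (OO ℓ).mul_mem ((OO ℓ).neg_mem (natCast_mem _ k)) hpinv
  have c1 : CongS ℓ ℓ (E2f + (ℓ : ℂ) ^ 1 • K0.ca g + (-1 : ℂ) • E4f) T :=
    congS_of_eq_add_smul (c := K0.ca g) (K0.isIntS_ca hg) (by rw [T]; module)
  have c2 : CongS ℓ ℓ ((-(p : ℂ)⁻¹) • (Vop p E2f + (ℓ : ℂ) ^ 1 • K0.cb p g) + (-1 : ℂ) • Vop p E4f)
      (Vop p T) := by
    refine congS_of_eq_add_smul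
      (c := (-(k : ℂ) * (p : ℂ)⁻¹) • Vop p E2f + (-(p : ℂ)⁻¹) • K0.cb p g) ?_ ?_
    · exact ((isIntS_E2f.Vop p).smul hu').add
        ((K0.isIntS_cb hpinv hg).smul ((OO ℓ).neg_mem hpinv))
    · rw [T, K0.Vop_sub, hu]
      module
  obtain ⟨e, he, hT⟩ := exists_ordUnit_T hℓ hℓ5
  have h := hVAL p ℓ hp (by omega) hℓ 4 _ _ e (p * e) hD (hT.of_congS c1)
    ((hT.Vop hp.pos).of_congS c2)
  push_cast at h
  have he' : (1 : ℤ) ≤ e := by exact_mod_cast he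
  have hp' : (5 : ℤ) ≤ p := by exact_mod_cast hp5
  nlinarith

end Fermat.Agent.S16
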