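import Fermat.Agent.S16.BInterface

/-!
# S16 (B), package B14 : the valence inequality mod `ℓ` (norm + Sturm)
-/

set_option autoImplicit false

namespace Fermat.Agent.S16

open scoped Real

noncomputable section

namespace VAL

variable {ℓ : ℕ}

theorem divO_zero : DivO ℓ ℓ 0 := ⟨0, (OO ℓ).zero_mem, by simp⟩

theorem divO_add {x y : ℂ} (hx : DivO ℓ ℓ x) (hy : DivO ℓ ℓ y) : DivO ℓ ℓ (x + y) := by
  obtain ⟨c, hc, rfl⟩ := hx
  obtain ⟨d, hd, rfl⟩ := hy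
  exact ⟨c + d, (OO ℓ).add_mem hc hd, by ring⟩

theorem divO_neg {x : ℂ} (hx : DivO ℓ ℓ x) : DivO ℓ ℓ (-x) := by
  obtain ⟨c, hc, rfl⟩ := hx
  exact ⟨-c, (OO ℓ).neg_mem hc, by ring⟩

theorem divO_sub {x y : ℂ} (hx : DivO ℓ ℓ x) (hy : DivO ℓ ℓ y) : DivO ℓ ℓ (x - y) := by
  rw [sub_eq_add_neg]
  exact divO_add hx (divO_neg hy)

theorem divO_mul_right {x y : ℂ} (hx : DivO ℓ ℓ x) (hy : y ∈ OO ℓ) : DivO ℓ ℓ (x * y) := by
  obtain ⟨c, hc, rfl⟩ := hx
  exact ⟨c * y, (OO ℓ).mul_mem hc hy, by ring⟩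

theorem divO_mul_left {x y : ℂ} (hx : x ∈ OO ℓ) (hy : DivO ℓ ℓ y) : DivO ℓ ℓ (x * y) := by
  rw [mul_comm]
  exact divO_mul_right hy hx

theorem divO_sum {ι : Type*} (s : Finset ι) (f : ι → ℂ) (h : ∀ i ∈ s, DivO ℓ ℓ (f i)) :
    DivO ℓ ℓ (∑ i ∈ s, f i) := by
  classical
  induction s using Finset.induction_on with
  | empty => simpa using divO_zero
  | insert a s ha ih =>
    rw [Finset.sum_insert ha]
    exact divO_add (h a (Finset.mem_insert_self a s))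
      (ih fun i hi => h i (Finset.mem_insert_of_mem hi))

/-- generalisation of `OrdUnit`: the leading coefficient is a unit mod `ℓ`. -/
def OrdUnit' (ℓ : ℕ) (a : PowerSeries ℂ) (e : ℕ) : Prop :=
  IsIntS ℓ a ∧ (∀ n < e, DivO ℓ ℓ (PowerSeries.coeff n a)) ∧
    ∃ d ∈ OO ℓ, DivO ℓ ℓ (PowerSeries.coeff e a * d - 1)

theorem ordUnit'_of_ordUnit {a : PowerSeries ℂ} {e : ℕ} (h : OrdUnit ℓ a e) :
    OrdUnit' ℓ a e := by
  obtain ⟨h1, h2, u, ⟨v, w, hvw⟩, hu⟩ := h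
  refine ⟨h1, h2, (v : ℂ), intCast_mem (OO ℓ) v, ?_⟩
  have e1 : PowerSeries.coeff e a * (v : ℂ) - 1 =
      (PowerSeries.coeff e a - (u : ℂ)) * (v : ℂ) - (ℓ : ℂ) * (w : ℂ) := by
    have : ((v : ℂ) * (u : ℂ) + (w : ℂ) * (ℓ : ℂ)) = 1 := by exact_mod_cast hvw
    linear_combination this
  rw [e1]
  exact divO_sub (divO_mul_right hu (intCast_mem (OO ℓ) v)) ⟨(w : ℂ), intCast_mem (OO ℓ) w, rfl⟩

theorem ordUnit'_one : OrdUnit' ℓ 1 0 := by
  refine ⟨fun n => ?_, fun n hn => absurd hn (Nat.not_lt_zero n), 1, (OO ℓ).one_mem, ?_⟩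
  · rw [PowerSeries.coeff_one]
    split_ifs
    · exact (OO ℓ).one_mem
    · exact (OO ℓ).zero_mem
  · simpa using divO_zero

theorem ordUnit'_mul {a a' : PowerSeries ℂ} {e e' : ℕ} (h : OrdUnit' ℓ a e)
    (h' : OrdUnit' ℓ a' e') : OrdUnit' ℓ (a * a') (e + e') := by
  obtain ⟨h1, h2, d, hd, h3⟩ := h
  obtain ⟨h1', h2', d', hd', h3'⟩ := h'
  have hterm : ∀ i j : ℕ, (i < e ∨ j < e') →
      DivO ℓ ℓ (PowerSeries.coeff i a * PowerSeries.coeff j a') := by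
    rintro i j (hi | hj)
    · exact divO_mul_right (h2 i hi) (h1' j)
    · exact divO_mul_left (h1 i) (h2' j hj)
  refine ⟨fun n => ?_, fun n hn => ?_, d * d', (OO ℓ).mul_mem hd hd', ?_⟩
  · rw [PowerSeries.coeff_mul]
    exact (OO ℓ).sum_mem fun x _ => (OO ℓ).mul_mem (h1 _) (h1' _)
  · rw [PowerSeries.coeff_mul]
    refine divO_sum _ _ fun x hx => hterm _ _ ?_
    rw [Finset.HasAntidiagonal.mem_antidiagonal] at hx
    omega
  · rw [PowerSeries.coeff_mul]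
    have hmem : (e, e') ∈ Finset.HasAntidiagonal.antidiagonal (e + e') := by simp
    rw [← Finset.add_sum_erase _ _ hmem]
    have hrest : DivO ℓ ℓ (∑ x ∈ (Finset.HasAntidiagonal.antidiagonal (e + e')).erase (e, e'),
        PowerSeries.coeff x.1 a * PowerSeries.coeff x.2 a') := by
      refine divO_sum _ _ fun x hx => hterm _ _ ?_
      rw [Finset.mem_erase, Finset.HasAntidiagonal.mem_antidiagonal] at hx
      obtain ⟨hne, hs⟩ := hx
      by_contra hcon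
      apply hne
      have h1 : x.1 = e := by omega
      have h2 : x.2 = e' := by omega
      exact Prod.ext h1 h2
    have e1 : (PowerSeries.coeff e a * PowerSeries.coeff e' a' +
        ∑ x ∈ (Finset.HasAntidiagonal.antidiagonal (e + e')).erase (e, e'),
          PowerSeries.coeff x.1 a * PowerSeries.coeff x.2 a') * (d * d') - 1 =
        (PowerSeries.coeff e a * d - 1) * (PowerSeries.coeff e' a' * d') +
          (PowerSeries.coeff e' a' * d' - 1) +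
          (∑ x ∈ (Finset.HasAntidiagonal.antidiagonal (e + e')).erase (e, e'),
          PowerSeries.coeff x.1 a * PowerSeries.coeff x.2 a') * (d * d') := by
      ring
    rw [e1]
    exact divO_add (divO_add (divO_mul_right h3 ((OO ℓ).mul_mem (h1' _) hd')) h3')
      (divO_mul_right hrest ((OO ℓ).mul_mem hd hd'))

theorem ordUnit'_rescale {b : PowerSeries ℂ} {e : ℕ} (h : OrdUnit' ℓ b e) (z : ℂ) (N : ℕ)
    (hN : 0 < N) (hz : z ^ N = 1) (hzO : z ∈ OO ℓ) :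
    OrdUnit' ℓ (PowerSeries.rescale z b) e := by
  obtain ⟨h1, h2, d, hd, h3⟩ := h
  refine ⟨fun n => ?_, fun n hn => ?_, d * z ^ (e * (N - 1)),
    (OO ℓ).mul_mem hd ((OO ℓ).pow_mem hzO _), ?_⟩
  · rw [PowerSeries.coeff_rescale]
    exact (OO ℓ).mul_mem ((OO ℓ).pow_mem hzO _) (h1 n)
  · rw [PowerSeries.coeff_rescale]
    exact divO_mul_left ((OO ℓ).pow_mem hzO _) (h2 n hn)
  · rw [PowerSeries.coeff_rescale]
    have e0 : z ^ e * z ^ (e * (N - 1)) = 1 := by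
      rw [← pow_add]
      have : e + e * (N - 1) = N * e := by
        obtain ⟨M, rfl⟩ : ∃ M, N = M + 1 := ⟨N - 1, by omega⟩
        simp only [Nat.add_sub_cancel]
        ring
      rw [this, pow_mul, hz, one_pow]
    have e1 : z ^ e * PowerSeries.coeff e b * (d * z ^ (e * (N - 1))) - 1 =
        PowerSeries.coeff e b * d * (z ^ e * z ^ (e * (N - 1))) - 1 := by ring
    rw [e1, e0, mul_one]
    exact h3

theorem ordUnit'_Vop {a : PowerSeries ℂ} {e : ℕ} (h : OrdUnit' ℓ a e) (p : ℕ) (hp : 0 < p) :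
    OrdUnit' ℓ (Vop p a) (p * e) := by
  obtain ⟨h1, h2, d, hd, h3⟩ := h
  refine ⟨fun n => ?_, fun n hn => ?_, d, hd, ?_⟩
  · rw [coeff_Vop]
    split_ifs
    · exact h1 _
    · exact (OO ℓ).zero_mem
  · rw [coeff_Vop]
    split_ifs with hdvd
    · exact h2 _ (Nat.div_lt_of_lt_mul hn)
    · exact divO_zero
  · rw [coeff_Vop, if_pos (Dvd.intro e rfl), Nat.mul_div_cancel_left e hp]
    exact h3

theorem ordUnit'_of_Vop {c : PowerSeries ℂ} {e : ℕ} (p : ℕ) (hp : 0 < p)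
    (h : OrdUnit' ℓ (Vop p c) (p * e)) : OrdUnit' ℓ c e := by
  obtain ⟨h1, h2, d, hd, h3⟩ := h
  have key : ∀ n, PowerSeries.coeff (p * n) (Vop p c) = PowerSeries.coeff n c := by
    intro n
    rw [coeff_Vop, if_pos (Dvd.intro n rfl), Nat.mul_div_cancel_left n hp]
  refine ⟨fun n => ?_, fun n hn => ?_, d, hd, ?_⟩
  · rw [← key]; exact h1 _
  · rw [← key]; exact h2 _ (Nat.mul_lt_mul_of_pos_left hn hp)
  · rw [← key]; exact h3

theorem ordUnit'_prod {b : PowerSeries ℂ} {e : ℕ} (h : OrdUnit' ℓ b e) (ζ : ℂ) (N : ℕ)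
    (hN : 0 < N) (hζ : ζ ^ N = 1) (hζO : ζ ∈ OO ℓ) (n : ℕ) :
    OrdUnit' ℓ (∏ j ∈ Finset.range n, PowerSeries.rescale (ζ ^ j) b) (n * e) := by
  induction n with
  | zero => simpa using ordUnit'_one
  | succ n ih =>
    rw [Finset.prod_range_succ, Nat.succ_mul]
    refine ordUnit'_mul ih (ordUnit'_rescale h (ζ ^ n) N hN ?_ ((OO ℓ).pow_mem hζO _))
    rw [← pow_mul, mul_comm, pow_mul, hζ, one_pow]

end VAL

open VAL in
/-- (VAL) the valence inequality mod `ℓ`. -/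
theorem VAL (hNM : Stmt_NM) (hSTURM : Stmt_STURM) (hroot : Stmt_OO_root)
    (hdiv : Stmt_divO_int) : Stmt_VAL := by
  intro p ℓ hp hp2 hℓ k a b ea eb hab ha hb
  by_contra hcon
  rw [not_le] at hcon
  obtain ⟨c, hc, hVc⟩ := hNM p hp k a b hab
  set ζ : ℂ := Complex.exp (2 * π * Complex.I / p) with hζdef
  have hζ : ζ ^ p = 1 := by
    rw [hζdef, ← Complex.exp_nat_mul]
    have hp0 : (p : ℂ) ≠ 0 := by exact_mod_cast hp.ne_zero
    rw [mul_div_cancel₀ _ hp0]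
    exact Complex.exp_two_pi_mul_I
  have hζO : ζ ∈ OO ℓ := hroot ℓ p ζ hp.pos hζ
  have h1 : OrdUnit' ℓ (Vop p c) (p * (ea + eb)) := by
    rw [hVc, Nat.mul_add]
    exact ordUnit'_mul (ordUnit'_Vop (ordUnit'_of_ordUnit ha) p hp.pos)
      (ordUnit'_prod (ordUnit'_of_ordUnit hb) ζ p hp.pos hζ hζO p)
  obtain ⟨hc1, hc2, d, hd, hc3⟩ := ordUnit'_of_Vop p hp.pos h1
  have heven : Even (k * ((p : ℤ) + 1)) := by
    apply Even.mul_left
    have hodd : Odd p := hp.odd_of_ne_two hp2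
    have : Odd (p : ℤ) := by exact_mod_cast hodd
    exact this.add_one
  have hall := hSTURM ℓ hℓ (k * ((p : ℤ) + 1)) c heven hc hc1 (by
    intro n hn
    apply hc2
    have : 12 * (n : ℤ) < 12 * ((ea : ℤ) + eb) := lt_of_le_of_lt hn hcon
    omega)
  have hone : DivO ℓ ℓ 1 := by
    have e1 : (1 : ℂ) = PowerSeries.coeff (ea + eb) c * d -
        (PowerSeries.coeff (ea + eb) c * d - 1) := by ring
    rw [e1]
    exact divO_sub (divO_mul_right (hall _) hd) hc3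
  have := hdiv ℓ 1 1 hℓ (by simpa using hone)
  rw [pow_one] at this
  have h2 : (ℓ : ℤ) = 1 ∨ (ℓ : ℤ) = -1 := Int.isUnit_iff.1 (isUnit_of_dvd_one this)
  have h3 := hℓ.two_le
  omega

end

end Fermat.Agent.S16
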