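import Fermat.Agent.S16.BMain
import Fermat.Agent.S16.SmallP
import Fermat.Agent.S16.QE1
import Fermat.Agent.S16.QE2
import Fermat.Agent.S16.Coset
import Fermat.Agent.S16.PairRing
import Fermat.Agent.S16.Fricke
import Fermat.Agent.S16.TraceNorm
import Fermat.Agent.S16.SerrePair
import Fermat.Agent.S16.LevelOneFacts
import Fermat.Agent.S16.OOFacts
import Fermat.Agent.S16.DeltaInt
import Fermat.Agent.S16.FormalDP
import Fermat.Agent.S16.SturmGlue
import Fermat.Agent.S16.Val
import Fermat.Agent.S16.V2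
import Fermat.Agent.S16.V3
import Fermat.Agent.S16.V5
import Fermat.Agent.S16.EisP

/-!
# S16, part (B): assembly of all the packages: `stmt_B p : Stmt_B p`.
-/

set_option autoImplicit false

namespace Fermat.Agent.S16

theorem EIS : Stmt_EIS := by
  intro p hp
  obtain ⟨b, hb⟩ := exists_pair p hp 2 (eisP p) (eisP_isMF hp.ne_zero)
  have h1 : PairMF p 2 (UpperHalfPlane.qExpansion 1 (eisP p)) b := ⟨_, hb⟩
  have h2 := pair_smul p 2 ((24 : ℂ)⁻¹) _ _ h1
  refine ⟨(24 : ℂ)⁻¹ • b, ?_⟩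
  convert h2 using 1
  ext m
  rw [PowerSeries.coeff_smul, eisP_qExpansion_coeff hp.ne_zero m]
  by_cases hm : m = 0
  · subst hm
    simp [EisP, sigP]
    ring
  · simp [EisP, sigP, hm, PowerSeries.coeff_C]

theorem B_final_all : Stmt_B_final := by
  have hW : Stmt_W := W coset
  have hTR : Stmt_TR := TR hasQE_unique
  have hNM : Stmt_NM := NM hasQE_unique
  have hSD : Stmt_SD := SD hasQE_add hasQE_smul hasQE_mul hasQE_Vop hasQE_deriv hasQE_E2
  have hF1 : Stmt_F1 := F1 hW hTR L1_two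
  have hVAL : Stmt_VAL := VAL hNM (STURM hasQE_unique) OO_root divO_int
  have hD : Stmt_D := D hW hTR L1_two L1_div L1_zero L1_E4 L1_E6 L1_add L1_smul L1_mul pair_mul
    pair_of_L1 Deltaf_int divO_int
  have hP : Stmt_P := P hW hTR L1_two L1_div L1_neg L1_E4 L1_add L1_smul pair_mul divO_int
  have hV5 : Stmt_V5 := V5 hF1 hSD hVAL pair_add pair_smul pair_of_L1 L1_E4 OO_inv
  have hV3 : Stmt_V3 := V3 hF1 hSD hVAL pair_add pair_smul pair_mul pair_of_L1 L1_E4 OO_inv
  have hV2 : Stmt_V2 := V2 hF1 hVAL pair_add pair_smul pair_mul pair_of_L1 L1_E4 L1_E6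
  exact B_final (B_main hD hP hV5 hV3 hV2 EIS pair_add pair_smul) pair_of_cuspForm

theorem stmt_B (p : ℕ) [Fact p.Prime] : Stmt_B p := by
  by_cases h : p < 7
  · exact B_small p h
  · exact B_of_final p (not_lt.mp h) B_final_all

end Fermat.Agent.S16
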