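/-
S16, part (A)(iii), step 2: orbitwise integral lifts of `ℤ/n`-valued functions that are
anti-invariant under an involution, resp. killed by `1 + σ + σ²` for `σ³ = 1`.
-/
import Mathlib

set_option autoImplicit false

namespace Fermat.Agent.S16

theorem exists_antiInv_lift {X : Type*} [Countable X] (n : ℕ) (σ : Equiv.Perm X)
    (hσ : ∀ x, σ (σ x) = x)
    (c : X → ZMod n) (hc : ∀ x, c (σ x) = - c x) (hfix : ∀ x, σ x = x → c x = 0)
    (x0 : X) (hx0 : σ x0 ≠ x0) (a0 : ℤ) (ha0 : (a0 : ZMod n) = c x0) :
    ∃ C : X → ℤ, (∀ x, C (σ x) = - C x) ∧ (∀ x, ((C x : ℤ) : ZMod n) = c x) ∧ C x0 = a0 := by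
  classical
  obtain ⟨e, he⟩ := exists_injective_nat X
  let L : X → ℤ := fun x => if x = x0 then a0 else if x = σ x0 then -a0 else
    Function.surjInv (ZMod.intCast_surjective (n := n)) (c x)
  have hL : ∀ x, ((L x : ℤ) : ZMod n) = c x := by
    intro x
    by_cases h1 : x = x0
    · simp only [L, if_pos h1]; rw [ha0, h1]
    · by_cases h2 : x = σ x0
      · simp only [L, if_neg h1, if_pos h2]; rw [h2, hc]; push_cast; rw [ha0]
      · simp only [L, if_neg h1, if_neg h2]
        exact Function.surjInv_eq (ZMod.intCast_surjective (n := n)) (c x)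
  refine ⟨fun x => if e x < e (σ x) then L x else if e (σ x) < e x then - L (σ x) else 0,
    ?_, ?_, ?_⟩
  · intro x
    simp only [hσ]
    split_ifs <;> omega
  · intro x
    simp only
    split_ifs with h1 h2
    · exact hL x
    · push_cast; rw [hL, hc, neg_neg]
    · have : e (σ x) = e x := by omega
      rw [hfix x (he this)]; simp
  · simp only
    have hne : e (σ x0) ≠ e x0 := fun h => hx0 (he h)
    have h1 : L x0 = a0 := by simp [L]
    have h2 : L (σ x0) = -a0 := by simp [L, hx0]
    split_ifs <;> omega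

theorem exists_normKer_lift {X : Type*} [Countable X] (n : ℕ) (σ : Equiv.Perm X)
    (hσ : ∀ x, σ (σ (σ x)) = x)
    (c : X → ZMod n) (hc : ∀ x, c x + c (σ x) + c (σ (σ x)) = 0)
    (hfix : ∀ x, σ x = x → c x = 0) :
    ∃ C : X → ℤ, (∀ x, C x + C (σ x) + C (σ (σ x)) = 0) ∧
      (∀ x, ((C x : ℤ) : ZMod n) = c x) := by
  classical
  obtain ⟨e, he⟩ := exists_injective_nat X
  let L : X → ℤ := fun x => Function.surjInv (ZMod.intCast_surjective (n := n)) (c x)
  have hL : ∀ x, ((L x : ℤ) : ZMod n) = c x := fun x =>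
    Function.surjInv_eq (ZMod.intCast_surjective (n := n)) (c x)
  refine ⟨fun x => if σ x = x then 0 else
    if e (σ x) < e x ∧ e (σ x) < e (σ (σ x)) then - L (σ x) - L (σ (σ x)) else L x, ?_, ?_⟩
  · intro x
    by_cases hx : σ x = x
    · simp [hx]
    · have h1 : σ (σ x) ≠ σ x := fun h => hx (σ.injective h)
      have h2 : x ≠ σ (σ x) := fun h => hx (by
        have := congrArg σ h
        rw [hσ] at this
        exact this)
      have e1 : e (σ x) ≠ e x := fun h => hx (he h)
      have e2 : e (σ (σ x)) ≠ e (σ x) := fun h => h1 (he h)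
      have e3 : e x ≠ e (σ (σ x)) := fun h => h2 (he h)
      simp only [hσ, if_neg hx, if_neg h1, if_neg h2]
      split_ifs <;> omega
  · intro x
    simp only
    split_ifs with h1 h2
    · rw [hfix x h1]; simp
    · push_cast
      rw [hL, hL]
      linear_combination (-1 : ZMod n) * hc x
    · exact hL x

end Fermat.Agent.S16
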