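/-
S16, part (A)(iii), step 3: a criterion for a homomorphism `φ : Γ₀(p) → ℂ` to be parabolic, in
terms of a function `Q` on `SL₂(ℤ)` with `Q (g γ) = Q g + φ γ`.
-/
import Fermat.Agent.S21.Parabolic
import Fermat.Agent.S20.CombIndex

set_option autoImplicit false

open UpperHalfPlane CongruenceSubgroup ModularCurve ModularCurve.Period
open scoped MatrixGroups ModularForm

namespace Fermat.Agent.S16

theorem T_mem_Gamma0 (N : ℕ) : ModularGroup.T ∈ Gamma0 N := by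
  rw [Gamma0_mem]; simp [ModularGroup.T]

theorem index_Gamma0_prime (p : ℕ) (hp : p.Prime) : (Gamma0 p).index = p + 1 := by
  rw [Fermat.Agent.S20.index_Gamma0 p hp.ne_zero]
  have := Fermat.Agent.S20.dedekindPsi_prime_mul_of_not_dvd hp one_ne_zero
    (fun h => hp.one_lt.ne' (Nat.dvd_one.mp h))
  rw [mul_one, ModularCurve.dedekindPsi_one, mul_one] at this
  exact this

theorem conj_T_zpow_apply (δ : SL(2, ℤ)) (m : ℤ) :
    (δ * ModularGroup.T ^ m * δ⁻¹) 1 0 = - m * (δ 1 0) ^ 2 := by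
  rw [Matrix.SpecialLinearGroup.coe_mul, Matrix.SpecialLinearGroup.coe_mul,
    ModularGroup.coe_T_zpow, Matrix.SpecialLinearGroup.SL2_inv_expl, Matrix.mul_apply,
    Fin.sum_univ_two, Matrix.mul_apply, Matrix.mul_apply, Fin.sum_univ_two, Fin.sum_univ_two]
  simp
  ring

theorem mem_Gamma0_iff_dvd' (N : ℕ) (g : SL(2, ℤ)) : g ∈ Gamma0 N ↔ (N : ℤ) ∣ g 1 0 := by
  rw [Gamma0_mem, ZMod.intCast_zmod_eq_zero_iff_dvd]

theorem conj_T_zpow_mem_iff (p : ℕ) (hp : p.Prime) (δ : SL(2, ℤ)) (m : ℤ) :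
    δ * ModularGroup.T ^ m * δ⁻¹ ∈ Gamma0 p ↔ (p : ℤ) ∣ m ∨ δ ∈ Gamma0 p := by
  rw [mem_Gamma0_iff_dvd', mem_Gamma0_iff_dvd', conj_T_zpow_apply]
  have hp' : Prime (p : ℤ) := Nat.prime_iff_prime_int.mp hp
  rw [hp'.dvd_mul, dvd_neg, hp'.dvd_pow_iff_dvd (by norm_num)]

theorem isParabolicHom_of_Q (p : ℕ) (hp : p.Prime) [Fintype (SL(2, ℤ) ⧸ Gamma0 p)]
    (φ : Additive (Gamma0 p) →+ ℂ) (Q : SL(2, ℤ) → ℂ)
    (hQ : ∀ (g : SL(2, ℤ)) (γ : Gamma0 p), Q (g * γ) = Q g + φ (Additive.ofMul γ))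
    (f : SL(2, ℤ) ⧸ Gamma0 p → ℂ)
    (hf : ∀ g : SL(2, ℤ), Q (ModularGroup.T * g) - Q g = f (g : SL(2, ℤ) ⧸ Gamma0 p))
    (hsum : ∑ x, f x = 0)
    (hT : φ (Additive.ofMul ⟨ModularGroup.T, T_mem_Gamma0 p⟩) = 0) :
    IsParabolicHom (Gamma0 p) φ := by
  classical
  set T := ModularGroup.T with hTdef
  have hcard : Fintype.card (SL(2, ℤ) ⧸ Gamma0 p) = p + 1 := by
    rw [← index_Gamma0_prime p hp, Subgroup.index_eq_card, Nat.card_eq_fintype_card]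
  have hf1 : f ((1 : SL(2, ℤ)) : SL(2, ℤ) ⧸ Gamma0 p) = 0 := by
    rw [← hf 1]
    have := hQ 1 ⟨T, T_mem_Gamma0 p⟩
    rw [hT] at this
    simp only [one_mul, mul_one, add_zero] at this ⊢
    rw [this, sub_self]
  have hTpow : ∀ j : ℕ, T ^ j ∈ Gamma0 p := fun j => Subgroup.pow_mem _ (T_mem_Gamma0 p) j
  -- the orbit sum
  have horbit : ∀ δ : SL(2, ℤ), δ ∉ Gamma0 p → Q (T ^ p * δ⁻¹) = Q δ⁻¹ := by
    intro δ hδ
    have hinj : Set.InjOn (fun j : ℕ => ((T ^ j * δ⁻¹ : SL(2, ℤ)) : SL(2, ℤ) ⧸ Gamma0 p))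
        (Finset.range p : Set ℕ) := by
      intro i hi j hj hij
      simp only [Finset.coe_range, Set.mem_Iio] at hi hj
      have h1 : (T ^ i * δ⁻¹)⁻¹ * (T ^ j * δ⁻¹) ∈ Gamma0 p := QuotientGroup.eq.mp hij
      have h2 : (T ^ i * δ⁻¹)⁻¹ * (T ^ j * δ⁻¹) = δ * T ^ ((j : ℤ) - i) * δ⁻¹ := by
        rw [zpow_sub, zpow_natCast, zpow_natCast]
        have : Commute (T ^ j) (T ^ i)⁻¹ := ((Commute.refl T).pow_pow j i).inv_right
        rw [this.eq]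
        group
      rw [h2, conj_T_zpow_mem_iff p hp] at h1
      rcases h1 with h1 | h1
      · obtain ⟨k, hk⟩ := h1
        have hk0 : k = 0 := by
          by_contra hk0
          have : (p : ℤ) ≤ |(p : ℤ) * k| := by
            rw [abs_mul, Nat.abs_cast]
            have : 1 ≤ |k| := Int.one_le_abs hk0
            nlinarith [(Nat.cast_nonneg p : (0 : ℤ) ≤ p)]
          rw [← hk] at this
          have h3 : |(j : ℤ) - i| < p := by
            rw [abs_lt]; constructor <;> omega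
          omega
        rw [hk0, mul_zero] at hk
        omega
      · exact absurd h1 hδ
    have himg : (Finset.range p).image
        (fun j : ℕ => ((T ^ j * δ⁻¹ : SL(2, ℤ)) : SL(2, ℤ) ⧸ Gamma0 p))
        = Finset.univ.erase ((1 : SL(2, ℤ)) : SL(2, ℤ) ⧸ Gamma0 p) := by
      apply Finset.eq_of_subset_of_card_le
      · intro x hx
        rw [Finset.mem_image] at hx
        obtain ⟨j, -, rfl⟩ := hx
        rw [Finset.mem_erase]
        refine ⟨fun h => hδ ?_, Finset.mem_univ _⟩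
        have h1 : (T ^ j * δ⁻¹)⁻¹ * 1 ∈ Gamma0 p := QuotientGroup.eq.mp h
        have h2 : δ = ((T ^ j * δ⁻¹)⁻¹ * 1) * T ^ j := by group
        rw [h2]
        exact Subgroup.mul_mem _ h1 (hTpow j)
      · rw [Finset.card_image_of_injOn hinj, Finset.card_erase_of_mem (Finset.mem_univ _),
          Finset.card_univ, hcard, Finset.card_range]
        omega
    have hs1 : ∑ j ∈ Finset.range p, f ((T ^ j * δ⁻¹ : SL(2, ℤ)) : SL(2, ℤ) ⧸ Gamma0 p) = 0 := by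
      rw [← Finset.sum_image (f := f) hinj, himg, Finset.sum_erase _ hf1, hsum]
    have hs2 : ∑ j ∈ Finset.range p, f ((T ^ j * δ⁻¹ : SL(2, ℤ)) : SL(2, ℤ) ⧸ Gamma0 p)
        = Q (T ^ p * δ⁻¹) - Q (T ^ 0 * δ⁻¹) := by
      rw [← Finset.sum_range_sub (fun j => Q (T ^ j * δ⁻¹)) p]
      refine Finset.sum_congr rfl fun j _ => ?_
      rw [← hf, ← mul_assoc, ← pow_succ']
    rw [hs1, pow_zero, one_mul] at hs2
    exact (sub_eq_zero.mp hs2.symm)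
  have hkey : ∀ (δ : SL(2, ℤ)) (m : ℤ) (h : δ * T ^ m * δ⁻¹ ∈ Gamma0 p),
      φ (Additive.ofMul ⟨δ * T ^ m * δ⁻¹, h⟩) = 0 := by
    intro δ m h
    by_cases hδ : δ ∈ Gamma0 p
    · have e : (⟨δ * T ^ m * δ⁻¹, h⟩ : Gamma0 p)
          = ⟨δ, hδ⟩ * ⟨T, T_mem_Gamma0 p⟩ ^ m * ⟨δ, hδ⟩⁻¹ := by
        apply Subtype.ext
        simp
      rw [e, ofMul_mul, ofMul_mul, ofMul_inv, ofMul_zpow, map_add, map_add, map_neg, map_zsmul, hT]
      simp
    · have hm : (p : ℤ) ∣ m := by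
        rcases (conj_T_zpow_mem_iff p hp δ m).mp h with h1 | h1
        · exact h1
        · exact absurd h1 hδ
      obtain ⟨k, rfl⟩ := hm
      have h0 : δ * T ^ (p : ℤ) * δ⁻¹ ∈ Gamma0 p :=
        (conj_T_zpow_mem_iff p hp δ p).mpr (Or.inl dvd_rfl)
      have e : (⟨δ * T ^ ((p : ℤ) * k) * δ⁻¹, h⟩ : Gamma0 p)
          = ⟨δ * T ^ (p : ℤ) * δ⁻¹, h0⟩ ^ k := by
        apply Subtype.ext
        rw [Subgroup.coe_zpow]
        show δ * T ^ ((p : ℤ) * k) * δ⁻¹ = (δ * T ^ (p : ℤ) * δ⁻¹) ^ k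
        rw [conj_zpow, zpow_mul]
      have h1 := hQ δ⁻¹ ⟨δ * T ^ (p : ℤ) * δ⁻¹, h0⟩
      have h2 : δ⁻¹ * (δ * T ^ (p : ℤ) * δ⁻¹) = T ^ p * δ⁻¹ := by
        rw [zpow_natCast]; group
      simp only [h2, horbit δ hδ] at h1
      have h3 : φ (Additive.ofMul ⟨δ * T ^ (p : ℤ) * δ⁻¹, h0⟩) = 0 := by
        linear_combination (-1 : ℂ) * h1
      rw [e, ofMul_zpow, map_zsmul, h3, smul_zero]
  have hneg : φ (Additive.ofMul ⟨-1, by rw [Gamma0_mem]; simp⟩) = 0 := by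
    have h1 : φ (Additive.ofMul ((⟨-1, by rw [Gamma0_mem]; simp⟩ : Gamma0 p)
        * ⟨-1, by rw [Gamma0_mem]; simp⟩)) = 0 := by
      have : ((⟨-1, by rw [Gamma0_mem]; simp⟩ : Gamma0 p) * ⟨-1, by rw [Gamma0_mem]; simp⟩) = 1 := by
        apply Subtype.ext; simp
      rw [this, ofMul_one, map_zero]
    rw [ofMul_mul, map_add] at h1
    have h2 : (2 : ℂ) * φ (Additive.ofMul (⟨-1, by rw [Gamma0_mem]; simp⟩ : Gamma0 p)) = 0 := by
      linear_combination h1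
    simpa using h2
  intro γ hγ
  obtain ⟨δ, m, h | h⟩ := Fermat.Agent.S21.exists_conj_T_zpow_of_trace_sq (γ : SL(2, ℤ)) hγ
  · have hmem : δ * T ^ m * δ⁻¹ ∈ Gamma0 p := h ▸ γ.2
    have : γ = ⟨δ * T ^ m * δ⁻¹, hmem⟩ := Subtype.ext h
    rw [this]
    exact hkey δ m hmem
  · have hmem : δ * T ^ m * δ⁻¹ ∈ Gamma0 p := by
      have h1 : δ * T ^ m * δ⁻¹ = (γ : SL(2, ℤ)) * (-1) := by rw [h]; simp [hTdef]
      rw [h1]
      exact Subgroup.mul_mem _ γ.2 (by rw [Gamma0_mem]; simp)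
    have : γ = ⟨δ * T ^ m * δ⁻¹, hmem⟩ * ⟨-1, by rw [Gamma0_mem]; simp⟩ := by
      apply Subtype.ext
      rw [h]; simp [hTdef]
    rw [this, ofMul_mul, map_add, hkey δ m hmem, hneg, add_zero]

end Fermat.Agent.S16
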