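/-
S16, part (A)(iii), step 1.  The map `Θ : (φ, v) ↦ (diffMap S, diffMap ST)` of `S21/HomBound.lean`
is SURJECTIVE for `Γ₀(N)`: the dimension of `Hom(Γ₀(N), ℂ)` attains the group theoretic upper bound
(because S21/S20 construct enough modular forms).  This replaces the presentation
`PSL₂(ℤ) = C₂ * C₃`.
-/
import Fermat.Agent.S21

set_option autoImplicit false

open UpperHalfPlane CongruenceSubgroup ModularCurve ModularCurve.Period
open scoped MatrixGroups ModularForm

namespace Fermat.Agent.S16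

open Module Fermat.Agent.S21

section Abstract

variable {G : Type*} [Group G] (Γ : Subgroup G)

theorem abstract_theta_surj [Γ.FiniteIndex] (S U z : G)
    (hz : ∀ g, z * g = g * z) (hzΓ : z ∈ Γ) (hz2 : z * z = 1) (hS : S * S = z)
    (hU : U * U * U = z) (hgen : Subgroup.closure {S, U} = ⊤)
    (hfin : Module.Finite ℂ (Additive Γ →+ ℂ))
    (hdim : Γ.index + 6 ≤ 6 * Module.finrank ℂ (Additive Γ →+ ℂ)
      + 3 * Nat.card (MulAction.fixedBy (G ⧸ Γ) S)
      + 4 * Nat.card (MulAction.fixedBy (G ⧸ Γ) U))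
    (cS cU : G ⧸ Γ → ℂ) (hcS : cS ∈ antiInv (MulAction.toPerm S : Equiv.Perm (G ⧸ Γ)))
    (hcU : cU ∈ normKer (MulAction.toPerm U : Equiv.Perm (G ⧸ Γ))) :
    ∃ p : (Additive Γ →+ ℂ) × (G ⧸ Γ → ℂ), diffMap Γ S p = cS ∧ diffMap Γ U p = cU := by
  classical
  let _ : Fintype (G ⧸ Γ) := Subgroup.fintypeQuotientOfFiniteIndex
  set σS : Equiv.Perm (G ⧸ Γ) := MulAction.toPerm S with hσS
  set σU : Equiv.Perm (G ⧸ Γ) := MulAction.toPerm U with hσU
  let Θ : ((Additive Γ →+ ℂ) × (G ⧸ Γ → ℂ)) →ₗ[ℂ] (antiInv σS × normKer σU) :=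
    LinearMap.prod
      ((diffMap Γ S).codRestrict (antiInv σS) (diffMap_mem_antiInv hz hzΓ hz2 hS))
      ((diffMap Γ U).codRestrict (normKer σU) (diffMap_mem_normKer hz hzΓ hz2 hU))
  have hker : ∀ p, Θ p = 0 → diffMap Γ S p = 0 ∧ diffMap Γ U p = 0 := by
    intro p hp
    have h1 := congrArg (fun q => (q.1 : G ⧸ Γ → ℂ)) hp
    have h2 := congrArg (fun q => (q.2 : G ⧸ Γ → ℂ)) hp
    exact ⟨h1, h2⟩
  have hkerle : LinearMap.ker Θ ≤
      Submodule.span ℂ {((0 : Additive Γ →+ ℂ), (fun _ => (1 : ℂ) : G ⧸ Γ → ℂ))} := by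
    intro p hp
    obtain ⟨h1, h2⟩ := hker p hp
    rw [eq_of_diffMap_eq_zero hgen p h1 h2]
    exact Submodule.smul_mem _ _ (Submodule.subset_span rfl)
  have hker1 : finrank ℂ (LinearMap.ker Θ) ≤ 1 := by
    refine (Submodule.finrank_mono hkerle).trans ?_
    exact (finrank_span_le_card _).trans (by simp)
  have hrn := LinearMap.finrank_range_add_finrank_ker Θ
  rw [Module.finrank_prod, finrank_fintype_fun_eq_card] at hrn
  have hSS : ∀ x, σS (σS x) = x := by
    intro x
    induction x using QuotientGroup.induction_on with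
    | H g =>
      show ((S * (S * g) : G) : G ⧸ Γ) = (g : G ⧸ Γ)
      rw [← mul_assoc, hS, hz]
      exact QuotientGroup.mk_mul_of_mem g hzΓ
  have hUU : ∀ x, σU (σU (σU x)) = x := by
    intro x
    induction x using QuotientGroup.induction_on with
    | H g =>
      show ((U * (U * (U * g)) : G) : G ⧸ Γ) = (g : G ⧸ Γ)
      have h3 : U * (U * (U * g)) = z * g := by rw [← hU]; simp only [mul_assoc]
      rw [h3, hz]
      exact QuotientGroup.mk_mul_of_mem g hzΓ
  have e2 := two_mul_finrank_antiInv σS hSS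
  have e3 := three_mul_finrank_normKer σU hUU
  have c2 : Nat.card (MulAction.fixedBy (G ⧸ Γ) S) = Fintype.card {x // σS x = x} := by
    rw [← Nat.card_eq_fintype_card]
    rfl
  have c3 : Nat.card (MulAction.fixedBy (G ⧸ Γ) U) = Fintype.card {x // σU x = x} := by
    rw [← Nat.card_eq_fintype_card]
    rfl
  have ci : Γ.index = Fintype.card (G ⧸ Γ) := by
    rw [← Nat.card_eq_fintype_card]
    rfl
  rw [c2, c3, ci] at hdim
  have htop : LinearMap.range Θ = ⊤ := by
    apply Submodule.eq_top_of_finrank_eq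
    have hle : finrank ℂ (LinearMap.range Θ) ≤ finrank ℂ (antiInv σS × normKer σU) :=
      Submodule.finrank_le _
    rw [Module.finrank_prod] at hle ⊢
    omega
  have hmem : ((⟨cS, hcS⟩, ⟨cU, hcU⟩) : antiInv σS × normKer σU) ∈ LinearMap.range Θ := by
    rw [htop]; trivial
  obtain ⟨p, hp⟩ := hmem
  refine ⟨p, ?_, ?_⟩
  · exact congrArg (fun q => (q.1 : G ⧸ Γ → ℂ)) hp
  · exact congrArg (fun q => (q.2 : G ⧸ Γ → ℂ)) hp

end Abstract

/-- The dimension of `Hom(Γ₀(N), ℂ)` attains the group theoretic upper bound. -/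
theorem finrank_hom_lower (N : ℕ) [NeZero N] :
    (Gamma0 N).index + 6 ≤ 6 * Module.finrank ℂ (Additive (Gamma0 N) →+ ℂ)
        + 3 * Nat.card (MulAction.fixedBy (SL(2, ℤ) ⧸ Gamma0 N) ModularGroup.S)
        + 4 * Nat.card (MulAction.fixedBy (SL(2, ℤ) ⧸ Gamma0 N)
            (ModularGroup.S * ModularGroup.T)) := by
  have h1 := exists_primitive_of_periodic
  have h2a := const_of_hasDerivAt_zero
  have h2b := hasDerivAt_comp_smul
  have h3 := exists_hasEquivariantPrimitive h1 h2a h2b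
  have h4 := periodMap_apply h2a
  have h4b := existsPeriodMapLinear h2a h3
  have h5 := periodMap_mem_parabolicHoms h3 h4
  have h7 := injectivity_core h3 h4 h5 MaxP16.maxPrinciple
  have h8 := exists_periodMF h1 h2a h2b h3 h4
  obtain ⟨pml, hpml, -⟩ := periodHomPair_def N (h4b N)
  set ι := charInvolution N ℂ ℂ with hι
  obtain ⟨per, hper1, hper2, hper3⟩ := h8 N
  obtain ⟨hfin, hbound⟩ := finrank_hom_bound N
  obtain ⟨a, b, u, v, hu, hv, hcount⟩ := core_families N
  let Ψ : (ModularForm (Gamma0 N) 2 × CuspForm (Gamma0 N) 2) →ₗ[ℂ] (Additive (Gamma0 N) →+ ℂ) :=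
    LinearMap.coprod per (ι ∘ₗ pml)
  have hΨ : ∀ f g, Ψ (f, g) = per f + ι (pml g) := fun f g => by
    simp [Ψ, LinearMap.coprod_apply]
  have hΨinj : Function.Injective Ψ := by
    rw [← LinearMap.ker_eq_bot, LinearMap.ker_eq_bot']
    rintro ⟨f, g⟩ hfg
    rw [hΨ] at hfg
    have hpar : per f ∈ parabolicHoms ℂ (Gamma0 N) ℂ := by
      have : per f = - ι (pml g) := eq_neg_of_add_eq_zero_left hfg
      rw [this, hpml]
      exact Submodule.neg_mem _ (charInvolution_mem_parabolicHoms N ℂ ℂ (h5 N _))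
    obtain ⟨f₀, hf₀⟩ := hper3 f hpar
    rw [hper2 f f₀ hf₀, hpml] at hfg
    obtain ⟨h1, h2⟩ := h7 N _ _ hfg
    have : f = 0 := by
      ext z; rw [hf₀ z, h1]; rfl
    rw [this, h2]; rfl
  have : Module.Finite ℂ (Additive (Gamma0 N) →+ ℂ) := hfin
  have : Module.Finite ℂ (ModularForm (Gamma0 N) 2 × CuspForm (Gamma0 N) 2) :=
    Module.Finite.of_injective Ψ hΨinj
  have : Module.Finite ℂ (ModularForm (Gamma0 N) 2) :=
    Module.Finite.of_injective (LinearMap.inl ℂ _ (CuspForm (Gamma0 N) 2)) LinearMap.inl_injective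
  have : Module.Finite ℂ (CuspForm (Gamma0 N) 2) :=
    Module.Finite.of_injective (LinearMap.inr ℂ (ModularForm (Gamma0 N) 2) _) LinearMap.inr_injective
  have ha : a ≤ Module.finrank ℂ (ModularForm (Gamma0 N) 2) := by
    simpa using hu.fintype_card_le_finrank
  have hb : b ≤ Module.finrank ℂ (CuspForm (Gamma0 N) 2) := by
    simpa using hv.fintype_card_le_finrank
  have hle := LinearMap.finrank_le_finrank_of_injective hΨinj
  rw [Module.finrank_prod] at hle
  omega

theorem closure_S_ST :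
    Subgroup.closure {ModularGroup.S, ModularGroup.S * ModularGroup.T}
      = (⊤ : Subgroup SL(2, ℤ)) := by
  rw [eq_top_iff, ← SpecialLinearGroup.SL2Z_generators, Subgroup.closure_le]
  intro x hx
  rcases hx with rfl | hx
  · exact Subgroup.subset_closure (by simp)
  · rw [Set.mem_singleton_iff] at hx
    subst hx
    have h1 : ModularGroup.S ∈ Subgroup.closure
        {ModularGroup.S, ModularGroup.S * ModularGroup.T} :=
      Subgroup.subset_closure (by simp)
    have h2 : ModularGroup.S * ModularGroup.T ∈ Subgroup.closure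
        {ModularGroup.S, ModularGroup.S * ModularGroup.T} :=
      Subgroup.subset_closure (by simp)
    have := Subgroup.mul_mem _ (Subgroup.inv_mem _ h1) h2
    simpa using this

theorem S_mul_S_eq_neg_one : ModularGroup.S * ModularGroup.S = (-1 : SL(2, ℤ)) := by
  apply Subtype.ext
  rw [Matrix.SpecialLinearGroup.coe_mul, ModularGroup.S_mul_S_eq]
  simp

theorem ST_cube_eq_neg_one :
    (ModularGroup.S * ModularGroup.T) * (ModularGroup.S * ModularGroup.T)
      * (ModularGroup.S * ModularGroup.T) = (-1 : SL(2, ℤ)) := by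
  apply Subtype.ext
  simp only [Matrix.SpecialLinearGroup.coe_mul, ModularGroup.coe_S, ModularGroup.coe_T]
  ext i j
  fin_cases i <;> fin_cases j <;> simp [Matrix.mul_apply, Fin.sum_univ_two]

theorem neg_one_mem_Gamma0 (N : ℕ) : (-1 : SL(2, ℤ)) ∈ Gamma0 N := by
  rw [Gamma0_mem]; simp

/-- **Universal property** (replacement of `PSL₂(ℤ) = C₂ * C₃`): every pair
(anti-invariant function for `S`, function killed by `1 + R + R²` for `R = ST`) on
`SL₂(ℤ)/Γ₀(N)` is the pair of values at `S`, `R` of the crossed homomorphism attached to some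
`(φ, v)`. -/
theorem theta_surj (N : ℕ) [NeZero N] (cS cU : SL(2, ℤ) ⧸ Gamma0 N → ℂ)
    (hcS : cS ∈ antiInv (MulAction.toPerm ModularGroup.S : Equiv.Perm (SL(2, ℤ) ⧸ Gamma0 N)))
    (hcU : cU ∈ normKer (MulAction.toPerm (ModularGroup.S * ModularGroup.T) :
      Equiv.Perm (SL(2, ℤ) ⧸ Gamma0 N))) :
    ∃ p : (Additive (Gamma0 N) →+ ℂ) × (SL(2, ℤ) ⧸ Gamma0 N → ℂ),
      diffMap (Gamma0 N) ModularGroup.S p = cS ∧
      diffMap (Gamma0 N) (ModularGroup.S * ModularGroup.T) p = cU :=
  abstract_theta_surj (Gamma0 N) ModularGroup.S (ModularGroup.S * ModularGroup.T) (-1)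
    (fun g => by simp) (neg_one_mem_Gamma0 N) (by simp) S_mul_S_eq_neg_one ST_cube_eq_neg_one
    closure_S_ST (finrank_hom_bound N).1 (finrank_hom_lower N) cS cU hcS hcU

end Fermat.Agent.S16
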