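/-
S16, part (A)(iii): the integral parabolic lift of the Shimura class
`γ ↦ χ₀ (d(γ) mod p) ∈ ℤ/n`, `n = (p-1)/gcd(p-1,12)`.
-/
import Fermat.Agent.S16.ThetaSurj
import Fermat.Agent.S16.OrbitLift
import Fermat.Agent.S16.ParabolicCrit
import Fermat.Prelude.Def_ModularCurve_ModularUnit

set_option autoImplicit false

open UpperHalfPlane CongruenceSubgroup ModularCurve ModularCurve.Period
open scoped MatrixGroups ModularForm

namespace Fermat.Agent.S16

open Module Fermat.Agent.S21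

section Qb

variable {G : Type*} [Group G] (Γ : Subgroup G) {A : Type*} [AddCommGroup A]

/-- the function `g ↦ χ (cocyc g)` on `G`; it satisfies `Qb (g γ) = Qb g + χ γ`. -/
noncomputable def Qb (χ : Additive Γ →+ A) (g : G) : A := χ (Additive.ofMul (cocyc Γ g))

theorem Qb_mul (χ : Additive Γ →+ A) (g : G) (γ : Γ) :
    Qb Γ χ (g * γ) = Qb Γ χ g + χ (Additive.ofMul γ) := by
  rw [Qb, Qb, cocyc_mul, ofMul_mul, map_add]

/-- the crossed homomorphism attached to `Qb`. -/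
noncomputable def cb (χ : Additive Γ →+ A) (h : G) (x : G ⧸ Γ) : A :=
  Qb Γ χ (h * x.out) - Qb Γ χ x.out

theorem cb_mk (χ : Additive Γ →+ A) (h g : G) :
    cb Γ χ h (g : G ⧸ Γ) = Qb Γ χ (h * g) - Qb Γ χ g := by
  have h1 := Qb_mul Γ χ ((g : G ⧸ Γ).out) (cocyc Γ g)
  have h2 := Qb_mul Γ χ (h * (g : G ⧸ Γ).out) (cocyc Γ g)
  rw [out_mul_cocyc] at h1
  rw [mul_assoc, out_mul_cocyc] at h2
  rw [cb, h1, h2]; abel

/-- value of the crossed homomorphism at a fixed point. -/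
theorem cb_fixed (χ : Additive Γ →+ A) (h g : G) (hfix : g⁻¹ * h * g ∈ Γ) :
    cb Γ χ h (g : G ⧸ Γ) = χ (Additive.ofMul ⟨g⁻¹ * h * g, hfix⟩) := by
  rw [cb_mk]
  have := Qb_mul Γ χ g ⟨g⁻¹ * h * g, hfix⟩
  have e : g * (g⁻¹ * h * g) = h * g := by group
  simp only [e] at this
  rw [this]; abel

end Qb

/-- **Integral parabolic lift**, abstract form: a character `χ : Γ₀(p) → ℤ/n` killing `T` and all
elements of order dividing `12` lifts to a parabolic homomorphism `Γ₀(p) → ℤ`. -/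
theorem exists_parabolic_lift_of (p : ℕ) [hp : Fact p.Prime] (n : ℕ)
    (χ : Additive (Gamma0 p) →+ ZMod n)
    (h12 : ∀ γ : Gamma0 p, γ ^ 12 = 1 → χ (Additive.ofMul γ) = 0)
    (hT : χ (Additive.ofMul ⟨ModularGroup.T, T_mem_Gamma0 p⟩) = 0) :
    ∃ ψ : Additive (Gamma0 p) →+ ℤ, IsParabolicHom (Gamma0 p) ψ ∧
      ∀ γ : Gamma0 p, ((ψ (Additive.ofMul γ) : ℤ) : ZMod n) = χ (Additive.ofMul γ) := by
  classical
  have : NeZero p := ⟨hp.out.ne_zero⟩
  let _ : Fintype (SL(2, ℤ) ⧸ Gamma0 p) := Subgroup.fintypeQuotientOfFiniteIndex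
  set S := ModularGroup.S with hSdef
  set T := ModularGroup.T with hTdef
  set U := S * T with hUdef
  set σS : Equiv.Perm (SL(2, ℤ) ⧸ (Gamma0 p)) := MulAction.toPerm S with hσS
  set σU : Equiv.Perm (SL(2, ℤ) ⧸ (Gamma0 p)) := MulAction.toPerm U with hσU
  have hσS_mk : ∀ g : SL(2, ℤ), σS (g : SL(2, ℤ) ⧸ (Gamma0 p)) = ((S * g : SL(2, ℤ)) : SL(2, ℤ) ⧸ (Gamma0 p)) :=
    fun _ => rfl
  have hσU_mk : ∀ g : SL(2, ℤ), σU (g : SL(2, ℤ) ⧸ (Gamma0 p)) = ((U * g : SL(2, ℤ)) : SL(2, ℤ) ⧸ (Gamma0 p)) :=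
    fun _ => rfl
  have hSS : S * S = -1 := S_mul_S_eq_neg_one
  have hUUU : U * U * U = -1 := ST_cube_eq_neg_one
  have hneg1 : (-1 : SL(2, ℤ)) ∈ (Gamma0 p) := neg_one_mem_Gamma0 p
  have hχneg : χ (Additive.ofMul ⟨-1, hneg1⟩) = 0 := by
    apply h12
    apply Subtype.ext
    rw [Subgroup.coe_pow]
    show (-1 : SL(2, ℤ)) ^ 12 = 1
    exact Even.neg_one_pow ⟨6, rfl⟩
  have hQbneg : ∀ g : SL(2, ℤ), Qb (Gamma0 p) χ (-1 * g) = Qb (Gamma0 p) χ g := by
    intro g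
    have := Qb_mul (Gamma0 p) χ g ⟨-1, hneg1⟩
    rw [hχneg, add_zero] at this
    rw [← this]
    congr 1
    simp
  have hS12 : S ^ 12 = 1 := by
    have : S ^ 12 = (S * S) ^ 6 := by rw [← sq, ← pow_mul]
    rw [this, hSS]; exact Even.neg_one_pow ⟨3, rfl⟩
  have hU12 : U ^ 12 = 1 := by
    have : U ^ 12 = (U * U * U) ^ 4 := by rw [← sq, ← pow_succ, ← pow_mul]
    rw [this, hUUU]; exact Even.neg_one_pow ⟨2, rfl⟩
  -- the mod `n` data
  have hcS : ∀ x, cb (Gamma0 p) χ S (σS x) = - cb (Gamma0 p) χ S x := by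
    intro x
    induction x using QuotientGroup.induction_on with
    | H g =>
      rw [hσS_mk, cb_mk, cb_mk, ← mul_assoc, hSS, hQbneg]; abel
  have hcU : ∀ x, cb (Gamma0 p) χ U x + cb (Gamma0 p) χ U (σU x) + cb (Gamma0 p) χ U (σU (σU x)) = 0 := by
    intro x
    induction x using QuotientGroup.induction_on with
    | H g =>
      rw [hσU_mk, hσU_mk, cb_mk, cb_mk, cb_mk]
      have h3 : U * (U * (U * g)) = -1 * g := by rw [← hUUU]; simp only [mul_assoc]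
      rw [h3, hQbneg]; abel
  have hfix : ∀ (h : SL(2, ℤ)), h ^ 12 = 1 → ∀ x : SL(2, ℤ) ⧸ (Gamma0 p),
      (MulAction.toPerm h : Equiv.Perm (SL(2, ℤ) ⧸ (Gamma0 p))) x = x → cb (Gamma0 p) χ h x = 0 := by
    intro h hh x
    induction x using QuotientGroup.induction_on with
    | H g =>
      intro hx
      have hx' : ((h * g : SL(2, ℤ)) : SL(2, ℤ) ⧸ (Gamma0 p)) = (g : SL(2, ℤ) ⧸ (Gamma0 p)) := hx
      have hmem : g⁻¹ * h * g ∈ (Gamma0 p) := by
        have := QuotientGroup.eq.mp hx'.symm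
        rwa [← mul_assoc] at this
      rw [cb_fixed (Gamma0 p) χ h g hmem]
      apply h12
      apply Subtype.ext
      rw [Subgroup.coe_pow]
      show (g⁻¹ * h * g) ^ 12 = 1
      have : (g⁻¹ * h * g) ^ 12 = g⁻¹ * h ^ 12 * g := by
        have := conj_pow (a := g⁻¹) (b := h) (i := 12)
        rwa [inv_inv] at this
      rw [this, hh]; simp
  have hσSS : ∀ x, σS (σS x) = x := by
    intro x
    induction x using QuotientGroup.induction_on with
    | H g =>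
      rw [hσS_mk, hσS_mk, ← mul_assoc, hSS]
      have : (-1 : SL(2, ℤ)) * g = g * (-1) := by simp
      rw [this]
      exact QuotientGroup.mk_mul_of_mem g hneg1
  have hσUUU : ∀ x, σU (σU (σU x)) = x := by
    intro x
    induction x using QuotientGroup.induction_on with
    | H g =>
      rw [hσU_mk, hσU_mk, hσU_mk]
      have h3 : U * (U * (U * g)) = g * (-1) := by
        rw [← mul_assoc, ← mul_assoc, hUUU]; simp
      rw [h3]
      exact QuotientGroup.mk_mul_of_mem g hneg1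
  -- integral lifts
  obtain ⟨CU, hCU, hCUc⟩ := exists_normKer_lift n σU hσUUU (cb (Gamma0 p) χ U) hcU (hfix U hU12)
  set x0 : SL(2, ℤ) ⧸ (Gamma0 p) := ((1 : SL(2, ℤ)) : SL(2, ℤ) ⧸ (Gamma0 p)) with hx0
  have hTx0 : ((T : SL(2, ℤ)) : SL(2, ℤ) ⧸ (Gamma0 p)) = x0 := by
    have := QuotientGroup.mk_mul_of_mem (s := (Gamma0 p)) (1 : SL(2, ℤ)) (T_mem_Gamma0 p)
    rwa [one_mul] at this
  have hSx0 : σS x0 ≠ x0 := by
    intro h
    rw [hx0, hσS_mk, mul_one] at h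
    have h1 : S⁻¹ * 1 ∈ (Gamma0 p) := QuotientGroup.eq.mp h
    have h2 : S ∈ (Gamma0 p) := by
      have := Subgroup.inv_mem _ h1
      simpa using this
    rw [Gamma0_mem] at h2
    have h3 : ((1 : ℤ) : ZMod p) = 0 := by simpa [hSdef, ModularGroup.S] using h2
    have : Fact (1 < p) := ⟨hp.out.one_lt⟩
    simp at h3
  have ha0 : ((CU x0 : ℤ) : ZMod n) = cb (Gamma0 p) χ S x0 := by
    have e1 : cb (Gamma0 p) χ S x0 = Qb (Gamma0 p) χ (S * T) - Qb (Gamma0 p) χ T := by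
      rw [← hTx0, cb_mk]
    have e2 : cb (Gamma0 p) χ U x0 = Qb (Gamma0 p) χ (U * 1) - Qb (Gamma0 p) χ 1 := by
      rw [hx0, cb_mk]
    have := Qb_mul (Gamma0 p) χ 1 ⟨T, T_mem_Gamma0 p⟩
    rw [hT, add_zero] at this
    simp only [one_mul] at this
    rw [hCUc, e1, e2, this, mul_one]
  obtain ⟨CS, hCS, hCSc, hCS0⟩ := exists_antiInv_lift n σS hσSS (cb (Gamma0 p) χ S) hcS (hfix S hS12)
    x0 hSx0 (CU x0) ha0
  -- realise them
  obtain ⟨P, hPS, hPU⟩ := theta_surj p (fun x => (CS x : ℂ)) (fun x => (CU x : ℂ))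
    (by
      intro x
      show ((CS (σS x) : ℤ) : ℂ) = - ((CS x : ℤ) : ℂ)
      rw [hCS]; push_cast; ring)
    (by
      intro x
      show ((CU x : ℤ) : ℂ) + ((CU (σU x) : ℤ) : ℂ) + ((CU (σU (σU x)) : ℤ) : ℂ) = 0
      exact_mod_cast hCU x)
  set Q := Qfun (Gamma0 p) P with hQdef
  set φ := P.1 with hφdef
  have hQmul : ∀ (g : SL(2, ℤ)) (γ : (Gamma0 p)), Q (g * γ) = Q g + φ (Additive.ofMul γ) := Qfun_mul (Gamma0 p) P
  have hQS : ∀ g : SL(2, ℤ), Q (S * g) - Q g = (CS (g : SL(2, ℤ) ⧸ (Gamma0 p)) : ℂ) := by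
    intro g
    rw [hQdef, ← diffMap_apply_mk, hPS]
  have hQU : ∀ g : SL(2, ℤ), Q (U * g) - Q g = (CU (g : SL(2, ℤ) ⧸ (Gamma0 p)) : ℂ) := by
    intro g
    rw [hQdef, ← diffMap_apply_mk, hPU]
  -- integrality and congruence
  let H : Subgroup SL(2, ℤ) :=
    { carrier := {h | ∀ g, ∃ k : ℤ, Q (h * g) - Q g = k ∧
        (k : ZMod n) = Qb (Gamma0 p) χ (h * g) - Qb (Gamma0 p) χ g}
      one_mem' := by
        intro g
        exact ⟨0, by simp, by simp⟩
      mul_mem' := by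
        intro a b ha hb g
        obtain ⟨k1, h1, h1'⟩ := ha (b * g)
        obtain ⟨k2, h2, h2'⟩ := hb g
        refine ⟨k1 + k2, ?_, ?_⟩
        · rw [mul_assoc]; push_cast; rw [← h1, ← h2]; ring
        · rw [mul_assoc]; push_cast; rw [h1', h2']; ring
      inv_mem' := by
        intro a ha g
        obtain ⟨k1, h1, h1'⟩ := ha (a⁻¹ * g)
        rw [mul_inv_cancel_left] at h1 h1'
        refine ⟨-k1, ?_, ?_⟩
        · push_cast; rw [← h1]; ring
        · push_cast; rw [h1']; ring }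
  have hSH : S ∈ H := by
    intro g
    exact ⟨CS (g : SL(2, ℤ) ⧸ (Gamma0 p)), hQS g, by rw [hCSc, cb_mk]⟩
  have hUH : U ∈ H := by
    intro g
    exact ⟨CU (g : SL(2, ℤ) ⧸ (Gamma0 p)), hQU g, by rw [hCUc, cb_mk]⟩
  have htop : H = ⊤ := by
    rw [eq_top_iff, ← closure_S_ST, Subgroup.closure_le]
    intro x hx
    rcases hx with rfl | hx
    · exact hSH
    · rw [Set.mem_singleton_iff] at hx
      subst hx
      exact hUH
  have hint : ∀ γ : (Gamma0 p), ∃ k : ℤ, φ (Additive.ofMul γ) = k ∧ (k : ZMod n) = χ (Additive.ofMul γ) := by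
    intro γ
    have hγ : (γ : SL(2, ℤ)) ∈ H := htop ▸ Subgroup.mem_top _
    obtain ⟨k, h1, h2⟩ := hγ 1
    refine ⟨k, ?_, ?_⟩
    · rw [← h1]
      have := hQmul 1 γ
      rw [one_mul] at this
      rw [mul_one, this]; ring
    · rw [h2]
      have := Qb_mul (Gamma0 p) χ 1 γ
      rw [one_mul] at this
      rw [mul_one, this]; ring
  choose k hk1 hk2 using hint
  let ψ : Additive (Gamma0 p) →+ ℤ :=
    { toFun := fun γ => k (Additive.toMul γ)
      map_zero' := by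
        have : ((k (Additive.toMul (0 : Additive (Gamma0 p))) : ℤ) : ℂ) = ((0 : ℤ) : ℂ) := by
          rw [← hk1]; simp
        exact_mod_cast this
      map_add' := by
        intro a b
        have : ((k (Additive.toMul (a + b)) : ℤ) : ℂ)
            = ((k (Additive.toMul a) + k (Additive.toMul b) : ℤ) : ℂ) := by
          push_cast
          rw [← hk1, ← hk1, ← hk1, toMul_add, ofMul_mul, map_add]
        exact_mod_cast this }
  have hψ : ∀ γ : (Gamma0 p), ((ψ (Additive.ofMul γ) : ℤ) : ℂ) = φ (Additive.ofMul γ) := fun γ => (hk1 γ).symm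
  -- parabolicity
  have hφT : φ (Additive.ofMul ⟨T, T_mem_Gamma0 p⟩) = 0 := by
    have h1 := hQmul 1 ⟨T, T_mem_Gamma0 p⟩
    have h2 := hQU 1
    have h3 := hQS T
    simp only [one_mul, mul_one] at h1 h2
    rw [hTx0, hCS0] at h3
    rw [← hx0] at h2
    linear_combination h2 - h3 - h1
  have hpar : IsParabolicHom (Gamma0 p) φ := by
    refine isParabolicHom_of_Q p hp.out φ Q hQmul
      (fun x => (CU x : ℂ) - (CS ((MulAction.toPerm T : Equiv.Perm (SL(2, ℤ) ⧸ (Gamma0 p))) x) : ℂ)) ?_ ?_ hφT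
    · intro g
      have h2 := hQU g
      have h3 := hQS (T * g)
      have e : (MulAction.toPerm T : Equiv.Perm (SL(2, ℤ) ⧸ (Gamma0 p))) (g : SL(2, ℤ) ⧸ (Gamma0 p))
          = ((T * g : SL(2, ℤ)) : SL(2, ℤ) ⧸ (Gamma0 p)) := rfl
      simp only [e]
      rw [← h2, ← h3, hUdef, mul_assoc]; ring
    · rw [Finset.sum_sub_distrib]
      have s1 : ∑ x, ((CS ((MulAction.toPerm T : Equiv.Perm (SL(2, ℤ) ⧸ (Gamma0 p))) x) : ℤ) : ℂ)
          = ∑ x, ((CS x : ℤ) : ℂ) :=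
        Equiv.sum_comp (MulAction.toPerm T : Equiv.Perm (SL(2, ℤ) ⧸ (Gamma0 p))) (fun x => ((CS x : ℤ) : ℂ))
      have s2 : ∑ x, ((CS x : ℤ) : ℂ) = 0 := by
        have h1 : ∑ x, ((CS (σS x) : ℤ) : ℂ) = ∑ x, ((CS x : ℤ) : ℂ) :=
          Equiv.sum_comp σS (fun x => ((CS x : ℤ) : ℂ))
        have h2 : ∑ x, ((CS (σS x) : ℤ) : ℂ) = - ∑ x, ((CS x : ℤ) : ℂ) := by
          rw [← Finset.sum_neg_distrib]
          refine Finset.sum_congr rfl fun x _ => ?_
          rw [hCS]; push_cast; ring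
        have h3 : (2 : ℂ) * ∑ x, ((CS x : ℤ) : ℂ) = 0 := by linear_combination h2 - h1
        simpa using h3
      have s3 : ∑ x, ((CU x : ℤ) : ℂ) = 0 := by
        have h1 : ∑ x, ((CU (σU x) : ℤ) : ℂ) = ∑ x, ((CU x : ℤ) : ℂ) :=
          Equiv.sum_comp σU (fun x => ((CU x : ℤ) : ℂ))
        have h2 : ∑ x, ((CU (σU (σU x)) : ℤ) : ℂ) = ∑ x, ((CU x : ℤ) : ℂ) :=
          (Equiv.sum_comp σU (fun x => ((CU (σU x) : ℤ) : ℂ))).trans h1
        have h4 : ∑ x, (((CU x : ℤ) : ℂ) + ((CU (σU x) : ℤ) : ℂ) + ((CU (σU (σU x)) : ℤ) : ℂ)) = 0 := by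
          refine Finset.sum_eq_zero fun x _ => ?_
          exact_mod_cast hCU x
        rw [Finset.sum_add_distrib, Finset.sum_add_distrib, h1, h2] at h4
        have h3 : (3 : ℂ) * ∑ x, ((CU x : ℤ) : ℂ) = 0 := by linear_combination h4
        simpa using h3
      rw [s1, s2, s3, sub_zero]
  refine ⟨ψ, ?_, fun γ => hk2 γ⟩
  intro γ hγ
  have := hpar γ hγ
  rw [← hψ] at this
  exact_mod_cast this

/-- A `12`-th root of unity in `𝔽_p^×` is an `n`-th power, `n = (p-1)/gcd(p-1,12)`. -/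
theorem exists_pow_eq_of_pow_twelve (p : ℕ) [hp : Fact p.Prime] (u : (ZMod p)ˣ)
    (hu : u ^ 12 = 1) : ∃ w : (ZMod p)ˣ, u = w ^ eisensteinNumerator p := by
  obtain ⟨ζ, hζ⟩ := IsCyclic.exists_generator (α := (ZMod p)ˣ)
  obtain ⟨k, rfl⟩ := Subgroup.mem_zpowers_iff.mp (hζ u)
  have hord : orderOf ζ = p - 1 := by
    rw [orderOf_eq_card_of_forall_mem_zpowers hζ, Nat.card_eq_fintype_card, ZMod.card_units]
  have h1 : ((p - 1 : ℕ) : ℤ) ∣ k * 12 := by
    rw [← hord, orderOf_dvd_iff_zpow_eq_one, zpow_mul]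
    exact_mod_cast hu
  set g := Nat.gcd (p - 1) 12 with hg
  have hgpos : 0 < g := Nat.gcd_pos_of_pos_right _ (by norm_num)
  have hn : eisensteinNumerator p * g = p - 1 := Nat.div_mul_cancel (Nat.gcd_dvd_left _ _)
  have ht : (12 / g) * g = 12 := Nat.div_mul_cancel (Nat.gcd_dvd_right _ _)
  have hcop : Nat.Coprime (eisensteinNumerator p) (12 / g) :=
    Nat.coprime_div_gcd_div_gcd hgpos
  have h2 : ((eisensteinNumerator p : ℕ) : ℤ) ∣ k * ((12 / g : ℕ) : ℤ) := by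
    have h3 : ((eisensteinNumerator p : ℕ) : ℤ) * (g : ℤ) ∣ (k * ((12 / g : ℕ) : ℤ)) * (g : ℤ) := by
      have e1 : ((eisensteinNumerator p : ℕ) : ℤ) * (g : ℤ) = ((p - 1 : ℕ) : ℤ) := by
        exact_mod_cast hn
      have e2 : (k * ((12 / g : ℕ) : ℤ)) * (g : ℤ) = k * 12 := by
        have : (((12 / g : ℕ) : ℤ)) * (g : ℤ) = 12 := by exact_mod_cast ht
        rw [mul_assoc, this]
      rw [e1, e2]; exact h1
    exact (mul_dvd_mul_iff_right (by exact_mod_cast hgpos.ne')).mp h3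
  have h4 : ((eisensteinNumerator p : ℕ) : ℤ) ∣ k :=
    (Nat.isCoprime_iff_coprime.mpr hcop).dvd_of_dvd_mul_right h2
  obtain ⟨k', rfl⟩ := h4
  exact ⟨ζ ^ k', by rw [mul_comm, zpow_mul, zpow_natCast]⟩

/-- **Integral parabolic lift of the Shimura class** `γ ↦ χ₀ (d(γ) mod p)`. -/
theorem exists_parabolic_lift (p : ℕ) [hp : Fact p.Prime]
    (χ0 : (ZMod p)ˣ →* Multiplicative (ZMod (eisensteinNumerator p))) :
    ∃ ψ : Additive (Gamma0 p) →+ ℤ, IsParabolicHom (Gamma0 p) ψ ∧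
      ∀ γ : Gamma0 p, ((ψ (Additive.ofMul γ) : ℤ) : ZMod (eisensteinNumerator p))
        = Multiplicative.toAdd (χ0 ((Gamma0Map p).toHomUnits γ)) := by
  let χ : Additive (Gamma0 p) →+ ZMod (eisensteinNumerator p) :=
    { toFun := fun γ => Multiplicative.toAdd (χ0 ((Gamma0Map p).toHomUnits (Additive.toMul γ)))
      map_zero' := by simp
      map_add' := by intro a b; simp }
  refine exists_parabolic_lift_of p (eisensteinNumerator p) χ ?_ ?_
  · intro γ hγ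
    show Multiplicative.toAdd (χ0 ((Gamma0Map p).toHomUnits γ)) = 0
    have hu : ((Gamma0Map p).toHomUnits γ) ^ 12 = 1 := by rw [← map_pow, hγ, map_one]
    obtain ⟨w, hw⟩ := exists_pow_eq_of_pow_twelve p _ hu
    rw [hw, map_pow, toAdd_pow]
    simp
  · show Multiplicative.toAdd (χ0 ((Gamma0Map p).toHomUnits ⟨ModularGroup.T, T_mem_Gamma0 p⟩)) = 0
    have : (Gamma0Map p).toHomUnits ⟨ModularGroup.T, T_mem_Gamma0 p⟩ = 1 := by
      apply Units.ext
      rw [MonoidHom.coe_toHomUnits]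
      simp [Gamma0Map, ModularGroup.T]
    rw [this, map_one]; rfl

end Fermat.Agent.S16
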