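/-
S16, part (A): the abstract induction.  If for every prime `ℓ` there is a `ℂ`-linear operator on
functions `Γ₀(p) → ℂ` which preserves `ℤ`-valued functions, is compatible with the period maps and
acts on (lifts of) the Shimura class through the Eisenstein eigenvalue modulo `n`, then every
integral Hecke polynomial killing `S₂(Γ₀(p))` has Eisenstein value divisible by `n`.
-/
import Fermat.Agent.S16.ShimuraLift
import Fermat.Statements.S16

set_option autoImplicit false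

open UpperHalfPlane CongruenceSubgroup ModularCurve ModularCurve.Period CuspForm
open scoped MatrixGroups ModularForm

namespace Fermat.Agent.S16

open Fermat.Agent.S21

variable (p : ℕ) [hp : Fact p.Prime]

/-- The operator `τ` realises the Hecke polynomial `Q` on functions on `Γ₀(p)`. -/
structure GoodOp (n : ℕ) (χ : Gamma0 p → ZMod n) (Q : HeckeAlg)
    (τ : (Gamma0 p → ℂ) →ₗ[ℂ] (Gamma0 p → ℂ)) : Prop where
  int : ∀ u : Gamma0 p → ℤ, ∃ w : Gamma0 p → ℤ, τ (fun γ => (u γ : ℂ)) = fun γ => (w γ : ℂ)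
  per : ∀ f : CuspForm (Gamma0 p) 2, τ (fun γ => periodMap p f (Additive.ofMul γ))
    = fun γ => periodMap p
        ((heckeEvalForms p 2 Q : Module.End ℂ (CuspForm (Gamma0 p) 2)) f) (Additive.ofMul γ)
  perι : ∀ f : CuspForm (Gamma0 p) 2,
    τ (fun γ => charInvolution p ℂ ℂ (periodMap p f) (Additive.ofMul γ))
    = fun γ => charInvolution p ℂ ℂ (periodMap p
        ((heckeEvalForms p 2 Q : Module.End ℂ (CuspForm (Gamma0 p) 2)) f)) (Additive.ofMul γ)
  cong : ∀ u w : Gamma0 p → ℤ, (∀ γ, ((u γ : ℤ) : ZMod n) = χ γ) →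
    τ (fun γ => (u γ : ℂ)) = (fun γ => (w γ : ℂ)) →
    ∀ γ, ((w γ : ℤ) : ZMod n)
      = ((MvPolynomial.aeval (eisensteinSystem p) Q : ℤ) : ZMod n) * χ γ

/-- `Q` is realised by some operator. -/
def Good (n : ℕ) (χ : Gamma0 p → ZMod n) (Q : HeckeAlg) : Prop :=
  ∃ τ : (Gamma0 p → ℂ) →ₗ[ℂ] (Gamma0 p → ℂ), GoodOp p n χ Q τ

theorem exists_pml : ∃ pml : CuspForm (Gamma0 p) 2 →ₗ[ℂ] (Additive (Gamma0 p) →+ ℂ),
    ∀ f, pml f = periodMap p f := by
  have h1 := exists_primitive_of_periodic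
  have h2a := const_of_hasDerivAt_zero
  have h2b := hasDerivAt_comp_smul
  have h3 := exists_hasEquivariantPrimitive h1 h2a h2b
  exact existsPeriodMapLinear h2a h3 p

theorem periodMap_add' (f g : CuspForm (Gamma0 p) 2) :
    periodMap p (f + g) = periodMap p f + periodMap p g := by
  obtain ⟨pml, h⟩ := exists_pml p
  rw [← h, ← h, ← h, map_add]

theorem periodMap_zsmul' (a : ℤ) (f : CuspForm (Gamma0 p) 2) :
    periodMap p (a • f) = a • periodMap p f := by
  obtain ⟨pml, h⟩ := exists_pml p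
  rw [← h, ← h, map_zsmul]

theorem periodMap_zero' : periodMap p (0 : CuspForm (Gamma0 p) 2) = 0 := by
  obtain ⟨pml, h⟩ := exists_pml p
  rw [← h, map_zero]

variable {p}

omit hp in
theorem intFun_injective {u w : Gamma0 p → ℤ}
    (h : (fun γ => (u γ : ℂ)) = fun γ => (w γ : ℂ)) : u = w := by
  funext γ
  have := congrFun h γ
  exact_mod_cast this

theorem good_C (n : ℕ) (χ : Gamma0 p → ZMod n) (a : ℤ) : Good p n χ (MvPolynomial.C a) := by
  refine ⟨(a : ℂ) • LinearMap.id, ?_, ?_, ?_, ?_⟩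
  · intro u
    refine ⟨fun γ => a * u γ, ?_⟩
    funext γ
    simp
  · intro f
    funext γ
    rw [heckeEvalForms_C]
    have : ((algebraMap ℤ (heckeAlgebra p 2 ∅) a : heckeAlgebra p 2 ∅) :
        Module.End ℂ (CuspForm (Gamma0 p) 2)) f = a • f := by
      rw [Subalgebra.coe_algebraMap, Module.algebraMap_end_apply]
    rw [this, periodMap_zsmul']
    simp
  · intro f
    funext γ
    rw [heckeEvalForms_C]
    have : ((algebraMap ℤ (heckeAlgebra p 2 ∅) a : heckeAlgebra p 2 ∅) :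
        Module.End ℂ (CuspForm (Gamma0 p) 2)) f = a • f := by
      rw [Subalgebra.coe_algebraMap, Module.algebraMap_end_apply]
    rw [this, periodMap_zsmul']
    simp
  · intro u w hu hw γ
    have h1 : w = fun γ => a * u γ := by
      apply intFun_injective
      rw [← hw]
      funext γ
      simp
    rw [h1, MvPolynomial.aeval_C]
    push_cast
    rw [hu]
    simp

theorem good_add (n : ℕ) (χ : Gamma0 p → ZMod n) {Q₁ Q₂ : HeckeAlg}
    (h₁ : Good p n χ Q₁) (h₂ : Good p n χ Q₂) : Good p n χ (Q₁ + Q₂) := by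
  obtain ⟨τ₁, g₁⟩ := h₁
  obtain ⟨τ₂, g₂⟩ := h₂
  refine ⟨τ₁ + τ₂, ?_, ?_, ?_, ?_⟩
  · intro u
    obtain ⟨w₁, e₁⟩ := g₁.int u
    obtain ⟨w₂, e₂⟩ := g₂.int u
    refine ⟨fun γ => w₁ γ + w₂ γ, ?_⟩
    rw [LinearMap.add_apply, e₁, e₂]
    funext γ
    simp
  · intro f
    rw [LinearMap.add_apply, g₁.per, g₂.per, map_add]
    funext γ
    rw [Subalgebra.coe_add, LinearMap.add_apply, periodMap_add']
    rfl
  · intro f
    rw [LinearMap.add_apply, g₁.perι, g₂.perι, map_add]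
    funext γ
    rw [Subalgebra.coe_add, LinearMap.add_apply, periodMap_add', map_add]
    rfl
  · intro u w hu hw γ
    obtain ⟨w₁, e₁⟩ := g₁.int u
    obtain ⟨w₂, e₂⟩ := g₂.int u
    have h1 : w = fun γ => w₁ γ + w₂ γ := by
      apply intFun_injective
      rw [← hw, LinearMap.add_apply, e₁, e₂]
      funext γ
      simp
    rw [h1, map_add]
    push_cast
    rw [g₁.cong u w₁ hu e₁, g₂.cong u w₂ hu e₂]
    ring

theorem good_mul (n : ℕ) (χ : Gamma0 p → ZMod n) {Q₁ Q₂ : HeckeAlg}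
    (h₁ : Good p n χ Q₁) (h₂ : Good p n χ Q₂) : Good p n χ (Q₁ * Q₂) := by
  obtain ⟨τ₁, g₁⟩ := h₁
  obtain ⟨τ₂, g₂⟩ := h₂
  refine ⟨τ₁ ∘ₗ τ₂, ?_, ?_, ?_, ?_⟩
  · intro u
    obtain ⟨w₂, e₂⟩ := g₂.int u
    obtain ⟨w₁, e₁⟩ := g₁.int w₂
    exact ⟨w₁, by rw [LinearMap.comp_apply, e₂, e₁]⟩
  · intro f
    rw [LinearMap.comp_apply, g₂.per, g₁.per, map_mul]
    rfl
  · intro f
    rw [LinearMap.comp_apply, g₂.perι, g₁.perι, map_mul]
    rfl
  · intro u w hu hw γ
    obtain ⟨w₂, e₂⟩ := g₂.int u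
    have c₂ := g₂.cong u w₂ hu e₂
    set ε₁ : ℤ := MvPolynomial.aeval (eisensteinSystem p) Q₁ with hε₁
    set ε₂ : ℤ := MvPolynomial.aeval (eisensteinSystem p) Q₂ with hε₂
    -- `w₂ = ε₂ u + n v`
    have hdiv : ∀ γ, ∃ v : ℤ, w₂ γ = ε₂ * u γ + n * v := by
      intro γ
      have : (n : ℤ) ∣ w₂ γ - ε₂ * u γ := by
        rw [← ZMod.intCast_zmod_eq_zero_iff_dvd]
        push_cast
        rw [c₂, hu]; ring
      obtain ⟨v, hv⟩ := this
      exact ⟨v, by linarith⟩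
    choose v hv using hdiv
    obtain ⟨u₁, eu⟩ := g₁.int u
    obtain ⟨v₁, ev⟩ := g₁.int v
    have c₁ := g₁.cong u u₁ hu eu
    have hw₂ : (fun γ => (w₂ γ : ℂ))
        = (ε₂ : ℂ) • (fun γ => (u γ : ℂ)) + (n : ℂ) • (fun γ => (v γ : ℂ)) := by
      funext γ
      simp only [Pi.add_apply, Pi.smul_apply, smul_eq_mul]
      rw [hv γ]; push_cast; ring
    have h1 : w = fun γ => ε₂ * u₁ γ + n * v₁ γ := by
      apply intFun_injective
      rw [← hw, LinearMap.comp_apply, e₂, hw₂, map_add, map_smul, map_smul, eu, ev]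
      funext γ
      simp
    rw [h1, map_mul]
    push_cast
    rw [c₁]
    simp only [CharP.cast_eq_zero, zero_mul, add_zero]
    ring

theorem good_of_gen (n : ℕ) (χ : Gamma0 p → ZMod n)
    (hgen : ∀ ℓ : Nat.Primes, Good p n χ (MvPolynomial.X ℓ)) (Q : HeckeAlg) : Good p n χ Q := by
  induction Q using MvPolynomial.induction_on with
  | C a => exact good_C n χ a
  | add Q₁ Q₂ h₁ h₂ => exact good_add n χ h₁ h₂
  | mul_X Q ℓ h => exact good_mul n χ h (hgen ℓ)

variable (p)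

omit hp in
theorem eisensteinNumerator_dvd : eisensteinNumerator p ∣ p - 1 :=
  Nat.div_dvd_of_dvd (Nat.gcd_dvd_left _ _)

/-- a character of `𝔽_p^×` onto `ℤ/n`. -/
theorem exists_chi0 : ∃ (χ0 : (ZMod p)ˣ →* Multiplicative (ZMod (eisensteinNumerator p)))
    (u : (ZMod p)ˣ), χ0 u = Multiplicative.ofAdd 1 := by
  have hcard : Nat.card (ZMod p)ˣ = p - 1 := by
    rw [Nat.card_eq_fintype_card, ZMod.card_units]
  have hdiv : eisensteinNumerator p ∣ Nat.card (ZMod p)ˣ := by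
    rw [hcard]; exact eisensteinNumerator_dvd p
  let e := zmodCyclicMulEquiv (inferInstance : IsCyclic (ZMod p)ˣ)
  refine ⟨(AddMonoidHom.toMultiplicative
    (ZMod.castHom hdiv (ZMod (eisensteinNumerator p))).toAddMonoidHom).comp e.symm.toMonoidHom,
    e (Multiplicative.ofAdd 1), ?_⟩
  simp
  exact map_one (ZMod.castHom hdiv (ZMod (eisensteinNumerator p)))

theorem exists_Gamma0_toHomUnits (u : (ZMod p)ˣ) :
    ∃ γ : Gamma0 p, (Gamma0Map p).toHomUnits γ = u := by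
  have hcop : IsCoprime (((u : ZMod p).val : ℕ) : ℤ) (p : ℤ) :=
    Nat.isCoprime_iff_coprime.mpr (ZMod.val_coe_unit_coprime u)
  obtain ⟨a, b, hab⟩ := hcop
  let g : SL(2, ℤ) := ⟨!![a, -b; (p : ℤ), (((u : ZMod p).val : ℕ) : ℤ)], by
    rw [Matrix.det_fin_two_of]; linarith⟩
  have hg : g ∈ Gamma0 p := by
    rw [Gamma0_mem]
    simp [g]
  refine ⟨⟨g, hg⟩, ?_⟩
  apply Units.ext
  rw [MonoidHom.coe_toHomUnits]
  simp [Gamma0Map, g]

/-- **Part (A) of S16 from the generator case.** -/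
theorem stmtA_of_good_gen
    (hgen : ∀ (χ0 : (ZMod p)ˣ →* Multiplicative (ZMod (eisensteinNumerator p))) (ℓ : Nat.Primes),
      Good p (eisensteinNumerator p)
        (fun γ => Multiplicative.toAdd (χ0 ((Gamma0Map p).toHomUnits γ))) (MvPolynomial.X ℓ))
    (P : HeckeAlg) (hP : heckeEvalForms p 2 P = 0) :
    ((eisensteinNumerator p : ℕ) : ℤ) ∣ MvPolynomial.aeval (eisensteinSystem p) P := by
  obtain ⟨χ0, u, hu⟩ := exists_chi0 p
  obtain ⟨γ₀, hγ₀⟩ := exists_Gamma0_toHomUnits p u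
  obtain ⟨ψ, hψpar, hψ⟩ := exists_parabolic_lift p χ0
  obtain ⟨τ, g⟩ := good_of_gen _ _ (hgen χ0) P
  -- `ψ` is a sum of periods
  let ψC : Additive (Gamma0 p) →+ ℂ := (Int.castAddHom ℂ).comp ψ
  have hmem : ψC ∈ parabolicHoms ℂ (Gamma0 p) ℂ := by
    rw [mem_parabolicHoms_iff]
    intro γ hγ
    show ((ψ (Additive.ofMul γ) : ℤ) : ℂ) = 0
    rw [hψpar γ hγ]; simp
  rw [← (Fermat.Agent.S21.result p).2] at hmem
  obtain ⟨⟨f₁, f₂⟩, hf⟩ := hmem
  obtain ⟨pml, hpml, hdef⟩ := periodHomPair_def p (exists_pml p)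
  have hval : ψC = periodMap p (f₁ + f₂) + charInvolution p ℂ ℂ (periodMap p (f₁ - f₂)) := by
    rw [← hf, hdef, ← hpml, ← hpml]
    simp only [LinearMap.coprod_apply, LinearMap.comp_apply, LinearMap.add_apply,
      LinearMap.sub_apply, LinearMap.id_apply, map_add, map_sub]
    abel
  have hfun : (fun γ : Gamma0 p => ((ψ (Additive.ofMul γ) : ℤ) : ℂ))
      = (fun γ => periodMap p (f₁ + f₂) (Additive.ofMul γ))
        + (fun γ => charInvolution p ℂ ℂ (periodMap p (f₁ - f₂)) (Additive.ofMul γ)) := by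
    funext γ
    have := congrArg (fun φ : Additive (Gamma0 p) →+ ℂ => φ (Additive.ofMul γ)) hval
    exact this
  have hzero : τ (fun γ : Gamma0 p => ((ψ (Additive.ofMul γ) : ℤ) : ℂ))
      = fun _ => (((0 : ℤ) : ℤ) : ℂ) := by
    rw [hfun, map_add, g.per, g.perι, hP]
    funext γ
    simp [periodMap_zero']
  have := g.cong (fun γ => ψ (Additive.ofMul γ)) (fun _ => 0) hψ hzero γ₀
  rw [hγ₀, hu] at this
  simp only [Int.cast_zero, toAdd_ofAdd, mul_one] at this
  exact (ZMod.intCast_zmod_eq_zero_iff_dvd _ _).mp this.symm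

end Fermat.Agent.S16
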