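/-
S16, part (A): a Hecke operator given by a finite set of representatives `α i` (real matrices of
positive determinant, permuted by `Γ₀(p)` up to left multiplication by `Γ₀(p)`, stable under the
reflection `J` up to integral translations) is realised by a `GoodOp`.
-/
import Fermat.Agent.S16.GoodOp

set_option autoImplicit false

open UpperHalfPlane CongruenceSubgroup ModularCurve ModularCurve.Period CuspForm
open Matrix.SpecialLinearGroup
open scoped MatrixGroups ModularForm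

namespace Fermat.Agent.S16

open Fermat.Agent.S21

/-- chain rule for the action of `GL₂(ℝ)⁺`. -/
theorem hasDerivAt_comp_GL {F f : ℍ → ℂ} (hF : ∀ τ : ℍ, HasDerivAt (F ∘ ofComplex) (f τ) ↑τ)
    {α : GL (Fin 2) ℝ} (hα : 0 < α.val.det) (τ : ℍ) :
    HasDerivAt ((fun w : ℍ => F (α • w)) ∘ ofComplex) ((f ∣[(2 : ℤ)] α) τ) ↑τ := by
  have h_smul := (hasStrictDerivAt_smul hα τ).hasDerivAt
  have h_F : HasDerivAt (F ∘ ofComplex) (f (α • τ)) ↑(α • ofComplex (τ : ℂ)) := by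
    rw [ofComplex_apply]; exact hF (α • τ)
  have hcomp := h_F.comp (τ : ℂ) h_smul
  have heq : ((fun w : ℍ => F (α • w)) ∘ ofComplex) =
      ((F ∘ ofComplex) ∘ fun w ↦ ↑(α • ofComplex w) : ℂ → ℂ) := by
    funext w
    simp only [Function.comp_apply, ofComplex_apply]
  rw [heq]
  have hα' : 0 < α.det.val := by simpa using hα
  have hval : (f ∣[(2 : ℤ)] α) τ = f (α • τ) * ((α.val.det : ℂ) / denom α τ ^ 2) := by
    rw [ModularForm.slash_apply, σ, if_pos hα']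
    have habs : |α.det.val| = α.val.det := by
      rw [abs_of_pos hα']; simp
    rw [habs]
    simp only [ContinuousAlgEquiv.refl_apply]
    rw [zpow_neg]
    norm_num
    ring
  rw [hval]
  exact hcomp

variable {p : ℕ} [hp : Fact p.Prime]

theorem exists_prim (f : CuspForm (Gamma0 p) 2) : ∃ F : ℍ → ℂ,
    (∀ τ : ℍ, HasDerivAt (F ∘ ofComplex) (f τ) ↑τ) ∧
    ∀ (γ : Gamma0 p) (z : ℍ), periodMap p f (Additive.ofMul γ) = F ((γ : SL(2, ℤ)) • z) - F z := by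
  have h1 := exists_primitive_of_periodic
  have h2a := const_of_hasDerivAt_zero
  have h2b := hasDerivAt_comp_smul
  have h3 := exists_hasEquivariantPrimitive h1 h2a h2b
  have h4 := periodMap_apply h2a
  obtain ⟨F, hF⟩ := h3 p f
  exact ⟨F, hF.1, fun γ z => h4 p f F hF γ z⟩

theorem periodMap_parabolic (f : CuspForm (Gamma0 p) 2) :
    IsParabolicHom (Gamma0 p) (periodMap p f) := by
  have h1 := exists_primitive_of_periodic
  have h2a := const_of_hasDerivAt_zero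
  have h2b := hasDerivAt_comp_smul
  have h3 := exists_hasEquivariantPrimitive h1 h2a h2b
  have h4 := periodMap_apply h2a
  exact mem_parabolicHoms_iff.mp (periodMap_mem_parabolicHoms h3 h4 p f)

omit hp in
/-- pure telescoping. -/
theorem telescoping {ι : Type*} [Fintype ι] (α : ι → GL (Fin 2) ℝ) (Φ : ℍ → ℂ)
    (φ : Gamma0 p → ℂ) (hΦ : ∀ (γ : Gamma0 p) (z : ℍ), Φ ((γ : SL(2, ℤ)) • z) - Φ z = φ γ)
    (γ : Gamma0 p) (σ : Equiv.Perm ι) (γ' : ι → Gamma0 p)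
    (hmul : ∀ i, α i * mapGL ℝ (γ : SL(2, ℤ)) = mapGL ℝ (γ' i : SL(2, ℤ)) * α (σ i)) (z : ℍ) :
    ∑ i, Φ (α i • ((γ : SL(2, ℤ)) • z)) - ∑ i, Φ (α i • z) = ∑ i, φ (γ' i) := by
  have h1 : ∀ i, Φ (α i • ((γ : SL(2, ℤ)) • z)) = Φ (α (σ i) • z) + φ (γ' i) := by
    intro i
    have e1 : α i • ((γ : SL(2, ℤ)) • z) = ((γ' i : Gamma0 p) : SL(2, ℤ)) • (α (σ i) • z) := by
      have : α i • ((γ : SL(2, ℤ)) • z) = (α i * mapGL ℝ (γ : SL(2, ℤ))) • z := by
        rw [mul_smul]; rfl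
      rw [this, hmul, mul_smul]; rfl
    rw [e1, ← hΦ (γ' i) (α (σ i) • z)]
    ring
  rw [Finset.sum_congr rfl fun i _ => h1 i, Finset.sum_add_distrib,
    Equiv.sum_comp σ (fun i => Φ (α i • z))]
  ring

omit hp in
/-- the sum of the translates of a primitive of `f` is, up to a constant, a primitive of `f'`. -/
theorem exists_const_prim {ι : Type*} [Fintype ι] (α : ι → GL (Fin 2) ℝ)
    (hα : ∀ i, 0 < (α i).val.det) (f f' : CuspForm (Gamma0 p) 2)
    (hf' : ∀ τ : ℍ, f' τ = ∑ i, (⇑f ∣[(2 : ℤ)] α i) τ) (F F' : ℍ → ℂ)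
    (hF : ∀ τ : ℍ, HasDerivAt (F ∘ ofComplex) (f τ) ↑τ)
    (hF' : ∀ τ : ℍ, HasDerivAt (F' ∘ ofComplex) (f' τ) ↑τ) (z w : ℍ) :
    F' z - F' w = ∑ i, F (α i • z) - ∑ i, F (α i • w) := by
  have hG : ∀ τ : ℍ, HasDerivAt ((fun w : ℍ => ∑ i, F (α i • w)) ∘ ofComplex) (f' τ) ↑τ := by
    intro τ
    rw [hf']
    have := HasDerivAt.fun_sum (u := Finset.univ)
      (fun i _ => hasDerivAt_comp_GL hF (hα i) τ)
    exact this
  have hconst := const_of_hasDerivAt_zero (fun w => F' w - ∑ i, F (α i • w)) (fun τ => by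
    have h := (hF' τ).sub (hG τ)
    rw [sub_self] at h
    exact h) z w
  linear_combination hconst

theorem period_transfer {ι : Type*} [Fintype ι] (α : ι → GL (Fin 2) ℝ)
    (hα : ∀ i, 0 < (α i).val.det) (f f' : CuspForm (Gamma0 p) 2)
    (hf' : ∀ τ : ℍ, f' τ = ∑ i, (⇑f ∣[(2 : ℤ)] α i) τ)
    (γ : Gamma0 p) (σ : Equiv.Perm ι) (γ' : ι → Gamma0 p)
    (hmul : ∀ i, α i * mapGL ℝ (γ : SL(2, ℤ)) = mapGL ℝ (γ' i : SL(2, ℤ)) * α (σ i)) :
    periodMap p f' (Additive.ofMul γ) = ∑ i, periodMap p f (Additive.ofMul (γ' i)) := by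
  obtain ⟨F, hF, hFp⟩ := exists_prim f
  obtain ⟨F', hF', hFp'⟩ := exists_prim f'
  rw [hFp' γ UpperHalfPlane.I, exists_const_prim α hα f f' hf' F F' hF hF']
  exact telescoping α F (fun γ => periodMap p f (Additive.ofMul γ))
    (fun γ z => (hFp γ z).symm) γ σ γ' hmul UpperHalfPlane.I

theorem prim_vadd_int (f : CuspForm (Gamma0 p) 2) (F : ℍ → ℂ)
    (hFp : ∀ (γ : Gamma0 p) (z : ℍ),
      periodMap p f (Additive.ofMul γ) = F ((γ : SL(2, ℤ)) • z) - F z) (e : ℤ) (w : ℍ) :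
    F (((e : ℤ) : ℝ) +ᵥ w) = F w := by
  have hmem : ModularGroup.T ^ e ∈ Gamma0 p := Subgroup.zpow_mem _ (T_mem_Gamma0 p) e
  have h0 := periodMap_parabolic f ⟨ModularGroup.T ^ e, hmem⟩ (by
    show ((ModularGroup.T ^ e : SL(2, ℤ)) : Matrix (Fin 2) (Fin 2) ℤ).trace ^ 2 = 4
    rw [ModularGroup.coe_T_zpow, Matrix.trace_fin_two_of]; norm_num)
  have h1 := hFp ⟨ModularGroup.T ^ e, hmem⟩ w
  rw [h0] at h1
  have h2 : (ModularGroup.T ^ e : SL(2, ℤ)) • w = ((e : ℤ) : ℝ) +ᵥ w := modular_T_zpow_smul w e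
  simp only [h2] at h1
  exact (sub_eq_zero.mp h1.symm)

theorem periodι_transfer {ι : Type*} [Fintype ι] (α : ι → GL (Fin 2) ℝ)
    (hα : ∀ i, 0 < (α i).val.det) (f f' : CuspForm (Gamma0 p) 2)
    (hf' : ∀ τ : ℍ, f' τ = ∑ i, (⇑f ∣[(2 : ℤ)] α i) τ)
    (γ : Gamma0 p) (σ : Equiv.Perm ι) (γ' : ι → Gamma0 p)
    (hmul : ∀ i, α i * mapGL ℝ (γ : SL(2, ℤ)) = mapGL ℝ (γ' i : SL(2, ℤ)) * α (σ i))
    (ν : Equiv.Perm ι) (e : ι → ℤ)
    (hsym : ∀ i (z : ℍ), J • (α i • z) = ((e i : ℤ) : ℝ) +ᵥ (α (ν i) • (J • z))) :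
    charInvolution p ℂ ℂ (periodMap p f') (Additive.ofMul γ)
      = ∑ i, charInvolution p ℂ ℂ (periodMap p f) (Additive.ofMul (γ' i)) := by
  obtain ⟨F, hF, hFp⟩ := exists_prim f
  obtain ⟨F', hF', hFp'⟩ := exists_prim f'
  have hJ : ∀ w : ℍ, ∑ i, F (α i • (J • w)) = ∑ i, F (J • (α i • w)) := by
    intro w
    rw [← Equiv.sum_comp ν (fun i => F (α i • (J • w)))]
    refine Finset.sum_congr rfl fun i _ => ?_
    rw [hsym, prim_vadd_int f F hFp]
  have hι : ∀ (g : CuspForm (Gamma0 p) 2) (G : ℍ → ℂ)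
      (_ : ∀ (γ : Gamma0 p) (z : ℍ),
        periodMap p g (Additive.ofMul γ) = G ((γ : SL(2, ℤ)) • z) - G z) (γ : Gamma0 p) (z : ℍ),
      charInvolution p ℂ ℂ (periodMap p g) (Additive.ofMul γ)
        = G (J • ((γ : SL(2, ℤ)) • z)) - G (J • z) := by
    intro g G hG γ z
    rw [charInvolution_apply, toMul_ofMul, hG (jConjGamma0 p γ) (J • z), jConjGamma0_coe,
      ← Inj.J_smul_smul]
  rw [hι f' F' hFp' γ UpperHalfPlane.I, exists_const_prim α hα f f' hf' F F' hF hF', hJ, hJ]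
  exact telescoping α (fun z => F (J • z))
    (fun γ => charInvolution p ℂ ℂ (periodMap p f) (Additive.ofMul γ))
    (fun γ z => (hι f F hFp γ z).symm) γ σ γ' hmul UpperHalfPlane.I

/-- **Builder of good operators.** -/
theorem good_of_reps {ι : Type*} [Fintype ι] (α : ι → GL (Fin 2) ℝ)
    (hα : ∀ i, 0 < (α i).val.det) (n : ℕ) (χ : Gamma0 p → ZMod n) (Q : HeckeAlg)
    (ht : ∀ (f : CuspForm (Gamma0 p) 2) (τ : ℍ),
      ((heckeEvalForms p 2 Q : Module.End ℂ (CuspForm (Gamma0 p) 2)) f) τ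
        = ∑ i, (⇑f ∣[(2 : ℤ)] α i) τ)
    (σ : Gamma0 p → Equiv.Perm ι) (γ' : Gamma0 p → ι → Gamma0 p)
    (hmul : ∀ (γ : Gamma0 p) (i : ι),
      α i * mapGL ℝ (γ : SL(2, ℤ)) = mapGL ℝ (γ' γ i : SL(2, ℤ)) * α (σ γ i))
    (ν : Equiv.Perm ι) (e : ι → ℤ)
    (hsym : ∀ i (z : ℍ), J • (α i • z) = ((e i : ℤ) : ℝ) +ᵥ (α (ν i) • (J • z)))
    (hcong : ∀ γ, ∑ i, χ (γ' γ i)
      = ((MvPolynomial.aeval (eisensteinSystem p) Q : ℤ) : ZMod n) * χ γ) :
    Good p n χ Q := by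
  let τ : (Gamma0 p → ℂ) →ₗ[ℂ] (Gamma0 p → ℂ) :=
    { toFun := fun u γ => ∑ i, u (γ' γ i)
      map_add' := by
        intro a b
        funext γ
        simp [Finset.sum_add_distrib]
      map_smul' := by
        intro m a
        funext γ
        simp [Finset.mul_sum] }
  have hτ : ∀ u γ, τ u γ = ∑ i, u (γ' γ i) := fun _ _ => rfl
  refine ⟨τ, ?_, ?_, ?_, ?_⟩
  · intro u
    refine ⟨fun γ => ∑ i, u (γ' γ i), ?_⟩
    funext γ
    rw [hτ]; push_cast; rfl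
  · intro f
    funext γ
    rw [hτ]
    exact (period_transfer α hα f _ (ht f) γ (σ γ) (γ' γ) (hmul γ)).symm
  · intro f
    funext γ
    rw [hτ]
    exact (periodι_transfer α hα f _ (ht f) γ (σ γ) (γ' γ) (hmul γ) ν e hsym).symm
  · intro u w hu hw γ
    have h1 : w = fun γ => ∑ i, u (γ' γ i) := by
      apply intFun_injective
      rw [← hw]
      funext γ
      rw [hτ]; push_cast; rfl
    rw [h1, ← hcong]
    push_cast
    exact Finset.sum_congr rfl fun i _ => hu _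

end Fermat.Agent.S16
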