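import Mathlib
import Fermat.Prelude.Def_CuspForm_HeckeLocal
import Fermat.Prelude.Def_CuspForm_HeckeEvalForms
import Fermat.Prelude.Def_HeckeGalois_EichlerShimura
import Fermat.Prelude.Def_ModularCurve_ModularUnit

/-!
# S16: top-level interface

`Stmt_A p` and `Stmt_B p` are the two boundary statements; `S16/Duality.lean` proves
`Stmt_A p → Stmt_B p → (frozen statement S16 for p)`.
-/

set_option autoImplicit false

namespace Fermat.Agent.S16

/-- `σ'(k)`: sum of the divisors of `k` that are prime to `p`. -/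
def sigmaP (p k : ℕ) : ℤ := ∑ d ∈ k.divisors.filter (fun d => ¬ p ∣ d), (d : ℤ)

/-- (A): every integer polynomial in the Hecke operators which kills `S₂(Γ₀(p))` has an
Eisenstein value divisible by `n = (p-1)/gcd(p-1,12)`. -/
def Stmt_A (p : ℕ) [Fact p.Prime] : Prop :=
  ∀ P : ModularCurve.HeckeAlg, CuspForm.heckeEvalForms p 2 P = 0 →
    ((ModularCurve.eisensteinNumerator p : ℕ) : ℤ) ∣
      MvPolynomial.aeval (ModularCurve.eisensteinSystem p) P

/-- (B): a cusp form with integer coefficients congruent to `∑ σ'(k) q^k` modulo `M` forces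
`M ∣ n`. -/
def Stmt_B (p : ℕ) [Fact p.Prime] : Prop :=
  ∀ (M : ℕ) (f : CuspForm (CongruenceSubgroup.Gamma0 p) 2) (a : ℕ → ℤ),
    (∀ k, ModularFormClass.qCoeff f k = (a k : ℂ)) →
    (∀ k, 1 ≤ k → (M : ℤ) ∣ a k - sigmaP p k) →
    M ∣ ModularCurve.eisensteinNumerator p

end Fermat.Agent.S16
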