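/-
S16, part (A): the generator case (`T_ℓ`, `ℓ ≠ p`, and `U_p`) and the proof of `Stmt_A`.
-/
import Fermat.Agent.S16.GenOp
import Fermat.Agent.S16.Interface
import Fermat.Prelude.Sol.S_ModularForm_heckeT_slash_eq_self_of_mem_Gamma0

set_option autoImplicit false

open UpperHalfPlane CongruenceSubgroup ModularCurve ModularCurve.Period CuspForm
open Matrix.SpecialLinearGroup
open scoped MatrixGroups ModularForm ComplexConjugate
open P2MW.S_ModularForm_heckeT_slash_eq_self_of_mem_Gamma0.ModularForm.HeckeSlashInvariance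

namespace Fermat.Agent.S16

open Fermat.Agent.S21

/-- reflection of the representatives `(1 j; 0 ℓ)`. -/
theorem J_heckeMatrix (ℓ : ℕ) [NeZero ℓ] (j : ZMod ℓ) (z : ℍ) :
    J • (ModularForm.heckeMatrix ℓ j.val • z)
      = (((if j = 0 then 0 else -1 : ℤ) : ℤ) : ℝ) +ᵥ
        (ModularForm.heckeMatrix ℓ (-j).val • (J • z)) := by
  have hℓ : ℓ ≠ 0 := NeZero.ne ℓ
  have hℓ' : (ℓ : ℂ) ≠ 0 := by exact_mod_cast hℓ
  ext
  rw [coe_J_smul, coe_vadd, ModularForm.coe_heckeMatrix_smul hℓ,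
    ModularForm.coe_heckeMatrix_smul hℓ, coe_J_smul, ZMod.neg_val]
  by_cases hj : j = 0
  · simp [hj]
    ring
  · simp only [if_neg hj]
    have hle : j.val ≤ ℓ := j.val_le
    rw [Nat.cast_sub hle]
    simp only [map_div₀, map_add, Complex.conj_natCast]
    push_cast
    field_simp
    ring

theorem J_heckeDiagMatrix (ℓ : ℕ) [NeZero ℓ] (z : ℍ) :
    J • (ModularForm.heckeDiagMatrix ℓ • z)
      = (((0 : ℤ) : ℤ) : ℝ) +ᵥ (ModularForm.heckeDiagMatrix ℓ • (J • z)) := by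
  have hℓ : ℓ ≠ 0 := NeZero.ne ℓ
  ext
  rw [coe_J_smul, coe_vadd, ModularForm.coe_heckeDiagMatrix_smul hℓ,
    ModularForm.coe_heckeDiagMatrix_smul hℓ, coe_J_smul]
  simp

/-- the permutation `∞ ↦ ∞`, `j ↦ -j`. -/
def negOnePoint (ℓ : ℕ) : Equiv.Perm (OnePoint (ZMod ℓ)) where
  toFun x := x.elim OnePoint.infty (fun j => ((-j : ZMod ℓ) : OnePoint (ZMod ℓ)))
  invFun x := x.elim OnePoint.infty (fun j => ((-j : ZMod ℓ) : OnePoint (ZMod ℓ)))
  left_inv x := by induction x using OnePoint.rec <;> simp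
  right_inv x := by induction x using OnePoint.rec <;> simp

variable (p : ℕ) [hp : Fact p.Prime]

/-- the Shimura character attached to `χ0`. -/
noncomputable def shimuraChar {n : ℕ} (χ0 : (ZMod p)ˣ →* Multiplicative (ZMod n)) (γ : Gamma0 p) :
    ZMod n := Multiplicative.toAdd (χ0 ((Gamma0Map p).toHomUnits γ))

theorem coe_toHomUnits (γ : Gamma0 p) :
    (((Gamma0Map p).toHomUnits γ : (ZMod p)ˣ) : ZMod p) = (((γ : SL(2, ℤ)) 1 1 : ℤ) : ZMod p) := by
  rw [MonoidHom.coe_toHomUnits]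
  rfl

theorem good_T {n : ℕ} (χ0 : (ZMod p)ˣ →* Multiplicative (ZMod n)) (ℓ : Nat.Primes)
    (hℓp : ¬ (ℓ : ℕ) ∣ p) :
    Good p n (fun γ => Multiplicative.toAdd (χ0 ((Gamma0Map p).toHomUnits γ)))
      (MvPolynomial.X ℓ) := by
  classical
  have : Fact (ℓ : ℕ).Prime := ⟨ℓ.2⟩
  have : NeZero (ℓ : ℕ) := ⟨ℓ.2.ne_zero⟩
  have hℓ0 : (ℓ : ℕ) ≠ 0 := ℓ.2.ne_zero
  have hperm : ∀ γ : Gamma0 p, ∀ x : OnePoint (ZMod (ℓ : ℕ)), ∃ g' : Gamma0 p,
      heckeRep (ℓ : ℕ) x * mapGL ℝ (γ : SL(2, ℤ))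
        = mapGL ℝ (g' : SL(2, ℤ)) * heckeRep (ℓ : ℕ) (redMatrix (ℓ : ℕ) (γ : SL(2, ℤ)) • x) := by
    intro γ x
    have hcN : (p : ℤ) ∣ (γ : SL(2, ℤ)) 1 0 :=
      (ZMod.intCast_zmod_eq_zero_iff_dvd _ _).mp (Gamma0_mem.mp γ.2)
    obtain ⟨g', h1, h2⟩ := heckeRep_mul hℓp (γ : SL(2, ℤ)) hcN x
    exact ⟨⟨g', Gamma0_mem.mpr ((ZMod.intCast_zmod_eq_zero_iff_dvd _ _).mpr h1)⟩, h2⟩
  choose γ' hmul using hperm
  have hcop : Nat.Coprime (ℓ : ℕ) p :=
    (Nat.coprime_primes ℓ.2 hp.out).mpr (fun h => hℓp (h ▸ dvd_rfl))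
  let uℓ : (ZMod p)ˣ := ZMod.unitOfCoprime (ℓ : ℕ) hcop
  let D : OnePoint (ZMod (ℓ : ℕ)) → (ZMod p)ˣ := fun x => x.elim 1 (fun _ => uℓ)
  refine good_of_reps (ι := OnePoint (ZMod (ℓ : ℕ))) (heckeRep (ℓ : ℕ)) ?_ n _ _ ?_
    (fun γ => MulAction.toPerm (redMatrix (ℓ : ℕ) (γ : SL(2, ℤ)))) γ' hmul (negOnePoint (ℓ : ℕ))
    (fun x => x.elim 0 (fun j => if j = 0 then 0 else -1)) ?_ ?_
  · intro x
    rw [← Matrix.GeneralLinearGroup.val_det_apply]
    induction x using OnePoint.rec with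
    | infty => exact ModularForm.det_heckeDiagMatrix_pos _
    | coe j => exact ModularForm.det_heckeMatrix_pos _ _
  · intro f τ
    have h1 : heckeEvalForms p 2 (MvPolynomial.X ℓ)
        = heckeAlgebra.T ℓ.2 hℓp (Set.notMem_empty _) :=
      heckeEvalForms_heckeGen_of_not_dvd hℓp
    rw [h1, heckeAlgebra.coe_T]
    show ModularForm.heckeT _ (ℓ : ℕ) f τ = _
    rw [heckeT_eq_sum_onePoint, Finset.sum_apply]
  · intro x z
    induction x using OnePoint.rec with
    | infty => exact J_heckeDiagMatrix (ℓ : ℕ) z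
    | coe j => exact J_heckeMatrix (ℓ : ℕ) j z
  · intro γ
    -- the key relation between lower right entries
    have key : ∀ x, D x * (Gamma0Map p).toHomUnits γ
        = (Gamma0Map p).toHomUnits (γ' γ x) * D (redMatrix (ℓ : ℕ) (γ : SL(2, ℤ)) • x) := by
      intro x
      have h := congrArg (fun M : GL (Fin 2) ℝ => M 1 1) (hmul γ x)
      simp only [Units.val_mul, Matrix.mul_apply, Fin.sum_univ_two, mapGL_apply] at h
      have hc' : ((((γ' γ x : Gamma0 p) : SL(2, ℤ)) 1 0 : ℤ) : ZMod p) = 0 :=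
        Gamma0_mem.mp (γ' γ x).2
      apply Units.ext
      rw [Units.val_mul, Units.val_mul, coe_toHomUnits, coe_toHomUnits]
      generalize redMatrix (ℓ : ℕ) (γ : SL(2, ℤ)) • x = y at h ⊢
      induction x using OnePoint.rec with
      | infty =>
        induction y using OnePoint.rec with
        | infty =>
          simp only [heckeRep_infty, ModularForm.val_heckeDiagMatrix hℓ0] at h
          simp at h
          have h' : ((γ : SL(2, ℤ)) 1 1 : ℤ) = ((γ' γ OnePoint.infty : Gamma0 p) : SL(2, ℤ)) 1 1 := by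
            exact_mod_cast h
          simp [D, h']
        | coe j' =>
          simp only [heckeRep_infty, heckeRep_coe, ModularForm.val_heckeDiagMatrix hℓ0,
            ModularForm.val_heckeMatrix hℓ0] at h
          simp [-ZMod.natCast_val] at h
          have h' : ((γ : SL(2, ℤ)) 1 1 : ℤ)
              = ((γ' γ OnePoint.infty : Gamma0 p) : SL(2, ℤ)) 1 0 * (j'.val : ℤ)
                + ((γ' γ OnePoint.infty : Gamma0 p) : SL(2, ℤ)) 1 1 * ((ℓ : ℕ) : ℤ) := by
            exact_mod_cast h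
          have h'' := congrArg (Int.cast : ℤ → ZMod p) h'
          push_cast at h''
          rw [hc', zero_mul, zero_add] at h''
          simp [D, uℓ, h'']
      | coe j =>
        induction y using OnePoint.rec with
        | infty =>
          simp only [heckeRep_infty, heckeRep_coe, ModularForm.val_heckeDiagMatrix hℓ0,
            ModularForm.val_heckeMatrix hℓ0] at h
          simp at h
          have h' : ((ℓ : ℕ) : ℤ) * ((γ : SL(2, ℤ)) 1 1 : ℤ)
              = ((γ' γ (j : OnePoint (ZMod (ℓ : ℕ))) : Gamma0 p) : SL(2, ℤ)) 1 1 := by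
            exact_mod_cast h
          have h'' := congrArg (Int.cast : ℤ → ZMod p) h'
          push_cast at h''
          simp [D, uℓ, h'']
        | coe j' =>
          simp only [heckeRep_coe, ModularForm.val_heckeMatrix hℓ0] at h
          simp [-ZMod.natCast_val] at h
          have h' : ((ℓ : ℕ) : ℤ) * ((γ : SL(2, ℤ)) 1 1 : ℤ)
              = ((γ' γ (j : OnePoint (ZMod (ℓ : ℕ))) : Gamma0 p) : SL(2, ℤ)) 1 0 * (j'.val : ℤ)
                + ((γ' γ (j : OnePoint (ZMod (ℓ : ℕ))) : Gamma0 p) : SL(2, ℤ)) 1 1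
                  * ((ℓ : ℕ) : ℤ) := by
            exact_mod_cast h
          have h'' := congrArg (Int.cast : ℤ → ZMod p) h'
          push_cast at h''
          rw [hc', zero_mul, zero_add] at h''
          simp [D, uℓ, h'']
    have key2 : ∀ x, Multiplicative.toAdd (χ0 (D x))
        + Multiplicative.toAdd (χ0 ((Gamma0Map p).toHomUnits γ))
        = Multiplicative.toAdd (χ0 ((Gamma0Map p).toHomUnits (γ' γ x)))
          + Multiplicative.toAdd (χ0 (D (redMatrix (ℓ : ℕ) (γ : SL(2, ℤ)) • x))) := by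
      intro x
      rw [← toAdd_mul, ← toAdd_mul, ← map_mul, ← map_mul, key]
    have hsum := Finset.sum_congr (s₁ := (Finset.univ : Finset (OnePoint (ZMod (ℓ : ℕ))))) rfl
      (fun x _ => key2 x)
    rw [Finset.sum_add_distrib, Finset.sum_add_distrib] at hsum
    have hre : ∑ x, Multiplicative.toAdd (χ0 (D (redMatrix (ℓ : ℕ) (γ : SL(2, ℤ)) • x)))
        = ∑ x, Multiplicative.toAdd (χ0 (D x)) :=
      Equiv.sum_comp (MulAction.toPerm (redMatrix (ℓ : ℕ) (γ : SL(2, ℤ))))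
        (fun x => Multiplicative.toAdd (χ0 (D x)))
    rw [hre, Finset.sum_const, Finset.card_univ] at hsum
    have hcard : Fintype.card (OnePoint (ZMod (ℓ : ℕ))) = (ℓ : ℕ) + 1 := by
      have : Fintype.card (Option (ZMod (ℓ : ℕ))) = (ℓ : ℕ) + 1 := by
        rw [Fintype.card_option, ZMod.card]
      exact this
    rw [hcard] at hsum
    rw [MvPolynomial.aeval_X, eisensteinSystem_of_not_dvd hℓp]
    have h3 : ∑ x, Multiplicative.toAdd (χ0 ((Gamma0Map p).toHomUnits (γ' γ x)))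
        = ((ℓ : ℕ) + 1) • Multiplicative.toAdd (χ0 ((Gamma0Map p).toHomUnits γ)) := by
      have := add_left_cancel (a := ∑ x, Multiplicative.toAdd (χ0 (D x)))
        (hsum.trans (add_comm _ _))
      exact this.symm
    rw [h3, nsmul_eq_mul]
    push_cast
    ring

theorem good_U (χ0 : (ZMod p)ˣ →* Multiplicative (ZMod (eisensteinNumerator p))) (ℓ : Nat.Primes)
    (hℓp : (ℓ : ℕ) ∣ p) :
    Good p (eisensteinNumerator p)
      (fun γ => Multiplicative.toAdd (χ0 ((Gamma0Map p).toHomUnits γ))) (MvPolynomial.X ℓ) := by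
  classical
  have hℓeq : (ℓ : ℕ) = p := (Nat.prime_dvd_prime_iff_eq ℓ.2 hp.out).mp hℓp
  have hp0 : p ≠ 0 := hp.out.ne_zero
  have hperm : ∀ γ : Gamma0 p, ∀ x : ZMod p, ∃ g' : Gamma0 p,
      ModularForm.heckeMatrix p x.val * mapGL ℝ (γ : SL(2, ℤ))
        = mapGL ℝ (g' : SL(2, ℤ)) * ModularForm.heckeMatrix p
          (affinePerm (γ : SL(2, ℤ)) (Gamma0_mem.mp γ.2) x).val := by
    intro γ x
    have hc : (p : ℤ) ∣ (γ : SL(2, ℤ)) 1 0 :=
      (ZMod.intCast_zmod_eq_zero_iff_dvd _ _).mp (Gamma0_mem.mp γ.2)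
    obtain ⟨g', h1, h2⟩ := heckeMatrix_mul_of_dvd (γ : SL(2, ℤ)) hc x
    refine ⟨⟨g', ?_⟩, h2⟩
    rw [Gamma0_mem, h1]
    push_cast
    rw [Gamma0_mem.mp γ.2, mul_zero]
  choose γ' hmul using hperm
  refine good_of_reps (ι := ZMod p) (fun x => ModularForm.heckeMatrix p x.val) ?_ _ _ _ ?_
    (fun γ => affinePerm (γ : SL(2, ℤ)) (Gamma0_mem.mp γ.2)) γ' hmul (Equiv.neg (ZMod p))
    (fun j => if j = 0 then 0 else -1) ?_ ?_
  · intro x
    rw [← Matrix.GeneralLinearGroup.val_det_apply]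
    exact ModularForm.det_heckeMatrix_pos _ _
  · intro f τ
    have h1 : heckeEvalForms p 2 (MvPolynomial.X ℓ)
        = heckeAlgebra.U ℓ.2 hℓp (Set.notMem_empty _) :=
      heckeEvalForms_heckeGen_of_dvd hℓp
    rw [h1, heckeAlgebra.coe_U]
    show ModularForm.heckeU _ (ℓ : ℕ) f τ = _
    rw [hℓeq, heckeU_eq_sum_zmod, Finset.sum_apply]
  · intro j z
    exact J_heckeMatrix p j z
  · intro γ
    have key : ∀ x, (Gamma0Map p).toHomUnits (γ' γ x) = (Gamma0Map p).toHomUnits γ := by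
      intro x
      have h := congrArg (fun M : GL (Fin 2) ℝ => M 0 0) (hmul γ x)
      simp only [Units.val_mul, Matrix.mul_apply, Fin.sum_univ_two, mapGL_apply,
        ModularForm.val_heckeMatrix hp0] at h
      simp [-ZMod.natCast_val] at h
      have h' : ((γ : SL(2, ℤ)) 0 0 : ℤ) + (x.val : ℤ) * ((γ : SL(2, ℤ)) 1 0 : ℤ)
          = ((γ' γ x : Gamma0 p) : SL(2, ℤ)) 0 0 := by
        exact_mod_cast h
      have h'' := congrArg (Int.cast : ℤ → ZMod p) h'
      push_cast at h''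
      rw [Gamma0_mem.mp γ.2, mul_zero, add_zero] at h''
      have u1 := unit_of_apply_one_zero_eq_zero (p := p) (γ : SL(2, ℤ)) (Gamma0_mem.mp γ.2)
      have u2 := unit_of_apply_one_zero_eq_zero (p := p) ((γ' γ x : Gamma0 p) : SL(2, ℤ))
        (Gamma0_mem.mp (γ' γ x).2)
      apply Units.ext
      rw [coe_toHomUnits, coe_toHomUnits]
      rw [← h''] at u2
      linear_combination ((γ : SL(2, ℤ)) 1 1 : ZMod p) * u2
        - ((((γ' γ x : Gamma0 p) : SL(2, ℤ)) 1 1 : ℤ) : ZMod p) * u1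
    simp only [key]
    rw [Finset.sum_const, Finset.card_univ, ZMod.card, MvPolynomial.aeval_X,
      eisensteinSystem_of_dvd hℓp, nsmul_eq_mul]
    have h1 : ((p : ℕ) : ZMod (eisensteinNumerator p)) = 1 := by
      have h2 : (((p - 1 : ℕ) : ℕ) : ZMod (eisensteinNumerator p)) = 0 :=
        (ZMod.natCast_eq_zero_iff _ _).mpr (eisensteinNumerator_dvd p)
      have h3 : ((p : ℕ) : ZMod (eisensteinNumerator p))
          = (((p - 1 : ℕ) : ℕ) : ZMod (eisensteinNumerator p)) + 1 := by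
        rw [← Nat.cast_succ, Nat.succ_eq_add_one, Nat.sub_add_cancel hp.out.one_le]
      rw [h3, h2, zero_add]
    rw [h1]
    simp

/-- **Part (A) of S16.** -/
theorem stmt_A : Stmt_A p := by
  intro P hP
  refine stmtA_of_good_gen p (fun χ0 ℓ => ?_) P hP
  by_cases h : (ℓ : ℕ) ∣ p
  · exact good_U p χ0 ℓ h
  · exact good_T p χ0 ℓ h

end Fermat.Agent.S16
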