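import Fermat.Agent.S16.Duality

/-! # S16: `Stmt_A p → Stmt_B p →` frozen statement -/

set_option autoImplicit false
set_option linter.unusedSectionVars false

namespace Fermat.Agent.S16

open ModularCurve CuspForm ModularFormClass CongruenceSubgroup

variable (p : ℕ) [Fact p.Prime]

lemma eisensteinNumerator_pos : 0 < eisensteinNumerator p := by
  have hpp : p.Prime := Fact.out
  unfold eisensteinNumerator
  have h1 : 0 < p - 1 := by have := hpp.two_le; omega
  exact Nat.div_pos (Nat.le_of_dvd h1 (Nat.gcd_dvd_left _ _)) (Nat.gcd_pos_of_pos_left _ h1)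

lemma piHom_C (c : ℤ) : piHom p (MvPolynomial.C c) = (c : TL p) := by
  rw [← MvPolynomial.algebraMap_eq, eq_intCast, map_intCast]

lemma exists_functional_abs {R T : Type*} [CommRing R] [CommRing T]
    [Module.Free ℤ T] [Module.Finite ℤ T] (π : R →+* T) (hπ : Function.Surjective π)
    (ε : R →+* ℤ) : ∃ ψ : T →ₗ[ℤ] ℤ, ∀ P : R,
    ∃ R₀ : R, π R₀ = 0 ∧ ε R₀ = ψ (π P) - ε P := by
  classical
  let b := Module.Free.chooseBasis ℤ T
  choose Q hQ using fun i => hπ (b i)
  have hrec : ∀ t : T, π (∑ i, ((b.repr t i : ℤ) : R) * Q i) = t := by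
    intro t
    rw [map_sum]
    conv_rhs => rw [← b.sum_repr t]
    refine Finset.sum_congr rfl fun i _ => ?_
    rw [map_mul, hQ, map_intCast, zsmul_eq_mul]
  have heps : ∀ t : T, ε (∑ i, ((b.repr t i : ℤ) : R) * Q i) =
      ∑ i, ε (Q i) * b.repr t i := by
    intro t
    rw [map_sum]
    refine Finset.sum_congr rfl fun i _ => ?_
    rw [map_mul, map_intCast, mul_comm]
    rfl
  refine ⟨∑ i, ε (Q i) • b.coord i, fun P => ?_⟩
  refine ⟨(∑ i, ((b.repr (π P) i : ℤ) : R) * Q i) - P, ?_, ?_⟩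
  · rw [map_sub, hrec, sub_self]
  · rw [map_sub, heps, LinearMap.sum_apply]
    rfl

/-- A `ℤ`-linear functional on `T_L` lifting `ε` modulo `ε(ker π)`. -/
lemma exists_functional : ∃ ψ : TL p →ₗ[ℤ] ℤ, ∀ P : HeckeAlg,
    ∃ R : HeckeAlg, piHom p R = 0 ∧ eps p R = ψ (piHom p P) - eps p P :=
  exists_functional_abs (piHom p) (piHom_surjective p) (eps p)

lemma exists_gen : ∃ m : ℕ, ∀ c : ℤ, (m : ℤ) ∣ c ↔ ∃ P, piHom p P = 0 ∧ eps p P = c := by
  have hsurj : Function.Surjective (eps p) := fun c => ⟨MvPolynomial.C c, eps_C p c⟩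
  obtain ⟨a, ha⟩ :=
    (IsPrincipalIdealRing.principal (Ideal.map (eps p) (RingHom.ker (piHom p)))).principal
  refine ⟨a.natAbs, fun c => ?_⟩
  have h1 : c ∈ Ideal.map (eps p) (RingHom.ker (piHom p)) ↔
      ∃ P, piHom p P = 0 ∧ eps p P = c := by
    rw [Ideal.mem_map_iff_of_surjective _ hsurj]
    simp only [RingHom.mem_ker]
  rw [← h1, ha, Ideal.submodule_span_eq, Ideal.mem_span_singleton, Int.natAbs_dvd]

/-- Key claim: some polynomial kills the lattice and has Eisenstein value `n`. -/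
theorem exists_ker_eps_eq (hB : Stmt_B p) :
    ∃ P : HeckeAlg, piHom p P = 0 ∧ eps p P = (eisensteinNumerator p : ℤ) := by
  obtain ⟨m, hm⟩ := exists_gen p
  obtain ⟨ψ, hψ⟩ := exists_functional p
  rw [← hm]
  obtain ⟨f, hf⟩ := beta_surjective p ψ
  have := hB m (f : CuspForm (Gamma0 p) 2) (fun k => cf p k f) (fun k => cf_spec p k f) (by
    intro k hk
    obtain ⟨P, hPe, hP⟩ := exists_Pk p k hk
    rw [← cf_one_piHom p hP f, ← beta_apply, hf, ← hPe, hm]
    exact hψ P)
  exact_mod_cast this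

/-- **Reduction of S16** to the two boundary statements. -/
theorem card_quotient_eq (hA : Stmt_A p) (hB : Stmt_B p) :
    Nat.card (↥(heckeLatticeAlgebra p ∅) ⧸
        Ideal.map ((latticeRestrictHom p ∅).toRingHom.comp (heckeEvalForms p 2))
          (eisensteinIdeal p)) =
      eisensteinNumerator p := by
  set I : Ideal (TL p) := Ideal.map (piHom p) (eisensteinIdeal p) with hI
  show Nat.card (TL p ⧸ I) = eisensteinNumerator p
  have hImem : ∀ t : TL p, t ∈ I ↔ ∃ Q, eps p Q = 0 ∧ piHom p Q = t := by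
    intro t
    rw [hI, Ideal.mem_map_iff_of_surjective _ (piHom_surjective p)]
    simp only [mem_eisensteinIdeal_iff]
  let φ : ℤ →+* (TL p ⧸ I) := Int.castRingHom _
  have hCpi : ∀ c : ℤ, piHom p (MvPolynomial.C c) = (c : TL p) := piHom_C p
  have hφsurj : Function.Surjective φ := by
    intro x
    obtain ⟨t, rfl⟩ := Ideal.Quotient.mk_surjective x
    obtain ⟨P, rfl⟩ := piHom_surjective p t
    refine ⟨eps p P, ?_⟩
    show ((eps p P : ℤ) : TL p ⧸ I) = _
    rw [← map_intCast (Ideal.Quotient.mk I), Ideal.Quotient.eq, hImem]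
    refine ⟨MvPolynomial.C (eps p P) - P, ?_, ?_⟩
    · rw [map_sub, eps_C, sub_self]
    · rw [map_sub, hCpi]
  have hker : RingHom.ker φ = Ideal.span {(eisensteinNumerator p : ℤ)} := by
    ext c
    rw [RingHom.mem_ker, Ideal.mem_span_singleton]
    show ((c : ℤ) : TL p ⧸ I) = 0 ↔ _
    rw [← map_intCast (Ideal.Quotient.mk I), Ideal.Quotient.eq_zero_iff_mem, hImem]
    constructor
    · rintro ⟨Q, hQe, hQ⟩
      have h1 : piHom p (MvPolynomial.C c - Q) = 0 := by rw [map_sub, hCpi, hQ, sub_self]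
      have h2 := hA _ ((piHom_eq_zero_iff p _).mp h1)
      rw [← eps_apply, map_sub, eps_C, hQe, sub_zero] at h2
      exact h2
    · rintro ⟨d, rfl⟩
      obtain ⟨P, hP0, hPe⟩ := exists_ker_eps_eq p hB
      refine ⟨MvPolynomial.C d * (MvPolynomial.C (eisensteinNumerator p : ℤ) - P), ?_, ?_⟩
      · rw [map_mul, map_sub, eps_C, eps_C, hPe, sub_self, mul_zero]
      · rw [map_mul, map_sub, hP0, sub_zero, hCpi, hCpi]
        push_cast
        ring
  have e := RingHom.quotientKerEquivOfSurjective hφsurj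
  rw [← Nat.card_congr e.toEquiv, Nat.card_congr (Ideal.quotEquivOfEq hker).toEquiv,
    Nat.card_congr (Int.quotientSpanNatEquivZMod (eisensteinNumerator p)).toEquiv, Nat.card_zmod]

end Fermat.Agent.S16
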