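import Fermat.Agent.S16.BInterface
import Fermat.Agent.S16.Interface
import Fermat.Prelude.Thm_CongruenceSubgroup_one_mem_strictPeriods_Gamma0

/-!
# S16 (B18): the arithmetic bookkeeping `Stmt_B_main`, `Stmt_B_final`, and the bridge to `Stmt_B`.
-/

set_option autoImplicit false

namespace Fermat.Agent.S16

open UpperHalfPlane ModularForm CongruenceSubgroup

namespace ARITH

/-- the forbidden congruences. -/
theorem no_bad (hD : Stmt_D) (hP : Stmt_P) (hV5 : Stmt_V5) (hV3 : Stmt_V3) (hV2 : Stmt_V2)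
    {p : ℕ} (hp : p.Prime) (h7 : 7 ≤ p) :
    (∀ ℓ : ℕ, ℓ.Prime → 5 ≤ ℓ → ¬ Bad p ℓ 1) ∧ (3 ∣ p - 1 → ¬ Bad p 3 1) ∧ (¬ Bad p 3 2) ∧
      (4 ∣ p - 1 → ¬ Bad p 2 2) ∧ ¬ Bad p 2 3 := by
  refine ⟨?_, ?_, ?_, ?_, ?_⟩
  · intro ℓ hℓ h5 hbad
    by_cases hℓp : ℓ = p
    · subst hℓp
      exact hP ℓ hp h7 hbad
    · have h1 := hD p ℓ 1 hp hℓ hℓp hbad
      rw [pow_one] at h1
      exact hV5 p ℓ hp (by omega) hℓ h5 h1 hbad
  · intro h3 hbad
    have h1 := hD p 3 1 hp Nat.prime_three (by omega) hbad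
    omega
  · intro hbad
    have h1 := hD p 3 2 hp Nat.prime_three (by omega) hbad
    exact hV3 p hp (by omega) (by omega) hbad
  · intro h4 hbad
    have h1 := hD p 2 2 hp Nat.prime_two (by omega) hbad
    omega
  · intro hbad
    have h1 := hD p 2 3 hp Nat.prime_two (by omega) hbad
    exact hV2 p hp (by omega) (by omega) hbad

/-- LEMMA 1. -/
theorem bad_of (hEIS : Stmt_EIS) (hadd : Stmt_pair_add) (hsmul : Stmt_pair_smul)
    {p : ℕ} (hp : p.Prime) (h7 : 7 ≤ p) (m : ℕ) (a b : PowerSeries ℂ) (hab : PairMF p 2 a b)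
    (h0 : PowerSeries.coeff 0 a = 0)
    (hk : ∀ k : ℕ, 1 ≤ k → ∃ c : ℤ, PowerSeries.coeff k a = (sigP p k : ℂ) + (m : ℂ) * c)
    (ℓ t d : ℕ) (hℓ : ℓ.Prime) (hd : Nat.Coprime d ℓ) (hdvd : ℓ ^ t * (p - 1) ∣ 24 * m * d) :
    Bad p ℓ t := by
  classical
  choose! c hc using hk
  obtain ⟨e, he⟩ := hdvd
  have hp1 : ((p : ℂ) - 1) ≠ 0 := by
    have : (p : ℂ) ≠ 1 := by
      intro h
      have : p = 1 := by exact_mod_cast h
      omega
    exact sub_ne_zero.mpr this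
  have hℓ0 : (ℓ : ℂ) ^ t ≠ 0 := pow_ne_zero _ (by exact_mod_cast hℓ.ne_zero)
  have hd0 : d ≠ 0 := by
    rintro rfl
    rw [Nat.coprime_zero_left] at hd
    exact hℓ.one_lt.ne' hd
  have hdC : (d : ℂ) ≠ 0 := by exact_mod_cast hd0
  have heC : (24 : ℂ) * m * d = (ℓ : ℂ) ^ t * ((p : ℂ) - 1) * e := by
    have h1 : ((24 * m * d : ℕ) : ℂ) = ((ℓ ^ t * (p - 1) * e : ℕ) : ℂ) := by rw [he]
    have h2 : ((p - 1 : ℕ) : ℂ) = (p : ℂ) - 1 := by
      rw [Nat.cast_sub (by omega)]; simp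
    push_cast at h1
    rw [h2] at h1
    exact h1
  -- the scalar
  set r : ℂ := (e : ℂ) / d with hr
  have hrO : r ∈ OO ℓ := by
    refine ⟨d, hd, ?_⟩
    have : (d : ℂ) * r = (e : ℂ) := by rw [hr]; field_simp
    rw [this]
    exact isIntegral_natCast (R := ℤ) (B := ℂ) (a := e)
  have hscal : (24 : ℂ) / ((p : ℂ) - 1) * m = (ℓ : ℂ) ^ t * r := by
    rw [hr]
    field_simp
    linear_combination heC
  obtain ⟨bE, hE⟩ := hEIS p hp
  have h1 : PairMF p 2 (EisP p + (-1 : ℂ) • a) (bE + (-1 : ℂ) • b) :=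
    hadd p 2 _ _ _ _ hE (hsmul p 2 (-1) _ _ hab)
  have h2 := hsmul p 2 ((24 : ℂ) / ((p : ℂ) - 1)) _ _ h1
  refine ⟨PowerSeries.mk fun k => if k = 0 then 0 else -r * (c k : ℂ),
    ((24 : ℂ) / ((p : ℂ) - 1)) • (bE + (-1 : ℂ) • b), ?_, ?_⟩
  · intro k
    rw [PowerSeries.coeff_mk]
    split_ifs
    · exact (OO ℓ).zero_mem
    · exact (OO ℓ).mul_mem ((OO ℓ).neg_mem hrO) (intCast_mem (OO ℓ) (c k))
  · convert h2 using 1
    ext k
    by_cases hk0 : k = 0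
    · subst hk0
      simp only [EisP, sigP, map_add, PowerSeries.coeff_zero_one, PowerSeries.coeff_smul,
        PowerSeries.coeff_mk, if_true, smul_eq_mul, mul_zero, add_zero, h0,
        PowerSeries.coeff_zero_C, Nat.divisors_zero, Finset.filter_empty, Finset.sum_empty,
        Nat.cast_zero]
      field_simp
    · have hk1 : 1 ≤ k := Nat.one_le_iff_ne_zero.mpr hk0
      simp only [EisP, map_add, PowerSeries.coeff_smul, PowerSeries.coeff_mk, if_neg hk0,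
        smul_eq_mul, hc k hk1, PowerSeries.coeff_one, PowerSeries.coeff_C, zero_add]
      linear_combination ((c k : ℂ)) * hscal

theorem fact_lt_of_not_dvd {g ℓ k : ℕ} (hℓ : ℓ.Prime) (hg : g ≠ 0) (h : ¬ ℓ ^ k ∣ g) :
    g.factorization ℓ < k := by
  by_contra hcon
  exact h ((hℓ.pow_dvd_iff_le_factorization hg).mpr (not_lt.mp hcon))

theorem le_fact_of_dvd {g ℓ k : ℕ} (hℓ : ℓ.Prime) (hg : g ≠ 0) (h : ℓ ^ k ∣ g) :
    k ≤ g.factorization ℓ := (hℓ.pow_dvd_iff_le_factorization hg).mp h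

theorem key {p m ℓ t : ℕ} (h7 : 7 ≤ p) (hm0 : m ≠ 0) (hℓ : ℓ.Prime)
    (hlt : ((p - 1) / Nat.gcd (p - 1) 12).factorization ℓ < m.factorization ℓ)
    (ht : t + (Nat.gcd (p - 1) 12).factorization ℓ ≤ (24 : ℕ).factorization ℓ + 1) :
    ℓ ^ t * (p - 1) ∣ 24 * m * (ordCompl[ℓ] (p - 1)) := by
  set g := Nat.gcd (p - 1) 12 with hg
  set n := (p - 1) / g with hn
  have hng : n * g = p - 1 := Nat.div_mul_cancel (Nat.gcd_dvd_left _ _)
  have hp1 : p - 1 ≠ 0 := by omega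
  have hn0 : n ≠ 0 := by
    rintro h
    rw [h, zero_mul] at hng
    exact hp1 hng.symm
  have hg0 : g ≠ 0 := by
    rintro h
    rw [h, mul_zero] at hng
    exact hp1 hng.symm
  have hs : (p - 1).factorization ℓ = n.factorization ℓ + g.factorization ℓ := by
    rw [← hng, Nat.factorization_mul hn0 hg0]; rfl
  have h24 : (24 * m).factorization ℓ = (24 : ℕ).factorization ℓ + m.factorization ℓ := by
    rw [Nat.factorization_mul (by norm_num) hm0]; rfl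
  have h1 : ℓ ^ (t + (p - 1).factorization ℓ) ∣ 24 * m := by
    rw [hℓ.pow_dvd_iff_le_factorization (by positivity), h24, hs]
    omega
  have h2 : ℓ ^ t * (p - 1) = ℓ ^ (t + (p - 1).factorization ℓ) * (ordCompl[ℓ] (p - 1)) := by
    conv_lhs => rw [← Nat.ordProj_mul_ordCompl_eq_self (p - 1) ℓ]
    rw [pow_add, mul_assoc]
  rw [h2]
  exact Nat.mul_dvd_mul_right h1 _

/-- LEMMA 2. -/
theorem exists_forbidden {p : ℕ} (h7 : 7 ≤ p) (hodd : ¬ 2 ∣ p) (m : ℕ)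
    (hm : ¬ m ∣ (p - 1) / Nat.gcd (p - 1) 12) :
    ∃ ℓ t d : ℕ, ℓ.Prime ∧ Nat.Coprime d ℓ ∧ ℓ ^ t * (p - 1) ∣ 24 * m * d ∧
      ((5 ≤ ℓ ∧ t = 1) ∨ (ℓ = 3 ∧ 3 ∣ p - 1 ∧ t = 1) ∨ (ℓ = 3 ∧ t = 2) ∨
        (ℓ = 2 ∧ 4 ∣ p - 1 ∧ t = 2) ∨ (ℓ = 2 ∧ t = 3)) := by
  by_cases hm0 : m = 0
  · subst hm0
    exact ⟨5, 1, 1, by norm_num, by norm_num, by simp, Or.inl ⟨le_rfl, rfl⟩⟩
  have hp1 : p - 1 ≠ 0 := by omega
  have hg12 : Nat.gcd (p - 1) 12 ∣ 12 := Nat.gcd_dvd_right _ _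
  have hgp : Nat.gcd (p - 1) 12 ∣ p - 1 := Nat.gcd_dvd_left _ _
  have hg0 : Nat.gcd (p - 1) 12 ≠ 0 := by
    intro h
    rw [h] at hg12
    omega
  have hn0 : (p - 1) / Nat.gcd (p - 1) 12 ≠ 0 := by
    intro h
    have := Nat.div_mul_cancel hgp
    rw [h, zero_mul] at this
    exact hp1 this.symm
  have hex : ∃ ℓ : ℕ, ℓ.Prime ∧
      ((p - 1) / Nat.gcd (p - 1) 12).factorization ℓ < m.factorization ℓ := by
    by_contra hcon
    push Not at hcon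
    exact hm ((Nat.factorization_prime_le_iff_dvd hm0 hn0).mp hcon)
  obtain ⟨ℓ, hℓ, hlt⟩ := hex
  have hcop : Nat.Coprime (ordCompl[ℓ] (p - 1)) ℓ := (Nat.coprime_ordCompl hℓ hp1).symm
  by_cases h2 : ℓ = 2
  · subst h2
    have h24 : 3 ≤ (24 : ℕ).factorization 2 := le_fact_of_dvd hℓ (by norm_num) (by norm_num)
    by_cases h4 : 4 ∣ p - 1
    · have hg : (Nat.gcd (p - 1) 12).factorization 2 < 3 :=
        fact_lt_of_not_dvd hℓ hg0 (fun h => by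
          have := h.trans hg12
          omega)
      exact ⟨2, 2, _, hℓ, hcop, key h7 hm0 hℓ hlt (by omega), by tauto⟩
    · have hg : (Nat.gcd (p - 1) 12).factorization 2 < 2 :=
        fact_lt_of_not_dvd hℓ hg0 (fun h => h4 (h.trans hgp))
      exact ⟨2, 3, _, hℓ, hcop, key h7 hm0 hℓ hlt (by omega), by tauto⟩
  by_cases h3 : ℓ = 3
  · subst h3
    have h24 : 1 ≤ (24 : ℕ).factorization 3 := le_fact_of_dvd hℓ (by norm_num) (by norm_num)
    by_cases h4 : 3 ∣ p - 1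
    · have hg : (Nat.gcd (p - 1) 12).factorization 3 < 2 :=
        fact_lt_of_not_dvd hℓ hg0 (fun h => by
          have := h.trans hg12
          omega)
      exact ⟨3, 1, _, hℓ, hcop, key h7 hm0 hℓ hlt (by omega), by tauto⟩
    · have hg : (Nat.gcd (p - 1) 12).factorization 3 < 1 :=
        fact_lt_of_not_dvd hℓ hg0 (fun h => h4 ((by simpa using h : 3 ∣ _).trans hgp))
      exact ⟨3, 2, _, hℓ, hcop, key h7 hm0 hℓ hlt (by omega), by tauto⟩
  have h5 : 5 ≤ ℓ := by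
    have := hℓ.two_le
    by_contra hcon
    have h4 : ℓ = 4 := by omega
    subst h4
    norm_num at hℓ
  have hg : (Nat.gcd (p - 1) 12).factorization ℓ < 1 :=
    fact_lt_of_not_dvd hℓ hg0 (fun h => by
      have h12 : ℓ ∣ 12 := (by simpa using h : ℓ ∣ _).trans hg12
      have hle : ℓ ≤ 12 := Nat.le_of_dvd (by norm_num) h12
      interval_cases ℓ <;> first | omega | (norm_num at hℓ))
  exact ⟨ℓ, 1, _, hℓ, hcop, key h7 hm0 hℓ hlt (by omega), by tauto⟩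

end ARITH

theorem B_main (hD : Stmt_D) (hP : Stmt_P) (hV5 : Stmt_V5) (hV3 : Stmt_V3) (hV2 : Stmt_V2)
    (hEIS : Stmt_EIS) (hadd : Stmt_pair_add) (hsmul : Stmt_pair_smul) : Stmt_B_main := by
  intro p hp h7 m a b hab h0 hk
  by_contra hm
  have hodd : ¬ 2 ∣ p := by
    intro h
    have := (Nat.prime_dvd_prime_iff_eq Nat.prime_two hp).mp h
    omega
  obtain ⟨ℓ, t, d, hℓ, hd, hdvd, hcase⟩ := ARITH.exists_forbidden h7 hodd m hm
  have hbad := ARITH.bad_of hEIS hadd hsmul hp h7 m a b hab h0 hk ℓ t d hℓ hd hdvd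
  obtain ⟨n5, n31, n32, n22, n23⟩ := ARITH.no_bad hD hP hV5 hV3 hV2 hp h7
  rcases hcase with ⟨h5, rfl⟩ | ⟨rfl, h3, rfl⟩ | ⟨rfl, rfl⟩ | ⟨rfl, h4, rfl⟩ | ⟨rfl, rfl⟩
  · exact n5 ℓ hℓ h5 hbad
  · exact n31 h3 hbad
  · exact n32 hbad
  · exact n22 h4 hbad
  · exact n23 hbad

theorem B_final (hmain : Stmt_B_main) (hcusp : Stmt_pair_of_cuspForm) : Stmt_B_final := by
  intro p hp h7 m f hk
  obtain ⟨b, hb⟩ := hcusp p hp f
  exact hmain p hp h7 m _ b hb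
    (CuspFormClass.qExpansion_coeff_zero f one_pos (one_mem_strictPeriods_Gamma0 p)) hk

theorem sigmaP_eq_sigP (p k : ℕ) : sigmaP p k = ((sigP p k : ℕ) : ℤ) := by
  simp [sigmaP, sigP]

theorem B_of_final (p : ℕ) [Fact p.Prime] (h7 : 7 ≤ p) (hfin : Stmt_B_final) : Stmt_B p := by
  intro M f a ha hcong
  refine hfin p Fact.out h7 M f fun k hk => ?_
  obtain ⟨c, hc⟩ := hcong k hk
  refine ⟨c, ?_⟩
  rw [ha k]
  have h1 : a k = ((sigP p k : ℕ) : ℤ) + (M : ℤ) * c := by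
    rw [← sigmaP_eq_sigP]
    linarith
  rw [h1]
  push_cast
  ring

end Fermat.Agent.S16
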