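import Fermat.Agent.S20.Basic
import Fermat.Agent.S20.CombFix

/-! S16 (B): explicit coset representatives of `SL(2,ℤ) ⧸ Γ₀(p)`, trace and norm to level one. -/

set_option autoImplicit false

open UpperHalfPlane ModularForm Matrix.SpecialLinearGroup CongruenceSubgroup
open scoped MatrixGroups Manifold ModularForm

namespace Fermat.Agent.S16

open Fermat.Agent.S20

noncomputable section

namespace Cosets

/-- The representative `(S T^j)⁻¹`. -/
def rep (j : ℤ) : SL(2, ℤ) := (ModularGroup.S * ModularGroup.T ^ j)⁻¹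

theorem S_mul_T_zpow (j : ℤ) : ModularGroup.S * ModularGroup.T ^ j = fixMat j := by
  apply Subtype.ext
  rw [Matrix.SpecialLinearGroup.coe_mul, ModularGroup.coe_T_zpow]
  simp [fixMat, ModularGroup.S]

theorem rep_apply_zero_zero (j : ℤ) : (rep j) 0 0 = j := by
  rw [rep, S_mul_T_zpow, Matrix.SpecialLinearGroup.coe_inv, Matrix.adjugate_fin_two]
  simp [fixMat]

theorem rep_apply_one_zero (j : ℤ) : (rep j) 1 0 = -1 := by
  rw [rep, S_mul_T_zpow, Matrix.SpecialLinearGroup.coe_inv, Matrix.adjugate_fin_two]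
  simp [fixMat]

variable (p : ℕ) [hp : Fact p.Prime]

/-- The map `Option (Fin p) → SL(2,ℤ) ⧸ Γ₀(p)`. -/
def toCoset : Option (Fin p) → SL(2, ℤ) ⧸ Gamma0 p
  | none => ((1 : SL(2, ℤ)) : SL(2, ℤ) ⧸ Gamma0 p)
  | some j => ((rep (j : ℕ)) : SL(2, ℤ) ⧸ Gamma0 p)

theorem toCoset_injective : Function.Injective (toCoset p) := by
  have hp1 : (1 : ZMod p) ≠ 0 := one_ne_zero
  rintro (_ | i) (_ | j) h
  · rfl
  · exfalso
    simp only [toCoset] at h
    rw [mk_eq_mk_iff, rep_apply_zero_zero, rep_apply_one_zero] at h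
    simp at h
  · exfalso
    simp only [toCoset] at h
    rw [mk_eq_mk_iff, rep_apply_zero_zero, rep_apply_one_zero] at h
    simp at h
  · simp only [toCoset] at h
    rw [mk_eq_mk_iff, rep_apply_zero_zero, rep_apply_one_zero, rep_apply_zero_zero,
      rep_apply_one_zero] at h
    have h2 : ((j : ℕ) : ZMod p) = ((i : ℕ) : ZMod p) := by
      push_cast at h
      linear_combination h
    rw [ZMod.natCast_eq_natCast_iff'] at h2
    rw [Nat.mod_eq_of_lt i.2, Nat.mod_eq_of_lt j.2] at h2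
    exact congrArg some (Fin.ext h2.symm)

theorem toCoset_surjective : Function.Surjective (toCoset p) := by
  intro q
  induction q using QuotientGroup.induction_on with
  | H g =>
    by_cases hc : ((g 1 0 : ℤ) : ZMod p) = 0
    · refine ⟨none, ?_⟩
      simp only [toCoset]
      rw [mk_eq_mk_iff]
      simpa using hc
    · set t : ZMod p := -((g 0 0 : ℤ) : ZMod p) * ((g 1 0 : ℤ) : ZMod p)⁻¹ with ht
      refine ⟨some ⟨t.val, ZMod.val_lt t⟩, ?_⟩
      simp only [toCoset]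
      rw [mk_eq_mk_iff, rep_apply_zero_zero, rep_apply_one_zero]
      push_cast
      rw [ZMod.natCast_zmod_val, ht]
      field_simp
      ring

/-- `Option (Fin p) ≃ SL(2,ℤ) ⧸ Γ₀(p)`. -/
def cosetEquiv : Option (Fin p) ≃ SL(2, ℤ) ⧸ Gamma0 p :=
  Equiv.ofBijective (toCoset p) ⟨toCoset_injective p, toCoset_surjective p⟩

theorem sum_cosets {M : Type*} [AddCommMonoid M] [Fintype (SL(2, ℤ) ⧸ Gamma0 p)]
    (φ : SL(2, ℤ) ⧸ Gamma0 p → M) :
    ∑ q, φ q = φ ((1 : SL(2, ℤ)) : SL(2, ℤ) ⧸ Gamma0 p)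
      + ∑ j ∈ Finset.range p, φ ((rep (j : ℕ)) : SL(2, ℤ) ⧸ Gamma0 p) := by
  rw [← Equiv.sum_comp (cosetEquiv p), Fintype.sum_option,
    ← Fin.sum_univ_eq_sum_range (fun j : ℕ => φ ((rep (j : ℕ)) : SL(2, ℤ) ⧸ Gamma0 p))]
  rfl

theorem prod_cosets {M : Type*} [CommMonoid M] [Fintype (SL(2, ℤ) ⧸ Gamma0 p)]
    (φ : SL(2, ℤ) ⧸ Gamma0 p → M) :
    ∏ q, φ q = φ ((1 : SL(2, ℤ)) : SL(2, ℤ) ⧸ Gamma0 p)
      * ∏ j ∈ Finset.range p, φ ((rep (j : ℕ)) : SL(2, ℤ) ⧸ Gamma0 p) := by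
  rw [← Equiv.prod_comp (cosetEquiv p), Fintype.prod_option,
    ← Fin.prod_univ_eq_prod_range (fun j : ℕ => φ ((rep (j : ℕ)) : SL(2, ℤ) ⧸ Gamma0 p))]
  rfl

theorem card_cosets [Fintype (SL(2, ℤ) ⧸ Gamma0 p)] :
    Fintype.card (SL(2, ℤ) ⧸ Gamma0 p) = p + 1 := by
  rw [← Fintype.card_congr (cosetEquiv p)]
  simp

end Cosets

/-! ### Trace and norm to level one (general `Γ`) -/

section general

variable {Γ : Subgroup SL(2, ℤ)} [Fintype (SL(2, ℤ) ⧸ Γ)] {k : ℤ} {f : ℍ → ℂ}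

omit [Fintype (SL(2, ℤ) ⧸ Γ)] in
theorem isMF_bot_tr' (hf : IsMF Γ k f) (q : SL(2, ℤ) ⧸ Γ) : IsMF ⊥ k (tr k f q) :=
  ⟨hf.holo_tr q, fun γ hγ => by
      rw [Subgroup.mem_bot] at hγ; subst hγ; exact SlashAction.slash_one _ _,
    fun γ => by rw [tr, ← SlashAction.slash_mul]; exact hf.bdd _⟩

/-- The trace to level one. -/
theorem isMF_trace (hf : IsMF Γ k f) : IsMF ⊤ k (∑ q : SL(2, ℤ) ⧸ Γ, tr k f q) := by
  have h0 : IsMF ⊥ k (∑ q : SL(2, ℤ) ⧸ Γ, tr k f q) :=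
    IsMF.sum _ _ fun q _ => isMF_bot_tr' hf q
  refine ⟨h0.holo, fun γ _ => ?_, h0.bdd⟩
  rw [SlashAction.sum_slash, Finset.sum_congr rfl fun q _ => tr_slash hf.inv q γ]
  exact Equiv.sum_comp (MulAction.toPerm γ⁻¹) (fun q => tr k f q)

theorem isMF_prod {ι : Type*} (s : Finset ι) (F : ι → ℍ → ℂ) {Γ' : Subgroup SL(2, ℤ)}
    (h : ∀ i ∈ s, IsMF Γ' k (F i)) : IsMF Γ' (k * s.card) (∏ i ∈ s, F i) := by
  classical
  induction s using Finset.induction_on with
  | empty => simpa using IsMF.one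
  | insert i t hi ih =>
    rw [Finset.prod_insert hi, Finset.card_insert_of_notMem hi]
    exact (h i (Finset.mem_insert_self i t)).mul'
      (ih fun j hj => h j (Finset.mem_insert_of_mem hj)) (by push_cast; ring)

theorem prod_slash_SL {ι : Type*} (s : Finset ι) (F : ι → ℍ → ℂ) (γ : SL(2, ℤ)) :
    (∏ i ∈ s, F i) ∣[k * s.card] γ = ∏ i ∈ s, (F i ∣[k] γ) := by
  classical
  induction s using Finset.induction_on with
  | empty =>
    simp only [Finset.prod_empty, Finset.card_empty, Nat.cast_zero, mul_zero]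
    exact is_invariant_one γ
  | insert i t hi ih =>
    rw [Finset.prod_insert hi, Finset.prod_insert hi, Finset.card_insert_of_notMem hi,
      show k * ((t.card + 1 : ℕ) : ℤ) = k + k * t.card by push_cast; ring, mul_slash_SL2, ih]

/-- The norm to level one. -/
theorem isMF_norm (hf : IsMF Γ k f) :
    IsMF ⊤ (k * Fintype.card (SL(2, ℤ) ⧸ Γ)) (∏ q : SL(2, ℤ) ⧸ Γ, tr k f q) := by
  have h0 : IsMF ⊥ (k * Fintype.card (SL(2, ℤ) ⧸ Γ)) (∏ q : SL(2, ℤ) ⧸ Γ, tr k f q) :=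
    isMF_prod _ _ fun q _ => isMF_bot_tr' hf q
  refine ⟨h0.holo, fun γ _ => ?_, h0.bdd⟩
  rw [← Finset.card_univ, prod_slash_SL, Finset.prod_congr rfl fun q _ => tr_slash hf.inv q γ]
  exact Equiv.prod_comp (MulAction.toPerm γ⁻¹) (fun q => tr k f q)

end general

end

end Fermat.Agent.S16
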