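import Fermat.Agent.S16.HeckePk
import Fermat.Agent.QInt.Main

/-! # S16: duality `L = Hom(T_L, ℤ)` and the reduction of S16 to `Stmt_A`, `Stmt_B` -/

set_option autoImplicit false
set_option linter.unusedSectionVars false

namespace Fermat.Agent.S16

open ModularCurve CuspForm ModularFormClass CongruenceSubgroup

variable (p : ℕ) [Fact p.Prime]

/-- The lattice of cusp forms with integral coefficients. -/
abbrev Lat : Type := ↥(intLattice p 2)

/-- The integral Hecke algebra. -/
abbrev TL : Type := ↥(heckeLatticeAlgebra p ∅)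

/-- The structure map `ℤ[X_ℓ] → T_L`. -/
noncomputable def piHom : HeckeAlg →+* TL p :=
  (latticeRestrictHom p ∅).toRingHom.comp (heckeEvalForms p 2)

lemma piHom_apply_coe (P : HeckeAlg) (f : Lat p) :
    ((((piHom p P : TL p) : Module.End ℤ (Lat p)) f : Lat p) : CuspForm (Gamma0 p) 2) =
      act p P (f : CuspForm (Gamma0 p) 2) := rfl

lemma piHom_surjective : Function.Surjective (piHom p) :=
  (latticeRestrictHom_surjective p ∅).comp (heckeEvalForms_surjective p)

lemma piHom_eq_zero_iff (P : HeckeAlg) : piHom p P = 0 ↔ heckeEvalForms p 2 P = 0 := by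
  have hb := latticeRestrictHom_bijective p ∅ (QInt.hasIntegralStructure p 2)
  constructor
  · intro h
    apply hb.1
    rw [map_zero]
    exact h
  · intro h
    show latticeRestrictHom p ∅ (heckeEvalForms p 2 P) = 0
    rw [h, map_zero]

lemma exists_cf (k : ℕ) (f : Lat p) : ∃ m : ℤ, qCoeff (f : CuspForm (Gamma0 p) 2) k = (m : ℂ) :=
  (S49.mem_intLattice_iff _).mp f.2 k

/-- The `k`-th coefficient as an integer valued functional on the lattice. -/
noncomputable def cf (k : ℕ) : Lat p →ₗ[ℤ] ℤ where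
  toFun f := (exists_cf p k f).choose
  map_add' f g := by
    have h1 := (exists_cf p k f).choose_spec
    have h2 := (exists_cf p k g).choose_spec
    have h3 := (exists_cf p k (f + g)).choose_spec
    have h4 : qCoeff ((f + g : Lat p) : CuspForm (Gamma0 p) 2) k =
        qCoeff (f : CuspForm (Gamma0 p) 2) k + qCoeff (g : CuspForm (Gamma0 p) 2) k := by
      rw [← S49.qCoeffLin_apply, Submodule.coe_add, map_add]; rfl
    rw [h1, h2, h3] at h4
    exact_mod_cast h4
  map_smul' c f := by
    have h1 := (exists_cf p k f).choose_spec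
    have h3 := (exists_cf p k (c • f)).choose_spec
    have h4 : qCoeff ((c • f : Lat p) : CuspForm (Gamma0 p) 2) k =
        c * qCoeff (f : CuspForm (Gamma0 p) 2) k := by
      rw [← S49.qCoeffLin_apply, Submodule.coe_smul, map_zsmul]; simp
    rw [h1, h3] at h4
    simp only [RingHom.id_apply, smul_eq_mul]
    exact_mod_cast h4

lemma cf_spec (k : ℕ) (f : Lat p) :
    qCoeff (f : CuspForm (Gamma0 p) 2) k = (cf p k f : ℂ) :=
  (exists_cf p k f).choose_spec

lemma cf_one_piHom {k : ℕ} {P : HeckeAlg}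
    (hP : ∀ f : CuspForm (Gamma0 p) 2, qCoeff (act p P f) 1 = qCoeff f k) (f : Lat p) :
    cf p 1 (((piHom p P : TL p) : Module.End ℤ (Lat p)) f) = cf p k f := by
  have h1 := cf_spec p 1 (((piHom p P : TL p) : Module.End ℤ (Lat p)) f)
  rw [piHom_apply_coe, hP, cf_spec] at h1
  exact_mod_cast h1.symm

lemma eq_zero_of_cf (f : Lat p) (h : ∀ k, 1 ≤ k → cf p k f = 0) : f = 0 := by
  apply Subtype.ext
  apply S49.eq_zero_of_qCoeff
  intro n
  rcases Nat.eq_zero_or_pos n with rfl | hn
  · exact S49.qCoeff_zero_eq _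
  · rw [cf_spec, h n hn]; simp

/-- The pairing, as a map `L → Hom(T_L, ℤ)`. -/
noncomputable def beta : Lat p →ₗ[ℤ] (TL p →ₗ[ℤ] ℤ) where
  toFun f :=
    { toFun := fun t => cf p 1 ((t : Module.End ℤ (Lat p)) f)
      map_add' := fun s t => by
        rw [Subalgebra.coe_add, LinearMap.add_apply, map_add]
      map_smul' := fun c t => by
        rw [Subalgebra.coe_smul, LinearMap.smul_apply, map_smul]; rfl }
  map_add' f g := by
    ext t
    simp only [LinearMap.coe_mk, AddHom.coe_mk, map_add, LinearMap.add_apply]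
  map_smul' c f := by
    ext t
    simp only [LinearMap.coe_mk, AddHom.coe_mk, map_smul, LinearMap.smul_apply, RingHom.id_apply]

lemma beta_apply (f : Lat p) (t : TL p) :
    beta p f t = cf p 1 ((t : Module.End ℤ (Lat p)) f) := rfl

/-- The pairing, as a map `T_L → Hom(L, ℤ)`. -/
noncomputable def gam : TL p →ₗ[ℤ] (Lat p →ₗ[ℤ] ℤ) := (beta p).flip

lemma beta_injective : Function.Injective (beta p) := by
  rw [← LinearMap.ker_eq_bot, LinearMap.ker_eq_bot']
  intro f hf
  apply eq_zero_of_cf
  intro k hk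
  obtain ⟨P, -, hP⟩ := exists_Pk p k hk
  rw [← cf_one_piHom p hP f, ← beta_apply, hf]
  rfl

lemma gam_injective : Function.Injective (gam p) := by
  rw [← LinearMap.ker_eq_bot, LinearMap.ker_eq_bot']
  intro t ht
  apply Subtype.ext
  ext1 f
  show (t : Module.End ℤ (Lat p)) f = 0
  apply eq_zero_of_cf
  intro k hk
  obtain ⟨P, -, hP⟩ := exists_Pk p k hk
  rw [← cf_one_piHom p hP]
  have hcomm : ((piHom p P : TL p) : Module.End ℤ (Lat p)) ((t : Module.End ℤ (Lat p)) f) =
      (t : Module.End ℤ (Lat p)) (((piHom p P : TL p) : Module.End ℤ (Lat p)) f) := by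
    have := congrArg (fun s : TL p => (s : Module.End ℤ (Lat p)) f) (mul_comm (piHom p P) t)
    simpa using this
  rw [hcomm]
  have := LinearMap.congr_fun ht (((piHom p P : TL p) : Module.End ℤ (Lat p)) f)
  exact this

instance : Module.Finite ℤ (Lat p) := intLattice.moduleFinite p
instance : Module.Free ℤ (Lat p) := intLattice.moduleFree p

lemma finrank_eq : Module.finrank ℤ (Lat p) = Module.finrank ℤ (TL p) := by
  apply le_antisymm
  · have := LinearMap.finrank_le_finrank_of_injective (beta_injective p)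
    rwa [Module.finrank_linearMap, Module.finrank_self, mul_one] at this
  · have := LinearMap.finrank_le_finrank_of_injective (gam_injective p)
    rwa [Module.finrank_linearMap, Module.finrank_self, mul_one] at this

/-- Saturation: a lattice form all of whose coefficients are divisible by `N` is `N` times a
lattice form. -/
lemma exists_eq_smul (N : ℤ) (hN : N ≠ 0) (g : Lat p) (h : ∀ k, 1 ≤ k → N ∣ cf p k g) :
    ∃ g' : Lat p, g = N • g' := by
  have hmem : ((N : ℂ)⁻¹ • (g : CuspForm (Gamma0 p) 2)) ∈ intLattice p 2 := by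
    rw [S49.mem_intLattice_iff]
    intro n
    rcases Nat.eq_zero_or_pos n with rfl | hn
    · exact ⟨0, by rw [S49.qCoeff_zero_eq]; simp⟩
    · obtain ⟨c, hc⟩ := h n hn
      refine ⟨c, ?_⟩
      rw [← S49.qCoeffLin_apply, map_smul, S49.qCoeffLin_apply, cf_spec, hc]
      have : (N : ℂ) ≠ 0 := by exact_mod_cast hN
      push_cast
      rw [smul_eq_mul]
      field_simp
  refine ⟨⟨_, hmem⟩, Subtype.ext ?_⟩
  rw [Submodule.coe_smul]
  show (g : CuspForm (Gamma0 p) 2) = N • ((N : ℂ)⁻¹ • (g : CuspForm (Gamma0 p) 2))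
  rw [← Int.cast_smul_eq_zsmul ℂ, smul_smul, mul_inv_cancel₀ (by exact_mod_cast hN), one_smul]

/-- **Duality**: every functional on `T_L` is `t ↦ a₁(t f)`. -/
theorem beta_surjective : Function.Surjective (beta p) := by
  intro ψ
  -- the quotient by the range is torsion
  have h1 : Module.finrank ℤ (LinearMap.range (beta p)) = Module.finrank ℤ (TL p →ₗ[ℤ] ℤ) := by
    rw [LinearMap.finrank_range_of_inj (beta_injective p), Module.finrank_linearMap,
      Module.finrank_self, mul_one, finrank_eq]
  have h2 := Submodule.finrank_quotient_add_finrank (LinearMap.range (beta p))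
  have h3 : Module.finrank ℤ ((TL p →ₗ[ℤ] ℤ) ⧸ LinearMap.range (beta p)) = 0 := by omega
  have h4 := (Module.finrank_eq_zero_iff_isTorsion).mp h3
  obtain ⟨⟨N, hN⟩, hNψ⟩ := @h4 (Submodule.Quotient.mk ψ)
  have hN0 : N ≠ 0 := nonZeroDivisors.ne_zero hN
  have hNψ' : N • ψ ∈ LinearMap.range (beta p) := by
    rw [← Submodule.Quotient.mk_eq_zero, Submodule.Quotient.mk_smul]
    exact hNψ
  obtain ⟨g, hg⟩ := hNψ'
  obtain ⟨g', hg'⟩ := exists_eq_smul p N hN0 g (by
    intro k hk
    obtain ⟨P, -, hP⟩ := exists_Pk p k hk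
    rw [← cf_one_piHom p hP g, ← beta_apply, hg]
    exact ⟨ψ (piHom p P), rfl⟩)
  refine ⟨g', ?_⟩
  rw [hg', map_smul] at hg
  exact smul_right_injective _ hN0 hg

end Fermat.Agent.S16
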