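import Fermat.Agent.S16.BInterface

/-!
# S16, part (B), package B08 : the weight 2 Eisenstein series on `Γ₀(p)`
-/

set_option autoImplicit false

namespace Fermat.Agent.S16

open UpperHalfPlane ModularForm CongruenceSubgroup Matrix.SpecialLinearGroup
open Fermat.Agent.S20 (IsMF IsCF)
open scoped MatrixGroups ModularForm Manifold Real

noncomputable section

namespace EIS

open EisensteinSeries

/-- the positive real number `p` -/
def pp (p : ℕ) (hp : 0 < p) : {x : ℝ // 0 < x} := ⟨p, by exact_mod_cast hp⟩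

/-- the positive real number `1/p` -/
def ppInv (p : ℕ) (hp : 0 < p) : {x : ℝ // 0 < x} := ⟨(p : ℝ)⁻¹, by positivity⟩

/-- `τ ↦ E₂(p τ)` -/
def E2p (p : ℕ) (hp : 0 < p) : ℍ → ℂ := fun τ => E2 (pp p hp • τ)

/-- `(p E₂(p τ) - E₂(τ)) / 24` -/
def Efun (p : ℕ) (hp : 0 < p) : ℍ → ℂ := (24 : ℂ)⁻¹ • ((p : ℂ) • E2p p hp - E2)

theorem coe_pp_smul (p : ℕ) (hp : 0 < p) (τ : ℍ) : ((pp p hp • τ : ℍ) : ℂ) = (p : ℂ) * τ := by
  rw [coe_pos_real_smul]
  simp [pp]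

theorem coe_ppInv_smul (p : ℕ) (hp : 0 < p) (τ : ℍ) :
    ((ppInv p hp • τ : ℍ) : ℂ) = (p : ℂ)⁻¹ * τ := by
  rw [coe_pos_real_smul]
  simp [ppInv]

/-! ### holomorphy -/

theorem mdiff_E2p (p : ℕ) (hp : 0 < p) : MDiff (E2p p hp) := by
  rw [UpperHalfPlane.mdifferentiable_iff]
  have h1 : DifferentiableOn ℂ (E2 ∘ ofComplex) {z : ℂ | 0 < z.im} :=
    UpperHalfPlane.mdifferentiable_iff.mp E2_mdifferentiable
  have hmaps : Set.MapsTo (fun z : ℂ => (p : ℂ) * z) {z : ℂ | 0 < z.im} {z : ℂ | 0 < z.im} := by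
    intro z hz
    have hp' : (0 : ℝ) < p := by exact_mod_cast hp
    simpa using mul_pos hp' hz
  have h2 : DifferentiableOn ℂ ((E2 ∘ ofComplex) ∘ fun z : ℂ => (p : ℂ) * z) {z : ℂ | 0 < z.im} :=
    h1.comp ((differentiable_id.const_mul (p : ℂ)).differentiableOn) hmaps
  refine h2.congr fun z hz => ?_
  have hz' : 0 < ((p : ℂ) * z).im := hmaps hz
  simp only [Function.comp_apply, E2p]
  congr 1
  ext
  rw [coe_pp_smul, ofComplex_apply_of_im_pos hz, ofComplex_apply_of_im_pos hz']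

theorem mdiff_Efun (p : ℕ) (hp : 0 < p) : MDiff (Efun p hp) :=
  (((mdiff_E2p p hp).const_smul (p : ℂ)).sub E2_mdifferentiable).const_smul _

/-! ### boundedness lemmas -/

theorem bdd_scale {f : ℍ → ℂ} (hf : IsBoundedAtImInfty f) (x : {x : ℝ // 0 < x}) :
    IsBoundedAtImInfty (fun τ => f (x • τ)) := by
  rw [isBoundedAtImInfty_iff] at hf ⊢
  obtain ⟨M, A, h⟩ := hf
  refine ⟨M, A / x, fun z hz => h _ ?_⟩
  rw [pos_real_im]
  rwa [div_le_iff₀' x.2] at hz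

theorem slash_T_pow_apply (f : ℍ → ℂ) (k : ℤ) (j : ℕ) (τ : ℍ) :
    (f ∣[k] (ModularGroup.T ^ j)) τ = f ((j : ℝ) +ᵥ τ) := by
  rw [SL_slash_apply, ← zpow_natCast, modular_T_zpow_smul]
  have : denom (ModularGroup.T ^ (j : ℤ) : SL(2, ℤ)) τ = 1 := by
    rw [ModularGroup.denom_apply, ModularGroup.coe_T_zpow]
    simp
  rw [this]
  simp

theorem bdd_slash_T_pow {f : ℍ → ℂ} (hf : IsBoundedAtImInfty f) (k : ℤ) (j : ℕ) :
    IsBoundedAtImInfty (f ∣[k] (ModularGroup.T ^ j)) := by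
  rw [isBoundedAtImInfty_iff] at hf ⊢
  obtain ⟨M, A, h⟩ := hf
  refine ⟨M, A, fun z hz => ?_⟩
  rw [slash_T_pow_apply]
  exact h _ (by simpa using hz)

theorem bdd_D2_S : IsBoundedAtImInfty (D2 ModularGroup.S) := by
  rw [isBoundedAtImInfty_iff]
  refine ⟨2 * π, 1, fun z hz => ?_⟩
  rw [D2_S]
  have h1 : (1 : ℝ) ≤ ‖(z : ℂ)‖ := hz.trans ((le_abs_self _).trans (Complex.abs_im_le_norm _))
  rw [norm_div]
  have h2 : ‖(2 * π * Complex.I : ℂ)‖ = 2 * π := by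
    simp [abs_of_pos Real.pi_pos]
  rw [h2]
  exact div_le_self (by positivity) h1

theorem bdd_E2_S : IsBoundedAtImInfty (E2 ∣[(2 : ℤ)] ModularGroup.S) := by
  rw [E2_slash_action]
  exact isBoundedAtImInfty_E2.sub (bdd_D2_S.const_smul_left _)

/-! ### the action of `S` on `E₂(p τ)` -/

theorem pp_smul_S_smul (p : ℕ) (hp : 0 < p) (τ : ℍ) :
    pp p hp • (ModularGroup.S • τ) = ModularGroup.S • (ppInv p hp • τ) := by
  have hp' : (p : ℂ) ≠ 0 := by exact_mod_cast hp.ne'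
  have hτ : (τ : ℂ) ≠ 0 := ne_zero τ
  ext
  rw [coe_pp_smul, modular_S_smul, modular_S_smul]
  change (p : ℂ) * (-(τ : ℂ))⁻¹ = (-((ppInv p hp • τ : ℍ) : ℂ))⁻¹
  rw [coe_ppInv_smul]
  field_simp

theorem E2p_slash_S (p : ℕ) (hp : 0 < p) :
    E2p p hp ∣[(2 : ℤ)] ModularGroup.S =
      ((p : ℂ) ^ 2)⁻¹ • fun τ => (E2 ∣[(2 : ℤ)] ModularGroup.S) (ppInv p hp • τ) := by
  have hp' : (p : ℂ) ≠ 0 := by exact_mod_cast hp.ne'
  ext τ
  have hτ : (τ : ℂ) ≠ 0 := ne_zero τ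
  rw [Pi.smul_apply, SL_slash_apply, SL_slash_apply, E2p, pp_smul_S_smul, ModularGroup.denom_S,
    ModularGroup.denom_S, coe_ppInv_smul, smul_eq_mul]
  simp only [Int.reduceNeg, zpow_neg]
  rw [zpow_ofNat, zpow_ofNat]
  field_simp

theorem bdd_E2p_S (p : ℕ) (hp : 0 < p) :
    IsBoundedAtImInfty (E2p p hp ∣[(2 : ℤ)] ModularGroup.S) := by
  rw [E2p_slash_S]
  exact (bdd_scale bdd_E2_S (ppInv p hp)).const_smul_left _

theorem bdd_Efun (p : ℕ) (hp : 0 < p) : IsBoundedAtImInfty (Efun p hp) :=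
  (((bdd_scale isBoundedAtImInfty_E2 (pp p hp)).const_smul_left (p : ℂ)).sub
    isBoundedAtImInfty_E2).const_smul_left _

theorem bdd_Efun_S (p : ℕ) (hp : 0 < p) :
    IsBoundedAtImInfty (Efun p hp ∣[(2 : ℤ)] ModularGroup.S) := by
  rw [Efun, SL_smul_slash, sub_eq_add_neg, SlashAction.add_slash, SL_smul_slash,
    SlashAction.neg_slash, ← sub_eq_add_neg]
  exact (((bdd_E2p_S p hp).const_smul_left (p : ℂ)).sub bdd_E2_S).const_smul_left _

/-! ### invariance under `Γ₀(p)` -/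

/-- the conjugate `α γ α⁻¹`, `α = diag(p,1)`. -/
def conjMat (p : ℕ) (γ : SL(2, ℤ)) (c' : ℤ) (hc : γ 1 0 = p * c') : SL(2, ℤ) :=
  ⟨!![γ 0 0, p * γ 0 1; c', γ 1 1], by
    have h := γ.det_coe
    rw [Matrix.det_fin_two] at h
    rw [Matrix.det_fin_two_of]
    rw [hc] at h
    linarith⟩

theorem denom_conjMat (p : ℕ) (hp : 0 < p) (γ : SL(2, ℤ)) (c' : ℤ) (hc : γ 1 0 = p * c') (τ : ℍ) :
    denom (conjMat p γ c' hc) ((pp p hp • τ : ℍ) : ℂ) = denom γ τ := by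
  rw [ModularGroup.denom_apply, ModularGroup.denom_apply, coe_pp_smul, hc]
  simp [conjMat]
  ring

theorem pp_smul_smul (p : ℕ) (hp : 0 < p) (γ : SL(2, ℤ)) (c' : ℤ) (hc : γ 1 0 = p * c') (τ : ℍ) :
    pp p hp • (γ • τ) = conjMat p γ c' hc • (pp p hp • τ) := by
  have hd : ((γ 1 0 : ℤ) : ℂ) * τ + ((γ 1 1 : ℤ) : ℂ) ≠ 0 := by
    have := denom_ne_zero γ τ
    rwa [ModularGroup.denom_apply] at this
  ext
  rw [coe_pp_smul, coe_specialLinearGroup_apply, coe_specialLinearGroup_apply, coe_pp_smul]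
  have e1 : (((conjMat p γ c' hc) 1 0 : ℤ) : ℂ) * ((p : ℂ) * τ) + (((conjMat p γ c' hc) 1 1 : ℤ) : ℂ)
      = ((γ 1 0 : ℤ) : ℂ) * τ + ((γ 1 1 : ℤ) : ℂ) := by
    rw [hc]
    simp [conjMat]
    ring
  simp only [algebraMap_int_eq, eq_intCast, Complex.ofReal_intCast]
  rw [e1]
  simp [conjMat]
  field_simp

theorem E2p_slash (p : ℕ) (hp : 0 < p) (γ : SL(2, ℤ)) (c' : ℤ) (hc : γ 1 0 = p * c') :
    (p : ℂ) • (E2p p hp ∣[(2 : ℤ)] γ) =
      (p : ℂ) • E2p p hp - (1 / (2 * riemannZeta 2)) • D2 γ := by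
  ext τ
  have h1 : (E2p p hp ∣[(2 : ℤ)] γ) τ = (E2 ∣[(2 : ℤ)] conjMat p γ c' hc) (pp p hp • τ) := by
    rw [SL_slash_apply, SL_slash_apply, denom_conjMat, E2p, pp_smul_smul p hp γ c' hc]
  rw [Pi.smul_apply, h1, E2_slash_action]
  simp only [Pi.sub_apply, Pi.smul_apply, smul_eq_mul, D2, denom_conjMat, E2p]
  rw [hc]
  simp [conjMat]
  ring

theorem Efun_slash (p : ℕ) (hp : 0 < p) (γ : SL(2, ℤ)) (hγ : γ ∈ Gamma0 p) :
    Efun p hp ∣[(2 : ℤ)] γ = Efun p hp := by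
  rw [Gamma0_mem, ZMod.intCast_zmod_eq_zero_iff_dvd] at hγ
  obtain ⟨c', hc⟩ := hγ
  rw [Efun, SL_smul_slash, sub_eq_add_neg, SlashAction.add_slash, SL_smul_slash,
    SlashAction.neg_slash, ← sub_eq_add_neg, E2p_slash p hp γ c' hc, E2_slash_action]
  congr 1
  abel

theorem isMF_Efun (hcoset : Stmt_coset) (p : ℕ) (hp : p.Prime) :
    IsMF (Gamma0 p) 2 (Efun p hp.pos) := by
  refine ⟨mdiff_Efun p hp.pos, Efun_slash p hp.pos, fun γ => ?_⟩
  rcases hcoset p hp γ with hγ | ⟨j, -, γ₀, hγ₀, rfl⟩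
  · rw [Efun_slash p hp.pos γ hγ]
    exact bdd_Efun p hp.pos
  · rw [SlashAction.slash_mul, Efun_slash p hp.pos γ₀ hγ₀, SlashAction.slash_mul]
    exact bdd_slash_T_pow (bdd_Efun_S p hp.pos) 2 j

/-! ### the `q`-expansion -/

theorem sigP_add (p : ℕ) (hp : 0 < p) (n : ℕ) :
    sigP p n + (if p ∣ n then p * ArithmeticFunction.sigma 1 (n / p) else 0) =
      ArithmeticFunction.sigma 1 n := by
  rw [ArithmeticFunction.sigma_one_apply n, sigP,
    ← Finset.sum_filter_not_add_sum_filter n.divisors (fun d => p ∣ d)]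
  congr 1
  split_ifs with h
  · obtain ⟨m, rfl⟩ := h
    rw [Nat.mul_div_cancel_left m hp, ArithmeticFunction.sigma_one_apply, Finset.mul_sum]
    refine Finset.sum_bij (fun d _ => p * d) ?_ ?_ ?_ ?_
    · intro d hd
      rw [Nat.mem_divisors] at hd
      rw [Finset.mem_filter, Nat.mem_divisors]
      exact ⟨⟨Nat.mul_dvd_mul_left p hd.1, Nat.mul_ne_zero hp.ne' hd.2⟩, Dvd.intro _ rfl⟩
    · intro a _ b _ hab
      exact Nat.eq_of_mul_eq_mul_left hp hab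
    · intro d hd
      rw [Finset.mem_filter, Nat.mem_divisors] at hd
      obtain ⟨⟨h1, h2⟩, e, rfl⟩ := hd
      refine ⟨e, ?_, rfl⟩
      rw [Nat.mem_divisors]
      exact ⟨Nat.dvd_of_mul_dvd_mul_left hp h1, fun h0 => h2 (by rw [h0, mul_zero])⟩
    · intro d _
      rfl
  · symm
    apply Finset.sum_eq_zero
    intro d hd
    rw [Finset.mem_filter, Nat.mem_divisors] at hd
    exact absurd (hd.2.trans hd.1.1) h

theorem coeff_E2f (m : ℕ) :
    PowerSeries.coeff m E2f = (if m = 0 then 1 else 0) - 24 * (ArithmeticFunction.sigma 1 m : ℂ) := by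
  simp [E2f, sig, PowerSeries.coeff_one]

theorem formal_identity (p : ℕ) (hp : 0 < p) :
    (24 : ℂ)⁻¹ • ((p : ℂ) • Vop p E2f + (-1 : ℂ) • E2f) = EisP p := by
  ext n
  have key : ((sigP p n : ℕ) : ℂ) + (if p ∣ n then (p : ℂ) * (ArithmeticFunction.sigma 1 (n / p) : ℂ)
      else 0) = (ArithmeticFunction.sigma 1 n : ℂ) := by
    have := congrArg (Nat.cast : ℕ → ℂ) (sigP_add p hp n)
    push_cast at this
    exact this
  simp only [EisP, map_add, PowerSeries.coeff_smul, coeff_Vop, coeff_E2f, PowerSeries.coeff_C,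
    PowerSeries.coeff_mk, smul_eq_mul]
  rw [← key]
  by_cases hn : n = 0
  · subst hn
    simp
    ring
  · by_cases hpn : p ∣ n
    · have hnp : n / p ≠ 0 := by
        obtain ⟨m, rfl⟩ := hpn
        rw [Nat.mul_div_cancel_left m hp]
        exact fun h0 => hn (by rw [h0, mul_zero])
      simp only [hpn, hn, hnp, if_true, if_false]
      ring
    · simp only [hpn, hn, if_false]
      ring

theorem hasQE_Efun (hE2 : Stmt_hasQE_E2) (hV : Stmt_hasQE_Vop) (hsc : Stmt_hasQE_scale)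
    (hadd : Stmt_hasQE_add) (hsmul : Stmt_hasQE_smul) (p : ℕ) (hp : 0 < p) :
    HasQE 1 (Efun p hp) (EisP p) := by
  have h1 : HasQE p E2 (Vop p E2f) := hV p E2 E2f hp hE2
  have h2 : HasQE 1 (E2p p hp) (Vop p E2f) := by
    refine hsc p E2 (E2p p hp) (Vop p E2f) hp h1 fun τ τ' h => ?_
    rw [E2p]
    congr 1
    ext
    rw [coe_pp_smul, h]
  have h3 := hsmul 1 (24 : ℂ)⁻¹ _ _ (hadd 1 _ _ _ _ (hsmul 1 (p : ℂ) _ _ h2) (hsmul 1 (-1 : ℂ) _ _ hE2))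
  rw [formal_identity p hp] at h3
  have e : Efun p hp = (24 : ℂ)⁻¹ • ((p : ℂ) • E2p p hp + (-1 : ℂ) • E2) := by
    rw [Efun, neg_one_smul, sub_eq_add_neg]
  rw [e]
  exact h3

end EIS

/-- (EIS) `(p-1)/24 + ∑ σ'(n) q^n ∈ M₂(Γ₀(p))`. -/
theorem EIS (hcoset : Stmt_coset) (hE2 : Stmt_hasQE_E2) (hV : Stmt_hasQE_Vop)
    (hsc : Stmt_hasQE_scale) (hadd : Stmt_hasQE_add) (hsmul : Stmt_hasQE_smul)
    (hpair : Stmt_exists_pair) : Stmt_EIS := by
  intro p hp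
  have hmf := EIS.isMF_Efun hcoset p hp
  obtain ⟨b, hb⟩ := hpair p hp 2 _ hmf
  exact ⟨b, EIS.Efun p hp.pos, hmf, EIS.hasQE_Efun hE2 hV hsc hadd hsmul p hp.pos, hb.zero⟩

end

end Fermat.Agent.S16
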