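import Fermat.Agent.S16.EisP
import Fermat.Agent.S16.PairRing

/-! S16 (B08) EIS: `Stmt_EIS` from `EisP.lean` (`N E₂(Nz) - E₂(z)`) and `PairRing.lean`. -/

set_option autoImplicit false

open UpperHalfPlane ModularForm CongruenceSubgroup Matrix.SpecialLinearGroup
open scoped MatrixGroups ModularForm Manifold

namespace Fermat.Agent.S16

theorem eisGlue_series (p : ℕ) (hp : p ≠ 0) :
    ((24 : ℂ)⁻¹) • qExpansion 1 (eisP p) = EisP p := by
  ext m
  rw [PowerSeries.coeff_smul, eisP_qExpansion_coeff hp, EisP, map_add, PowerSeries.coeff_mk,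
    PowerSeries.coeff_C]
  by_cases hm : m = 0
  · subst hm
    simp [sigP]
    ring
  · rw [if_neg hm, if_neg hm, sigP]
    push_cast
    simp

/-- (EIS), hypothesis-free. -/
theorem eis_stmt : Stmt_EIS := fun p hp => by
  have h := PairRing.hasPair_of_isMF hp.pos (eisP_isMF hp.ne_zero)
  have h2 := pair_smul p 2 ((24 : ℂ)⁻¹) _ _ ⟨_, h⟩
  rw [eisGlue_series p hp.ne_zero] at h2
  exact ⟨_, h2⟩

end Fermat.Agent.S16
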