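import Fermat.Agent.S16.SigmaP
import Fermat.Agent.S49.QCoeff

/-! # S16: the operators `P_k` with `a₁(P_k f) = a_k(f)` and `ε(P_k) = σ'(k)` -/

set_option autoImplicit false
set_option linter.unusedSectionVars false

namespace Fermat.Agent.S16

open ModularCurve CuspForm ModularFormClass CongruenceSubgroup

variable (p : ℕ) [Fact p.Prime]

/-- Eisenstein evaluation `X_ℓ ↦ 1 + ℓ`, `X_p ↦ 1`. -/
noncomputable def eps : HeckeAlg →+* ℤ :=
  (MvPolynomial.aeval (R := ℤ) (eisensteinSystem p)).toRingHom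

lemma eps_apply (P : HeckeAlg) : eps p P = MvPolynomial.aeval (eisensteinSystem p) P := rfl

lemma mem_eisensteinIdeal_iff (P : HeckeAlg) : P ∈ eisensteinIdeal p ↔ eps p P = 0 :=
  mem_eigenIdeal_iff _ _

lemma eps_C (c : ℤ) : eps p (MvPolynomial.C c) = c := by
  rw [eps_apply, MvPolynomial.aeval_C]; rfl

/-- Action of a Hecke polynomial on cusp forms. -/
noncomputable def act : HeckeAlg →+* Module.End ℂ (CuspForm (Gamma0 p) 2) :=
  (heckeAlgebra p 2 ∅).val.toRingHom.comp (heckeEvalForms p 2)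

lemma act_apply (P : HeckeAlg) :
    act p P = ((heckeEvalForms p 2 P : heckeAlgebra p 2 ∅) :
      Module.End ℂ (CuspForm (Gamma0 p) 2)) := rfl

lemma act_eq_zero_iff (P : HeckeAlg) : act p P = 0 ↔ heckeEvalForms p 2 P = 0 := by
  rw [act_apply]
  exact ⟨fun h => Subtype.ext h, fun h => by rw [h]; rfl⟩

lemma act_gen_self (hpp : (p : ℕ).Prime) :
    act p (heckeGen ⟨p, hpp⟩) = heckeULin 2 (dvd_refl p) := by
  rw [act_apply, heckeEvalForms_heckeGen_of_dvd (q := ⟨p, hpp⟩) (dvd_refl p)]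
  rfl

lemma act_gen_of_ne {ℓ : ℕ} (hℓ : ℓ.Prime) (h : ¬ ℓ ∣ p) :
    act p (heckeGen ⟨ℓ, hℓ⟩) = heckeTLin 2 hℓ h := by
  rw [act_apply, heckeEvalForms_heckeGen_of_not_dvd (ℓ := ⟨ℓ, hℓ⟩) h]
  rfl

lemma eps_gen_self (hpp : (p : ℕ).Prime) : eps p (heckeGen ⟨p, hpp⟩) = 1 :=
  (aeval_heckeGen (eisensteinSystem p) (⟨p, hpp⟩ : Nat.Primes)).trans
    (eisensteinSystem_of_dvd (ℓ := ⟨p, hpp⟩) (dvd_refl p))

lemma eps_gen_of_ne {ℓ : ℕ} (hℓ : ℓ.Prime) (h : ¬ ℓ ∣ p) :
    eps p (heckeGen ⟨ℓ, hℓ⟩) = 1 + (ℓ : ℤ) :=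
  (aeval_heckeGen (eisensteinSystem p) (⟨ℓ, hℓ⟩ : Nat.Primes)).trans
    (eisensteinSystem_of_not_dvd (ℓ := ⟨ℓ, hℓ⟩) h)

/-- The operators `P_k`. -/
theorem exists_Pk (k : ℕ) (hk : 1 ≤ k) :
    ∃ P : HeckeAlg, eps p P = sigmaP p k ∧
      ∀ f : CuspForm (Gamma0 p) 2, qCoeff (act p P f) 1 = qCoeff f k := by
  have hpp : p.Prime := Fact.out
  induction k using Nat.strong_induction_on with
  | _ k ih =>
    rcases Nat.eq_or_lt_of_le hk with h1 | h1
    · subst h1
      exact ⟨1, by rw [map_one, sigmaP_one p hpp], fun f => by rw [map_one]; rfl⟩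
    · have hℓ : (k.minFac).Prime := Nat.minFac_prime (by omega)
      obtain ⟨k', hk'⟩ := Nat.minFac_dvd k
      set ℓ := k.minFac with hℓdef
      have hk'0 : k' ≠ 0 := by rintro rfl; omega
      have hk'lt : k' < k := by
        rw [hk']
        exact lt_mul_of_one_lt_left (Nat.pos_of_ne_zero hk'0) hℓ.one_lt
      obtain ⟨P', hP'e, hP'⟩ := ih k' hk'lt (Nat.pos_of_ne_zero hk'0)
      by_cases hlp : ℓ = p
      · refine ⟨P' * heckeGen ⟨p, hpp⟩, ?_, fun f => ?_⟩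
        · rw [map_mul, eps_gen_self, mul_one, hP'e, hk', hlp, sigmaP_self_mul hpp hk'0]
        · rw [map_mul, Module.End.mul_apply, hP', act_gen_self,
            S49.qCoeff_heckeULin hpp (dvd_refl p), hk', hlp]
      · have hnd : ¬ ℓ ∣ p := fun h => hlp ((Nat.prime_dvd_prime_iff_eq hℓ hpp).mp h)
        by_cases hd : ℓ ∣ k'
        · have hk''0 : k' / ℓ ≠ 0 := by
            obtain ⟨c, rfl⟩ := hd
            rw [Nat.mul_div_cancel_left _ hℓ.pos]
            rintro rfl; simp at hk'0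
          have hk''lt : k' / ℓ < k := lt_of_le_of_lt (Nat.div_le_self _ _) hk'lt
          obtain ⟨P'', hP''e, hP''⟩ := ih (k' / ℓ) hk''lt (Nat.pos_of_ne_zero hk''0)
          refine ⟨P' * heckeGen ⟨ℓ, hℓ⟩ - MvPolynomial.C (ℓ : ℤ) * P'', ?_, fun f => ?_⟩
          · rw [map_sub, map_mul, map_mul, eps_gen_of_ne p hℓ hnd, eps_C, hP'e, hP''e, hk',
              sigmaP_prime_mul hpp hℓ hlp hk'0, if_pos hd]
            ring
          · have hC : act p (MvPolynomial.C (ℓ : ℤ)) = ((ℓ : ℤ) : Module.End ℂ _) := by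
              rw [← MvPolynomial.algebraMap_eq, eq_intCast, map_intCast]
            rw [map_sub, map_mul, map_mul, LinearMap.sub_apply, Module.End.mul_apply,
              Module.End.mul_apply, hC, Module.End.intCast_apply, ← S49.qCoeffLin_apply,
              map_sub, map_zsmul, S49.qCoeffLin_apply, S49.qCoeffLin_apply, hP', hP'',
              act_gen_of_ne p hℓ hnd, S49.qCoeff_heckeTLin hℓ hnd, if_pos hd, ← hk']
            simp
        · refine ⟨P' * heckeGen ⟨ℓ, hℓ⟩, ?_, fun f => ?_⟩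
          · rw [map_mul, eps_gen_of_ne p hℓ hnd, hP'e, hk',
              sigmaP_prime_mul hpp hℓ hlp hk'0, if_neg hd]
            ring
          · rw [map_mul, Module.End.mul_apply, hP', act_gen_of_ne p hℓ hnd,
              S49.qCoeff_heckeTLin hℓ hnd, if_neg hd, ← hk']
            simp

/-- `heckeEvalForms` is surjective. -/
theorem heckeEvalForms_surjective : Function.Surjective (heckeEvalForms p 2) := by
  have hpp : p.Prime := Fact.out
  rintro ⟨t, ht⟩
  suffices h : ∃ P, act p P = t by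
    obtain ⟨P, hP⟩ := h
    exact ⟨P, Subtype.ext hP⟩
  unfold heckeAlgebra at ht
  induction ht using Algebra.adjoin_induction with
  | mem x hx =>
    rcases hx with ⟨ℓ, hℓ, hℓN, -, rfl⟩ | ⟨q, hqN, hq, -, rfl⟩
    · exact ⟨heckeGen ⟨ℓ, hℓ⟩, act_gen_of_ne p hℓ hℓN⟩
    · have : q = p := (Nat.prime_dvd_prime_iff_eq hq hpp).mp hqN
      subst this
      exact ⟨heckeGen ⟨q, hq⟩, act_gen_self q hq⟩
  | algebraMap r =>
    exact ⟨MvPolynomial.C r, by
      rw [← MvPolynomial.algebraMap_eq, eq_intCast, map_intCast, eq_intCast]⟩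
  | add x y _ _ hx hy =>
    obtain ⟨P, rfl⟩ := hx
    obtain ⟨Q, rfl⟩ := hy
    exact ⟨P + Q, map_add _ _ _⟩
  | mul x y _ _ hx hy =>
    obtain ⟨P, rfl⟩ := hx
    obtain ⟨Q, rfl⟩ := hy
    exact ⟨P * Q, map_mul _ _ _⟩

end Fermat.Agent.S16
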