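import Fermat.Agent.S16.BDefs

/-!
# S16 (B): closure API for `DivO`, `IsIntS`, `CongS`, `OrdUnit`
-/

set_option autoImplicit false

namespace Fermat.Agent.S16

open PowerSeries

noncomputable section

variable {ℓ M : ℕ}

/-! ### `DivO` -/

theorem DivO.zero : DivO ℓ M 0 := ⟨0, (OO ℓ).zero_mem, by simp⟩

theorem DivO.add {x y : ℂ} (hx : DivO ℓ M x) (hy : DivO ℓ M y) : DivO ℓ M (x + y) := by
  obtain ⟨c, hc, rfl⟩ := hx
  obtain ⟨d, hd, rfl⟩ := hy
  exact ⟨c + d, (OO ℓ).add_mem hc hd, by ring⟩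

theorem DivO.neg {x : ℂ} (hx : DivO ℓ M x) : DivO ℓ M (-x) := by
  obtain ⟨c, hc, rfl⟩ := hx
  exact ⟨-c, (OO ℓ).neg_mem hc, by ring⟩

theorem DivO.sub {x y : ℂ} (hx : DivO ℓ M x) (hy : DivO ℓ M y) : DivO ℓ M (x - y) := by
  simpa [sub_eq_add_neg] using hx.add hy.neg

theorem DivO.mul_left {x y : ℂ} (hx : x ∈ OO ℓ) (hy : DivO ℓ M y) : DivO ℓ M (x * y) := by
  obtain ⟨d, hd, rfl⟩ := hy
  exact ⟨x * d, (OO ℓ).mul_mem hx hd, by ring⟩

theorem DivO.mul_right {x y : ℂ} (hx : DivO ℓ M x) (hy : y ∈ OO ℓ) : DivO ℓ M (x * y) := by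
  rw [mul_comm]; exact hx.mul_left hy

theorem DivO.mem {x : ℂ} (hx : DivO ℓ M x) : x ∈ OO ℓ := by
  obtain ⟨c, hc, rfl⟩ := hx
  exact (OO ℓ).mul_mem (natCast_mem _ M) hc

theorem DivO.of_dvd {M' : ℕ} (h : M ∣ M') {x : ℂ} (hx : DivO ℓ M' x) : DivO ℓ M x := by
  obtain ⟨c, hc, rfl⟩ := hx
  obtain ⟨e, rfl⟩ := h
  exact ⟨e * c, (OO ℓ).mul_mem (natCast_mem _ e) hc, by push_cast; ring⟩

theorem DivO.self_mul {c : ℂ} (hc : c ∈ OO ℓ) : DivO ℓ M ((M : ℂ) * c) := ⟨c, hc, rfl⟩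

theorem DivO.sum {ι : Type*} (s : Finset ι) (f : ι → ℂ) (h : ∀ i ∈ s, DivO ℓ M (f i)) :
    DivO ℓ M (∑ i ∈ s, f i) := by
  classical
  induction s using Finset.induction_on with
  | empty => simpa using DivO.zero
  | insert i t hi ih =>
    rw [Finset.sum_insert hi]
    exact (h i (Finset.mem_insert_self i t)).add (ih fun j hj => h j (Finset.mem_insert_of_mem hj))

/-- `M · OO ℓ` as an additive subgroup of `ℂ`. -/
def DivOGrp (ℓ M : ℕ) : AddSubgroup ℂ where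
  carrier := {z | DivO ℓ M z}
  add_mem' := DivO.add
  zero_mem' := DivO.zero
  neg_mem' := DivO.neg

@[simp] theorem mem_DivOGrp {z : ℂ} : z ∈ DivOGrp ℓ M ↔ DivO ℓ M z := Iff.rfl

/-- an integer divisible by `M` is in `M · OO ℓ`. -/
theorem DivO.of_int_dvd {n : ℤ} (h : (M : ℤ) ∣ n) : DivO ℓ M (n : ℂ) := by
  obtain ⟨e, rfl⟩ := h
  exact ⟨e, intCast_mem _ e, by push_cast; ring⟩

/-! ### `IsIntS` -/

/-- The subring of power series with `ℓ`-integral coefficients. -/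
def IntS (ℓ : ℕ) : Subring (PowerSeries ℂ) where
  carrier := {a | IsIntS ℓ a}
  mul_mem' := by
    intro a b ha hb n
    rw [coeff_mul]
    exact Subring.sum_mem _ fun x _ => (OO ℓ).mul_mem (ha _) (hb _)
  one_mem' := by
    intro n
    rw [coeff_one]
    split_ifs
    · exact (OO ℓ).one_mem
    · exact (OO ℓ).zero_mem
  add_mem' := by
    intro a b ha hb n
    rw [map_add]
    exact (OO ℓ).add_mem (ha n) (hb n)
  zero_mem' := by
    intro n
    rw [map_zero]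
    exact (OO ℓ).zero_mem
  neg_mem' := by
    intro a ha n
    rw [map_neg]
    exact (OO ℓ).neg_mem (ha n)

@[simp] theorem mem_IntS {a : PowerSeries ℂ} : a ∈ IntS ℓ ↔ IsIntS ℓ a := Iff.rfl

theorem IsIntS.add {a b : PowerSeries ℂ} (ha : IsIntS ℓ a) (hb : IsIntS ℓ b) : IsIntS ℓ (a + b) :=
  (IntS ℓ).add_mem ha hb

theorem IsIntS.sub {a b : PowerSeries ℂ} (ha : IsIntS ℓ a) (hb : IsIntS ℓ b) : IsIntS ℓ (a - b) :=
  (IntS ℓ).sub_mem ha hb

theorem IsIntS.neg {a : PowerSeries ℂ} (ha : IsIntS ℓ a) : IsIntS ℓ (-a) :=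
  (IntS ℓ).neg_mem ha

theorem IsIntS.mul {a b : PowerSeries ℂ} (ha : IsIntS ℓ a) (hb : IsIntS ℓ b) : IsIntS ℓ (a * b) :=
  (IntS ℓ).mul_mem ha hb

theorem IsIntS.pow {a : PowerSeries ℂ} (ha : IsIntS ℓ a) (n : ℕ) : IsIntS ℓ (a ^ n) :=
  (IntS ℓ).pow_mem ha n

theorem IsIntS.one : IsIntS ℓ 1 := (IntS ℓ).one_mem

theorem IsIntS.zero : IsIntS ℓ 0 := (IntS ℓ).zero_mem

theorem IsIntS.prod {ι : Type*} (s : Finset ι) (f : ι → PowerSeries ℂ)
    (h : ∀ i ∈ s, IsIntS ℓ (f i)) : IsIntS ℓ (∏ i ∈ s, f i) :=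
  Subring.prod_mem (IntS ℓ) h

theorem IsIntS.sum {ι : Type*} (s : Finset ι) (f : ι → PowerSeries ℂ)
    (h : ∀ i ∈ s, IsIntS ℓ (f i)) : IsIntS ℓ (∑ i ∈ s, f i) :=
  Subring.sum_mem (IntS ℓ) h

theorem IsIntS.C {c : ℂ} (hc : c ∈ OO ℓ) : IsIntS ℓ (PowerSeries.C c) := by
  intro n
  rw [coeff_C]
  split_ifs
  · exact hc
  · exact (OO ℓ).zero_mem

theorem IsIntS.smul {c : ℂ} (hc : c ∈ OO ℓ) {a : PowerSeries ℂ} (ha : IsIntS ℓ a) :
    IsIntS ℓ (c • a) := by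
  intro n
  rw [coeff_smul]
  exact (OO ℓ).mul_mem hc (ha n)

theorem IsIntS.natCast (n : ℕ) : IsIntS ℓ (n : PowerSeries ℂ) := natCast_mem (IntS ℓ) n

theorem IsIntS.intCast (n : ℤ) : IsIntS ℓ (n : PowerSeries ℂ) := intCast_mem (IntS ℓ) n

theorem IsIntS.ofNat (n : ℕ) [n.AtLeastTwo] : IsIntS ℓ (OfNat.ofNat n : PowerSeries ℂ) :=
  ofNat_mem (IntS ℓ) n

theorem IsIntS.X : IsIntS ℓ (PowerSeries.X : PowerSeries ℂ) := by
  intro n
  rw [coeff_X]
  split_ifs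
  · exact (OO ℓ).one_mem
  · exact (OO ℓ).zero_mem

/-- a series with rational integer coefficients is `ℓ`-integral. -/
theorem IsIntS.of_int {a : PowerSeries ℂ} (h : ∀ n, ∃ c : ℤ, coeff n a = c) : IsIntS ℓ a := by
  intro n
  obtain ⟨c, hc⟩ := h n
  rw [hc]
  exact intCast_mem _ c

theorem IsIntS.mk_int (f : ℕ → ℤ) : IsIntS ℓ (PowerSeries.mk fun n => (f n : ℂ)) :=
  IsIntS.of_int fun n => ⟨f n, by simp⟩

theorem IsIntS.Uop {a : PowerSeries ℂ} (ha : IsIntS ℓ a) (p : ℕ) : IsIntS ℓ (Uop p a) := by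
  intro n
  rw [coeff_Uop]
  exact ha _

theorem IsIntS.Vop {a : PowerSeries ℂ} (ha : IsIntS ℓ a) (p : ℕ) : IsIntS ℓ (Vop p a) := by
  intro n
  rw [coeff_Vop]
  split_ifs
  · exact ha _
  · exact (OO ℓ).zero_mem

theorem IsIntS.theta {a : PowerSeries ℂ} (ha : IsIntS ℓ a) : IsIntS ℓ (theta a) := by
  intro n
  rw [coeff_theta]
  exact (OO ℓ).mul_mem (natCast_mem _ n) (ha n)

theorem IsIntS.rescale {ζ : ℂ} (hζ : ζ ∈ OO ℓ) {a : PowerSeries ℂ} (ha : IsIntS ℓ a) :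
    IsIntS ℓ (PowerSeries.rescale ζ a) := by
  intro n
  rw [coeff_rescale]
  exact (OO ℓ).mul_mem ((OO ℓ).pow_mem hζ n) (ha n)

theorem IsIntS.of_Vop {p : ℕ} (hp : 0 < p) {a : PowerSeries ℂ}
    (ha : IsIntS ℓ (Fermat.Agent.S16.Vop p a)) :
    IsIntS ℓ a := by
  intro n
  have := ha (p * n)
  rwa [coeff_Vop, if_pos (dvd_mul_right p n), Nat.mul_div_cancel_left _ hp] at this

theorem isIntS_sig (k : ℕ) : IsIntS ℓ (sig k) := by
  intro n
  simp only [sig, coeff_mk]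
  exact natCast_mem _ _

theorem E2f_eq : E2f = 1 - 24 * sig 1 := by
  rw [E2f, smul_eq_C_mul]; rfl

theorem E4f_eq : E4f = 1 + 240 * sig 3 := by
  rw [E4f, smul_eq_C_mul]; rfl

theorem E6f_eq : E6f = 1 - 504 * sig 5 := by
  rw [E6f, smul_eq_C_mul]; rfl

theorem isIntS_E2f : IsIntS ℓ E2f := by
  rw [E2f_eq]; exact IsIntS.one.sub ((IsIntS.ofNat 24).mul (isIntS_sig 1))

theorem isIntS_E4f : IsIntS ℓ E4f := by
  rw [E4f_eq]; exact IsIntS.one.add ((IsIntS.ofNat 240).mul (isIntS_sig 3))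

theorem isIntS_E6f : IsIntS ℓ E6f := by
  rw [E6f_eq]; exact IsIntS.one.sub ((IsIntS.ofNat 504).mul (isIntS_sig 5))

/-! ### `CongS` -/

/-- witness form of a congruence. -/
theorem congS_iff_exists {a b : PowerSeries ℂ} :
    CongS ℓ M a b ↔ ∃ c, IsIntS ℓ c ∧ a = b + (M : PowerSeries ℂ) * c := by
  constructor
  · intro h
    choose c hc hc' using h
    refine ⟨PowerSeries.mk c, fun n => by simpa using hc n, ?_⟩
    ext n
    have e : (M : PowerSeries ℂ) = PowerSeries.C (M : ℂ) := by simp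
    rw [map_add, e, coeff_C_mul, coeff_mk, ← hc' n]
    ring
  · rintro ⟨c, hc, rfl⟩ n
    have e : (M : PowerSeries ℂ) = PowerSeries.C (M : ℂ) := by simp
    refine ⟨coeff n c, hc n, ?_⟩
    rw [map_add, e, coeff_C_mul]
    ring

theorem CongS.of_eq_add {a b c : PowerSeries ℂ} (hc : IsIntS ℓ c)
    (h : a = b + (M : PowerSeries ℂ) * c) : CongS ℓ M a b :=
  congS_iff_exists.mpr ⟨c, hc, h⟩

theorem CongS.refl (a : PowerSeries ℂ) : CongS ℓ M a a := fun n => by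
  simpa using DivO.zero

theorem CongS.symm {a b : PowerSeries ℂ} (h : CongS ℓ M a b) : CongS ℓ M b a := fun n => by
  simpa using (h n).neg

theorem CongS.trans {a b c : PowerSeries ℂ} (h : CongS ℓ M a b) (h' : CongS ℓ M b c) :
    CongS ℓ M a c := fun n => by
  simpa using (h n).add (h' n)

theorem CongS.add {a b a' b' : PowerSeries ℂ} (h : CongS ℓ M a b) (h' : CongS ℓ M a' b') :
    CongS ℓ M (a + a') (b + b') := fun n => by
  have := (h n).add (h' n)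
  rw [map_add, map_add]
  convert this using 1
  ring

theorem CongS.neg {a b : PowerSeries ℂ} (h : CongS ℓ M a b) : CongS ℓ M (-a) (-b) := fun n => by
  have := (h n).neg
  rw [map_neg, map_neg]
  convert this using 1
  ring

theorem CongS.sub {a b a' b' : PowerSeries ℂ} (h : CongS ℓ M a b) (h' : CongS ℓ M a' b') :
    CongS ℓ M (a - a') (b - b') := by
  simpa [sub_eq_add_neg] using h.add h'.neg

theorem CongS.isIntS {a b : PowerSeries ℂ} (h : CongS ℓ M a b) (hb : IsIntS ℓ b) : IsIntS ℓ a :=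
  fun n => by
    have := (OO ℓ).add_mem (h n).mem (hb n)
    simpa using this

theorem CongS.mul {a b a' b' : PowerSeries ℂ} (h : CongS ℓ M a b) (h' : CongS ℓ M a' b')
    (hb : IsIntS ℓ b) (hb' : IsIntS ℓ b') : CongS ℓ M (a * a') (b * b') := by
  obtain ⟨c, hc, rfl⟩ := congS_iff_exists.mp h
  obtain ⟨c', hc', rfl⟩ := congS_iff_exists.mp h'
  refine CongS.of_eq_add (c := b * c' + c * b' + (M : PowerSeries ℂ) * c * c') ?_ (by ring)
  exact ((hb.mul hc').add (hc.mul hb')).add (((IsIntS.natCast M).mul hc).mul hc')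

theorem CongS.mul_left {a b c : PowerSeries ℂ} (hc : IsIntS ℓ c) (h : CongS ℓ M a b) :
    CongS ℓ M (c * a) (c * b) := by
  obtain ⟨d, hd, rfl⟩ := congS_iff_exists.mp h
  exact CongS.of_eq_add (c := c * d) (hc.mul hd) (by ring)

theorem CongS.mul_right {a b c : PowerSeries ℂ} (hc : IsIntS ℓ c) (h : CongS ℓ M a b) :
    CongS ℓ M (a * c) (b * c) := by
  rw [mul_comm a, mul_comm b]; exact h.mul_left hc

theorem CongS.pow {a b : PowerSeries ℂ} (h : CongS ℓ M a b) (hb : IsIntS ℓ b) (n : ℕ) :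
    CongS ℓ M (a ^ n) (b ^ n) := by
  induction n with
  | zero => simpa using CongS.refl 1
  | succ n ih => rw [pow_succ, pow_succ]; exact ih.mul h (hb.pow n) hb

theorem CongS.smul {c : ℂ} (hc : c ∈ OO ℓ) {a b : PowerSeries ℂ} (h : CongS ℓ M a b) :
    CongS ℓ M (c • a) (c • b) := fun n => by
  have := (h n).mul_left hc
  rw [coeff_smul, coeff_smul]
  convert this using 1
  ring

theorem CongS.Uop {a b : PowerSeries ℂ} (h : CongS ℓ M a b) (p : ℕ) :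
    CongS ℓ M (Uop p a) (Uop p b) := fun n => by
  rw [coeff_Uop, coeff_Uop]; exact h _

theorem CongS.Vop {a b : PowerSeries ℂ} (h : CongS ℓ M a b) (p : ℕ) :
    CongS ℓ M (Vop p a) (Vop p b) := fun n => by
  rw [coeff_Vop, coeff_Vop]
  split_ifs
  · exact h _
  · simpa using DivO.zero

theorem CongS.theta {a b : PowerSeries ℂ} (h : CongS ℓ M a b) :
    CongS ℓ M (theta a) (theta b) := fun n => by
  have := (h n).mul_left (natCast_mem (OO ℓ) n)
  rw [coeff_theta, coeff_theta]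
  convert this using 1
  ring

theorem CongS.rescale {ζ : ℂ} (hζ : ζ ∈ OO ℓ) {a b : PowerSeries ℂ} (h : CongS ℓ M a b) :
    CongS ℓ M (PowerSeries.rescale ζ a) (PowerSeries.rescale ζ b) := fun n => by
  have := (h n).mul_left ((OO ℓ).pow_mem hζ n)
  rw [coeff_rescale, coeff_rescale]
  convert this using 1
  ring

theorem CongS.of_dvd {M' : ℕ} (hM : M ∣ M') {a b : PowerSeries ℂ} (h : CongS ℓ M' a b) :
    CongS ℓ M a b := fun n => (h n).of_dvd hM

/-- `M • c ≡ 0`. -/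
theorem CongS.smul_self {c : PowerSeries ℂ} (hc : IsIntS ℓ c) : CongS ℓ M ((M : ℂ) • c) 0 :=
  fun n => by
    rw [coeff_smul, map_zero, sub_zero]
    exact DivO.self_mul (hc n)

theorem CongS.mul_self {c : PowerSeries ℂ} (hc : IsIntS ℓ c) :
    CongS ℓ M ((M : PowerSeries ℂ) * c) 0 :=
  CongS.of_eq_add hc (by ring)

theorem CongS.coeff {a b : PowerSeries ℂ} (h : CongS ℓ M a b) (n : ℕ) :
    DivO ℓ M (coeff n a - coeff n b) := h n

/-! ### `OrdUnit` -/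

theorem OrdUnit.of_congS {a b : PowerSeries ℂ} {e : ℕ} (h : CongS ℓ ℓ a b) (hb : OrdUnit ℓ b e) :
    OrdUnit ℓ a e := by
  obtain ⟨h1, h2, u, hu, h3⟩ := hb
  refine ⟨h.isIntS h1, fun n hn => ?_, u, hu, ?_⟩
  · simpa using (h n).add (h2 n hn)
  · have := (h e).add h3
    convert this using 1
    ring

theorem OrdUnit.Vop {a : PowerSeries ℂ} {e : ℕ} (h : OrdUnit ℓ a e) {p : ℕ} (hp : 0 < p) :
    OrdUnit ℓ (Vop p a) (p * e) := by
  obtain ⟨h1, h2, u, hu, h3⟩ := h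
  refine ⟨h1.Vop p, fun n hn => ?_, u, hu, ?_⟩
  · rw [coeff_Vop]
    split_ifs with hd
    · apply h2
      obtain ⟨m, rfl⟩ := hd
      rw [Nat.mul_div_cancel_left _ hp]
      exact lt_of_mul_lt_mul_left hn (Nat.zero_le p)
    · exact DivO.zero
  · rwa [coeff_Vop, if_pos (dvd_mul_right p e), Nat.mul_div_cancel_left _ hp]

/-- criterion with explicit integer coefficients. -/
theorem OrdUnit.of_int {a : PowerSeries ℂ} {e : ℕ} (f : ℕ → ℤ) (ha : ∀ n, coeff n a = (f n : ℂ))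
    (h0 : ∀ n < e, (ℓ : ℤ) ∣ f n) (h1 : IsCoprime (f e) (ℓ : ℤ)) : OrdUnit ℓ a e := by
  refine ⟨IsIntS.of_int fun n => ⟨f n, ha n⟩, fun n hn => ?_, f e, h1, ?_⟩
  · rw [ha n]; exact DivO.of_int_dvd (h0 n hn)
  · rw [ha e, sub_self]; exact DivO.zero

/-! ### `Bad` -/

theorem Bad.mono {p t t' : ℕ} (h : t ≤ t') (hb : Bad p ℓ t') : Bad p ℓ t := by
  obtain ⟨g, b, hg, hp⟩ := hb
  refine ⟨((ℓ : ℂ) ^ (t' - t)) • g, b,
    hg.smul ((OO ℓ).pow_mem (natCast_mem _ ℓ) _), ?_⟩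
  rwa [smul_smul, ← pow_add, Nat.add_sub_cancel' h]

end

end Fermat.Agent.S16
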