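import Fermat.Agent.S16.BInterface
import Fermat.Agent.S16.SeriesAPI

/-!
# S16 (B): the weight four form `K = -6 ∂G = E₂ G - 6 θ G` attached to `G = 1 + M g ∈ M₂(Γ₀(p))`
(common part of packages V5 and V3)
-/

set_option autoImplicit false

namespace Fermat.Agent.S16.K0

open PowerSeries Fermat.Agent.S16

noncomputable section

theorem theta_add (a b : PowerSeries ℂ) : theta (a + b) = theta a + theta b := by
  ext n; simp [mul_add]

theorem theta_smul (c : ℂ) (a : PowerSeries ℂ) : theta (c • a) = c • theta a := by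
  ext n; simp; ring

theorem theta_one : theta (1 : PowerSeries ℂ) = 0 := by
  ext n
  rw [coeff_theta, coeff_one]
  split_ifs with h
  · simp [h]
  · simp

theorem Uop_add (p : ℕ) (a b : PowerSeries ℂ) : Uop p (a + b) = Uop p a + Uop p b := by
  ext n; simp

theorem Uop_smul (p : ℕ) (c : ℂ) (a : PowerSeries ℂ) : Uop p (c • a) = c • Uop p a := by
  ext n; simp

theorem Uop_one {p : ℕ} (hp : 0 < p) : Uop p (1 : PowerSeries ℂ) = 1 := by
  ext n
  rw [coeff_Uop, coeff_one, coeff_one]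
  have : p * n = 0 ↔ n = 0 := by
    rw [Nat.mul_eq_zero]
    constructor
    · rintro (h | h)
      · omega
      · exact h
    · exact Or.inr
  simp [this]

theorem Vop_add (p : ℕ) (a b : PowerSeries ℂ) : Vop p (a + b) = Vop p a + Vop p b := by
  ext n
  rw [map_add, coeff_Vop, coeff_Vop, coeff_Vop]
  split_ifs <;> simp

theorem Vop_sub (p : ℕ) (a b : PowerSeries ℂ) : Vop p (a - b) = Vop p a - Vop p b := by
  ext n
  rw [map_sub, coeff_Vop, coeff_Vop, coeff_Vop]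
  split_ifs <;> simp

theorem Vop_smul (p : ℕ) (c : ℂ) (a : PowerSeries ℂ) : Vop p (c • a) = c • Vop p a := by
  ext n
  rw [coeff_smul, coeff_Vop, coeff_Vop]
  split_ifs <;> simp

theorem Vop_one {p : ℕ} (hp : 0 < p) : Vop p (1 : PowerSeries ℂ) = 1 := by
  rw [Vop_eq_expand hp.ne', map_one]

/-- the correction term at `∞`. -/
def ca (g : PowerSeries ℂ) : PowerSeries ℂ := E2f * g - (6 : ℂ) • theta g

/-- the correction term at `0`. -/
def cb (p : ℕ) (g : PowerSeries ℂ) : PowerSeries ℂ :=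
  Vop p E2f * Uop p g - (6 * (p : ℂ)⁻¹) • theta (Uop p g)

theorem isIntS_ca {ℓ : ℕ} {g : PowerSeries ℂ} (hg : IsIntS ℓ g) : IsIntS ℓ (ca g) :=
  (isIntS_E2f.mul hg).sub (hg.theta.smul (ofNat_mem (OO ℓ) 6))

theorem isIntS_cb {ℓ p : ℕ} (hinv : (p : ℂ)⁻¹ ∈ OO ℓ) {g : PowerSeries ℂ} (hg : IsIntS ℓ g) :
    IsIntS ℓ (cb p g) :=
  ((isIntS_E2f.Vop p).mul (hg.Uop p)).sub
    ((hg.Uop p).theta.smul ((OO ℓ).mul_mem (ofNat_mem (OO ℓ) 6) hinv))

/-- The pair of `K = -6 ∂ G`. -/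
theorem pair_K (hF1 : Stmt_F1) (hSD : Stmt_SD) (hsmul : Stmt_pair_smul) {p : ℕ} (hp : p.Prime)
    (M : ℂ) (g b : PowerSeries ℂ) (h : PairMF p 2 (1 + M • g) b) :
    PairMF p 4 (E2f + M • ca g) ((-(p : ℂ)⁻¹) • (Vop p E2f + M • cb p g)) := by
  have hb := hF1 p hp _ _ h
  have h1 := hsmul p _ (-6) _ _ (hSD p hp 2 _ _ h)
  have hw : (2 : ℤ) + 2 = 4 := by norm_num
  rw [hw] at h1
  have hU : Uop p (1 + M • g) = 1 + M • Uop p g := by
    rw [Uop_add, Uop_smul, Uop_one hp.pos]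
  have e1 : (-6 : ℂ) • (theta (1 + M • g) - (((2 : ℤ) : ℂ) / 12) • (E2f * (1 + M • g)))
      = E2f + M • ca g := by
    rw [theta_add, theta_smul, theta_one, mul_add, mul_one, mul_smul_comm, ca]
    push_cast
    module
  have e2 : (-6 : ℂ) • ((p : ℂ)⁻¹ • theta b - (((2 : ℤ) : ℂ) / 12) • (Vop p E2f * b))
      = (-(p : ℂ)⁻¹) • (Vop p E2f + M • cb p g) := by
    rw [hb, hU, theta_smul, theta_add, theta_smul, theta_one, mul_smul_comm, mul_add, mul_one,
      mul_smul_comm, cb]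
    push_cast
    module
  rw [e1, e2] at h1
  exact h1

end

end Fermat.Agent.S16.K0
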