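import Fermat.Agent.S16.Cosets
import Fermat.Prelude.Thm_UpperHalfPlane_qExpansion_prod
import Fermat.Prelude.Thm_UpperHalfPlane_qExpansion_coeff_nat_mul

/-! S16 (B): the pair of expansions `(qExpansion 1 H, qExpansion p (H ∣ S))` of a form on `Γ₀(p)`;
trace (TR) and norm (NM) to level one in terms of these expansions. -/

set_option autoImplicit false

open UpperHalfPlane ModularForm Matrix.SpecialLinearGroup CongruenceSubgroup Function
open scoped MatrixGroups Manifold ModularForm Real

namespace Fermat.Agent.S16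

open Fermat.Agent.S20

noncomputable section

namespace Pair

local notation "𝕢" => Function.Periodic.qParam

/-- A "nice" function of period `h`: holomorphic, bounded at `i∞`, `h`-periodic. -/
structure Nice (h : ℝ) (f : ℍ → ℂ) : Prop where
  holo : MDiff f
  bdd : IsBoundedAtImInfty f
  per : ∀ z : ℍ, f (h +ᵥ z) = f z

variable {h : ℝ} {f g : ℍ → ℂ}

theorem Nice.periodic (hf : Nice h f) : Periodic (f ∘ ofComplex) h := by
  intro w
  by_cases! hw : 0 < Complex.im w
  · have hw' : 0 < Complex.im (w + h) := by simp [hw]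
    simp only [comp_apply, ofComplex_apply_of_im_pos hw', ofComplex_apply_of_im_pos hw]
    rw [← hf.per ⟨w, hw⟩]
    congr 1
    ext
    simp [add_comm]
  · have hw' : Complex.im (w + h) ≤ 0 := by simpa using hw
    simp [ofComplex_apply_of_im_nonpos hw', ofComplex_apply_of_im_nonpos hw]

theorem Nice.analyticAt (hf : Nice h f) (hh : 0 < h) : AnalyticAt ℂ (cuspFunction h f) 0 :=
  analyticAt_cuspFunction_zero hh hf.periodic hf.holo hf.bdd

theorem Nice.hasSum (hf : Nice h f) (hh : 0 < h) (τ : ℍ) :
    HasSum (fun m : ℕ ↦ (qExpansion h f).coeff m • 𝕢 h τ ^ m) (f τ) :=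
  hasSum_qExpansion hh hf.periodic hf.holo hf.bdd τ

theorem Nice.add (hf : Nice h f) (hg : Nice h g) : Nice h (f + g) :=
  ⟨hf.holo.add hg.holo, hf.bdd.add hg.bdd, fun z => by simp [hf.per, hg.per]⟩

theorem Nice.mul (hf : Nice h f) (hg : Nice h g) : Nice h (f * g) :=
  ⟨hf.holo.mul hg.holo, hf.bdd.mul hg.bdd, fun z => by simp [hf.per, hg.per]⟩

theorem Nice.nat_mul (hf : Nice h f) (n : ℕ) : Nice (n * h) f := by
  refine ⟨hf.holo, hf.bdd, ?_⟩
  induction n with
  | zero => intro z; simp
  | succ n ih =>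
    intro z
    have : (((n + 1 : ℕ) : ℝ) * h) +ᵥ z = h +ᵥ (((n : ℝ) * h) +ᵥ z) := by
      ext; simp; ring
    rw [this, hf.per, ih]

theorem Nice.sum {ι : Type*} (s : Finset ι) (F : ι → ℍ → ℂ) (hF : ∀ i ∈ s, Nice h (F i)) :
    Nice h (∑ i ∈ s, F i) := by
  classical
  induction s using Finset.induction_on with
  | empty =>
    refine ⟨?_, ?_, fun z => by simp⟩
    · rw [Finset.sum_empty]
      exact (mdifferentiable_const : MDiff (fun _ : ℍ => (0 : ℂ)))
    · rw [Finset.sum_empty]
      exact zero_form_isBoundedAtImInfty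
  | insert i t hi ih =>
    rw [Finset.sum_insert hi]
    exact (hF i (Finset.mem_insert_self i t)).add (ih fun j hj => hF j (Finset.mem_insert_of_mem hj))

theorem Nice.prod {ι : Type*} (s : Finset ι) (F : ι → ℍ → ℂ) (hF : ∀ i ∈ s, Nice h (F i)) :
    Nice h (∏ i ∈ s, F i) := by
  classical
  induction s using Finset.induction_on with
  | empty =>
    refine ⟨?_, ?_, fun z => by simp⟩
    · rw [Finset.prod_empty]
      exact (mdifferentiable_const : MDiff (fun _ : ℍ => (1 : ℂ)))
    · rw [Finset.prod_empty]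
      exact Filter.const_boundedAtFilter _ (1 : ℂ)
  | insert i t hi ih =>
    rw [Finset.prod_insert hi]
    exact (hF i (Finset.mem_insert_self i t)).mul (ih fun j hj => hF j (Finset.mem_insert_of_mem hj))

theorem qExpansion_sum {ι : Type*} (s : Finset ι) (F : ι → ℍ → ℂ) (hh : 0 < h)
    (hF : ∀ i ∈ s, Nice h (F i)) :
    qExpansion h (∑ i ∈ s, F i) = ∑ i ∈ s, qExpansion h (F i) := by
  classical
  induction s using Finset.induction_on with
  | empty => simp [qExpansion_zero]
  | insert i t hi ih =>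
    rw [Finset.sum_insert hi, Finset.sum_insert hi,
      qExpansion_add ((hF i (Finset.mem_insert_self i t)).analyticAt hh)
        ((Nice.sum t F fun j hj => hF j (Finset.mem_insert_of_mem hj)).analyticAt hh),
      ih fun j hj => hF j (Finset.mem_insert_of_mem hj)]

/-- The translate `z ↦ f (z + a)`. -/
def shift (a : ℝ) (f : ℍ → ℂ) : ℍ → ℂ := fun z => f (a +ᵥ z)

theorem Nice.shift (hf : Nice h f) (a : ℝ) : Nice h (shift a f) := by
  refine ⟨?_, ?_, fun z => ?_⟩
  · have h1 : Pair.shift a f = fun z : ℍ => f (a +ᵥ z) := rfl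
    rw [h1, UpperHalfPlane.mdifferentiable_iff]
    have h2 := UpperHalfPlane.mdifferentiable_iff.1 hf.holo
    have h3 : DifferentiableOn ℂ (fun w : ℂ => (f ∘ ofComplex) (w + a)) {z | 0 < z.im} := by
      refine h2.comp (by fun_prop) ?_
      intro w hw
      simpa using hw
    refine h3.congr fun w hw => ?_
    have hw' : 0 < (w + a).im := by simpa using hw
    simp only [comp_apply, ofComplex_apply_of_im_pos hw, ofComplex_apply_of_im_pos hw']
    congr 1
    ext
    simp [add_comm]
  · have h1 : Filter.Tendsto (fun z : ℍ => a +ᵥ z) atImInfty atImInfty := by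
      rw [atImInfty, Filter.tendsto_comap_iff]
      have : (im ∘ fun z : ℍ => a +ᵥ z) = im := by
        funext z; simp
      rw [this]
      exact Filter.tendsto_comap
    exact hf.bdd.comp_tendsto h1
  · show f (a +ᵥ (h +ᵥ z)) = f (a +ᵥ z)
    rw [← hf.per (a +ᵥ z)]
    congr 1
    ext
    simp; ring

theorem qParam_vadd (hh : h ≠ 0) (a : ℝ) (z : ℍ) :
    𝕢 h ((a +ᵥ z : ℍ) : ℂ) = Complex.exp (2 * π * Complex.I * a / h) * 𝕢 h z := by
  simp only [Function.Periodic.qParam]
  rw [← Complex.exp_add]
  congr 1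
  have hh' : (h : ℂ) ≠ 0 := by exact_mod_cast hh
  simp only [coe_vadd]
  field_simp

/-- `q`-expansion of a translate. -/
theorem qExpansion_shift (hf : Nice h f) (hh : 0 < h) (a : ℝ) :
    qExpansion h (shift a f)
      = PowerSeries.rescale (Complex.exp (2 * π * Complex.I * a / h)) (qExpansion h f) := by
  ext m
  rw [PowerSeries.coeff_rescale]
  refine (qExpansion_coeff_unique (ContinuousMap.mk (shift a f) (hf.shift a).holo.continuous)
    (c := fun m => Complex.exp (2 * π * Complex.I * a / h) ^ m * (qExpansion h f).coeff m) hh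
    ((hf.shift a).analyticAt hh) (fun τ => ?_) m).symm
  show HasSum _ (f (a +ᵥ τ))
  have := hf.hasSum hh (a +ᵥ τ)
  rw [qParam_vadd hh.ne'] at this
  have h2 : (fun m : ℕ => (Complex.exp (2 * π * Complex.I * a / h) ^ m
      * (qExpansion h f).coeff m) • 𝕢 h τ ^ m) = fun m : ℕ => (qExpansion h f).coeff m •
      (Complex.exp (2 * π * Complex.I * a / h) * 𝕢 h τ) ^ m := by
    funext m
    simp only [smul_eq_mul, mul_pow]
    ring
  rw [h2]
  exact this

/-- `qExpansion (p * 1)` is the expansion of `qExpansion 1`. -/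
theorem qExpansion_nat (hf : Nice 1 f) {p : ℕ} (hp : p ≠ 0) :
    qExpansion (p : ℝ) f = PowerSeries.expand p hp (qExpansion 1 f) := by
  ext n
  have := UpperHalfPlane.qExpansion_coeff_nat_mul (h := 1) one_pos hf.periodic hf.holo hf.bdd
    (Nat.pos_of_ne_zero hp) n
  rw [mul_one] at this
  rw [this, PowerSeries.coeff_expand]

end Pair

end

end Fermat.Agent.S16
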