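import Fermat.Agent.S16.BInterface

/-!
# S16 (B), package (W): the Fricke involution on pairs

`H^W(τ) = (H ∣[k] S)(p τ)` is again in `M_k(Γ₀(p))`, with pair `(h_0, (-p)^{-k} h_∞)`.
-/

set_option autoImplicit false

namespace Fermat.Agent.S16

open UpperHalfPlane ModularForm CongruenceSubgroup Matrix.SpecialLinearGroup
open Fermat.Agent.S20 (IsMF IsCF)
open scoped MatrixGroups ModularForm Manifold Real

noncomputable section

namespace PairW

/-- `diag(a, d)` with `a, d > 0`. -/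
def dg (a d : ℝ) (ha : 0 < a) (hd : 0 < d) : GL (Fin 2) ℝ :=
  Matrix.GeneralLinearGroup.mkOfDetNeZero !![a, 0; 0, d]
    (by rw [Matrix.det_fin_two_of]; simp [ha.ne', hd.ne'])

section dg

variable {a d : ℝ} (ha : 0 < a) (hd : 0 < d)

lemma dg_det : (dg a d ha hd).det.val = a * d := by
  simp [dg, Matrix.GeneralLinearGroup.mkOfDetNeZero, Matrix.det_fin_two_of]

lemma dg_det_pos : 0 < (dg a d ha hd).det.val := by
  rw [dg_det]; positivity

lemma dg_one_zero : (dg a d ha hd) 1 0 = 0 := by simp [dg]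

lemma dg_coe_smul (τ : ℍ) : ((dg a d ha hd • τ : ℍ) : ℂ) = a * τ / d := by
  rw [coe_smul_of_det_pos (dg_det_pos ha hd)]
  simp [num, denom, dg]

lemma dg_slash_apply (k : ℤ) (f : ℍ → ℂ) (τ : ℍ) :
    (f ∣[k] dg a d ha hd) τ =
      f (dg a d ha hd • τ) * ((a * d : ℝ) : ℂ) ^ (k - 1) * (d : ℂ) ^ (-k) := by
  rw [ModularForm.slash_apply, dg_det, abs_of_pos (by positivity), σ,
    if_pos (dg_det_pos ha hd)]
  simp [denom, dg]

end dg

lemma exists_SL (a b c d : ℤ) (h : a * d - b * c = 1) :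
    ∃ g : SL(2, ℤ), g 0 0 = a ∧ g 0 1 = b ∧ g 1 0 = c ∧ g 1 1 = d :=
  ⟨⟨!![a, b; c, d], by rw [Matrix.det_fin_two_of]; exact h⟩, rfl, rfl, rfl, rfl⟩

variable (p : ℕ) (hp : 0 < p)

/-- `diag(p, 1)` -/
abbrev dA : GL (Fin 2) ℝ := dg p 1 (by exact_mod_cast hp) one_pos

/-- `diag(1, p)` -/
abbrev dB : GL (Fin 2) ℝ := dg 1 p one_pos (by exact_mod_cast hp)

lemma conj_identity (γ : SL(2, ℤ)) (hγ : γ ∈ Gamma0 p) :
    ∃ γ' ∈ Gamma0 p, (mapGL ℝ ModularGroup.S) * dA p hp * (mapGL ℝ γ)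
      = (mapGL ℝ γ') * ((mapGL ℝ ModularGroup.S) * dA p hp) := by
  rw [Gamma0_mem] at hγ
  obtain ⟨c, hc⟩ : (p : ℤ) ∣ γ 1 0 := (ZMod.intCast_zmod_eq_zero_iff_dvd _ _).mp hγ
  have hdet : γ 0 0 * γ 1 1 - γ 0 1 * γ 1 0 = 1 := by
    have := γ.det_coe
    rwa [Matrix.det_fin_two] at this
  obtain ⟨γ', h00, h01, h10, h11⟩ := exists_SL (γ 1 1) (-c) (-(p : ℤ) * γ 0 1) (γ 0 0)
    (by rw [hc] at hdet; linarith)
  refine ⟨γ', ?_, ?_⟩
  · rw [Gamma0_mem, h10]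
    simp
  · ext i j
    have hc' : ((γ 1 0 : ℤ) : ℝ) = p * c := by rw [hc]; push_cast; ring
    fin_cases i <;> fin_cases j <;>
      simp [dg, Matrix.mul_apply, Fin.sum_univ_two, hc', h00, h01, h10, h11] <;> ring

variable (k : ℤ) (H : ℍ → ℂ)

/-- the Fricke transform `τ ↦ (H ∣[k] S)(p τ)`. -/
def Wf : ℍ → ℂ :=
  ((p : ℂ) ^ (1 - k)) • ((H ∣[k] ModularGroup.S) ∣[k] dA p hp)

lemma Wf_apply (τ : ℍ) : Wf p hp k H τ = (H ∣[k] ModularGroup.S) (dA p hp • τ) := by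
  have hp' : (p : ℂ) ≠ 0 := by exact_mod_cast hp.ne'
  rw [Wf, Pi.smul_apply, dg_slash_apply, smul_eq_mul]
  simp only [mul_one, Complex.ofReal_natCast, Complex.ofReal_one, one_zpow]
  rw [mul_comm, mul_assoc, ← zpow_add₀ hp']
  simp

variable {k H}

lemma Wf_inv (hH : ∀ γ ∈ Gamma0 p, H ∣[k] γ = H) (γ : SL(2, ℤ)) (hγ : γ ∈ Gamma0 p) :
    Wf p hp k H ∣[k] γ = Wf p hp k H := by
  obtain ⟨γ', hγ', h⟩ := conj_identity p hp γ hγ
  rw [Wf, SL_smul_slash]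
  congr 1
  have h1 : H ∣[k] (mapGL ℝ γ') = H := hH γ' hγ'
  calc ((H ∣[k] ModularGroup.S) ∣[k] dA p hp) ∣[k] γ
      = H ∣[k] ((mapGL ℝ ModularGroup.S) * dA p hp * (mapGL ℝ γ)) := by
        rw [SlashAction.slash_mul, SlashAction.slash_mul]; rfl
    _ = (H ∣[k] ModularGroup.S) ∣[k] dA p hp := by
        rw [h, SlashAction.slash_mul, h1, SlashAction.slash_mul]; rfl

variable (k H)

lemma coe_S_smul (z : ℍ) : ((ModularGroup.S • z : ℍ) : ℂ) = (-(z : ℂ))⁻¹ := by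
  rw [modular_S_smul]

lemma point_eq (τ : ℍ) : ModularGroup.S • dA p hp • ModularGroup.S • τ = dB p hp • τ := by
  have hp' : (p : ℂ) ≠ 0 := by exact_mod_cast hp.ne'
  have hτ : (τ : ℂ) ≠ 0 := ne_zero τ
  apply UpperHalfPlane.ext
  rw [coe_S_smul, dg_coe_smul, coe_S_smul, dg_coe_smul]
  push_cast
  field_simp

lemma Wf_slash_S_apply (τ : ℍ) :
    (Wf p hp k H ∣[k] ModularGroup.S) τ = (-(p : ℂ)) ^ (-k) * H (dB p hp • τ) := by
  have hp' : (p : ℂ) ≠ 0 := by exact_mod_cast hp.ne'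
  have hτ : (τ : ℂ) ≠ 0 := ne_zero τ
  rw [SL_slash_apply, Wf_apply, SL_slash_apply, point_eq, ModularGroup.denom_S,
    ModularGroup.denom_S, mul_assoc, ← mul_zpow, mul_comm, dg_coe_smul, coe_S_smul]
  congr 2
  push_cast
  field_simp

lemma Wf_slash_S_eq :
    Wf p hp k H ∣[k] ModularGroup.S = ((-(p : ℂ)) ^ (-k) * p) • (H ∣[k] dB p hp) := by
  have hp' : (p : ℂ) ≠ 0 := by exact_mod_cast hp.ne'
  ext τ
  rw [Wf_slash_S_apply, Pi.smul_apply, dg_slash_apply, smul_eq_mul]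
  simp only [one_mul, Complex.ofReal_natCast]
  have : (p : ℂ) * ((p : ℂ) ^ (k - 1) * (p : ℂ) ^ (-k)) = 1 := by
    rw [← zpow_add₀ hp', ← zpow_one_add₀ hp', show 1 + (k - 1 + -k) = 0 by ring, zpow_zero]
  linear_combination (-(-(p : ℂ)) ^ (-k) * H (dB p hp • τ)) * this

variable {k H}

lemma hasQE_Wf {b : PowerSeries ℂ} (h : HasQE p (H ∣[k] ModularGroup.S) b) :
    HasQE 1 (Wf p hp k H) b := by
  have hp' : (p : ℂ) ≠ 0 := by exact_mod_cast hp.ne'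
  intro τ
  have h1 := h (dA p hp • τ)
  rw [Wf_apply]
  have h2 : Function.Periodic.qParam (p : ℝ) ((dA p hp • τ : ℍ) : ℂ)
      = Function.Periodic.qParam 1 (τ : ℂ) := by
    rw [Function.Periodic.qParam, Function.Periodic.qParam, dg_coe_smul]
    congr 1
    push_cast
    field_simp
  rwa [h2] at h1

lemma hasQE_Wf_S {a : PowerSeries ℂ} (h : HasQE 1 H a) :
    HasQE p (Wf p hp k H ∣[k] ModularGroup.S) (((-(p : ℂ)) ^ (-k)) • a) := by
  have hp' : (p : ℂ) ≠ 0 := by exact_mod_cast hp.ne'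
  intro τ
  have h1 := (h (dB p hp • τ)).mul_left ((-(p : ℂ)) ^ (-k))
  rw [Wf_slash_S_apply]
  have h2 : Function.Periodic.qParam 1 ((dB p hp • τ : ℍ) : ℂ)
      = Function.Periodic.qParam (p : ℝ) (τ : ℂ) := by
    rw [Function.Periodic.qParam, Function.Periodic.qParam, dg_coe_smul]
    congr 1
    push_cast
    field_simp
  rw [h2] at h1
  have h3 : (fun m : ℕ => PowerSeries.coeff m (((-(p : ℂ)) ^ (-k)) • a) •
      Function.Periodic.qParam (p : ℝ) (τ : ℂ) ^ m) =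
      fun i : ℕ => (-(p : ℂ)) ^ (-k) * PowerSeries.coeff i a •
        Function.Periodic.qParam (p : ℝ) (τ : ℂ) ^ i := by
    funext m
    simp [mul_assoc]
  rw [h3]
  exact h1

lemma T_pow_one_zero (j : ℕ) : (mapGL ℝ (ModularGroup.T ^ j)) 1 0 = 0 := by
  have h : (ModularGroup.T ^ j : SL(2, ℤ)) 1 0 = 0 := by
    rw [← zpow_natCast, ModularGroup.coe_T_zpow]; rfl
  rw [mapGL_coe_matrix, Matrix.SpecialLinearGroup.map_apply_coe, RingHom.mapMatrix_apply,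
    Matrix.map_apply, h]
  simp

lemma Wf_isMF (hc : Stmt_coset) (hpp : p.Prime) (hH : IsMF (Gamma0 p) k H) :
    IsMF (Gamma0 p) k (Wf p hp k H) := by
  have hb0 : IsBoundedAtImInfty (Wf p hp k H) :=
    (IsBoundedAtImInfty.slash k (dg_one_zero _ _) (hH.bdd ModularGroup.S)).const_smul_left _
  refine ⟨((hH.holo.slash k _).slash k _).const_smul _, Wf_inv p hp hH.inv, fun γ => ?_⟩
  rcases hc p hpp γ with hγ | ⟨j, -, γ₀, hγ₀, rfl⟩
  · rwa [Wf_inv p hp hH.inv γ hγ]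
  · rw [SlashAction.slash_mul, Wf_inv p hp hH.inv γ₀ hγ₀, SlashAction.slash_mul]
    refine IsBoundedAtImInfty.slash k (T_pow_one_zero j) ?_
    rw [Wf_slash_S_eq]
    exact (IsBoundedAtImInfty.slash k (dg_one_zero _ _) hH.bdd_self).const_smul_left _

end PairW

/-- **(W)** Fricke involution on pairs. -/
theorem pairW (hc : Stmt_coset) : Stmt_W := by
  rintro p hpp k a b ⟨H, hH⟩
  exact ⟨PairW.Wf p hpp.pos k H, PairW.Wf_isMF p hpp.pos hc hpp hH.mf,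
    PairW.hasQE_Wf p hpp.pos hH.zero, PairW.hasQE_Wf_S p hpp.pos hH.inf⟩

end

end Fermat.Agent.S16
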