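import Mathlib
import Fermat.Agent.S16.HeckeHomMain

/-!
# Part (A) of S16 (`n ∣ m`), modulo the lifting package
-/

set_option autoImplicit false

open Matrix.SpecialLinearGroup CongruenceSubgroup ModularForm UpperHalfPlane
open ModularCurve ModularCurve.Period CuspForm
open scoped MatrixGroups OnePoint ModularForm

namespace Fermat.Agent.S16.HH

/-- The statement of the lifting package: the Shimura classes have integral parabolic lifts. -/
def Stmt_parabolic_lift : Prop :=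
  ∀ (p : ℕ) [Fact p.Prime] (chi0 : (ZMod p)ˣ →* Multiplicative (ZMod (eisensteinNumerator p))),
    ∃ psi : Additive (Gamma0 p) →+ ℤ, IsParabolicHom (Gamma0 p) psi ∧ ∀ g : Gamma0 p,
      ((psi (Additive.ofMul g) : ℤ) : ZMod (eisensteinNumerator p)) =
        Multiplicative.toAdd (chi0 ((Gamma0Map p).toHomUnits g))

/-- Every unit modulo `N` is the lower right entry of an element of `Γ₀(N)`. -/
theorem exists_Gamma0_toHomUnits (N : ℕ) (u : (ZMod N)ˣ) :
    ∃ γ : Gamma0 N, (Gamma0Map N).toHomUnits γ = u := by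
  obtain ⟨d, hd⟩ := ZMod.intCast_surjective (u : ZMod N)
  have hcop : IsCoprime d (N : ℤ) := by
    have h1 : IsUnit ((d : ℤ) : ZMod N) := hd ▸ u.isUnit
    exact ((ZMod.coe_int_isUnit_iff_isCoprime d N).mp h1).symm
  obtain ⟨a, b, hab⟩ := hcop
  let γ : SL(2, ℤ) := ⟨!![a, -b; (N : ℤ), d], by rw [Matrix.det_fin_two_of]; linarith⟩
  have hγ : γ ∈ Gamma0 N := by
    rw [Gamma0_mem]
    show (((N : ℤ) : ℤ) : ZMod N) = 0
    simp
  refine ⟨⟨γ, hγ⟩, ?_⟩
  apply Units.ext
  rw [coe_toHomUnits_Gamma0Map, ← hd]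
  rfl

/-- A surjective homomorphism `(ℤ/p)ˣ → ℤ/n` for `n ∣ p - 1`. -/
theorem exists_surjective_log (p : ℕ) [Fact p.Prime] {n : ℕ} (hn : n ∣ p - 1) :
    ∃ π : Additive (ZMod p)ˣ →+ ZMod n, Function.Surjective π := by
  have hcyc : IsAddCyclic (Additive (ZMod p)ˣ) := isAddCyclic_additive_iff.2 inferInstance
  have hcard : Nat.card (Additive (ZMod p)ˣ) = p - 1 := by
    rw [show Nat.card (Additive (ZMod p)ˣ) = Nat.card (ZMod p)ˣ from rfl, Nat.card_eq_fintype_card]
    exact ZMod.card_units p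
  have hn' : n ∣ Nat.card (Additive (ZMod p)ˣ) := hcard ▸ hn
  refine ⟨(ZMod.castHom hn' (ZMod n)).toAddMonoidHom.comp
    (zmodAddCyclicAddEquiv hcyc).symm.toAddMonoidHom, ?_⟩
  exact (ZMod.castHom_surjective hn').comp (zmodAddCyclicAddEquiv hcyc).symm.surjective

theorem partA (hlift : Stmt_parabolic_lift) (p : ℕ) [Fact p.Prime] (P : HeckeAlg)
    (hP : heckeEvalForms p 2 P = 0) :
    (eisensteinNumerator p : ℤ) ∣ MvPolynomial.aeval (eisensteinSystem p) P := by
  set n := eisensteinNumerator p with hn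
  have hnp : n ∣ p - 1 := eisensteinNumerator_dvd p
  have hp1 : 1 ≤ p := (Fact.out : p.Prime).one_lt.le
  have hpn : ((p : ℕ) : ZMod n) = 1 := by
    have : ((p - 1 : ℕ) : ZMod n) = 0 := (ZMod.natCast_eq_zero_iff _ _).mpr hnp
    rw [Nat.cast_sub hp1] at this
    simpa [sub_eq_zero] using this
  obtain ⟨π, hπ⟩ := exists_surjective_log p hnp
  obtain ⟨ψ, hψpar, hψ⟩ := hlift p (AddMonoidHom.toMultiplicativeRight π)
  set χ := shimuraHom p π with hχdef
  set r := Int.castAddHom (ZMod n) with hr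
  have hrψ : r.comp ψ = (1 : ℤ) • χ := by
    rw [one_smul]
    refine AddMonoidHom.ext fun γ => ?_
    exact hψ (Additive.toMul γ)
  have hχ : ∀ ℓ, tau p ℓ (ZMod n) χ = eisensteinSystem p ℓ • χ := by
    intro ℓ
    rw [hχdef, tau_shimuraHom]
    unfold eisensteinSystem
    split_ifs with h
    · have hℓp : (ℓ : ℕ) = p := (Nat.prime_dvd_prime_iff_eq ℓ.2 Fact.out).mp h
      rw [hℓp, one_smul]
      refine AddMonoidHom.ext fun γ => ?_
      rw [AddMonoidHom.nsmul_apply, nsmul_eq_mul, hpn, one_mul]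
    · rw [← natCast_zsmul]
      congr 1
      push_cast
      ring
  have hpar : (Int.castAddHom ℂ).comp ψ ∈ parabolicHoms ℂ (Gamma0 p) ℂ := by
    rw [mem_parabolicHoms_iff]
    intro γ hγ
    show ((ψ (Additive.ofMul γ) : ℤ) : ℂ) = 0
    rw [hψpar γ hγ, Int.cast_zero]
  rw [← (Fermat.Agent.S21.result p).2] at hpar
  obtain ⟨⟨f, g⟩, hfg⟩ := hpar
  obtain ⟨θ, h1, h2⟩ := good_all p r χ (eisensteinSystem p) hχ P
  have e1 := h1 ψ f g hfg.symm
  rw [hP] at e1
  have e1' : (Int.castAddHom ℂ).comp (θ ψ) = 0 := by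
    rw [e1]
    exact map_zero _
  have hθ : θ ψ = 0 := by
    refine AddMonoidHom.ext fun γ => ?_
    have := DFunLike.congr_fun e1' γ
    exact Int.cast_injective (α := ℂ) (by simpa using this)
  have e2 := h2 ψ 1 hrψ
  rw [hθ, one_mul] at e2
  obtain ⟨u, hu⟩ := hπ 1
  obtain ⟨γ, hγ⟩ := exists_Gamma0_toHomUnits p (Additive.toMul u)
  have e3 := DFunLike.congr_fun e2 (Additive.ofMul γ)
  rw [AddMonoidHom.zsmul_apply, hχdef, shimuraHom_apply, hγ] at e3
  have e4 : π (Additive.ofMul (Additive.toMul u)) = 1 := hu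
  rw [e4] at e3
  rw [← ZMod.intCast_zmod_eq_zero_iff_dvd]
  simpa using e3.symm

end Fermat.Agent.S16.HH
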