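import Mathlib

set_option autoImplicit false

open UpperHalfPlane CongruenceSubgroup
open scoped MatrixGroups

namespace Fermat.Agent.S16.Psi0

/-- Indicator of the right half of the upper half plane. -/
noncomputable def chi (z : ℍ) : ℤ := if 0 < z.re then 1 else 0

/-- The quadratic form whose sign is the sign of `Re (g z)`. -/
def Qf (a b c d x y : ℝ) : ℝ := (a * x + b) * (c * x + d) + a * c * y ^ 2

lemma re_smul_pos_iff (g : SL(2, ℤ)) (z : ℍ) :
    0 < (g • z).re ↔ 0 < Qf (g 0 0) (g 0 1) (g 1 0) (g 1 1) z.re z.im := by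
  have hden : ((g 1 0 : ℤ) : ℂ) * z + ((g 1 1 : ℤ) : ℂ) ≠ 0 := by
    have := UpperHalfPlane.denom_ne_zero (g : GL (Fin 2) ℝ) z
    simpa [UpperHalfPlane.denom] using this
  have hpos : 0 < Complex.normSq (((g 1 0 : ℤ) : ℂ) * z + ((g 1 1 : ℤ) : ℂ)) :=
    Complex.normSq_pos.mpr hden
  have h1 : (g • z).re = Qf (g 0 0) (g 0 1) (g 1 0) (g 1 1) z.re z.im /
      Complex.normSq (((g 1 0 : ℤ) : ℂ) * z + ((g 1 1 : ℤ) : ℂ)) := by
    have h2 : ((g • z : ℍ) : ℂ) = (((g 0 0 : ℤ) : ℂ) * z + ((g 0 1 : ℤ) : ℂ)) /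
        (((g 1 0 : ℤ) : ℂ) * z + ((g 1 1 : ℤ) : ℂ)) := by
      rw [coe_specialLinearGroup_apply]
      simp
    have h3 : (g • z).re = ((g • z : ℍ) : ℂ).re := rfl
    rw [h3, h2, Complex.div_re, ← add_div]
    congr 1
    simp [Qf]
    ring
  rw [h1]
  constructor
  · intro h
    by_contra hn
    have := div_nonpos_of_nonpos_of_nonneg (not_lt.mp hn) hpos.le
    linarith
  · intro h
    exact div_pos h hpos

lemma chi_smul (g : SL(2, ℤ)) (z : ℍ) :
    chi (g • z) = if 0 < Qf (g 0 0) (g 0 1) (g 1 0) (g 1 1) z.re z.im then 1 else 0 := by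
  unfold chi
  simp only [re_smul_pos_iff]

lemma finite_bounded (B : ℝ) : {g : SL(2, ℤ) | ∀ i j, ((g i j : ℤ) : ℝ) ^ 2 ≤ B}.Finite := by
  have hs : {n : ℤ | ((n : ℤ) : ℝ) ^ 2 ≤ B}.Finite := by
    apply (Set.finite_Icc (-⌊B⌋) ⌊B⌋).subset
    intro n hn
    have hn' : ((n ^ 2 : ℤ) : ℝ) ≤ B := by push_cast; exact hn
    have h1 : n ^ 2 ≤ ⌊B⌋ := Int.le_floor.mpr hn'
    have h2 := Int.le_self_sq n
    have h3 := Int.le_self_sq (-n)
    rw [neg_sq] at h3
    constructor <;> linarith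
  have hm : {M : Matrix (Fin 2) (Fin 2) ℤ | ∀ i j, ((M i j : ℤ) : ℝ) ^ 2 ≤ B}.Finite := by
    have := Set.Finite.pi (fun _ : Fin 2 => Set.Finite.pi (fun _ : Fin 2 => hs))
    refine this.subset ?_
    intro M hM i _ j _
    exact hM i j
  exact hm.preimage (Subtype.val_injective.injOn)


/-- auxiliary: lower bound for `(c x + d)^2 + c^2 y^2`. -/
lemma one_le_aux {c d : ℤ} (hcd : c ≠ 0 ∨ d ≠ 0) {x y m : ℝ} (hm : 0 < m) (hmy : m ≤ y) :
    1 ≤ (((c : ℝ) * x + d) ^ 2 + (c : ℝ) ^ 2 * y ^ 2) * (1 / m ^ 2 + 1) := by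
  have hm2 : 0 < m ^ 2 := by positivity
  have hy2 : m ^ 2 ≤ y ^ 2 := by nlinarith
  by_cases hc : c = 0
  · have hd : d ≠ 0 := by
      rcases hcd with h | h
      · exact absurd hc h
      · exact h
    have hd1 : (1 : ℝ) ≤ (d : ℝ) ^ 2 := by
      have : (1 : ℤ) ≤ d ^ 2 := by
        have := Int.one_le_abs hd
        nlinarith [sq_abs d, abs_nonneg d]
      exact_mod_cast this
    subst hc
    have h1 : 0 ≤ 1 / m ^ 2 := by positivity
    simp only [Int.cast_zero, zero_mul, zero_add, ne_eq, OfNat.ofNat_ne_zero, not_false_eq_true,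
      zero_pow, add_zero]
    nlinarith
  · have hc1 : (1 : ℝ) ≤ (c : ℝ) ^ 2 := by
      have : (1 : ℤ) ≤ c ^ 2 := by
        have := Int.one_le_abs hc
        nlinarith [sq_abs c, abs_nonneg c]
      exact_mod_cast this
    have h2 : m ^ 2 ≤ ((c : ℝ) * x + d) ^ 2 + (c : ℝ) ^ 2 * y ^ 2 := by
      nlinarith [sq_nonneg ((c : ℝ) * x + d)]
    have h3 : (1 : ℝ) ≤ (((c : ℝ) * x + d) ^ 2 + (c : ℝ) ^ 2 * y ^ 2) * (1 / m ^ 2) := by
      rw [mul_one_div, le_div_iff₀ hm2]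
      linarith
    nlinarith [sq_nonneg ((c : ℝ) * x + d), mul_nonneg (sq_nonneg (c : ℝ)) (sq_nonneg y)]

/-- The bound for the entries. -/
noncomputable def Bd (m X Y : ℝ) : ℝ :=
  2 * (Y ^ 2 * (1 / m ^ 2 + 1)) + 2 * (Y ^ 2 * (1 / m ^ 2 + 1) / m ^ 2) * X ^ 2 +
    Y ^ 2 * (1 / m ^ 2 + 1) / m ^ 2

lemma entry_bound_aux {a b : ℤ} {x y m X K : ℝ} (hm : 0 < m) (hmy : m ≤ y) (hx : |x| ≤ X)
    (hK : ((a : ℝ) * x + b) ^ 2 + (a : ℝ) ^ 2 * y ^ 2 ≤ K) :
    (a : ℝ) ^ 2 ≤ 2 * K + 2 * (K / m ^ 2) * X ^ 2 + K / m ^ 2 ∧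
    (b : ℝ) ^ 2 ≤ 2 * K + 2 * (K / m ^ 2) * X ^ 2 + K / m ^ 2 := by
  have hm2 : 0 < m ^ 2 := by positivity
  have hy2 : m ^ 2 ≤ y ^ 2 := by nlinarith
  have hK0 : 0 ≤ K := le_trans (by positivity) hK
  have ha : (a : ℝ) ^ 2 ≤ K / m ^ 2 := by
    rw [le_div_iff₀ hm2]
    nlinarith [sq_nonneg ((a : ℝ) * x + b), sq_nonneg (a : ℝ)]
  have hx2 : x ^ 2 ≤ X ^ 2 := by
    have := abs_nonneg x
    nlinarith [sq_abs x]
  have hKm : 0 ≤ K / m ^ 2 := by positivity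
  have hA : ((a : ℝ) * x + b) ^ 2 ≤ K := by nlinarith [mul_nonneg (sq_nonneg (a : ℝ)) (sq_nonneg y)]
  have hax : ((a : ℝ) * x) ^ 2 ≤ (K / m ^ 2) * X ^ 2 := by
    rw [mul_pow]
    exact mul_le_mul ha hx2 (sq_nonneg x) hKm
  constructor
  · nlinarith [sq_nonneg X]
  · nlinarith [sq_nonneg ((a : ℝ) * x + b + (a : ℝ) * x), sq_nonneg X]

lemma bound_of_zero {a b c d : ℤ} (hdet : a * d - b * c = 1) {x y m X Y : ℝ} (hm : 0 < m)
    (hmy : m ≤ y) (hyY : y ≤ Y) (hx : |x| ≤ X) (hQ : Qf a b c d x y = 0) :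
    (a : ℝ) ^ 2 ≤ Bd m X Y ∧ (b : ℝ) ^ 2 ≤ Bd m X Y ∧ (c : ℝ) ^ 2 ≤ Bd m X Y ∧
      (d : ℝ) ^ 2 ≤ Bd m X Y := by
  have hdetR : (a : ℝ) * d - b * c = 1 := by exact_mod_cast hdet
  set P : ℝ := ((a : ℝ) * x + b) ^ 2 + (a : ℝ) ^ 2 * y ^ 2 with hP
  set R : ℝ := ((c : ℝ) * x + d) ^ 2 + (c : ℝ) ^ 2 * y ^ 2 with hR
  have hPR : P * R = y ^ 2 := by
    have h1 : P * R = (Qf a b c d x y) ^ 2 + y ^ 2 * ((a : ℝ) * d - b * c) ^ 2 := by
      simp only [hP, hR, Qf]; ring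
    rw [h1, hQ, hdetR]; ring
  have hcd : c ≠ 0 ∨ d ≠ 0 := by
    by_contra h
    push Not at h
    rw [h.1, h.2] at hdet
    simp at hdet
  have hab : a ≠ 0 ∨ b ≠ 0 := by
    by_contra h
    push Not at h
    rw [h.1, h.2] at hdet
    simp at hdet
  have hR1 : 1 ≤ R * (1 / m ^ 2 + 1) := one_le_aux hcd hm hmy
  have hP1 : 1 ≤ P * (1 / m ^ 2 + 1) := one_le_aux hab hm hmy
  have hP0 : 0 ≤ P := by positivity
  have hR0 : 0 ≤ R := by positivity
  have hy0 : 0 < y := lt_of_lt_of_le hm hmy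
  have hyY2 : y ^ 2 ≤ Y ^ 2 := by nlinarith
  have hk : 0 ≤ 1 / m ^ 2 + 1 := by positivity
  have hPK : P ≤ Y ^ 2 * (1 / m ^ 2 + 1) := by
    calc P = P * 1 := (mul_one P).symm
      _ ≤ P * (R * (1 / m ^ 2 + 1)) := mul_le_mul_of_nonneg_left hR1 hP0
      _ = y ^ 2 * (1 / m ^ 2 + 1) := by rw [← mul_assoc, hPR]
      _ ≤ Y ^ 2 * (1 / m ^ 2 + 1) := mul_le_mul_of_nonneg_right hyY2 hk
  have hRK : R ≤ Y ^ 2 * (1 / m ^ 2 + 1) := by
    calc R = R * 1 := (mul_one R).symm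
      _ ≤ R * (P * (1 / m ^ 2 + 1)) := mul_le_mul_of_nonneg_left hP1 hR0
      _ = y ^ 2 * (1 / m ^ 2 + 1) := by rw [← mul_assoc, mul_comm R P, hPR]
      _ ≤ Y ^ 2 * (1 / m ^ 2 + 1) := mul_le_mul_of_nonneg_right hyY2 hk
  obtain ⟨h1, h2⟩ := entry_bound_aux hm hmy hx hPK
  obtain ⟨h3, h4⟩ := entry_bound_aux hm hmy hx hRK
  exact ⟨h1, h2, h3, h4⟩


lemma det_entries (g : SL(2, ℤ)) : g 0 0 * g 1 1 - g 0 1 * g 1 0 = 1 := by
  have := g.det_coe
  rw [Matrix.det_fin_two] at this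
  exact this

/-- Only finitely many translates of the imaginary axis separate two given points. -/
lemma finite_sep (z w : ℍ) : {g : SL(2, ℤ) | chi (g • z) ≠ chi (g • w)}.Finite := by
  set m : ℝ := min z.im w.im with hm
  set Y : ℝ := max z.im w.im with hY
  set X : ℝ := max |z.re| |w.re| with hX
  have hm0 : 0 < m := lt_min z.im_pos w.im_pos
  refine (finite_bounded (Bd m X Y)).subset ?_
  intro g hg
  simp only [Set.mem_ofPred_eq, chi_smul] at hg
  set a := g 0 0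
  set b := g 0 1
  set c := g 1 0
  set d := g 1 1
  let xx : ℝ → ℝ := fun t => z.re + t * (w.re - z.re)
  let yy : ℝ → ℝ := fun t => z.im + t * (w.im - z.im)
  let f : ℝ → ℝ := fun t => Qf a b c d (xx t) (yy t)
  have hf : Continuous f := by
    simp only [f, xx, yy, Qf]
    fun_prop
  have hf0 : f 0 = Qf a b c d z.re z.im := by simp [f, xx, yy]
  have hf1 : f 1 = Qf a b c d w.re w.im := by simp [f, xx, yy]
  have hex : ∃ t ∈ Set.Icc (0 : ℝ) 1, f t = 0 := by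
    by_cases h0 : 0 < Qf a b c d z.re z.im
    · by_cases h1 : 0 < Qf a b c d w.re w.im
      · simp [h0, h1] at hg
      · have := intermediate_value_Icc' (zero_le_one' ℝ) hf.continuousOn
        have h2 : (0 : ℝ) ∈ Set.Icc (f 1) (f 0) := ⟨by rw [hf1]; exact not_lt.mp h1, by rw [hf0]; exact h0.le⟩
        obtain ⟨t, ht, hft⟩ := this h2
        exact ⟨t, ht, hft⟩
    · by_cases h1 : 0 < Qf a b c d w.re w.im
      · have := intermediate_value_Icc (zero_le_one' ℝ) hf.continuousOn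
        have h2 : (0 : ℝ) ∈ Set.Icc (f 0) (f 1) := ⟨by rw [hf0]; exact not_lt.mp h0, by rw [hf1]; exact h1.le⟩
        obtain ⟨t, ht, hft⟩ := this h2
        exact ⟨t, ht, hft⟩
      · simp [h0, h1] at hg
  obtain ⟨t, ⟨ht0, ht1⟩, hft⟩ := hex
  have hy1 : m ≤ yy t := by
    have h1 : m ≤ z.im := min_le_left _ _
    have h2 : m ≤ w.im := min_le_right _ _
    have : yy t = (1 - t) * z.im + t * w.im := by simp only [yy]; ring
    rw [this]
    nlinarith
  have hy2 : yy t ≤ Y := by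
    have h1 : z.im ≤ Y := le_max_left _ _
    have h2 : w.im ≤ Y := le_max_right _ _
    have : yy t = (1 - t) * z.im + t * w.im := by simp only [yy]; ring
    rw [this]
    nlinarith
  have hx1 : |xx t| ≤ X := by
    have h1 : |z.re| ≤ X := le_max_left _ _
    have h2 : |w.re| ≤ X := le_max_right _ _
    have : xx t = (1 - t) * z.re + t * w.re := by simp only [xx]; ring
    rw [this, abs_le]
    have h3 := abs_le.mp h1
    have h4 := abs_le.mp h2
    constructor <;> nlinarith [h3.1, h3.2, h4.1, h4.2]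
  obtain ⟨h1, h2, h3, h4⟩ := bound_of_zero (det_entries g) hm0 hy1 hy2 hx1 hft
  intro i j
  fin_cases i <;> fin_cases j
  · exact h1
  · exact h2
  · exact h3
  · exact h4


section count

variable (Γ : Subgroup SL(2, ℤ))

/-- contribution of the translate by `δ`. -/
noncomputable def term (z w : ℍ) (δ : Γ) : ℤ :=
  chi ((δ : SL(2, ℤ)) • w) - chi ((δ : SL(2, ℤ)) • z)

lemma term_support_finite (z w : ℍ) : (Function.support (term Γ z w)).Finite := by
  have h := (finite_sep z w).preimage (f := fun δ : Γ => (δ : SL(2, ℤ)))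
    (Subtype.val_injective.injOn)
  refine h.subset ?_
  intro δ hδ
  simp only [Function.mem_support, term] at hδ
  simp only [Set.mem_preimage, Set.mem_ofPred_eq]
  intro h2
  apply hδ
  rw [h2, sub_self]

/-- signed number of translates separating `z` and `w`. -/
noncomputable def cnt (z w : ℍ) : ℤ := ∑ᶠ δ : Γ, term Γ z w δ

lemma cnt_add (z w u : ℍ) : cnt Γ z u = cnt Γ z w + cnt Γ w u := by
  unfold cnt
  rw [← finsum_add_distrib (term_support_finite Γ z w) (term_support_finite Γ w u)]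
  congr 1
  funext δ
  simp only [term]
  ring

lemma cnt_smul (γ : Γ) (z w : ℍ) :
    cnt Γ ((γ : SL(2, ℤ)) • z) ((γ : SL(2, ℤ)) • w) = cnt Γ z w := by
  unfold cnt
  rw [← finsum_comp_equiv (Equiv.mulRight γ) (f := term Γ z w)]
  congr 1
  funext δ
  simp only [term, Equiv.coe_mulRight, Subgroup.coe_mul, mul_smul]

lemma even_cnt (hneg : (-1 : SL(2, ℤ)) ∈ Γ) (z w : ℍ) : (2 : ℤ) ∣ cnt Γ z w := by
  have key : ((cnt Γ z w : ℤ) : ZMod 2) = 0 := ?_
  · exact_mod_cast (ZMod.intCast_zmod_eq_zero_iff_dvd (cnt Γ z w) 2).mp key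
  unfold cnt
  rw [finsum_eq_sum _ (term_support_finite Γ z w), Int.cast_sum]
  let ε : Γ := ⟨-1, hneg⟩
  have hε : ∀ δ : Γ, term Γ z w (ε * δ) = term Γ z w δ := by
    intro δ
    simp only [term, Subgroup.coe_mul, ε]
    simp only [neg_mul, one_mul]
    rw [ModularGroup.SL_neg_smul, ModularGroup.SL_neg_smul]
  have hε1 : ε ≠ 1 := by
    intro h
    have h2 : (-1 : SL(2, ℤ)) = 1 := congrArg Subtype.val h
    have h3 := congrArg (fun g : SL(2, ℤ) => g 0 0) h2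
    simp at h3
  have hεε : ε * ε = 1 := by
    apply Subtype.ext
    simp [ε]
  refine Finset.sum_involution (fun δ _ => ε * δ) ?_ ?_ ?_ ?_
  · intro δ _
    rw [hε δ]
    have : ∀ x : ZMod 2, x + x = 0 := by decide
    exact this _
  · intro δ _ _ h
    exact hε1 (mul_eq_right.mp h)
  · intro δ hδ
    simp only [Set.Finite.mem_toFinset, Function.mem_support] at hδ ⊢
    rw [hε δ]
    exact hδ
  · intro δ _
    rw [← mul_assoc, hεε, one_mul]

variable (z₀ : ℍ)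

/-- twice the wanted homomorphism -/
noncomputable def psi2 (γ : Γ) : ℤ := cnt Γ z₀ ((γ : SL(2, ℤ)) • z₀)

lemma psi2_mul (γ γ' : Γ) : psi2 Γ z₀ (γ * γ') = psi2 Γ z₀ γ + psi2 Γ z₀ γ' := by
  unfold psi2
  rw [cnt_add Γ z₀ ((γ : SL(2, ℤ)) • z₀), Subgroup.coe_mul, mul_smul, cnt_smul]

/-- the homomorphism -/
noncomputable def psi0 (hneg : (-1 : SL(2, ℤ)) ∈ Γ) : Additive Γ →+ ℤ :=
  AddMonoidHom.mk' (fun γ => psi2 Γ z₀ (Additive.toMul γ) / 2) (by
    intro γ γ'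
    show psi2 Γ z₀ (Additive.toMul γ * Additive.toMul γ') / 2 = _
    rw [psi2_mul]
    exact Int.add_ediv_of_dvd_left (even_cnt Γ hneg _ _))

lemma psi0_apply (hneg : (-1 : SL(2, ℤ)) ∈ Γ) (γ : Γ) :
    psi0 Γ z₀ hneg (Additive.ofMul γ) = psi2 Γ z₀ γ / 2 := rfl

end count


section Tvalue

lemma Qf_pos_iff_aux {a b c d : ℤ} (hdet : a * d - b * c = 1) (ha : a ≠ 0) (hc : c ≠ 0) :
    (0 < Qf a b c d (1 / 2) 1 ↔ 0 < ((a * c : ℤ) : ℝ)) ∧
    (0 < Qf a b c d (-1 / 2) 1 ↔ 0 < ((a * c : ℤ) : ℝ)) := by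
  have hdetR : (a : ℝ) * d - b * c = 1 := by exact_mod_cast hdet
  have hac : (1 : ℝ) ≤ ((a : ℝ) * c) ^ 2 := by
    have h1 : a * c ≠ 0 := mul_ne_zero ha hc
    have : (1 : ℤ) ≤ (a * c) ^ 2 := by
      have := Int.one_le_abs h1
      nlinarith [sq_abs (a * c), abs_nonneg (a * c)]
    exact_mod_cast this
  have h1 : Qf a b c d (1 / 2) 1 * ((a : ℝ) * c) =
      ((((c : ℝ) + 2 * d) * a - 1) ^ 2 - 1 + 4 * ((a : ℝ) * c) ^ 2) / 4 := by
    simp only [Qf]
    linear_combination (-(((c : ℝ) + 2 * d) * a) / 2) * hdetR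
  have h2 : Qf a b c d (-1 / 2) 1 * ((a : ℝ) * c) =
      (((-(c : ℝ) + 2 * d) * a - 1) ^ 2 - 1 + 4 * ((a : ℝ) * c) ^ 2) / 4 := by
    simp only [Qf]
    linear_combination (-((-(c : ℝ) + 2 * d) * a) / 2) * hdetR
  have p1 : 0 < Qf a b c d (1 / 2) 1 * ((a : ℝ) * c) := by
    rw [h1]; nlinarith [sq_nonneg ((((c : ℝ) + 2 * d) * a - 1))]
  have p2 : 0 < Qf a b c d (-1 / 2) 1 * ((a : ℝ) * c) := by
    rw [h2]; nlinarith [sq_nonneg (((-(c : ℝ) + 2 * d) * a - 1))]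
  push_cast
  constructor
  · constructor
    · intro h; exact (pos_iff_pos_of_mul_pos p1).mp h
    · intro h; exact (pos_iff_pos_of_mul_pos p1).mpr h
  · constructor
    · intro h; exact (pos_iff_pos_of_mul_pos p2).mp h
    · intro h; exact (pos_iff_pos_of_mul_pos p2).mpr h

lemma term_value {a b c d : ℤ} (hdet : a * d - b * c = 1) {N : ℕ} (hN : 2 ≤ N)
    (hc : (N : ℤ) ∣ c) :
    (if 0 < Qf a b c d (1 / 2) 1 then (1 : ℤ) else 0) -
      (if 0 < Qf a b c d (-1 / 2) 1 then (1 : ℤ) else 0) = if c = 0 ∧ b = 0 then 1 else 0 := by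
  by_cases hc0 : c = 0
  · subst hc0
    have had : a * d = 1 := by simpa using hdet
    have hadR : (a : ℝ) * d = 1 := by exact_mod_cast had
    have hd0 : d ≠ 0 := by
      rintro rfl
      simp at had
    have e1 : Qf a b (0 : ℤ) d (1 / 2) 1 = 1 / 2 + ((b * d : ℤ) : ℝ) := by
      simp only [Qf]; push_cast; linear_combination (1 / 2 : ℝ) * hadR
    have e2 : Qf a b (0 : ℤ) d (-1 / 2) 1 = -1 / 2 + ((b * d : ℤ) : ℝ) := by
      simp only [Qf]; push_cast; linear_combination (-1 / 2 : ℝ) * hadR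
    rw [e1, e2]
    by_cases hb : b = 0
    · subst hb
      norm_num
    · have hk : b * d ≠ 0 := mul_ne_zero hb hd0
      simp only [true_and, hb, if_false]
      rcases lt_or_gt_of_ne hk with h | h
      · have h' : ((b * d : ℤ) : ℝ) ≤ -1 := by exact_mod_cast Int.le_sub_one_of_lt h
        rw [if_neg (by linarith), if_neg (by linarith)]
        norm_num
      · have h' : (1 : ℝ) ≤ ((b * d : ℤ) : ℝ) := by exact_mod_cast h
        rw [if_pos (by linarith), if_pos (by linarith)]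
        norm_num
  · have ha : a ≠ 0 := by
      rintro rfl
      obtain ⟨k, rfl⟩ := hc
      have h1 : (N : ℤ) ∣ 1 := ⟨-(b * k), by linarith⟩
      have h2 := Int.le_of_dvd one_pos h1
      have : (2 : ℤ) ≤ N := by exact_mod_cast hN
      linarith
    obtain ⟨h1, h2⟩ := Qf_pos_iff_aux hdet ha hc0
    simp only [h1, h2, hc0, false_and, if_false, sub_self]

/-- base point -/
noncomputable def zb : ℍ := ⟨⟨-1 / 2, 1⟩, by simp⟩

lemma zb_re : zb.re = -1 / 2 := rfl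
lemma zb_im : zb.im = 1 := rfl

lemma T_mem (N : ℕ) : ModularGroup.T ∈ Gamma0 N := by
  rw [Gamma0_mem]
  simp [ModularGroup.T]

lemma neg_one_mem (N : ℕ) : (-1 : SL(2, ℤ)) ∈ Gamma0 N := by
  rw [Gamma0_mem]
  simp

lemma psi2_T {N : ℕ} (hN : 2 ≤ N) : psi2 (Gamma0 N) zb ⟨ModularGroup.T, T_mem N⟩ = 2 := by
  unfold psi2 cnt
  let ε : Gamma0 N := ⟨-1, neg_one_mem N⟩
  have hre : (ModularGroup.T • zb).re = 1 / 2 := by
    rw [UpperHalfPlane.modular_T_smul, UpperHalfPlane.vadd_re, zb_re]; norm_num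
  have him : (ModularGroup.T • zb).im = 1 := by
    rw [UpperHalfPlane.modular_T_smul, UpperHalfPlane.vadd_im, zb_im]
  have hterm : ∀ δ : Gamma0 N, term (Gamma0 N) zb (ModularGroup.T • zb) δ =
      if (δ : SL(2, ℤ)) 1 0 = 0 ∧ (δ : SL(2, ℤ)) 0 1 = 0 then 1 else 0 := by
    intro δ
    simp only [term, chi_smul, hre, him, zb_re, zb_im]
    apply term_value (det_entries _) hN
    exact (ZMod.intCast_zmod_eq_zero_iff_dvd _ _).mp (Gamma0_mem.mp δ.2)
  have hε1 : (1 : Gamma0 N) ≠ ε := by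
    intro h
    have h2 : (1 : SL(2, ℤ)) = -1 := congrArg Subtype.val h
    have h3 := congrArg (fun g : SL(2, ℤ) => g 0 0) h2
    simp at h3
  have hsupp : Function.support (term (Gamma0 N) zb (ModularGroup.T • zb)) ⊆
      (({1, ε} : Finset (Gamma0 N)) : Set (Gamma0 N)) := by
    intro δ hδ
    rw [Function.mem_support, hterm] at hδ
    have h : (δ : SL(2, ℤ)) 1 0 = 0 ∧ (δ : SL(2, ℤ)) 0 1 = 0 := by
      by_contra h
      exact hδ (if_neg h)
    have hdet := det_entries (δ : SL(2, ℤ))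
    rw [h.1, h.2] at hdet
    have had : (δ : SL(2, ℤ)) 0 0 * (δ : SL(2, ℤ)) 1 1 = 1 := by simpa using hdet
    simp only [Finset.coe_insert, Finset.coe_singleton, Set.mem_insert_iff, Set.mem_singleton_iff]
    rcases Int.eq_one_or_neg_one_of_mul_eq_one' had with ⟨h1, h2⟩ | ⟨h1, h2⟩
    · left
      apply Subtype.ext
      ext i j
      fin_cases i <;> fin_cases j <;> simp [h1, h2, h.1, h.2]
    · right
      apply Subtype.ext
      ext i j
      fin_cases i <;> fin_cases j <;> simp [ε, h1, h2, h.1, h.2]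
  rw [finsum_eq_sum_of_support_subset _ hsupp, Finset.sum_pair hε1, hterm, hterm]
  simp [ε]

/-- **Main result**: `T` is primitive in the abelianisation of `Γ₀(N)` modulo torsion. -/
theorem exists_hom_T {N : ℕ} (hN : 2 ≤ N) :
    ∃ ψ : Additive (Gamma0 N) →+ ℤ,
      ψ (Additive.ofMul (⟨ModularGroup.T, T_mem N⟩ : Gamma0 N)) = 1 := by
  refine ⟨psi0 (Gamma0 N) zb (neg_one_mem N), ?_⟩
  rw [psi0_apply, psi2_T hN]
  norm_num

end Tvalue

end Fermat.Agent.S16.Psi0
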