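import Fermat.Agent.S16.Interface

/-! # S16: recursion for `σ'` -/

set_option autoImplicit false

namespace Fermat.Agent.S16

lemma sigmaP_eq_sum (p k : ℕ) :
    sigmaP p k = ∑ d ∈ k.divisors, (if p ∣ d then (0 : ℤ) else (d : ℤ)) := by
  unfold sigmaP
  rw [Finset.sum_filter]
  refine Finset.sum_congr rfl fun d _ => ?_
  by_cases h : p ∣ d <;> simp [h]

lemma sigmaP_one (p : ℕ) (hp : p.Prime) : sigmaP p 1 = 1 := by
  rw [sigmaP_eq_sum]
  simp [hp.one_lt.ne']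

/-- General divisor sum recursion. -/
lemma sum_divisors_prime_mul {ℓ k : ℕ} (hℓ : ℓ.Prime) (hk : k ≠ 0) (g : ℕ → ℤ) :
    ∑ d ∈ (ℓ * k).divisors, g d =
      ∑ d ∈ k.divisors, g d + ∑ d ∈ k.divisors, g (ℓ * d)
        - (if ℓ ∣ k then ∑ d ∈ (k / ℓ).divisors, g (ℓ * d) else 0) := by
  classical
  have hinj : Function.Injective (fun d : ℕ => ℓ * d) := fun a b h =>
    Nat.eq_of_mul_eq_mul_left hℓ.pos h
  have h1 : (ℓ * k).divisors = k.divisors ∪ k.divisors.image (fun d => ℓ * d) := by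
    ext d
    simp only [Nat.mem_divisors, Finset.mem_union, Finset.mem_image]
    constructor
    · rintro ⟨hd, -⟩
      by_cases hl : ℓ ∣ d
      · obtain ⟨e, rfl⟩ := hl
        exact Or.inr ⟨e, ⟨Nat.dvd_of_mul_dvd_mul_left hℓ.pos hd, hk⟩, rfl⟩
      · have hc : Nat.Coprime d ℓ := ((Nat.Prime.coprime_iff_not_dvd hℓ).mpr hl).symm
        exact Or.inl ⟨hc.dvd_of_dvd_mul_left hd, hk⟩
    · rintro (⟨hd, -⟩ | ⟨e, ⟨he, -⟩, rfl⟩)
      · exact ⟨Dvd.dvd.mul_left hd ℓ, mul_ne_zero hℓ.ne_zero hk⟩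
      · exact ⟨Nat.mul_dvd_mul_left ℓ he, mul_ne_zero hℓ.ne_zero hk⟩
  have h2 : k.divisors ∩ k.divisors.image (fun d => ℓ * d) =
      (if ℓ ∣ k then (k / ℓ).divisors.image (fun d => ℓ * d) else ∅) := by
    ext d
    split_ifs with hl
    · obtain ⟨k', rfl⟩ := hl
      have hk' : k' ≠ 0 := fun h => hk (by simp [h])
      rw [Nat.mul_div_cancel_left _ hℓ.pos]
      simp only [Finset.mem_inter, Nat.mem_divisors, Finset.mem_image]
      constructor
      · rintro ⟨⟨hd, -⟩, e, -, rfl⟩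
        exact ⟨e, ⟨Nat.dvd_of_mul_dvd_mul_left hℓ.pos hd, hk'⟩, rfl⟩
      · rintro ⟨e, ⟨he, -⟩, rfl⟩
        exact ⟨⟨Nat.mul_dvd_mul_left ℓ he, hk⟩, e, ⟨Dvd.dvd.mul_left he ℓ, hk⟩, rfl⟩
    · simp only [Finset.mem_inter, Nat.mem_divisors, Finset.mem_image, Finset.notMem_empty,
        iff_false]
      rintro ⟨⟨hd, -⟩, e, -, rfl⟩
      exact hl ((Dvd.intro _ rfl).trans hd)
  have h3 := Finset.sum_union_inter (s₁ := k.divisors)
    (s₂ := k.divisors.image (fun d => ℓ * d)) (f := g)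
  rw [← h1, h2, Finset.sum_image (fun a _ b _ h => hinj h)] at h3
  have h4 : ∑ d ∈ (if ℓ ∣ k then (k / ℓ).divisors.image (fun d => ℓ * d) else ∅), g d =
      (if ℓ ∣ k then ∑ d ∈ (k / ℓ).divisors, g (ℓ * d) else 0) := by
    split_ifs
    · rw [Finset.sum_image (fun a _ b _ h => hinj h)]
    · simp
  rw [h4] at h3
  linarith

lemma sigmaP_prime_mul {p ℓ k : ℕ} (hp : p.Prime) (hℓ : ℓ.Prime) (hne : ℓ ≠ p) (hk : k ≠ 0) :
    sigmaP p (ℓ * k) = (1 + (ℓ : ℤ)) * sigmaP p k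
      - (ℓ : ℤ) * (if ℓ ∣ k then sigmaP p (k / ℓ) else 0) := by
  have hg : ∀ d : ℕ, (if p ∣ ℓ * d then (0 : ℤ) else ((ℓ * d : ℕ) : ℤ)) =
      (ℓ : ℤ) * (if p ∣ d then (0 : ℤ) else (d : ℤ)) := by
    intro d
    have : p ∣ ℓ * d ↔ p ∣ d := by
      constructor
      · intro h
        rcases (Nat.Prime.dvd_mul hp).mp h with h | h
        · exact absurd ((Nat.prime_dvd_prime_iff_eq hp hℓ).mp h).symm hne
        · exact h
      · exact fun h => Dvd.dvd.mul_left h ℓ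
    by_cases h : p ∣ d <;> simp [this, h]
  simp only [sigmaP_eq_sum]
  rw [sum_divisors_prime_mul hℓ hk]
  simp only [hg, ← Finset.mul_sum]
  split_ifs <;> ring

lemma sigmaP_self_mul {p k : ℕ} (hp : p.Prime) (hk : k ≠ 0) :
    sigmaP p (p * k) = sigmaP p k := by
  simp only [sigmaP_eq_sum]
  rw [sum_divisors_prime_mul hp hk]
  simp

end Fermat.Agent.S16
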