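import Mathlib
import Fermat.Agent.S16.PartA
import Fermat.Agent.S16.ShimuraLift
import Fermat.Agent.S16.Interface

/-!
# `Stmt_A p` : part (A) of S16
-/

set_option autoImplicit false

namespace Fermat.Agent.S16.HH

theorem stmt_parabolic_lift : Stmt_parabolic_lift :=
  fun p _ chi0 => Fermat.Agent.S16.exists_parabolic_lift p chi0

/-- Part (A) of S16. -/
theorem stmt_A (p : ℕ) [Fact p.Prime] : Fermat.Agent.S16.Stmt_A p :=
  fun P hP => partA stmt_parabolic_lift p P hP

end Fermat.Agent.S16.HH
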