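import Fermat.Agent.Common.QExpDelta
import Fermat.Agent.QInt.LevelOne

/-!
# S16 (STURM1): level one Sturm bound modulo an arbitrary additive subgroup of `ℂ`

If `F` is a level one modular form of weight `k` whose `q`-coefficients `a_n`, `12 n ≤ k`, lie in an
additive subgroup `A` of `ℂ`, then all its coefficients lie in `A`.
-/

set_option autoImplicit false

open UpperHalfPlane ModularForm EisensteinSeries
open scoped MatrixGroups Manifold

namespace Fermat.Agent.S16

open Fermat.Agent.QInt.LevelOne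

/-- Multiplying by an integral series preserves "the first `N` coefficients lie in `A`". -/
theorem SO_coeff_int_mul_mem (A : AddSubgroup ℂ) {P : PowerSeries ℂ} (hP : IsIntPS P)
    (h : PowerSeries ℂ) (N : ℕ) (hh : ∀ n ≤ N, h.coeff n ∈ A) :
    ∀ n ≤ N, (P * h).coeff n ∈ A := by
  intro n hn
  rw [PowerSeries.coeff_mul]
  refine A.sum_mem fun ij hij => ?_
  obtain ⟨m, hm⟩ := hP ij.1
  rw [hm, ← zsmul_eq_mul]
  refine A.zsmul_mem (hh _ ?_) m
  have := Finset.HasAntidiagonal.mem_antidiagonal.mp hij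
  omega

theorem SO_isIntPS_map (u : PowerSeries ℤ) : IsIntPS (u.map (Int.castRingHom ℂ)) :=
  fun n => ⟨u.coeff n, by simp⟩

/-- The monomial form `E₄ ^ a * E₆ ^ b`. -/
noncomputable def SO_mono (a b : ℕ) : ModularForm 𝒮ℒ ((a : ℤ) * 4 + (b : ℤ) * 6) :=
  (E₄.pow a).mul (E₆.pow b)

theorem SO_mono_qExpansion (a b : ℕ) :
    qExpansion 1 (SO_mono a b) = qExpansion 1 E₄ ^ a * qExpansion 1 E₆ ^ b := by
  rw [SO_mono, ModularForm.qExpansion_mul one_pos one_mem_strictPeriods_SL,
    ModularForm.qExpansion_pow one_pos one_mem_strictPeriods_SL,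
    ModularForm.qExpansion_pow one_pos one_mem_strictPeriods_SL]

theorem SO_mono_isInt (a b : ℕ) : IsIntPS (qExpansion 1 (SO_mono a b)) := by
  rw [SO_mono_qExpansion]
  exact (isIntPS_E₄.pow a).mul (isIntPS_E₆.pow b)

theorem SO_mono_coeff_zero (a b : ℕ) : (qExpansion 1 (SO_mono a b)).coeff 0 = 1 := by
  have h4 : (qExpansion 1 E₄).coeff 0 = 1 := E_qExpansion_coeff_zero _ ⟨2, rfl⟩
  have h6 : (qExpansion 1 E₆).coeff 0 = 1 := E_qExpansion_coeff_zero _ ⟨3, rfl⟩
  rw [SO_mono_qExpansion]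
  simp only [PowerSeries.coeff_zero_eq_constantCoeff, map_mul, map_pow] at h4 h6 ⊢
  rw [h4, h6, one_pow, one_pow, one_mul]

theorem SO_coeff_of_eq_zero (A : AddSubgroup ℂ) {k : ℤ} {F : ModularForm 𝒮ℒ k} (hF : F = 0)
    (n : ℕ) : (qExpansion 1 F).coeff n ∈ A := by
  subst hF
  have : qExpansion 1 ((0 : ModularForm 𝒮ℒ k) : ℍ → ℂ) = 0 := by
    rw [FunLike.coe_zero, qExpansion_zero]
  rw [this]
  simp

open ModularCurve in
theorem SO_aux (A : AddSubgroup ℂ) (N : ℕ) : ∀ k : ℤ, k < N → ∀ F : ModularForm 𝒮ℒ k,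
    (∀ n : ℕ, 12 * (n : ℤ) ≤ k → (qExpansion 1 F).coeff n ∈ A) →
    ∀ n, (qExpansion 1 F).coeff n ∈ A := by
  induction N using Nat.strong_induction_on with
  | _ N ih =>
  intro k hk F h0 n
  -- trivial cases
  rcases lt_or_ge k 0 with hneg | hnn
  · exact SO_coeff_of_eq_zero A
      (rank_zero_iff_forall_zero.mp (levelOne_neg_weight_rank_zero hneg) F) n
  rcases Int.even_or_odd k with hev | hodd
  swap
  · exact SO_coeff_of_eq_zero A (levelOne_odd_weight_eq_zero hodd F) n
  by_cases hk2 : k = 2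
  · subst hk2
    exact SO_coeff_of_eq_zero A (rank_zero_iff_forall_zero.mp levelOne_weight_two_rank_zero F) n
  -- `k = 4 a + 6 b`
  obtain ⟨a, b, hab⟩ : ∃ a b : ℕ, (a : ℤ) * 4 + (b : ℤ) * 6 = k := by
    obtain ⟨r, hr⟩ := hev
    rcases Int.even_or_odd r with ⟨s, hs⟩ | ⟨s, hs⟩
    · exact ⟨s.toNat, 0, by have : 0 ≤ s := by omega
                            rw [Int.toNat_of_nonneg this]; omega⟩
    · exact ⟨(s - 1).toNat, 1, by have : 0 ≤ s - 1 := by omega
                                  rw [Int.toNat_of_nonneg this]; omega⟩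
  subst hab
  set G := SO_mono a b with hG
  set a0 := (qExpansion 1 F).coeff 0 with ha0
  have ha0A : a0 ∈ A := h0 0 (by simpa using hnn)
  set f : ModularForm 𝒮ℒ ((a : ℤ) * 4 + (b : ℤ) * 6) := F - a0 • G with hf
  have hfq : qExpansion 1 f = qExpansion 1 F - a0 • qExpansion 1 G := by
    rw [hf, FunLike.coe_sub, ModularForm.qExpansion_sub one_pos one_mem_strictPeriods_SL,
      FunLike.coe_smul, ModularForm.qExpansion_smul one_pos one_mem_strictPeriods_SL]
  have hcusp : (qExpansion 1 f).coeff 0 = 0 := by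
    rw [hfq, map_sub, PowerSeries.coeff_smul, SO_mono_coeff_zero, smul_eq_mul, mul_one, sub_self]
  set F1 := CuspForm.discriminantEquiv (toCuspForm f hcusp) with hF1
  have hfac := qExpansion_eq_qExpansion_discriminant_mul f hcusp
  rw [Fermat.Agent.Common.qExpansion_discriminant, map_mul, PowerSeries.map_X] at hfac
  set U : PowerSeries ℂ := dedekindEtaUnit.map (Int.castRingHom ℂ) with hU
  set Ui : PowerSeries ℂ := dedekindEtaUnitInv.map (Int.castRingHom ℂ) with hUi
  have hUU : Ui * U = 1 := by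
    rw [hU, hUi, ← map_mul, dedekindEtaUnitInv, mul_comm,
      PowerSeries.mul_invOfUnit _ _ (by simpa using constantCoeff_dedekindEtaUnit), map_one]
  have hX : PowerSeries.X * qExpansion 1 F1 = Ui * qExpansion 1 f := by
    rw [hfac]
    calc PowerSeries.X * qExpansion 1 F1 = (Ui * U) * (PowerSeries.X * qExpansion 1 F1) := by
          rw [hUU, one_mul]
      _ = _ := by ring
  -- coefficients of `f`
  have hfA : ∀ m : ℕ, 12 * (m : ℤ) ≤ (a : ℤ) * 4 + (b : ℤ) * 6 →
      (qExpansion 1 f).coeff m ∈ A := by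
    intro m hm
    rw [hfq, map_sub, PowerSeries.coeff_smul]
    refine A.sub_mem (h0 m hm) ?_
    obtain ⟨c, hc⟩ := SO_mono_isInt a b m
    rw [hc, smul_eq_mul, mul_comm, ← zsmul_eq_mul]
    exact A.zsmul_mem ha0A c
  -- induction hypothesis for `F1`
  have hF1A : ∀ m, (qExpansion 1 F1).coeff m ∈ A := by
    refine ih (N - 12) ?_ ((a : ℤ) * 4 + (b : ℤ) * 6 - 12) ?_ F1 ?_
    · omega
    · omega
    · intro m hm
      have h1 : (qExpansion 1 F1).coeff m = (Ui * qExpansion 1 f).coeff (m + 1) := by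
        rw [← hX, PowerSeries.coeff_succ_X_mul]
      rw [h1]
      refine SO_coeff_int_mul_mem A (SO_isIntPS_map _) _ (m + 1) ?_ (m + 1) le_rfl
      intro j hj
      refine hfA j ?_
      have : (j : ℤ) ≤ m + 1 := by exact_mod_cast hj
      omega
  -- conclusion
  have hFq : qExpansion 1 F = a0 • qExpansion 1 G + (PowerSeries.X * U) * qExpansion 1 F1 := by
    rw [← hfac, hfq]; ring
  rw [hFq, map_add, PowerSeries.coeff_smul]
  refine A.add_mem ?_ ?_
  · obtain ⟨c, hc⟩ := SO_mono_isInt a b n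
    rw [hc, smul_eq_mul, mul_comm, ← zsmul_eq_mul]
    exact A.zsmul_mem ha0A c
  · have hXU : IsIntPS (PowerSeries.X * U) := by
      have : PowerSeries.X * U = (PowerSeries.X * dedekindEtaUnit : PowerSeries ℤ).map
          (Int.castRingHom ℂ) := by rw [map_mul, PowerSeries.map_X]
      rw [this]
      exact SO_isIntPS_map _
    exact SO_coeff_int_mul_mem A hXU _ n (fun j _ => hF1A j) n le_rfl

/-- **Level one Sturm bound modulo an additive subgroup.** -/
theorem levelOne_coeff_mem (A : AddSubgroup ℂ) (k : ℤ) (F : ModularForm 𝒮ℒ k)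
    (h0 : ∀ n : ℕ, 12 * (n : ℤ) ≤ k → (qExpansion 1 F).coeff n ∈ A) :
    ∀ n, (qExpansion 1 F).coeff n ∈ A :=
  SO_aux A (k.toNat + 1) k (by omega) F h0

end Fermat.Agent.S16
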