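import Fermat.Agent.S16.BInterface

/-!
# S16, part (B), package B17 (V2): there is no `G ∈ M₂(Γ₀(p))`, `G ≡ 1 mod 8`, when `8 ∣ p + 1`.

`H = (-3 G⁴ + 10 G² E₄ - 8 G E₆ + E₄²)/256` is a form of weight `8` which is `≡ z + z² mod 2`
(`z = ∑ σ₃(n) qⁿ`) at `∞` and `≡ V z + (V z)²` at `0`; the valence inequality mod `2` gives
`12 (1 + p) ≤ 8 (p + 1)`.
-/

set_option autoImplicit false

namespace Fermat.Agent.S16

open UpperHalfPlane ModularForm CongruenceSubgroup Matrix.SpecialLinearGroup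
open scoped MatrixGroups ModularForm Manifold Real

noncomputable section

namespace V2

/-- the subring of `ℓ`-integral series. -/
def intS (ℓ : ℕ) : Subring (PowerSeries ℂ) where
  carrier := {a | IsIntS ℓ a}
  mul_mem' := by
    intro a b ha hb n
    rw [PowerSeries.coeff_mul]
    exact Subring.sum_mem _ fun x _ => Subring.mul_mem _ (ha _) (hb _)
  one_mem' := by
    intro n
    rw [PowerSeries.coeff_one]
    split_ifs
    · exact Subring.one_mem _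
    · exact Subring.zero_mem _
  add_mem' := by
    intro a b ha hb n
    rw [map_add]
    exact Subring.add_mem _ (ha _) (hb _)
  zero_mem' := by
    intro n
    rw [map_zero]
    exact Subring.zero_mem _
  neg_mem' := by
    intro a ha n
    rw [map_neg]
    exact Subring.neg_mem _ (ha _)

theorem mem_intS {ℓ : ℕ} {a : PowerSeries ℂ} : a ∈ intS ℓ ↔ IsIntS ℓ a := Iff.rfl

theorem key_identity {R : Type*} [CommRing R] (g z w : R) :
    -3 * (1 + 8 * g) ^ 4 + 10 * (1 + 8 * g) ^ 2 * (1 + 240 * z)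
        - 8 * (1 + 8 * g) * (1 - 504 * (z + 24 * w)) + (1 + 240 * z) ^ 2
      = 256 * (z + z ^ 2 + 2 * (-g ^ 2 + 13 * z + 189 * w + 30 * g * z
          + 4 * g * (-3 * g ^ 2 - 8 * g ^ 3 + 27 * z + 378 * w + 90 * g * z)
          + 8 * g ^ 4 + 112 * z ^ 2 - 60 * g ^ 2 * z)) := by
  ring

/-- the polynomial `Q` with `H = z + z² + 2 Q`. -/
def Qpol (g z w : PowerSeries ℂ) : PowerSeries ℂ :=
  -g ^ 2 + 13 * z + 189 * w + 30 * g * z
          + 4 * g * (-3 * g ^ 2 - 8 * g ^ 3 + 27 * z + 378 * w + 90 * g * z)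
          + 8 * g ^ 4 + 112 * z ^ 2 - 60 * g ^ 2 * z

theorem Qpol_int {ℓ : ℕ} {g z w : PowerSeries ℂ} (hg : IsIntS ℓ g) (hz : IsIntS ℓ z)
    (hw : IsIntS ℓ w) : IsIntS ℓ (Qpol g z w) := by
  rw [← mem_intS] at *
  unfold Qpol
  repeat' first
    | exact hg | exact hz | exact hw | exact ofNat_mem _ _
    | apply Subring.pow_mem | apply Subring.neg_mem
    | apply Subring.add_mem | apply Subring.sub_mem | apply Subring.mul_mem

/-- the weight `8` combination. -/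
def Hpol (G e4 e6 : PowerSeries ℂ) : PowerSeries ℂ :=
  (256 : ℂ)⁻¹ • ((-3 : ℂ) • ((G * G) * (G * G)) + (10 : ℂ) • ((G * G) * e4)
    + (-8 : ℂ) • (G * e6) + e4 * e4)

theorem Hpol_eq (g z w : PowerSeries ℂ) :
    Hpol (1 + 8 * g) (1 + 240 * z) (1 - 504 * (z + 24 * w)) = z + z ^ 2 + 2 * Qpol g z w := by
  have h := key_identity g z w
  unfold Hpol Qpol
  have e : (-3 : ℂ) • (((1 + 8 * g) * (1 + 8 * g)) * ((1 + 8 * g) * (1 + 8 * g)))
      + (10 : ℂ) • (((1 + 8 * g) * (1 + 8 * g)) * (1 + 240 * z))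
      + (-8 : ℂ) • ((1 + 8 * g) * (1 - 504 * (z + 24 * w))) + (1 + 240 * z) * (1 + 240 * z)
      = -3 * (1 + 8 * g) ^ 4 + 10 * (1 + 8 * g) ^ 2 * (1 + 240 * z)
        - 8 * (1 + 8 * g) * (1 - 504 * (z + 24 * w)) + (1 + 240 * z) ^ 2 := by
    simp only [PowerSeries.smul_eq_C_mul, map_neg, map_ofNat]
    ring
  rw [e, h, PowerSeries.smul_eq_C_mul, ← mul_assoc]
  have : (PowerSeries.C (256 : ℂ)⁻¹ : PowerSeries ℂ) * 256 = 1 := by
    rw [← map_ofNat (PowerSeries.C (R := ℂ)) 256, ← map_mul]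
    norm_num
  rw [this, one_mul]

/-- `y + y² + 2 Q` has order exactly `e` mod `2` if `y = X^e + ...`. -/
theorem ordUnit_of {y Q : PowerSeries ℂ} {e : ℕ} (he : 0 < e) (hy : IsIntS 2 y)
    (hQ : IsIntS 2 Q) (h0 : ∀ m < e, PowerSeries.coeff m y = 0)
    (h1 : PowerSeries.coeff e y = 1) : OrdUnit 2 (y + y ^ 2 + 2 * Q) e := by
  have hsq : ∀ m ≤ e, PowerSeries.coeff m (y ^ 2) = 0 := by
    have hd : (PowerSeries.X : PowerSeries ℂ) ^ e ∣ y := PowerSeries.X_pow_dvd_iff.2 h0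
    have hd2 : (PowerSeries.X : PowerSeries ℂ) ^ (e + e) ∣ y ^ 2 := by
      rw [pow_add, sq]
      exact mul_dvd_mul hd hd
    intro m hm
    exact PowerSeries.X_pow_dvd_iff.1 hd2 m (by omega)
  have h2 : ∀ m, PowerSeries.coeff m (2 * Q) = ((2 : ℕ) : ℂ) * PowerSeries.coeff m Q := by
    intro m
    rw [← map_ofNat (PowerSeries.C (R := ℂ)) 2, PowerSeries.coeff_C_mul]
    norm_num
  refine ⟨?_, ?_, 1, isCoprime_one_left, ?_⟩
  · rw [← mem_intS] at *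
    exact Subring.add_mem _ (Subring.add_mem _ hy (Subring.pow_mem _ hy 2))
      (Subring.mul_mem _ (ofNat_mem _ _) hQ)
  · intro n hn
    refine ⟨PowerSeries.coeff n Q, hQ n, ?_⟩
    rw [map_add, map_add, h0 n hn, hsq n hn.le, h2]
    ring
  · refine ⟨PowerSeries.coeff e Q, hQ e, ?_⟩
    rw [map_add, map_add, h1, hsq e le_rfl, h2]
    push_cast
    ring

theorem sig_int (ℓ k : ℕ) : IsIntS ℓ (sig k) := by
  intro n
  simp only [sig, PowerSeries.coeff_mk]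
  exact natCast_mem _ _

theorem dvd_pow_sub (d : ℤ) : (24 : ℤ) ∣ d ^ 5 - d ^ 3 := by
  have h : ∀ x : ZMod 24, x ^ 5 - x ^ 3 = 0 := by decide
  have := h (d : ZMod 24)
  have h3 := (ZMod.intCast_zmod_eq_zero_iff_dvd (d ^ 5 - d ^ 3) 24).1 (by push_cast; exact this)
  exact_mod_cast h3

theorem exists_w : ∃ w : PowerSeries ℂ, (∀ ℓ, IsIntS ℓ w) ∧ sig 5 = sig 3 + 24 * w := by
  have h : ∀ n : ℕ, ∃ c : ℤ, ((ArithmeticFunction.sigma 5 n : ℕ) : ℤ)
      = (ArithmeticFunction.sigma 3 n : ℕ) + 24 * c := by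
    intro n
    have : (24 : ℤ) ∣ ((ArithmeticFunction.sigma 5 n : ℕ) : ℤ)
        - (ArithmeticFunction.sigma 3 n : ℕ) := by
      rw [ArithmeticFunction.sigma_apply, ArithmeticFunction.sigma_apply]
      push_cast
      rw [← Finset.sum_sub_distrib]
      exact Finset.dvd_sum fun d _ => dvd_pow_sub d
    obtain ⟨c, hc⟩ := this
    exact ⟨c, by linarith⟩
  choose c hc using h
  refine ⟨PowerSeries.mk fun n => (c n : ℂ), ?_, ?_⟩
  · intro ℓ n
    simp only [PowerSeries.coeff_mk]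
    exact intCast_mem _ _
  · ext n
    rw [map_add, ← map_ofNat (PowerSeries.C (R := ℂ)) 24, PowerSeries.coeff_C_mul]
    simp only [sig, PowerSeries.coeff_mk]
    have := congrArg (fun x : ℤ => (x : ℂ)) (hc n)
    push_cast at this
    exact this

theorem Vop_int {ℓ p : ℕ} {a : PowerSeries ℂ} (ha : IsIntS ℓ a) : IsIntS ℓ (Vop p a) := by
  intro n
  rw [coeff_Vop]
  split_ifs
  · exact ha _
  · exact Subring.zero_mem _

theorem E4f_eq : E4f = 1 + 240 * sig 3 := by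
  simp only [E4f, PowerSeries.smul_eq_C_mul, map_ofNat]

theorem E6f_eq {w : PowerSeries ℂ} (hw : sig 5 = sig 3 + 24 * w) :
    E6f = 1 - 504 * (sig 3 + 24 * w) := by
  simp only [E6f, PowerSeries.smul_eq_C_mul, map_ofNat, hw]

theorem Vop_E4f {p : ℕ} (hp : p ≠ 0) : Vop p E4f = 1 + 240 * Vop p (sig 3) := by
  rw [E4f_eq, Vop_eq_expand hp, Vop_eq_expand hp]
  simp only [map_add, map_one, map_mul, map_ofNat]

theorem Vop_E6f {p : ℕ} (hp : p ≠ 0) {w : PowerSeries ℂ} (hw : sig 5 = sig 3 + 24 * w) :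
    Vop p E6f = 1 - 504 * (Vop p (sig 3) + 24 * Vop p w) := by
  rw [E6f_eq hw, Vop_eq_expand hp, Vop_eq_expand hp, Vop_eq_expand hp]
  simp only [map_add, map_sub, map_one, map_mul, map_ofNat]

theorem inv_mem_OO {ℓ d : ℕ} (hd : Nat.Coprime d ℓ) : ((d : ℂ))⁻¹ ∈ OO ℓ := by
  refine ⟨d, hd, ?_⟩
  by_cases h : (d : ℂ) = 0
  · rw [h, zero_mul]; exact isIntegral_zero
  · rw [mul_inv_cancel₀ h]; exact isIntegral_one

/-- the expansion at `0` is again `≡ 1 mod 8`. -/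
theorem exists_g' {p : ℕ} (hp : p.Prime) (h2 : p ≠ 2) (h8 : 8 ∣ p + 1) {g : PowerSeries ℂ}
    (hg : IsIntS 2 g) :
    ∃ g', IsIntS 2 g' ∧ (-(p : ℂ)⁻¹) • Uop p (1 + 8 * g) = 1 + 8 * g' := by
  obtain ⟨m, hm⟩ := h8
  have hp0 : (p : ℂ) ≠ 0 := by exact_mod_cast hp.ne_zero
  have hmC : (p : ℂ) + 1 = 8 * m := by exact_mod_cast hm
  have hinv : ((p : ℂ))⁻¹ ∈ OO 2 :=
    inv_mem_OO ((Nat.coprime_primes hp Nat.prime_two).2 h2)
  refine ⟨PowerSeries.C (-(m : ℂ) * (p : ℂ)⁻¹) + (-(p : ℂ)⁻¹) • Uop p g, ?_, ?_⟩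
  · intro n
    rw [map_add, PowerSeries.coeff_C, PowerSeries.coeff_smul, coeff_Uop]
    refine Subring.add_mem _ ?_ (Subring.mul_mem _ (Subring.neg_mem _ hinv) (hg _))
    split_ifs
    · exact Subring.mul_mem _ (Subring.neg_mem _ (natCast_mem _ _)) hinv
    · exact Subring.zero_mem _
  · ext n
    rw [PowerSeries.coeff_smul, coeff_Uop, map_add, map_add,
      ← map_ofNat (PowerSeries.C (R := ℂ)) 8, PowerSeries.coeff_C_mul, PowerSeries.coeff_C_mul,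
      map_add, PowerSeries.coeff_C, PowerSeries.coeff_smul, coeff_Uop, PowerSeries.coeff_one,
      PowerSeries.coeff_one]
    by_cases hn : n = 0
    · subst hn
      simp only [mul_zero, if_true]
      have : (m : ℂ) = ((p : ℂ) + 1) / 8 := by rw [hmC]; ring
      rw [this]
      field_simp
      simp only [smul_eq_mul]
      field_simp
      ring
    · have : p * n ≠ 0 := Nat.mul_ne_zero hp.ne_zero hn
      simp only [hn, this, if_false]
      ring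

end V2

/-- (V2) -/
theorem V2 (hF1 : Stmt_F1) (hVAL : Stmt_VAL) (hadd : Stmt_pair_add) (hsmul : Stmt_pair_smul)
    (hmul : Stmt_pair_mul) (hL1 : Stmt_pair_of_L1) (hE4 : Stmt_L1_E4) (hE6 : Stmt_L1_E6) :
    Stmt_V2 := by
  rintro p hp h5 h8 ⟨g, b, hg, hG⟩
  have h2 : p ≠ 2 := by omega
  have hGoo : (1 + (((2 : ℕ) : ℂ) ^ 3) • g : PowerSeries ℂ) = 1 + 8 * g := by
    rw [PowerSeries.smul_eq_C_mul, ← map_ofNat (PowerSeries.C (R := ℂ)) 8]
    norm_num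
  rw [hGoo] at hG
  have hb := hF1 p hp _ _ hG
  obtain ⟨g', hg', hb'⟩ := V2.exists_g' hp h2 h8 hg
  rw [hb'] at hb
  subst hb
  obtain ⟨w, hwint, hw⟩ := V2.exists_w
  have P4 : PairMF p 4 E4f (Vop p E4f) := hL1 p hp 4 E4f hE4
  have P6 : PairMF p 6 E6f (Vop p E6f) := hL1 p hp 6 E6f hE6
  have GG : PairMF p 4 _ _ := hmul p 2 2 _ _ _ _ hG hG
  have G4 : PairMF p 8 _ _ := hmul p 4 4 _ _ _ _ GG GG
  have GGE : PairMF p 8 _ _ := hmul p 4 4 _ _ _ _ GG P4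
  have GE6 : PairMF p 8 _ _ := hmul p 2 6 _ _ _ _ hG P6
  have EE : PairMF p 8 _ _ := hmul p 4 4 _ _ _ _ P4 P4
  have H : PairMF p 8 (V2.Hpol (1 + 8 * g) E4f E6f)
      (V2.Hpol (1 + 8 * g') (Vop p E4f) (Vop p E6f)) :=
    hsmul p 8 _ _ _ (hadd p 8 _ _ _ _ (hadd p 8 _ _ _ _ (hadd p 8 _ _ _ _
      (hsmul p 8 _ _ _ G4) (hsmul p 8 _ _ _ GGE)) (hsmul p 8 _ _ _ GE6)) EE)
  rw [V2.E4f_eq, V2.E6f_eq hw, V2.Hpol_eq, ← V2.E4f_eq, ← V2.E6f_eq hw, V2.Vop_E4f hp.ne_zero,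
    V2.Vop_E6f hp.ne_zero hw, V2.Hpol_eq] at H
  have o1 : OrdUnit 2 (sig 3 + sig 3 ^ 2 + 2 * V2.Qpol g (sig 3) w) 1 := by
    refine V2.ordUnit_of one_pos (V2.sig_int 2 3) (V2.Qpol_int hg (V2.sig_int 2 3) (hwint 2)) ?_ ?_
    · intro m hm
      obtain rfl : m = 0 := by omega
      simp [sig]
    · simp [sig]
  have o2 : OrdUnit 2 (Vop p (sig 3) + Vop p (sig 3) ^ 2
      + 2 * V2.Qpol g' (Vop p (sig 3)) (Vop p w)) p := by
    refine V2.ordUnit_of hp.pos (V2.Vop_int (V2.sig_int 2 3))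
      (V2.Qpol_int hg' (V2.Vop_int (V2.sig_int 2 3)) (V2.Vop_int (hwint 2))) ?_ ?_
    · intro m hm
      rw [coeff_Vop]
      split_ifs with hd
      · obtain rfl : m = 0 := Nat.eq_zero_of_dvd_of_lt hd hm
        simp [sig]
      · rfl
    · rw [coeff_Vop, if_pos dvd_rfl, Nat.div_self hp.pos]
      simp [sig]
  have := hVAL p 2 hp h2 Nat.prime_two 8 _ _ 1 p H o1 o2
  have h5' : (5 : ℤ) ≤ p := by exact_mod_cast h5
  push_cast at this
  linarith

end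

end Fermat.Agent.S16
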